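import Fermat.Agent.GR.RT.Lift.Statements
import Fermat.Agent.GR.RT.Coeff
import Fermat.Agent.GR.RT.ModularPoint
import Fermat.Agent.GR.RT.PointInertia
import Fermat.Agent.GR.AttachProof.Main
import Fermat.Agent.GR.CurveRep.Proved
import Fermat.Agent.GR.Lifting.Eigen

/-!
# Old forms, and the Hecke values of a curve from almost all of them

An eigenform of level `M` gives one of every multiple of `M` with the same values prime to the new
level.  If almost all values of an eigenform are those of a semistable curve then, comparing the two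
`p'`-adic representations for an auxiliary `p'`, all values at good primes prime to the level are.
-/

set_option autoImplicit false

noncomputable section

open MvPolynomial IsLocalRing CongruenceSubgroup ModularFormClass

namespace Fermat.GR.RT

open Fermat.HM Fermat.MC.Lvl

/-- **Old forms.**  A normalised eigenform gives one of every multiple of its level with the same
values prime to the new level. -/
theorem exists_raise {M N' : ℕ} [NeZero M] [NeZero N'] (hMN : M ∣ N')
    {f : CuspForm (Gamma0 M) 2} (hf : f.IsNormalizedEigenform) :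
    ∃ g : CuspForm (Gamma0 N') 2, g.IsNormalizedEigenform ∧
      ∀ ℓ : ℕ, ℓ.Prime → ¬ ℓ ∣ N' → qCoeff g ℓ = qCoeff f ℓ := by
  classical
  have h : IsLevelMap (⊤ : Subgroup (ZMod M)ˣ) (⊤ : Subgroup (ZMod N')ˣ) 1 1 :=
    isLevelMap_one hMN le_top
  set F := h.formPull (toTop M f) with hF
  have hF0 : F ≠ 0 := fun e => hf.ne_zero ((toTop M).map_eq_zero_iff.mp (DFunLike.coe_injective (by
    have e' : ⇑F = ⇑(toTop M f) := by
      rw [hF, IsLevelMap.coe_formPull, map_one, SlashAction.slash_one]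
    rw [← e', e]
    rfl)))
  let V : Submodule ℂ (CuspForm (GammaH N' ⊤) 2) :=
    { carrier := {G | ∀ ℓ : Nat.Primes, ¬ (ℓ : ℕ) ∣ N' →
        formOp N' ⊤ (Sum.inl ℓ) G = qCoeff f (ℓ : ℕ) • G}
      add_mem' := fun {a b} ha hb ℓ hl => by rw [map_add, ha ℓ hl, hb ℓ hl, smul_add]
      zero_mem' := fun ℓ _ => by rw [map_zero, smul_zero]
      smul_mem' := fun c a ha ℓ hl => by rw [map_smul, ha ℓ hl, smul_comm] }
  have hFV : F ∈ V := by
    intro ℓ hl
    have : Fact (ℓ : ℕ).Prime := ⟨ℓ.2⟩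
    have e := h.formPull_formHecke (ℓ := (ℓ : ℕ)) ℓ.2.not_dvd_one
      ⟨fun d => absurd d hl, fun d => absurd (d.trans hMN) hl⟩ (toTop M f)
    refine e.trans ?_
    change h.formPull (formOp M ⊤ (Sum.inl ℓ) (toTop M f)) = _
    rw [formOp_toTop M hf, map_smul]
    rfl
  -- a common eigenvector of the operators at the level
  have key : ∀ s : Finset Nat.Primes, ∃ (G : CuspForm (GammaH N' ⊤) 2) (c : Nat.Primes → ℂ),
      G ∈ V ∧ G ≠ 0 ∧ ∀ i ∈ s, formOp N' ⊤ (Sum.inl i) G = c i • G := by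
    intro s
    induction s using Finset.induction_on with
    | empty => exact ⟨F, 0, hFV, hF0, fun i hi => absurd hi (Finset.notMem_empty i)⟩
    | insert a s ha ih =>
      obtain ⟨G, c, hGV, hG0, hG⟩ := ih
      let V' : Submodule ℂ (CuspForm (GammaH N' ⊤) 2) :=
        { carrier := {x | x ∈ V ∧ ∀ i ∈ s, formOp N' ⊤ (Sum.inl i) x = c i • x}
          add_mem' := fun {x y} hx hy => ⟨add_mem hx.1 hy.1, fun i hi => by
            rw [map_add, hx.2 i hi, hy.2 i hi, smul_add]⟩
          zero_mem' := ⟨zero_mem V, fun i _ => by rw [map_zero, smul_zero]⟩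
          smul_mem' := fun r x hx => ⟨V.smul_mem r hx.1, fun i hi => by
            rw [map_smul, hx.2 i hi, smul_comm]⟩ }
      set T := formOp N' ⊤ (Sum.inl a) with hT
      have hcomm : ∀ i x, formOp N' ⊤ (Sum.inl i) (T x) = T (formOp N' ⊤ (Sum.inl i) x) :=
          fun i x => by
        rw [hT, ← formAct_X, ← formAct_X, ← Module.End.mul_apply, ← map_mul, mul_comm, map_mul,
          Module.End.mul_apply]
      have hmap : ∀ x ∈ V', T x ∈ V' := fun x hx => ⟨fun ℓ hl => by
        rw [hcomm, hx.1 ℓ hl, map_smul], fun i hi => by rw [hcomm, hx.2 i hi, map_smul]⟩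
      have : Nontrivial V' :=
        ⟨⟨⟨G, hGV, hG⟩, 0, fun e => hG0 (congrArg Subtype.val e)⟩⟩
      obtain ⟨μ, hμ⟩ := Module.End.exists_eigenvalue (T.restrict hmap)
      obtain ⟨x, hx⟩ := hμ.exists_hasEigenvector
      refine ⟨x.1, Function.update c a μ, x.2.1, fun e => hx.2 (Subtype.ext e), fun i hi => ?_⟩
      rcases Finset.mem_insert.mp hi with rfl | hi
      · rw [Function.update_self]
        exact congrArg Subtype.val (Module.End.mem_eigenspace_iff.mp hx.1)
      · rw [Function.update_of_ne (fun e : i = a => ha (e ▸ hi))]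
        exact x.2.2 i hi
  -- normalise it at the primes of the level
  have hfin : {ℓ : Nat.Primes | (ℓ : ℕ) ∣ N'}.Finite :=
    Set.Finite.of_finite_image ((Nat.divisors N').finite_toSet.subset (by
      rintro _ ⟨ℓ, hl, rfl⟩
      exact Nat.mem_divisors.mpr ⟨hl, NeZero.ne N'⟩)) Subtype.val_injective.injOn
  obtain ⟨G, c, hGV, hG0, hG⟩ := key hfin.toFinset
  obtain ⟨g, hg, hgc⟩ := exists_normalized N' hG0
    (c := Sum.elim (fun ℓ : Nat.Primes => if (ℓ : ℕ) ∣ N' then c ℓ
      else qCoeff f (ℓ : ℕ)) fun _ => 1)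
    (by
      rintro (ℓ | u)
      · simp only [Sum.elim_inl]
        split_ifs with hl
        · exact hG ℓ (hfin.mem_toFinset.mpr hl)
        · exact hGV ℓ hl
      · change formDia N' ⊤ u G = (1 : ℂ) • G
        rw [formDia_top, one_smul])
  refine ⟨g, hg, fun ℓ hℓ hl => ?_⟩
  simpa [hl] using hgc ⟨ℓ, hℓ⟩

/-- Modularity at level `M` is inherited by level `M q`, for a prime `q ∤ M`. -/
theorem mulPrimeStatement (p : ℕ) [Fact p.Prime] : MulPrimeStatement p := by
  rintro rb M q hq - ⟨hM, f, 𝔪, hf, hmax, hpm, hcong⟩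
  have : NeZero M := ⟨hM.ne'⟩
  have : NeZero (M * q) := ⟨Nat.mul_ne_zero hM.ne' hq.ne_zero⟩
  obtain ⟨g, hg, hgf⟩ := exists_raise (dvd_mul_right M q) hf
  refine ⟨Nat.pos_of_ne_zero (NeZero.ne _), g, 𝔪, hg, hmax, hpm,
    fun ℓ hℓ hl hne hunr A hA φ hφ n hn => ?_⟩
  obtain ⟨a, ha, han⟩ := hcong ℓ hℓ (fun d => hl (d.mul_right q)) hne hunr A hA φ hφ n hn
  exact ⟨a, ha.trans (hgf ℓ hℓ hl).symm, han⟩

/-- An eigen system in characteristic zero comes from a normalised eigenform, as far as integral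
values are concerned. -/
theorem exists_form_of_point {N : ℕ} [NeZero N] {Ω : Type} [Field Ω] [CharZero Ω]
    {x : MvPolynomial (Nat.Primes ⊕ (ZMod N)ˣ) ℤ →+* Ω} (hx : IsPoint N ⊤ x) :
    ∃ g : CuspForm (Gamma0 N) 2, g.IsNormalizedEigenform ∧
      ∀ (ℓ : ℕ) (a : ℤ), ℓ.Prime → tVal x ℓ = (a : Ω) → qCoeff g ℓ = (a : ℂ) := by
  obtain ⟨f, rfl⟩ := IsPoint.exists_factor N ⊤ hx
  obtain ⟨inj, hinj, hinj_apply⟩ := exists_formHom N
  have : (RingHom.ker f).IsPrime := RingHom.ker_isPrime f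
  obtain ⟨χ, hle, v, hv0, hv⟩ := Fermat.GR.exists_eigen_ker_le inj hinj (RingHom.ker f)
  obtain ⟨g, hg, hgc⟩ := exists_normalized N hv0
    (c := fun i => χ (Fermat.JAC.XH.ringEval N ⊤ (X i))) fun i => by
      rw [← formAct_X, ← hinj_apply]
      exact hv _
  -- both kernels lie over `(0)`
  have heq : RingHom.ker χ = RingHom.ker f := by
    refine le_antisymm hle ?_
    by_contra hne
    have : (RingHom.ker χ).IsPrime := RingHom.ker_isPrime χ
    obtain ⟨z, hz1, hz2⟩ := SetLike.not_le_iff_exists.mp hne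
    have := Ideal.comap_lt_comap_of_integral_mem_sdiff (R := ℤ) hle (x := z) ⟨hz1, hz2⟩
      (Algebra.IsIntegral.isIntegral z)
    rw [RingHom.comap_ker, RingHom.comap_ker] at this
    rw [show f.comp (algebraMap ℤ _) = Int.castRingHom Ω from RingHom.ext_int _ _,
      show χ.comp (algebraMap ℤ _) = Int.castRingHom ℂ from RingHom.ext_int _ _,
      (RingHom.injective_iff_ker_eq_bot _).mp (Int.castRingHom Ω).injective_int,
      (RingHom.injective_iff_ker_eq_bot _).mp (Int.castRingHom ℂ).injective_int] at this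
    exact lt_irrefl _ this
  refine ⟨g, hg, fun ℓ a hℓ ha => ?_⟩
  rw [hgc ⟨ℓ, hℓ⟩, ← sub_eq_zero, ← map_intCast χ, ← map_sub, ← RingHom.mem_ker, heq,
    RingHom.mem_ker, map_sub, map_intCast, sub_eq_zero]
  rw [tVal, dif_pos hℓ] at ha
  exact ha

/-- A normalised eigenform as a point with values in a coefficient ring over `ℤ_p`: the point takes
an integer as value exactly where the form does. -/
theorem exists_point_of_eigenform (p : ℕ) [Fact p.Prime] {N : ℕ} [NeZero N]
    {g : CuspForm (Gamma0 N) 2} (hg : g.IsNormalizedEigenform) :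
    ∃ (O' : Type) (_ : CommRing O') (_ : IsDomain O') (_ : IsDiscreteValuationRing O')
      (_ : IsAdicComplete (maximalIdeal O') O') (_ : Finite (ResidueField O')) (_ : CharZero O'),
      (p : O') ∈ maximalIdeal O' ∧
      ∃ y : MvPolynomial (Nat.Primes ⊕ (ZMod N)ˣ) ℤ →+* O', IsPoint N ⊤ y ∧
        ∀ (i : Nat.Primes ⊕ (ZMod N)ˣ) (a : ℤ), y (X i) = (a : O') ↔
          eigenVal g i = (a : ℂ) := by
  classical
  obtain ⟨O, i1, i2, i3, i4, i5, i6, hpO, -⟩ := exists_coeffRing p
  obtain ⟨u, hu⟩ := exists_embedding_complex O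
  have hv0 : toTop N g ≠ 0 := fun e => hg.ne_zero ((toTop N).map_eq_zero_iff.mp e)
  obtain ⟨x, hx, hiff⟩ :=
    exists_point_of_eigen N ⊤ O u hu hv0 (eigenVal g) (formOp_toTop N hg)
  obtain ⟨@⟨O', j1, j2, j3, j4, j5, j6, j7, j8, j9, _⟩, y, hy, j, hj, hjy⟩ :=
    exists_dvr_point N ⊤ O hx
  -- integral values are shared
  have hval : ∀ (i : Nat.Primes ⊕ (ZMod N)ˣ) (a : ℤ), y (X i) = (a : O') ↔
      eigenVal g i = (a : ℂ) := by
    intro i a
    have h := hiff (X i - C (a : O))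
    simp only [eval₂_sub, eval₂_X, eval₂_C] at h
    simp only [map_intCast, sub_eq_zero] at h
    rw [← h, ← hjy, RingHom.comp_apply,
      ← map_intCast (j : O' →+* AlgebraicClosure (FractionRing O)) a]
    exact hj.eq_iff.symm
  have hpO' : (p : O') ∈ maximalIdeal O' := by
    rw [← map_natCast (algebraMap O O')]
    exact map_nonunit (algebraMap O O') _ hpO
  exact ⟨O', j1, j2, j3, j4, j5, j6, hpO', y, hy, hval⟩

/-- The map from `ℤ_p` to a coefficient ring is local. -/
theorem isLocalHom_padicToAdic {p : ℕ} [Fact p.Prime] (O' : Type) [CommRing O'] [IsDomain O']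
    [IsDiscreteValuationRing O'] [IsAdicComplete (maximalIdeal O') O']
    (hpO' : (p : O') ∈ maximalIdeal O') : IsLocalHom (Fermat.GR.padicToAdic O' hpO') := by
  refine ⟨fun a ha => by
    by_contra hna
    rw [← mem_nonunits_iff, ← IsLocalRing.mem_maximalIdeal, PadicInt.maximalIdeal_eq_span_p,
      Ideal.mem_span_singleton, ← pow_one (p : ℤ_[p])] at hna
    have := Fermat.GR.padicToAdic_mem O' hpO' hna
    rw [pow_one, IsLocalRing.mem_maximalIdeal, mem_nonunits_iff] at this
    exact this ha⟩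

/-- **Comparison with the curve**: agreement outside a finite set gives agreement at the good primes
prime to the level. -/
theorem qCoeff_eq_apOfModel {W : WeierstrassCurve ℤ} (hW : W.Δ ≠ 0) (hss : W.IsSemistableModel)
    {N : ℕ} [NeZero N] {g : CuspForm (Gamma0 N) 2} (hg : g.IsNormalizedEigenform) {S : Finset ℕ}
    (hS : ∀ ℓ : ℕ, ℓ.Prime → ℓ ∉ S → qCoeff g ℓ = ((W.apOfModel ℓ : ℤ) : ℂ))
    {p : ℕ} [hp : Fact p.Prime] (hp2 : 2 < p) {ℓ : ℕ} (hℓ : ℓ.Prime) (hℓp : ℓ ≠ p)
    (hgood : ¬ (ℓ : ℤ) ∣ W.Δ) (hℓN : ¬ ℓ ∣ N) :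
    qCoeff g ℓ = ((W.apOfModel ℓ : ℤ) : ℂ) := by
  classical
  -- the form as an integral point
  obtain ⟨O', j1, j2, j3, j4, j5, j6, hpO', y, hy, hval⟩ := exists_point_of_eigenform p hg
  -- its representation and that of the curve agree
  obtain ⟨r, hr⟩ := attachInput p N ⊤ (Subgroup.mem_top _) O' hpO' y hy
  obtain ⟨ρ, hρ⟩ := Fermat.GR.CurveRep.curveRepInput p hp2 W hW hss
  set ι := Fermat.GR.padicToAdic O' hpO' with hι
  have hloc : IsLocalHom ι := isLocalHom_padicToAdic O' hpO'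
  have he : ∀ m : ℕ, m.Coprime N → eVal y m = 1 := fun m hm => by
    rw [eVal, dif_pos hm, (hval _ 1).mpr (by simp [eigenVal]), Int.cast_one]
  have hcop : ∀ {m : ℕ}, m.Prime → ¬ m ∣ N → m.Coprime N :=
    fun hm h => (hm.coprime_iff_not_dvd).mpr h
  have hagree := trace_eq_of_frobenius hr.cont (matCont_mapHom hρ.cont ι hloc)
    (S ∪ (W.Δ.natAbs * N * p).primeFactors) fun m hm hmT P hP φ hφ => by
      rw [Finset.mem_union, not_or, Nat.mem_primeFactors, not_and, not_and] at hmT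
      have hne : W.Δ.natAbs * N * p ≠ 0 :=
        Nat.mul_ne_zero (Nat.mul_ne_zero (by simpa using hW) (NeZero.ne N)) hp.out.ne_zero
      have hmΔ : ¬ (m : ℤ) ∣ W.Δ := fun e =>
        hmT.2 hm (((Int.natCast_dvd.mp e).mul_right N).mul_right p) hne
      have hmN : ¬ m ∣ N := fun e => hmT.2 hm ((e.mul_left _).mul_right p) hne
      have hmp : m ≠ p := fun e => hmT.2 hm (by rw [e]; exact dvd_mul_left p _) hne
      have hmK : ¬ m ∣ N * p := fun e => (hm.dvd_mul.mp e).elim hmN
        fun e' => hmp ((Nat.prime_dvd_prime_iff_eq hm hp.out).mp e')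
      obtain ⟨h1, h2⟩ := hr.frobenius m hm hmK P hP φ hφ
      have htr : ((ι : ℤ_[p] →+* O').mapMatrix (ρ φ)).trace = ι (ρ φ).trace := by
        simp [Matrix.trace_fin_two]
      refine ⟨?_, ?_⟩
      · rw [h1, he m (hcop hm hmN), mul_one, tVal, dif_pos hm,
          (hval (Sum.inl ⟨m, hm⟩) (W.apOfModel m)).mpr (hS m hm hmT.1)]
        change _ = ((ι : ℤ_[p] →+* O').mapMatrix (ρ φ)).trace
        rw [htr, (hρ.good m hm hmp hmΔ P hP).2 φ hφ, map_intCast]
      · rw [h2, he m (hcop hm hmN), mul_one]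
        change _ = ((ι : ℤ_[p] →+* O').mapMatrix (ρ φ)).det
        rw [← RingHom.map_det, hρ.det, cycO_frobenius padicInt_mem hm hmp hP hφ, map_natCast]
  -- read the trace of Frobenius at `ℓ`
  obtain ⟨P, hP⟩ := Fermat.CFT.exists_place hℓ
  obtain ⟨φ, hφ⟩ := Fermat.CFT.exists_isFrobeniusAt hℓ hP
  have hℓK : ¬ ℓ ∣ N * p := fun e => (hℓ.dvd_mul.mp e).elim hℓN
    fun e' => hℓp ((Nat.prime_dvd_prime_iff_eq hℓ hp.out).mp e')
  have h := hagree φ
  rw [(hr.frobenius ℓ hℓ hℓK P hP φ hφ).1, he ℓ (hcop hℓ hℓN), mul_one, tVal, dif_pos hℓ] at h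
  refine (hval (Sum.inl ⟨ℓ, hℓ⟩) (W.apOfModel ℓ)).mp (h.trans ?_)
  change ((ι : ℤ_[p] →+* O').mapMatrix (ρ φ)).trace = _
  rw [← map_intCast ι, ← (hρ.good ℓ hℓ hℓp hgood P hP).2 φ hφ]
  simp [Matrix.trace_fin_two]

/-- A system agreeing with a semistable curve at almost all primes makes the curve modular at every
squarefree multiple of the level of the system. -/
theorem agreeStatement : AgreeStatement := by
  intro W hW hss N _ Ω _ _ x hx S hS N' hsq hdvd
  have : NeZero N' := ⟨hsq.ne_zero⟩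
  obtain ⟨f, hf, hfa⟩ := exists_form_of_point hx
  obtain ⟨g, hg, hgf⟩ := exists_raise hdvd hf
  refine ⟨g, hg, fun ℓ hℓ hgood hℓN => ?_⟩
  have hag : ∀ m : ℕ, m.Prime → m ∉ S ∪ N'.primeFactors →
      qCoeff g m = ((W.apOfModel m : ℤ) : ℂ) := fun m hm hmS => by
    rw [Finset.mem_union, not_or] at hmS
    rw [hgf m hm fun e => hmS.2 (Nat.mem_primeFactors.mpr ⟨hm, e, NeZero.ne N'⟩)]
    exact hfa m _ hm (hS m hm hmS.1)
  by_cases h3 : ℓ = 3
  · have : Fact (Nat.Prime 5) := ⟨by norm_num⟩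
    exact qCoeff_eq_apOfModel (p := 5) hW hss hg hag (by norm_num) hℓ (by omega) hgood hℓN
  · have : Fact (Nat.Prime 3) := ⟨Nat.prime_three⟩
    exact qCoeff_eq_apOfModel (p := 3) hW hss hg hag (by norm_num) hℓ h3 hgood hℓN

end Fermat.GR.RT

end
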