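import Fermat.Agent.GR.RT.Lift.CurvePointStatement
import Fermat.Agent.GR.RT.Residual
import Fermat.Agent.BAD.AtP.MazurStatement

/-!
# The Mazur principle at `p` for any representation with the traces of the torsion

Such a representation has the traces of the chosen torsion representation everywhere, so it is
conjugate to it; so `MazurAtPTorsion` gives `LowerAtPStatement` (`lowerAtPStatement`).
-/

set_option autoImplicit false

noncomputable section

namespace Fermat.GR.RT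

open Fermat.SW

local notation "Γℚ" => (AlgebraicClosure ℚ ≃ₐ[ℚ] AlgebraicClosure ℚ)

variable {p : ℕ} [hp : Fact p.Prime]

local notation "M2p" => Matrix (Fin 2) (Fin 2) (ZMod p)

/-- A residual representation given by the torsion of a curve has the traces of `Tors.tRep`. -/
theorem trace_eq_tRep {W : WeierstrassCurve ℤ} (hW : W.Δ ≠ 0) (hss : W.IsSemistableModel)
    (hp2 : p ≠ 2) {rb : Γℚ →* GL (Fin 2) (ZMod p)} (hrb : IsSemistableResidual p rb)
    (ht : IsTorsionOf p W rb) (σ : Γℚ) :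
    (rb σ : M2p).trace = (Tors.tRep (p := p) W hW σ : M2p).trace := by
  classical
  let f : Γℚ →* GL (Fin 2) (ZMod p) × GL (Fin 2) (ZMod p) := rb.prod (Tors.tRep (p := p) W hW)
  have hf : IsOpen (f.ker : Set Γℚ) := Subgroup.isOpen_mono
    (H₁ := rb.ker ⊓ (Tors.tRep (p := p) W hW).ker)
    (fun τ hτ => MonoidHom.mem_ker.mpr
      (Prod.ext (MonoidHom.mem_ker.mp hτ.1) (MonoidHom.mem_ker.mp hτ.2)))
    (hrb.isOpen_ker.inter (Tors.isOpen_ker_tRep hW))
  obtain ⟨ℓ, hℓ, hℓbad, A, hA, -, φ, hφ, j, hj⟩ :=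
    Fermat.CFT.exists_frobenius_map_eq_pow f hf σ (W.Δ.natAbs * p).primeFactors
  have hn : W.Δ.natAbs * p ≠ 0 := mul_ne_zero (Int.natAbs_ne_zero.mpr hW) hp.out.ne_zero
  have hℓp : ℓ ≠ p := fun e =>
    hℓbad (Nat.mem_primeFactors.mpr ⟨hℓ, by rw [e]; exact dvd_mul_left p _, hn⟩)
  have hgood : W.IsGoodPrimeFor ℓ := fun h =>
    hℓbad (Nat.mem_primeFactors.mpr ⟨hℓ, (Int.natCast_dvd.mp h).mul_right p, hn⟩)
  have h1 : (rb σ : M2p) = (rb φ : M2p) ^ j := by
    rw [← Units.val_pow_eq_pow_val]; exact congrArg Units.val (congrArg Prod.fst hj)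
  have h2 : (Tors.tRep (p := p) W hW σ : M2p) = (Tors.tRep (p := p) W hW φ : M2p) ^ j := by
    rw [← Units.val_pow_eq_pow_val]; exact congrArg Units.val (congrArg Prod.snd hj)
  rw [h1, h2, trace_pow_fin_two, trace_pow_fin_two, hrb.det_eq, Tors.det_tRep,
    ((ht ℓ hℓ hgood hℓp).2 A hA φ hφ),
    ((Tors.isTorsionOf_tRep hW hss hp2 ℓ hℓ hgood hℓp).2 A hA φ hφ)]

/-- Modularity only depends on the conjugacy class. -/
theorem modularOf_of_conj {r r' : Γℚ →* GL (Fin 2) (ZMod p)} {P : GL (Fin 2) (ZMod p)}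
    (h : ∀ σ, r' σ = P * r σ * P⁻¹) {M : ℕ} (hm : ModularOf p r M) : ModularOf p r' M := by
  obtain ⟨hM, f, 𝔪, hf, hmax, hpm, hℓ⟩ := hm
  refine ⟨hM, f, 𝔪, hf, hmax, hpm, fun ℓ h1 h2 h3 hu A hA φ hφ n hn => ?_⟩
  refine hℓ ℓ h1 h2 h3 (fun B hB σ hσ => ?_) A hA φ hφ n (hn.trans ?_)
  · have h4 := hu B hB σ hσ
    rw [h] at h4
    exact conj_eq_one_iff.mp h4
  · rw [h, Units.val_mul, Units.val_mul, Matrix.trace_mul_cycle, Units.inv_mul, Matrix.one_mul]

/-- A torsion representation is conjugate to the chosen one. -/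
theorem exists_conj_tRep {W : WeierstrassCurve ℤ} (hW : W.Δ ≠ 0) (hss : W.IsSemistableModel)
    (hp2 : p ≠ 2) {rb : Γℚ →* GL (Fin 2) (ZMod p)} (hrb : IsSemistableResidual p rb)
    (ht : IsTorsionOf p W rb) :
    ∃ P : GL (Fin 2) (ZMod p), ∀ σ, Tors.tRep (p := p) W hW σ = P * rb σ * P⁻¹ := by
  have hspan : Submodule.span (ZMod p) (Set.range ((Units.coeHom M2p).comp rb)) = ⊤ := by
    have h := span_range_map_eq_top hrb.surjective (RingHom.id (ZMod p))
    simp only [RingHom.coe_id, Matrix.map_id] at h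
    exact h
  obtain ⟨P, hP⟩ := exists_conj_of_trace_eq ((Units.coeHom M2p).comp rb)
    ((Units.coeHom M2p).comp (Tors.tRep (p := p) W hW)) hspan
    fun σ => trace_eq_tRep hW hss hp2 hrb ht σ
  refine ⟨P⁻¹, fun σ => ?_⟩
  have h : P * Tors.tRep (p := p) W hW σ = rb σ * P := Units.ext (hP σ)
  rw [inv_inv, mul_assoc, ← h, inv_mul_cancel_left]

/-- **`p` leaves the level of a curve with good reduction at `p`**, for any semistable residual
representation with the traces of the torsion. -/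
theorem lowerAtPStatement (hM : Fermat.BAD.AtP.MazurAtPTorsion p) : LowerAtPStatement p := by
  intro hp4 W rb hW hss hrb ht hgood M hsq hpM hmod
  have hp2 : p ≠ 2 := by omega
  obtain ⟨P, hP⟩ := exists_conj_tRep hW hss hp2 hrb ht
  have hP' : ∀ σ, rb σ = P⁻¹ * Tors.tRep (p := p) W hW σ * P⁻¹⁻¹ := fun σ => by
    rw [hP σ]; group
  have hsurj : Function.Surjective (Tors.tRep (p := p) W hW) := fun g => by
    obtain ⟨σ, hσ⟩ := hrb.surjective (P⁻¹ * g * P)
    exact ⟨σ, by rw [hP σ, hσ]; group⟩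
  obtain ⟨M', hM', hm⟩ := hM hp4 W hW hss (Tors.isSemistableResidual_tRep hW hss hp2 hsurj)
    (Or.inl hgood) M hsq hpM (modularOf_of_conj hP hmod)
  exact ⟨M', hM', modularOf_of_conj hP' hm⟩

end Fermat.GR.RT

end
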