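import Mathlib
import Fermat.Agent.GR.RT.FlatProofCocycle
import Fermat.Agent.GR.RT.Inertia
import Fermat.Agent.FLAT.Residual

/-!
# The Frobenius root on an unramified quotient, over a trace ring

For a family of liftings which are ordinary at `p` with unramified quotient, residually distinct
eigenvalues of one Frobenius give elements of the trace ring specialising to the quotient
characters; where the derivative of the Frobenius root vanishes the first order strict relation
holds.
-/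

set_option autoImplicit false

noncomputable section

open IsLocalRing Fermat.CFT

namespace Fermat.GR.RT

local notation "ℚbar" => AlgebraicClosure ℚ
local notation "Γℚ" => (AlgebraicClosure ℚ ≃ₐ[ℚ] AlgebraicClosure ℚ)
local notation "M2" R => Matrix (Fin 2) (Fin 2) R

/-- The residual representation at `A` is triangular with unramified quotient character of square
one. -/
structure OrdRes {k : Type} [Field k] (A : ValuationSubring ℚbar) (r : Γℚ →* M2 k) : Type where
  /-- The change of basis. -/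
  U : (M2 k)ˣ
  /-- The character on the stable line. -/
  a : A.decompositionSubgroup ℚ →* k
  /-- The quotient character. -/
  d : A.decompositionSubgroup ℚ →* k
  /-- The upper right entry. -/
  b : A.decompositionSubgroup ℚ → k
  /-- The triangular form on the decomposition group. -/
  tri : ∀ δ, (↑U⁻¹ : M2 k) * r δ.1 * (U : M2 k) = !![a δ, b δ; 0, d δ]
  /-- The quotient character has square one. -/
  sq : ∀ δ, d δ * d δ = 1
  /-- The quotient character is unramified. -/
  inertia : ∀ δ, δ.1 ∈ A.inertiaSubgroupIn ℚ → d δ = 1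

/-- `P` makes `ρ` triangular at `A` with unramified quotient. -/
structure IsOrdBasis {B : Type} [CommRing B] (A : ValuationSubring ℚbar) (ρ : Γℚ →* M2 B)
    (P : (M2 B)ˣ) : Prop where
  /-- The decomposition group is upper triangular in the basis. -/
  low : ∀ σ ∈ A.decompositionSubgroup ℚ, ((P : M2 B) * ρ σ * (↑P⁻¹ : M2 B)) 1 0 = 0
  /-- Inertia is trivial on the quotient. -/
  inertia : ∀ σ ∈ A.inertiaSubgroupIn ℚ, ((P : M2 B) * ρ σ * (↑P⁻¹ : M2 B)) 1 1 = 1

/-- A Frobenius element times an inertia element is a Frobenius element. -/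
theorem isFrobeniusAt_mul_inertia {A : ValuationSubring ℚbar} {φ σ : Γℚ} {q : ℕ}
    (hφ : A.IsFrobeniusAt φ q) (hσ : σ ∈ A.inertiaSubgroupIn ℚ) : A.IsFrobeniusAt (φ * σ) q := by
  obtain ⟨τ, hτ, rfl⟩ := Subgroup.mem_map.mp hσ
  refine ⟨mul_mem hφ.mem_decompositionSubgroup τ.2, fun x => ?_⟩
  have h1 : τ • x = x := RingEquiv.congr_fun (MonoidHom.mem_ker.mp hτ) x
  change ((⟨φ, hφ.mem_decompositionSubgroup⟩ : A.decompositionSubgroup ℚ) * τ) • x = _
  rw [mul_smul, h1]
  exact hφ.smul_residue_eq x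

variable {p : ℕ} [hp : Fact p.Prime]

namespace OrdRes

variable {k : Type} [Field k] [Algebra (ZMod p) k] {A : ValuationSubring ℚbar} {r : Γℚ →* M2 k}
  (o : OrdRes A r)

/-- The quotient character does not vanish. -/
theorem d_ne (δ : A.decompositionSubgroup ℚ) : o.d δ ≠ 0 :=
  left_ne_zero_of_mul (by rw [o.sq]; exact one_ne_zero)

/-- The determinant is the product of the diagonal characters. -/
theorem det_eq (δ : A.decompositionSubgroup ℚ) : (r δ.1).det = o.a δ * o.d δ := by
  have h := congrArg Matrix.det (o.tri δ)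
  rwa [Matrix.det_units_conj', Matrix.det_fin_two_of, mul_zero, sub_zero] at h

/-- The trace is the sum of the diagonal characters. -/
theorem trace_eq (δ : A.decompositionSubgroup ℚ) : (r δ.1).trace = o.a δ + o.d δ := by
  have h := congrArg Matrix.trace (o.tri δ)
  rwa [Matrix.trace_mul_cycle, o.U.mul_inv, one_mul, Matrix.trace_fin_two_of] at h

/-- The sub character does not vanish. -/
theorem a_ne (hdet : ∀ δ : A.decompositionSubgroup ℚ, (r δ.1).det =
      algebraMap (ZMod p) k ((cycChar p δ.1 : (ZMod p)ˣ) : ZMod p))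
    (δ : A.decompositionSubgroup ℚ) : o.a δ ≠ 0 := by
  refine left_ne_zero_of_mul (b := o.d δ) ?_
  rw [← o.det_eq, hdet]
  exact ((cycChar p δ.1).isUnit.map (algebraMap (ZMod p) k)).ne_zero

/-- An inertia element on which the sub character is `-1`. -/
theorem exists_inertia_neg (hA : A.LiesOverPrime p)
    (hdet : ∀ δ : A.decompositionSubgroup ℚ, (r δ.1).det =
      algebraMap (ZMod p) k ((cycChar p δ.1 : (ZMod p)ˣ) : ZMod p)) :
    ∃ δ : A.decompositionSubgroup ℚ, δ.1 ∈ A.inertiaSubgroupIn ℚ ∧ o.a δ = -1 := by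
  obtain ⟨σ, hσ, hc⟩ := CFT.exists_mem_inertia_cycChar hA (-1 : (ZMod p)ˣ)
  refine ⟨⟨σ, Fermat.FLAT.inertia_le_decomposition A hσ⟩, hσ, ?_⟩
  have h := o.det_eq ⟨σ, Fermat.FLAT.inertia_le_decomposition A hσ⟩
  rw [hdet, o.inertia _ hσ, mul_one, hc, Units.val_neg, Units.val_one, map_neg, map_one] at h
  exact h.symm

/-- Some Frobenius has distinct residual eigenvalues. -/
theorem exists_frobenius_ne (h2 : (2 : k) ≠ 0) (hA : A.LiesOverPrime p)
    (hdet : ∀ δ : A.decompositionSubgroup ℚ, (r δ.1).det =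
      algebraMap (ZMod p) k ((cycChar p δ.1 : (ZMod p)ˣ) : ZMod p)) :
    ∃ φ : A.decompositionSubgroup ℚ, A.IsFrobeniusAt φ.1 p ∧ o.a φ ≠ o.d φ := by
  obtain ⟨φ, hφ⟩ := Fermat.CFT.exists_isFrobeniusAt hp.out hA
  obtain ⟨τ, hτ, ha⟩ := o.exists_inertia_neg hA hdet
  by_cases h : o.a ⟨φ, hφ.mem_decompositionSubgroup⟩ = o.d ⟨φ, hφ.mem_decompositionSubgroup⟩
  swap
  · exact ⟨_, hφ, h⟩
  refine ⟨⟨φ, hφ.mem_decompositionSubgroup⟩ * τ, isFrobeniusAt_mul_inertia hφ hτ, ?_⟩
  rw [map_mul, map_mul, ha, o.inertia τ hτ, h, mul_one, mul_neg_one]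
  intro hc
  refine mul_ne_zero h2 (o.d_ne ⟨φ, hφ.mem_decompositionSubgroup⟩) ?_
  rw [two_mul]
  exact eq_neg_iff_add_eq_zero.mp hc.symm

end OrdRes

/-- The two roots of the characteristic polynomial with given distinct reductions. -/
theorem exists_roots {R k : Type} [CommRing R] [IsLocalRing R] [IsAdicComplete (maximalIdeal R) R]
    [Field k] {π : R →+* k} (hπm : ∀ x ∈ maximalIdeal R, π x = 0) (M : M2 R) {a d : k}
    (had : a ≠ d) (ht : (M.map π).trace = a + d) (hdt : (M.map π).det = a * d) (d₀ : R)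
    (hd₀ : π d₀ = d) :
    ∃ α β : R, α + β = M.trace ∧ α * β = M.det ∧ π α = d ∧ π β = a ∧ IsUnit (α - β) := by
  have hloc : ∀ x, π x ≠ 0 → IsUnit x := fun x hx => by
    by_contra h
    exact hx (hπm x h)
  have hker : ∀ x, π x = 0 → x ∈ maximalIdeal R := fun x hx h => h.map π |>.ne_zero hx
  have htr : π M.trace = a + d := by
    rw [← ht, Matrix.trace_fin_two, Matrix.trace_fin_two, map_add]; rfl
  have hde : π M.det = a * d := by rw [RingHom.map_det, RingHom.mapMatrix_apply, hdt]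
  have hdeg : Polynomial.degree (-(Polynomial.C M.trace * Polynomial.X) + Polynomial.C M.det) <
      (2 : ℕ) :=
    (Polynomial.degree_add_le _ _).trans_lt (max_lt (by
      rw [Polynomial.degree_neg]
      exact (Polynomial.degree_C_mul_X_le _).trans_lt (by norm_num))
      (Polynomial.degree_C_le.trans_lt (by norm_num)))
  have hf : (Polynomial.X ^ 2 - Polynomial.C M.trace * Polynomial.X +
      Polynomial.C M.det).Monic := by
    rw [show (Polynomial.X ^ 2 - Polynomial.C M.trace * Polynomial.X + Polynomial.C M.det :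
        Polynomial R) = Polynomial.X ^ 2 + (-(Polynomial.C M.trace * Polynomial.X) +
        Polynomial.C M.det) by ring]
    exact (Polynomial.monic_X_pow 2).add_of_left (by rwa [Polynomial.degree_X_pow])
  -- a root lifting `d`; the other is the trace minus it
  obtain ⟨α, hα, hαd⟩ := HenselianRing.is_henselian (I := maximalIdeal R) _ hf d₀
    (hker _ (by
      simp only [Polynomial.eval_add, Polynomial.eval_sub, Polynomial.eval_mul, Polynomial.eval_pow,
        Polynomial.eval_X, Polynomial.eval_C, map_add, map_sub, map_mul, map_pow, hd₀, htr, hde]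
      ring))
    ((hloc _ (by
      simp only [Polynomial.derivative_add, Polynomial.derivative_X_pow,
        Polynomial.derivative_C_mul, Polynomial.derivative_X, Polynomial.derivative_C, mul_one,
        add_zero, Polynomial.eval_sub, Polynomial.eval_mul, Polynomial.eval_C, Polynomial.eval_X,
        Polynomial.eval_pow, Polynomial.eval_ofNat, map_sub, map_mul, map_pow, Nat.cast_ofNat,
        map_ofNat, hd₀, htr]
      intro h
      refine had ?_
      linear_combination -h)).map (Ideal.Quotient.mk _))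
  have hπα : π α = d := by
    have h := hπm _ hαd
    rw [map_sub, hd₀, sub_eq_zero] at h
    exact h
  refine ⟨α, M.trace - α, by ring, ?_, hπα, by rw [map_sub, htr, hπα]; ring,
    hloc _ (by rw [map_sub, map_sub, htr, hπα]; intro h; exact had (by linear_combination -h))⟩
  simp only [Polynomial.IsRoot, Polynomial.eval_add, Polynomial.eval_sub, Polynomial.eval_mul,
    Polynomial.eval_pow, Polynomial.eval_X, Polynomial.eval_C] at hα
  linear_combination -hα

/-- The trace against the projection to the quotient. -/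
theorem trace_quot_proj {B : Type} [CommRing B] {M N : M2 B} (hM : M 1 0 = 0) (hN : N 1 0 = 0) :
    ((M - M 0 0 • (1 : M2 B)) * N).trace = (M 1 1 - M 0 0) * N 1 1 := by
  simp [Matrix.trace_fin_two, Matrix.mul_apply, Fin.sum_univ_two, Matrix.one_apply, hM, hN]

section Family

variable {R : Type} [CommRing R] [IsLocalRing R] {k : Type} [Field k] {π : R →+* k}
  {rep : Γℚ →* M2 R} {A : ValuationSubring ℚbar} {φ : A.decompositionSubgroup ℚ} {α β : R}

/-- The element specialising to the quotient character. -/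
def quotElt (rep : Γℚ →* M2 R) (φ : A.decompositionSubgroup ℚ) (α β : R) (σ : Γℚ) : R :=
  Ring.inverse (α - β) * ((rep φ.1 - β • (1 : M2 R)) * rep σ).trace

omit [IsLocalRing R] in
/-- The quotient element reduces to the residual quotient character. -/
theorem map_quotElt_residual (o : OrdRes A (resHom π rep)) (hα : π α = o.d φ) (hβ : π β = o.a φ)
    (hu : IsUnit (α - β)) (σ : A.decompositionSubgroup ℚ) :
    π (quotElt rep φ α β σ.1) = o.d σ := by
  have h1 : π (Ring.inverse (α - β)) * (o.d φ - o.a φ) = 1 := by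
    rw [← hα, ← hβ, ← map_sub, ← map_mul, Ring.inverse_mul_cancel _ hu, map_one]
  have h2 : ∀ δ : A.decompositionSubgroup ℚ, resHom π rep δ.1 =
      (o.U : M2 k) * !![o.a δ, o.b δ; 0, o.d δ] * (↑o.U⁻¹ : M2 k) := fun δ => by
    rw [← o.tri]
    simp only [mul_assoc, Units.mul_inv, mul_one, Units.mul_inv_cancel_left]
  have h3 : π ((rep φ.1 - β • (1 : M2 R)) * rep σ.1).trace =
      ((resHom π rep φ.1 - o.a φ • (1 : M2 k)) * resHom π rep σ.1).trace := by
    simp only [Matrix.trace_fin_two, Matrix.mul_apply, Fin.sum_univ_two, Matrix.sub_apply,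
      Matrix.smul_apply, resHom_apply, Matrix.map_apply, map_add, map_mul, map_sub, smul_eq_mul,
      hβ, Matrix.one_apply]
    simp
  rw [quotElt, map_mul, h3, h2, h2,
    show (o.U : M2 k) * !![o.a φ, o.b φ; 0, o.d φ] * (↑o.U⁻¹ : M2 k) - o.a φ • (1 : M2 k) =
      (o.U : M2 k) * (!![o.a φ, o.b φ; 0, o.d φ] - o.a φ • (1 : M2 k)) * (↑o.U⁻¹ : M2 k) by
      rw [mul_sub, sub_mul, Matrix.mul_smul, Matrix.smul_mul, mul_one, o.U.mul_inv]]
  simp only [mul_assoc, Units.inv_mul_cancel_left]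
  rw [Matrix.trace_mul_comm]
  simp only [mul_assoc, Units.inv_mul, mul_one]
  rw [show ((!![o.a φ, o.b φ; 0, o.d φ] : M2 k) - o.a φ • (1 : M2 k)) * !![o.a σ, o.b σ; 0, o.d σ] =
    (!![o.a φ, o.b φ; 0, o.d φ] - (!![o.a φ, o.b φ; 0, o.d φ] : M2 k) 0 0 • (1 : M2 k)) *
      !![o.a σ, o.b σ; 0, o.d σ] from rfl, trace_quot_proj rfl rfl]
  change π (Ring.inverse (α - β)) * ((o.d φ - o.a φ) * o.d σ) = o.d σ
  rw [← mul_assoc, h1, one_mul]

variable {B : Type} [CommRing B] {pr : R →+* B} {ρ : Γℚ →* M2 B} {P Q : (M2 B)ˣ}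

/-- The root is the quotient character at Frobenius. -/
theorem quot_eq_root [IsDomain B] [Algebra (ZMod p) k] (hπm : ∀ x ∈ maximalIdeal R, π x = 0)
    (h2 : (2 : k) ≠ 0) (hA : A.LiesOverPrime p)
    (o : OrdRes A (resHom π rep))
    (hdet : ∀ δ : A.decompositionSubgroup ℚ, (resHom π rep δ.1).det =
      algebraMap (ZMod p) k ((cycChar p δ.1 : (ZMod p)ˣ) : ZMod p))
    (hQ : ∀ σ, pr.mapMatrix (rep σ) * (Q : M2 B) = (Q : M2 B) * ρ σ) (hP : IsOrdBasis A ρ P)
    (had : o.a φ ≠ o.d φ) (hβ : π β = o.a φ)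
    (hsum : α + β = (rep φ.1).trace) (hprod : α * β = (rep φ.1).det) :
    pr α = ((P : M2 B) * ρ φ.1 * (↑P⁻¹ : M2 B)) 1 1 ∧
      pr β = ((P : M2 B) * ρ φ.1 * (↑P⁻¹ : M2 B)) 0 0 := by
  set T : Γℚ → M2 B := fun σ => (P : M2 B) * ρ σ * (↑P⁻¹ : M2 B) with hT
  have hlow : ∀ γ ∈ A.decompositionSubgroup ℚ, T γ 1 0 = 0 := hP.low
  -- the values of trace and determinant
  have hval : ∀ δ ∈ A.decompositionSubgroup ℚ, pr (rep δ).trace = T δ 0 0 + T δ 1 1 ∧
      pr (rep δ).det = T δ 0 0 * T δ 1 1 := by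
    intro δ hδ
    obtain ⟨e1, e2⟩ := trace_det_of_conj Q (hQ δ)
    have ht : (T δ).trace = (ρ δ).trace := by
      simp only [hT]; rw [Matrix.trace_mul_cycle, P.inv_mul, one_mul]
    have hd : (T δ).det = (ρ δ).det := by simp only [hT, Matrix.det_units_conj]
    constructor
    · rw [← Matrix.trace_fin_two, ht, ← e1, Matrix.trace_fin_two, Matrix.trace_fin_two, map_add]
      rfl
    · rw [RingHom.map_det, e2, ← hd, Matrix.det_fin_two, hlow δ hδ, mul_zero, sub_zero]
  obtain ⟨hv1, hv2⟩ := hval φ.1 φ.2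
  rw [← hsum, map_add] at hv1
  rw [← hprod, map_mul] at hv2
  suffices key : T φ.1 1 1 = pr α by exact ⟨key.symm, by linear_combination hv1 + key⟩
  have hroot : (T φ.1 1 1 - pr α) * (T φ.1 1 1 - pr β) = 0 := by
    linear_combination (-(T φ.1 1 1)) * hv1 + hv2
  rcases mul_eq_zero.mp hroot with h | h
  · exact sub_eq_zero.mp h
  -- otherwise `β` would be a root also at a twist of Frobenius by inertia
  exfalso
  rw [sub_eq_zero] at h
  obtain ⟨τ, hτ, ha⟩ := o.exists_inertia_neg hA hdet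
  have hmem : φ.1 * τ.1 ∈ A.decompositionSubgroup ℚ := (φ * τ).2
  have hx : T (φ.1 * τ.1) 1 1 = pr β := by
    have hI : T τ.1 1 1 = 1 := hP.inertia τ.1 hτ
    have e : T (φ.1 * τ.1) = T φ.1 * T τ.1 := by
      simp only [hT, map_mul, mul_assoc, Units.inv_mul_cancel_left]
    rw [e, Matrix.mul_apply, Fin.sum_univ_two, hlow φ.1 φ.2, zero_mul, zero_add, hI, mul_one, h]
  have hm : pr (β * β - (rep (φ.1 * τ.1)).trace * β + (rep (φ.1 * τ.1)).det) = 0 := by
    obtain ⟨e1, e2⟩ := hval _ hmem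
    rw [map_add, map_sub, map_mul, map_mul, e1, e2, ← hx]
    ring
  refine (IsUnit.map pr (?_ : IsUnit _)).ne_zero hm
  by_contra hu
  have h0 := hπm _ hu
  have ht2 : π (rep (φ.1 * τ.1)).trace = o.a (φ * τ) + o.d (φ * τ) := by
    rw [← o.trace_eq, resHom_apply, Matrix.trace_fin_two, Matrix.trace_fin_two, map_add]; rfl
  have hd2 : π (rep (φ.1 * τ.1)).det = o.a (φ * τ) * o.d (φ * τ) := by
    rw [← o.det_eq, resHom_apply, RingHom.map_det]; rfl
  rw [map_add, map_sub, map_mul, map_mul, hβ, ht2, hd2, map_mul, map_mul, ha, o.inertia τ hτ,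
    mul_one, mul_neg_one] at h0
  refine mul_ne_zero (mul_ne_zero h2 (o.a_ne hdet φ)) (sub_ne_zero.mpr had) ?_
  linear_combination h0

omit [IsLocalRing R] in
/-- The quotient element specialises to the quotient character. -/
theorem map_quotElt (hQ : ∀ σ, pr.mapMatrix (rep σ) * (Q : M2 B) = (Q : M2 B) * ρ σ)
    (hP : IsOrdBasis A ρ P) (hu : IsUnit (α - β))
    (hα : pr α = ((P : M2 B) * ρ φ.1 * (↑P⁻¹ : M2 B)) 1 1)
    (hβ : pr β = ((P : M2 B) * ρ φ.1 * (↑P⁻¹ : M2 B)) 0 0) (σ : A.decompositionSubgroup ℚ) :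
    pr (quotElt rep φ α β σ.1) = ((P : M2 B) * ρ σ.1 * (↑P⁻¹ : M2 B)) 1 1 := by
  set V : (M2 B)ˣ := Q * P⁻¹ with hV
  have hconj : ∀ γ, pr.mapMatrix (rep γ) =
      (V : M2 B) * ((P : M2 B) * ρ γ * (↑P⁻¹ : M2 B)) * (↑V⁻¹ : M2 B) := fun γ => by
    rw [hV, _root_.mul_inv_rev, inv_inv, Units.val_mul, Units.val_mul]
    simp only [mul_assoc, Units.inv_mul_cancel_left]
    rw [← mul_assoc, ← hQ, mul_assoc, Q.mul_inv, mul_one]
  have h3 : pr ((rep φ.1 - β • (1 : M2 R)) * rep σ.1).trace =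
      ((pr.mapMatrix (rep φ.1) - pr β • (1 : M2 B)) * pr.mapMatrix (rep σ.1)).trace := by
    simp only [Matrix.trace_fin_two, Matrix.mul_apply, Fin.sum_univ_two, Matrix.sub_apply,
      Matrix.smul_apply, RingHom.mapMatrix_apply, Matrix.map_apply, map_add, map_mul, map_sub,
      smul_eq_mul, Matrix.one_apply]
    simp
  have h1 : pr (Ring.inverse (α - β)) * (pr α - pr β) = 1 := by
    rw [← map_sub, ← map_mul, Ring.inverse_mul_cancel _ hu, map_one]
  rw [quotElt, map_mul, h3, hconj, hconj,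
    show (V : M2 B) * ((P : M2 B) * ρ φ.1 * (↑P⁻¹ : M2 B)) * (↑V⁻¹ : M2 B) - pr β • (1 : M2 B) =
      (V : M2 B) * (((P : M2 B) * ρ φ.1 * (↑P⁻¹ : M2 B)) - pr β • (1 : M2 B)) * (↑V⁻¹ : M2 B) by
      rw [mul_sub (V : M2 B), sub_mul, Matrix.mul_smul, Matrix.smul_mul, mul_one, V.mul_inv]]
  have hφl := hP.low φ.1 φ.2
  have hσl := hP.low σ.1 σ.2
  generalize (P : M2 B) * ρ φ.1 * (↑P⁻¹ : M2 B) = X at hα hβ hφl ⊢
  generalize (P : M2 B) * ρ σ.1 * (↑P⁻¹ : M2 B) = Y at hσl ⊢
  simp only [mul_assoc, Units.inv_mul_cancel_left]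
  rw [Matrix.trace_mul_comm]
  simp only [mul_assoc, Units.inv_mul, mul_one]
  rw [hβ, trace_quot_proj hφl hσl, ← hα, ← mul_assoc, ← hβ, h1, one_mul]

end Family

end Fermat.GR.RT

end
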