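import Fermat.Agent.GR.RT.Lift.Statements
import Fermat.Agent.GR.RT.Lowering
import Fermat.Agent.BAD.AtQ.Step

/-!
# The base level of lifting

`baseStatement_of_inputs` proves `BaseStatement`: a residual representation modular of level `M` is
modular at a squarefree `N ∣ M r` all whose primes are `p`, the auxiliary prime `r` or residually
ramified. A least level containing `r` will do (`exists_base_below`): other primes not `1` modulo
`p` are removed by Mazur's principle (`BAD/AtQ/Step`), the rest by patching (`GR/RT/Lowering`).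
This `N` is the level of `LiftData` (`Ctx`), over which `Main` raises the level.
-/

set_option autoImplicit false

noncomputable section

namespace Fermat.GR.RT

local notation "Γℚ" => (AlgebraicClosure ℚ ≃ₐ[ℚ] AlgebraicClosure ℚ)

variable {p : ℕ} [hp : Fact p.Prime] {rb : Γℚ →* GL (Fin 2) (ZMod p)} {r : ℕ}

/-- Modularity of level `M` gives a squarefree level dividing `M r` and divisible by `r`. -/
theorem exists_level_with_aux (hMul : MulPrimeStatement p) (hr : r.Prime) {M : ℕ}
    (hM : Squarefree M) (hmod : ModularOf p rb M) :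
    ∃ M₁ : ℕ, Squarefree M₁ ∧ r ∣ M₁ ∧ M₁ ∣ M * r ∧ ModularOf p rb M₁ := by
  by_cases h : r ∣ M
  · exact ⟨M, hM, h, dvd_mul_right M r, hmod⟩
  · exact ⟨M * r, Nat.squarefree_mul_iff.mpr ⟨(hr.coprime_iff_not_dvd.mpr h).symm,
      hM, hr.squarefree⟩, dvd_mul_left r M, dvd_rfl, hMul rb M r hr h hmod⟩

/-- **Below a level with the auxiliary prime** some level still with `r` has no residually
unramified primes besides `p` and `r`. -/
theorem exists_base_below (hA : AttachInput p) (hN : NewInput p) (hCh : CharInput p)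
    (hF : FlatInput p) (hO : OrdInput p) (h2 : 2 < p) (hrb : IsSemistableResidual p rb)
    (hr : IsAuxPrime p rb r) {M : ℕ} (hM : Squarefree M) (hrM : r ∣ M) (hmod : ModularOf p rb M)
    (hS : p ∣ M → ∀ M' : ℕ, Squarefree M' → ¬ p ∣ M' → ¬ ModularOf p rb M') :
    ∃ N : ℕ, N ∣ M ∧ r ∣ N ∧ ModularOf p rb N ∧
      ∀ q : ℕ, q.Prime → q ∣ N → q = p ∨ q = r ∨ ¬ IsResUnramified p rb q := by
  classical
  have hex : ∃ d : ℕ, d ∣ M ∧ r ∣ d ∧ ModularOf p rb d := ⟨M, dvd_rfl, hrM, hmod⟩
  set N := Nat.find hex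
  obtain ⟨hNM, hrN, hmodN⟩ : N ∣ M ∧ r ∣ N ∧ ModularOf p rb N := Nat.find_spec hex
  refine ⟨N, hNM, hrN, hmodN, ?_⟩
  have hsq : Squarefree N := hM.squarefree_of_dvd hNM
  -- the offending primes; minimality at each of them
  set A := N.primeFactors.filter fun q => q ≠ p ∧ q ≠ r ∧ IsResUnramified p rb q
  have hmemA : ∀ q ∈ A, q.Prime ∧ q ∣ N ∧ q ≠ p ∧ q ≠ r ∧ IsResUnramified p rb q := fun q hq => by
    obtain ⟨hq', h1, h2, h3⟩ := Finset.mem_filter.mp hq
    exact ⟨Nat.prime_of_mem_primeFactors hq', Nat.dvd_of_mem_primeFactors hq', h1, h2, h3⟩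
  choose hAprime hAdvd hAp hAr hAunr using hmemA
  have hmin : ∀ q ∈ A, ¬ ModularOf p rb (N / q) := fun q hq hm => by
    have hq' := hAprime q hq; have hqN := hAdvd q hq; have hqr := hAr q hq
    refine Nat.find_min hex (Nat.div_lt_self hmodN.1 hq'.one_lt)
      ⟨(Nat.div_dvd_of_dvd hqN).trans hNM, ?_, hm⟩
    rw [← Nat.mul_div_cancel' hqN] at hrN
    exact (hr.prime.dvd_mul.mp hrN).resolve_left fun e =>
      hqr ((Nat.prime_dvd_prime_iff_eq hr.prime hq').mp e).symm
  intro q hq hqN
  by_contra hcon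
  simp only [not_or, not_not] at hcon
  -- all of them can be removed at once
  refine LowerData.false_of_inputs (rb := rb) (N := N) (A := A)
    { semi := hrb
      two_lt := h2
      squarefree := hsq
      not_mem := fun h => hAp p h rfl
      atp := fun h => hS (h.trans hNM)
      neat := fun h3 => Or.inl ⟨r, hr.prime, by have := hr.mod_twelve; omega, hrN⟩
      nonempty := ⟨q, Finset.mem_filter.mpr ⟨Nat.mem_primeFactors.mpr ⟨hq, hqN, hmodN.1.ne'⟩, hcon⟩⟩
      prime := hAprime
      dvd := hAdvd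
      unr := hAunr
      one := fun q hq => ?_
      ram := fun q hq hqp hram => dvd_of_ramified hrb h2 hA hmodN hq hqp hram
      aux := fun q hq hqp hqN hqA hqu => ?_
      modular := hmodN
      minimal := hmin } hA hN hCh (fun _ => hF) fun _ => hO
  · have hq' := hAprime q hq; have hqN' := hAdvd q hq; have hqp := hAp q hq
    have hqr := hAr q hq; have hqu := hAunr q hq
    by_contra h1
    exact hmin q hq (Fermat.BAD.AtQ.mazurStep h2 hrb hsq hq' hqN' hqp h1 hqu
      ⟨r, hr.prime, Ne.symm hqr, hr.mod_twelve, hrN⟩ hmodN)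
  · obtain rfl : q = r := by
      by_contra hqr
      exact hqA (Finset.mem_filter.mpr
        ⟨Nat.mem_primeFactors.mpr ⟨hq, hqN, hmodN.1.ne'⟩, hqp, hqr, hqu⟩)
    exact hr.trace

/-- **The base level**: a least level with the auxiliary prime, starting prime to `p` if
possible. -/
theorem baseStatement_of_inputs (hA : AttachInput p) (hN : NewInput p) (hCh : CharInput p)
    (hF : FlatInput p) (hO : OrdInput p) (hMul : MulPrimeStatement p) : BaseStatement p := by
  classical
  intro h2 rb hrb M r hM hr hmod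
  by_cases hfree : ∃ M' : ℕ, Squarefree M' ∧ ¬ p ∣ M' ∧ ModularOf p rb M'
  · -- when `p` can be avoided, start from a level prime to `p`
    obtain ⟨M', hM', hpM', hmod'⟩ := hfree
    obtain ⟨M₁, hM₁, hrM₁, hdvd, hmod₁⟩ := exists_level_with_aux hMul hr.prime hM' hmod'
    have hpM₁ : ¬ p ∣ M₁ := fun h => (hp.out.dvd_mul.mp (h.trans hdvd)).elim hpM' fun e =>
      hr.ne ((Nat.prime_dvd_prime_iff_eq hp.out hr.prime).mp e).symm
    obtain ⟨N, hNM, hrN, hmodN, hprimes⟩ :=
      exists_base_below hA hN hCh hF hO h2 hrb hr hM₁ hrM₁ hmod₁ fun h => absurd h hpM₁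
    have hsq : Squarefree N := hM₁.squarefree_of_dvd hNM
    refine ⟨N, hsq, hrN, ?_, hmodN, hprimes⟩
    refine (Nat.prod_primeFactors_of_squarefree hsq).symm.dvd.trans
      (Finset.prod_primes_dvd _ (fun q hq => (Nat.prime_of_mem_primeFactors hq).prime)
        fun q hq => ?_)
    have hq' := Nat.prime_of_mem_primeFactors hq
    have hqN := Nat.dvd_of_mem_primeFactors hq
    have hqp : q ≠ p := fun e => hpM₁ (e ▸ hqN.trans hNM)
    rcases hprimes q hq' hqN with h | rfl | h
    · exact absurd h hqp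
    · exact dvd_mul_left q M
    · exact (dvd_of_ramified hrb h2 hA hmod hq' hqp h).mul_right r
  · -- otherwise start from the given level
    push Not at hfree
    obtain ⟨M₁, hM₁, hrM₁, hdvd, hmod₁⟩ := exists_level_with_aux hMul hr.prime hM hmod
    obtain ⟨N, hNM, hrN, hmodN, hprimes⟩ :=
      exists_base_below hA hN hCh hF hO h2 hrb hr hM₁ hrM₁ hmod₁ fun _ => hfree
    exact ⟨N, hM₁.squarefree_of_dvd hNM, hrN, hNM.trans hdvd, hmodN, hprimes⟩

end Fermat.GR.RT

end
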