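import Fermat.Agent.GR.RT.Lift.Statements
import Fermat.Agent.GR.RT.NonEis

/-!
# Auxiliary primes

A Frobenius which is `-1` modulo `12` can be multiplied by commutators so that its image has neither
eigenvalue `1` nor `-1`.
-/

set_option autoImplicit false

noncomputable section

open Fermat.CFT

namespace Fermat.GR.RT

local notation "Γℚ" => (AlgebraicClosure ℚ ≃ₐ[ℚ] AlgebraicClosure ℚ)

variable (p : ℕ) [hp : Fact p.Prime]

local notation "M2p" => Matrix (Fin 2) (Fin 2) (ZMod p)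

variable {p}

/-- The determinant of `g ^ 2 - 1`. -/
theorem det_sq_sub_one {R : Type} [CommRing R] (g : Matrix (Fin 2) (Fin 2) R) :
    (g ^ 2 - 1).det = (1 + g.det) ^ 2 - g.trace ^ 2 := by
  simp only [pow_two, Matrix.det_fin_two, Matrix.trace_fin_two, Matrix.sub_apply, Matrix.mul_apply,
    Fin.sum_univ_two, Matrix.one_apply_eq, Matrix.one_apply_ne (by decide : (0 : Fin 2) ≠ 1),
    Matrix.one_apply_ne (by decide : (1 : Fin 2) ≠ 0)]
  ring

/-- Transvections are images of commutators. -/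
theorem exists_commutator_transvection {rb : Γℚ →* GL (Fin 2) (ZMod p)}
    (hs : Function.Surjective rb) (h2 : 2 < p) (x : ZMod p) :
    ∃ g₁ g₂ : Γℚ, (∀ (G : Type) [CommGroup G] (f : Γℚ →* G), f g₁ = 1 ∧ f g₂ = 1) ∧
      (rb g₁ : M2p) = !![1, x; 0, 1] ∧ (rb g₂ : M2p) = !![1, 0; x, 1] := by
  have h20 : (2 : ZMod p) ≠ 0 := by
    intro h
    have := Nat.le_of_dvd two_pos ((ZMod.natCast_eq_zero_iff 2 p).mp h)
    omega
  -- `diag (2, 1)` and `diag (1, 2)` double the off-diagonal entry of an elementary matrix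
  obtain ⟨g₁, hg₁, hv₁⟩ := exists_map_commutator_eq hs (A := !![2, 0; 0, 1]) (B := !![1, x; 0, 1])
    (C := !![1, x; 0, 1]) (by simp [Matrix.det_fin_two_of, h20]) (by simp [Matrix.det_fin_two_of])
    (by simp [two_mul])
  obtain ⟨g₂, hg₂, hv₂⟩ := exists_map_commutator_eq hs (A := !![1, 0; 0, 2]) (B := !![1, 0; x, 1])
    (C := !![1, 0; x, 1]) (by simp [Matrix.det_fin_two_of, h20]) (by simp [Matrix.det_fin_two_of])
    (by simp [two_mul])
  exact ⟨g₁, g₂, fun G _ f => ⟨hg₁ G f, hg₂ G f⟩, hv₁, hv₂⟩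

/-- Every trace is taken on a coset of the commutators. -/
theorem exists_commutator_trace_eq {rb : Γℚ →* GL (Fin 2) (ZMod p)} (hs : Function.Surjective rb)
    (h2 : 2 < p) (h : GL (Fin 2) (ZMod p)) (t : ZMod p) :
    ∃ g : Γℚ, (∀ (G : Type) [CommGroup G] (f : Γℚ →* G), f g = 1) ∧
      ((h : M2p) * (rb g : M2p)).trace = t := by
  by_cases h10 : (h : M2p) 1 0 = 0
  · have h00 : (h : M2p) 0 0 ≠ 0 := fun h0 => by
      have := ((Matrix.isUnit_iff_isUnit_det (h : M2p)).mp h.isUnit).ne_zero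
      rw [Matrix.det_fin_two, h0, h10, zero_mul, mul_zero, sub_zero] at this
      exact this rfl
    obtain ⟨g₁, g₁', hg, hv₁, -⟩ := exists_commutator_transvection hs h2
      ((t - (h : M2p) 0 0 - (h : M2p) 1 1 - (h : M2p) 0 1) / (h : M2p) 0 0)
    obtain ⟨g₂', g₂, hg', -, hv₂⟩ := exists_commutator_transvection hs h2 1
    refine ⟨g₁ * g₂, fun G _ f => by rw [map_mul, (hg G f).1, (hg' G f).2, one_mul], ?_⟩
    rw [map_mul, Units.val_mul, hv₁, hv₂, Matrix.trace_fin_two]
    simp [Matrix.mul_apply, Fin.sum_univ_two, h10]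
    field_simp
    ring
  · obtain ⟨g₁, g₁', hg, hv₁, -⟩ := exists_commutator_transvection hs h2
      ((t - (h : M2p) 0 0 - (h : M2p) 1 1) / (h : M2p) 1 0)
    refine ⟨g₁, fun G _ f => (hg G f).1, ?_⟩
    rw [hv₁, Matrix.trace_fin_two]
    simp [Matrix.mul_apply, Fin.sum_univ_two]
    field_simp
    ring

variable (p)

/-- **Auxiliary primes exist.** For a semistable residual representation some auxiliary prime lies
outside any given finite set. -/
theorem auxPrimeStatement : AuxPrimeStatement p := by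
  intro h2 rb hrb B
  classical
  have : NeZero (12 : ℕ) := ⟨by norm_num⟩
  obtain ⟨A₀, hA₀⟩ := exists_place (show Nat.Prime 11 by norm_num)
  obtain ⟨φ₀, hφ₀⟩ := exists_isFrobeniusAt (show Nat.Prime 11 by norm_num) hA₀
  have h0 : ((cycK 12 φ₀ : (ZMod 12)ˣ) : ZMod 12) = 11 := by
    rw [cycK_frobenius (show Nat.Prime 11 by norm_num) (by norm_num) hA₀ hφ₀,
      ZMod.coe_unitOfCoprime, Nat.cast_ofNat]
  -- an element which is `-1` modulo `12` with no residual eigenvalue `±1`
  obtain ⟨g, hg, htr⟩ := exists_commutator_trace_eq hrb.surjective h2 (rb φ₀)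
    (if (rb φ₀ : M2p).det = -1 then 1 else 0)
  have hdet : (rb (φ₀ * g) : M2p).det = (rb φ₀ : M2p).det := by
    have h1 : ((Fermat.CFT.cycChar p g : (ZMod p)ˣ) : ZMod p) = 1 := by
      rw [hg _ (Fermat.CFT.cycChar p), Units.val_one]
    rw [map_mul, Units.val_mul, Matrix.det_mul, hrb.det_eq g, h1, mul_one]
  have hgood : ((rb (φ₀ * g) : M2p) ^ 2 - 1).det ≠ 0 := by
    rw [det_sq_sub_one, hdet, map_mul, Units.val_mul, htr]
    split_ifs with hd
    · rw [hd, add_neg_cancel]
      simp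
    · rw [zero_pow two_ne_zero, sub_zero]
      exact pow_ne_zero 2 fun h => hd (eq_neg_of_add_eq_zero_right h)
  -- a prime whose Frobenius generates the same cyclic subgroup
  obtain ⟨T₀, hT₀⟩ := exists_finset_map_inertia_eq_one rb hrb.isOpen_ker
  obtain ⟨r, hr, hrT, A, hA, -, φ, hφ, hgen⟩ := exists_frobenius_map_zpowers_eq
    (rb.prod (cycK 12)) (isOpen_ker_prod_cycK hrb.isOpen_ker 12) (φ₀ * g) (B ∪ T₀ ∪ {2, 3, p})
  simp only [Finset.mem_union, Finset.mem_insert, Finset.mem_singleton, not_or] at hrT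
  obtain ⟨⟨hrB, hrT₀⟩, hr2, hr3, hrp⟩ := hrT
  have hunr : IsResUnramified p rb r := hT₀ r hr hrT₀
  have hcop : r.Coprime 12 := hr.coprime_iff_not_dvd.mpr fun h => by
    have := Nat.le_of_dvd (by norm_num) h
    interval_cases r <;> simp_all (config := {decide := true})
  refine ⟨r, hrB, hr, ?_, hrp, fun P hP ψ hψ => ?_⟩
  · -- it is `-1` modulo `12`
    have h1 := congrArg (Subgroup.map (MonoidHom.snd _ (ZMod 12)ˣ)) hgen
    rw [MonoidHom.map_zpowers, MonoidHom.map_zpowers, MonoidHom.prod_apply, MonoidHom.prod_apply,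
      MonoidHom.coe_snd] at h1
    have h2' : cycK 12 (φ₀ * g) = cycK 12 φ₀ := by rw [map_mul, hg _ (cycK 12), mul_one]
    rw [h2', cycK_frobenius hr hcop hA hφ] at h1
    have hmem : cycK 12 φ₀ ∈ Subgroup.zpowers (ZMod.unitOfCoprime r hcop) :=
      h1 ▸ Subgroup.mem_zpowers _
    have hmem' : ZMod.unitOfCoprime r hcop ∈ Subgroup.zpowers (cycK 12 φ₀) :=
      h1 ▸ Subgroup.mem_zpowers _
    rw [← mem_powers_iff_mem_zpowers] at hmem hmem'
    obtain ⟨j, hj⟩ := hmem'
    have hval : (r : ZMod 12) = (11 : ZMod 12) ^ j := by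
      rw [← h0, ← Units.val_pow_eq_pow_val, show cycK 12 φ₀ ^ j = _ from hj,
        ZMod.coe_unitOfCoprime]
    obtain ⟨i, hi⟩ := hmem
    have hval' : (11 : ZMod 12) = (r : ZMod 12) ^ i := by
      rw [← h0, show cycK 12 φ₀ = _ from hi.symm, Units.val_pow_eq_pow_val, ZMod.coe_unitOfCoprime]
    have hr11 : (r : ZMod 12) = 11 := by
      rcases Nat.even_or_odd j with ⟨m, rfl⟩ | ⟨m, rfl⟩
      · rw [pow_add, ← mul_pow, show (11 : ZMod 12) * 11 = 1 by decide, one_pow] at hval
        rw [hval, one_pow] at hval'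
        exact absurd hval' (by decide)
      · rw [hval, pow_succ, pow_mul, show (11 : ZMod 12) ^ 2 = 1 by decide, one_pow, one_mul]
    have := congrArg ZMod.val hr11
    rwa [ZMod.val_natCast, show (11 : ZMod 12).val = 11 by decide] at this
  · -- its residual Frobenius has no eigenvalue `±1`
    rw [trace_frobenius_eq hr hunr hA hP hφ hψ]
    have hrdet : (rb φ : M2p).det = (r : ZMod p) := by
      have := Fact.mk hr
      rw [hrb.det_eq, cycChar_frobenius hr hrp hA hφ]
    rw [← hrdet]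
    intro heq
    apply hgood
    have h1 := congrArg (Subgroup.map (MonoidHom.fst _ (ZMod 12)ˣ)) hgen
    rw [MonoidHom.map_zpowers, MonoidHom.map_zpowers, MonoidHom.prod_apply, MonoidHom.prod_apply,
      MonoidHom.coe_fst] at h1
    have hmem : rb (φ₀ * g) ∈ Subgroup.zpowers (rb φ) := h1 ▸ Subgroup.mem_zpowers _
    rw [← mem_powers_iff_mem_zpowers] at hmem
    obtain ⟨i, hi⟩ := hmem
    have h0' : ((rb φ : M2p) ^ 2 - 1).det = 0 := by rw [det_sq_sub_one, heq, sub_self]
    rw [show rb (φ₀ * g) = rb φ ^ i from hi.symm, Units.val_pow_eq_pow_val, ← pow_mul, mul_comm i 2,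
      pow_mul, ← geom_sum_mul, Matrix.det_mul, h0', mul_zero]

end Fermat.GR.RT

end
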