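import Mathlib
import Fermat.Agent.GR.RT.PointRep
import Fermat.Agent.GR.RT.Targets

/-!
# What modularity lifting uses about the base level and about eigen systems

Statements only. They are `BaseStatement`, for the base level, and `AgreeStatement`, for eigen
systems.
-/

set_option autoImplicit false

noncomputable section

namespace Fermat.GR.RT

local notation "ℚbar" => AlgebraicClosure ℚ
local notation "Γℚ" => (AlgebraicClosure ℚ ≃ₐ[ℚ] AlgebraicClosure ℚ)

variable (p : ℕ) [Fact p.Prime]

local notation "M2p" => Matrix (Fin 2) (Fin 2) (ZMod p)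

/-- The auxiliary prime kept in every level: it makes the levels neat and can carry no new form. -/
structure IsAuxPrime (rb : Γℚ →* GL (Fin 2) (ZMod p)) (r : ℕ) : Prop where
  /-- `r` is prime. -/
  prime : r.Prime
  /-- `r ≡ 11 (mod 12)`. -/
  mod_twelve : r % 12 = 11
  /-- `r` is not `p`. -/
  ne : r ≠ p
  /-- The residual Frobenius at `r` does not have trace `±(1 + r)`. -/
  trace : ∀ P : ValuationSubring ℚbar, P.LiesOverPrime r → ∀ φ : Γℚ, P.IsFrobeniusAt φ r →
    (rb φ : M2p).trace ^ 2 ≠ (1 + (r : ZMod p)) ^ 2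

/-- For odd `p` and a semistable residual representation auxiliary primes exist outside every
finite set. Proved by `auxPrimeStatement`. -/
def AuxPrimeStatement : Prop :=
  2 < p → ∀ rb : Γℚ →* GL (Fin 2) (ZMod p), IsSemistableResidual p rb →
    ∀ B : Finset ℕ, ∃ r : ℕ, r ∉ B ∧ IsAuxPrime p rb r

/-- **The base level of lifting**: only `p`, the auxiliary prime and ramified primes remain.
Proved by `baseStatement_of_inputs`. -/
def BaseStatement : Prop :=
  2 < p → ∀ rb : Γℚ →* GL (Fin 2) (ZMod p), IsSemistableResidual p rb →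
    ∀ M r : ℕ, Squarefree M → IsAuxPrime p rb r → ModularOf p rb M →
      ∃ N : ℕ, Squarefree N ∧ r ∣ N ∧ N ∣ M * r ∧ ModularOf p rb N ∧
        ∀ q : ℕ, q.Prime → q ∣ N → q = p ∨ q = r ∨ ¬ IsResUnramified p rb q

/-- Modularity at level `M` is inherited by level `M q`, for a prime `q ∤ M`.
Proved by `mulPrimeStatement`. -/
def MulPrimeStatement : Prop :=
  ∀ rb : Γℚ →* GL (Fin 2) (ZMod p), ∀ M q : ℕ, q.Prime → ¬ q ∣ M → ModularOf p rb M →
    ModularOf p rb (M * q)

/-- **An eigen system with almost all Hecke values those of a curve makes it modular**, at every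
squarefree multiple of its level. Proved by `agreeStatement`. -/
def AgreeStatement : Prop :=
  ∀ W : WeierstrassCurve ℤ, W.Δ ≠ 0 → W.IsSemistableModel →
    ∀ (N : ℕ) [NeZero N] (Ω : Type) [Field Ω] [CharZero Ω]
      (x : MvPolynomial (Nat.Primes ⊕ (ZMod N)ˣ) ℤ →+* Ω), IsPoint N ⊤ x →
      ∀ S : Finset ℕ, (∀ ℓ : ℕ, ℓ.Prime → ℓ ∉ S → tVal x ℓ = ((W.apOfModel ℓ : ℤ) : Ω)) →
        ∀ N' : ℕ, Squarefree N' → N ∣ N' → W.IsModularModelOfLevel N'

end Fermat.GR.RT

end
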