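import Mathlib
import Fermat.Agent.GR.RT.LowerTangentBound
import Fermat.Agent.GR.RT.ResModular
import Fermat.Agent.GR.RT.Lift.Statements

/-!
# The setting of modularity lifting

A base level without residually unramified primes other than `p` and the auxiliary one, the framed
primes, and the local conditions at the ramified primes.
-/

set_option autoImplicit false
set_option linter.unusedSectionVars false

noncomputable section

open IsLocalRing Fermat.CFT ExtCitation

namespace Fermat.GR.RT

open Fermat.HM Fermat.MC.Lvl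

local notation "Γℚ" => (AlgebraicClosure ℚ ≃ₐ[ℚ] AlgebraicClosure ℚ)

variable {p : ℕ} [hp : Fact p.Prime]

open scoped Classical in
/-- The bad primes other than `p` with unramified torsion. -/
def badUnr (rb : Γℚ →* GL (Fin 2) (ZMod p)) (W : WeierstrassCurve ℤ) : Finset ℕ :=
  W.Δ.natAbs.primeFactors.filter fun q => q ≠ p ∧ IsResUnramified p rb q

/-- The framed primes: `q₀` and the bad primes with unramified torsion. -/
def frPrimes (rb : Γℚ →* GL (Fin 2) (ZMod p)) (W : WeierstrassCurve ℤ) (q₀ : ℕ) : Finset ℕ :=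
  insert q₀ (badUnr rb W)

/-- A number whose prime factors are the primes excluded from the operators. -/
def liftBad (rb : Γℚ →* GL (Fin 2) (ZMod p)) (W : WeierstrassCurve ℤ) (N q₀ : ℕ) : ℕ :=
  N * p * ∏ q ∈ frPrimes rb W q₀, q

variable {rb : Γℚ →* GL (Fin 2) (ZMod p)} {W : WeierstrassCurve ℤ}

/-- The members of `badUnr`. -/
theorem mem_badUnr (hW : W.Δ ≠ 0) {q : ℕ} :
    q ∈ badUnr rb W ↔ q.Prime ∧ (q : ℤ) ∣ W.Δ ∧ q ≠ p ∧ IsResUnramified p rb q := by
  classical
  rw [badUnr, Finset.mem_filter, Nat.mem_primeFactors, Int.natCast_dvd]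
  exact ⟨fun ⟨⟨h1, h2, _⟩, h3, h4⟩ => ⟨h1, h2, h3, h4⟩,
    fun ⟨h1, h2, h3, h4⟩ => ⟨⟨h1, h2, Int.natAbs_ne_zero.mpr hW⟩, h3, h4⟩⟩

/-- The fixed data of lifting: a level `N`, the auxiliary prime `r` and the framed prime `q₀`. -/
structure LiftData (p : ℕ) [Fact p.Prime] (rb : Γℚ →* GL (Fin 2) (ZMod p))
    (W : WeierstrassCurve ℤ) (N r q₀ : ℕ) : Prop where
  /-- `rb` is a surjective semistable residual representation. -/
  semi : IsSemistableResidual p rb
  /-- `p` is odd. -/
  two_lt : 2 < p
  /-- The curve is non-singular. -/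
  disc_ne : W.Δ ≠ 0
  /-- The model is semistable. -/
  ssm : W.IsSemistableModel
  /-- `rb` is the `p`-torsion of the curve. -/
  tors : IsTorsionOf p W rb
  /-- The level is squarefree. -/
  squarefree : Squarefree N
  /-- `r` is an auxiliary prime. -/
  aux : IsAuxPrime p rb r
  /-- The auxiliary prime divides the level. -/
  aux_dvd : r ∣ N
  /-- The curve has good reduction at the auxiliary prime. -/
  aux_good : ¬ (r : ℤ) ∣ W.Δ
  /-- The level has no prime besides `p`, `r` and the ramified primes of `rb`. -/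
  only : ∀ q : ℕ, q.Prime → q ∣ N → q = p ∨ q = r ∨ ¬ IsResUnramified p rb q
  /-- The ramified primes other than `p` divide the level. -/
  ram : ∀ q : ℕ, q.Prime → q ≠ p → ¬ IsResUnramified p rb q → q ∣ N
  /-- `rb` is modular of level `N`. -/
  modular : ModularOf p rb N
  /-- `q₀` is prime. -/
  frame_prime : q₀.Prime
  /-- `q₀` is not `p`. -/
  frame_ne : q₀ ≠ p
  /-- `q₀` does not divide the level. -/
  frame_not_dvd : ¬ q₀ ∣ N
  /-- The curve has good reduction at `q₀`. -/
  frame_good : ¬ (q₀ : ℤ) ∣ W.Δ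

namespace LiftData

variable {N r q₀ : ℕ} (D : LiftData p rb W N r q₀)
include D

/-- `p` is odd. -/
theorem p_ne_two : p ≠ 2 := by have := D.two_lt; omega

/-- The level is positive. -/
theorem ne_zero : N ≠ 0 := D.squarefree.ne_zero

/-- A multiple of the auxiliary prime is neat. -/
theorem neat {K : ℕ} (h : r ∣ K) : p = 3 → IsNeat K := fun _ =>
  Or.inl ⟨r, D.aux.prime, by have := D.aux.mod_twelve; omega, h⟩

/-- `q₀` is framed. -/
theorem mem_frame : q₀ ∈ frPrimes rb W q₀ := Finset.mem_insert_self _ _

/-- `q₀` is not a bad prime of the curve. -/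
theorem frame_not_mem : q₀ ∉ badUnr rb W := fun h => D.frame_good ((mem_badUnr D.disc_ne).mp h).2.1

/-- The framed primes are prime. -/
theorem prime_of_mem {q : ℕ} (h : q ∈ frPrimes rb W q₀) : q.Prime := by
  rcases Finset.mem_insert.mp h with rfl | h
  · exact D.frame_prime
  · exact ((mem_badUnr D.disc_ne).mp h).1

/-- The framed primes differ from `p`. -/
theorem ne_of_mem {q : ℕ} (h : q ∈ frPrimes rb W q₀) : q ≠ p := by
  rcases Finset.mem_insert.mp h with rfl | h
  · exact D.frame_ne
  · exact ((mem_badUnr D.disc_ne).mp h).2.2.1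

/-- The torsion is unramified at the framed primes. -/
theorem unr_of_mem {q : ℕ} (h : q ∈ frPrimes rb W q₀) : IsResUnramified p rb q := by
  rcases Finset.mem_insert.mp h with rfl | h
  · exact (D.tors q D.frame_prime D.frame_good D.frame_ne).1
  · exact ((mem_badUnr D.disc_ne).mp h).2.2.2

/-- The framed primes do not divide the level. -/
theorem not_dvd_of_mem {q : ℕ} (h : q ∈ frPrimes rb W q₀) : ¬ q ∣ N := by
  rcases Finset.mem_insert.mp h with rfl | h'
  · exact D.frame_not_dvd
  · intro hd
    rcases D.only q (D.prime_of_mem h) hd with e | e | e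
    · exact D.ne_of_mem h e
    · exact D.aux_good (e ▸ ((mem_badUnr D.disc_ne).mp h').2.1)
    · exact e (D.unr_of_mem h)

/-- The number `liftBad` is not zero. -/
theorem bad_ne_zero : liftBad rb W N q₀ ≠ 0 :=
  mul_ne_zero (mul_ne_zero D.ne_zero hp.out.ne_zero)
    (Finset.prod_ne_zero_iff.mpr fun _ h => (D.prime_of_mem h).ne_zero)

/-- The primes of the level are excluded from the operators. -/
theorem dvd_bad {q : ℕ} (h : q ∣ N) : q ∣ liftBad rb W N q₀ := (h.mul_right p).mul_right _

/-- `p` is excluded from the operators. -/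
theorem p_dvd_bad : p ∣ liftBad rb W N q₀ := (dvd_mul_left p N).mul_right _

/-- The framed primes are excluded from the operators. -/
theorem dvd_bad_of_mem_frPrimes {q : ℕ} (h : q ∈ frPrimes rb W q₀) : q ∣ liftBad rb W N q₀ :=
  (Finset.dvd_prod_of_mem (fun q => q) h).mul_left _

/-- The torsion is unramified at the primes of the operators. -/
theorem resUnr {q : ℕ} (hq : q.Prime) (h : ¬ q ∣ liftBad rb W N q₀) : IsResUnramified p rb q := by
  by_contra hc
  exact h (D.dvd_bad (D.ram q hq (fun e => h (e ▸ D.p_dvd_bad)) hc))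

/-- The torsion is unramified at an indexed good prime. -/
theorem resUnr_goodIx (i : GoodIx (liftBad rb W N q₀)) :
    IsResUnramified p rb (goodPr (liftBad rb W N q₀) i) := D.resUnr i.1.2 i.2

/-- The indexed good primes do not divide the level. -/
theorem not_dvd_goodIx (i : GoodIx (liftBad rb W N q₀)) : ¬ goodPr (liftBad rb W N q₀) i ∣ N :=
  fun h => i.2 (D.dvd_bad h)

section Base

variable {O : Type} [CommRing O] [IsDomain O] [IsDiscreteValuationRing O]
  [IsAdicComplete (maximalIdeal O) O] [Finite (ResidueField O)] [CharZero O]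

/-- The base level is good. -/
theorem good_top [NeZero N] (hO : (p : O) ∈ maximalIdeal O) : GoodLevel O (GammaH N ⊤) :=
  goodLevel_top hO D.p_ne_two (D.neat D.aux_dvd)

/-- The residual system is not Eisenstein. -/
theorem nonEis (hO : (p : O) ∈ maximalIdeal O) : NonEisenstein (goodPr (liftBad rb W N q₀))
    (sysIdeal (theta rb hO (liftBad rb W N q₀))) :=
  nonEisenstein_resSys D.semi D.two_lt _ D.bad_ne_zero D.resUnr_goodIx

end Base

end LiftData

/-- The trivial quotient of the full group of diamond operators. -/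
def topQuot (N : ℕ) : DiamondQuot N ⊤ ⊤ PUnit where
  le := le_top
  chi := 1
  surj := fun _ => ⟨1, Subsingleton.elim _ _⟩
  ker_iff _ := ⟨fun _ => Subgroup.mem_top _, fun _ => rfl⟩

namespace LiftData

variable {N r q₀ : ℕ} (D : LiftData p rb W N r q₀)

include D in
/-- The base level of lifting satisfies `BaseData`. -/
theorem baseData [NeZero N] {O : Type} [CommRing O] [IsDomain O] [IsDiscreteValuationRing O]
    [IsAdicComplete (maximalIdeal O) O] [Finite (ResidueField O)] [CharZero O]
    (hO : (p : O) ∈ maximalIdeal O) :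
    BaseData O p (goodPr (liftBad rb W N q₀)) (topQuot N)
      (theta rb hO (liftBad rb W N q₀)) := by
  have := (D.good_top hO).moduleFinite
  refine ⟨D.p_ne_two, hO, IsPGroup.of_subsingleton p PUnit, goodPr_injective _, D.nonEis hO,
    D.good_top hO, ?_⟩
  obtain ⟨x, hx, hc⟩ := exists_congruent_of_modularOf (σ := GoodIx (liftBad rb W N q₀))
    (pr := goodPr (liftBad rb W N q₀)) hO D.modular
    (fun i => ⟨D.not_dvd_goodIx i, fun e : ((i.1 : Nat.Primes) : ℕ) = p => i.2 (by
      rw [e]; exact D.p_dvd_bad), D.resUnr_goodIx i⟩) (theta rb hO _) (resCast hO)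
    (fun i P hP φ hφ => resSys_eq (resCast hO) i (D.resUnr_goodIx i) P hP φ hφ)
    fun i => ⟨_, Fermat.CFT.placeAt_spec i.1, frobOf i.1, frobOf_spec i.1⟩
  have hinj := algClosure_algebraMap_injective O
  obtain ⟨φ, hφ, h0⟩ := exists_mem_locPart_ne_zero hx hinj hc
  exact ⟨⟨⟨φ, hφ⟩⟩, fun e => h0 (congrArg (fun z : (topQuot N).LocMod (goodPr (liftBad rb W N q₀))
    (sysIdeal (theta rb hO (liftBad rb W N q₀))) => (z.val : Homs O (GammaH N ⊤))) e)⟩

/-- The framed primes as primes. -/
def primeA (q : frPrimes rb W q₀) : Nat.Primes := ⟨q, D.prime_of_mem q.2⟩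

/-- The framed primes are distinct as primes. -/
theorem primeA_injective : Function.Injective D.primeA := fun _ _ h =>
  Subtype.ext (congrArg (fun v : Nat.Primes => (v : ℕ)) h)

/-- The framed primes, as a set of primes. -/
def setA : Finset Nat.Primes := Finset.univ.image D.primeA

/-- The members of `setA`. -/
theorem mem_setA {v : Nat.Primes} : v ∈ D.setA ↔ (v : ℕ) ∈ frPrimes rb W q₀ := by
  simp only [setA, Finset.mem_image, Finset.mem_univ, true_and]
  exact ⟨fun ⟨q, h⟩ => h ▸ q.2, fun h => ⟨⟨v, h⟩, Subtype.ext rfl⟩⟩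

open scoped Classical in
/-- The primes with a condition. -/
def condT (_D : LiftData p rb W N r q₀) : Finset Nat.Primes :=
  ((liftBad rb W N q₀).primeFactors.attach.image
      fun q : (liftBad rb W N q₀).primeFactors =>
        (⟨q, Nat.prime_of_mem_primeFactors q.2⟩ : Nat.Primes)).filter
    fun v => (v : ℕ) = p ∨ (v : ℕ) ∈ frPrimes rb W q₀ ∨ ¬ IsResUnramified p rb v

/-- The primes with a condition are `p`, the framed primes and those of ramified torsion. -/
theorem mem_condT {v : Nat.Primes} :
    v ∈ D.condT ↔ (v : ℕ) = p ∨ (v : ℕ) ∈ frPrimes rb W q₀ ∨ ¬ IsResUnramified p rb v := by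
  classical
  refine ⟨fun h => (Finset.mem_filter.mp h).2, fun h => Finset.mem_filter.mpr ⟨?_, h⟩⟩
  have hdvd : (v : ℕ) ∣ liftBad rb W N q₀ := by
    rcases h with h | h | h
    · rw [h]; exact D.p_dvd_bad
    · exact D.dvd_bad_of_mem_frPrimes h
    · by_contra hc
      exact h (D.resUnr v.2 hc)
  exact Finset.mem_image.mpr
    ⟨⟨v, Nat.mem_primeFactors.mpr ⟨v.2, hdvd, D.bad_ne_zero⟩⟩, Finset.mem_attach _ _, rfl⟩

/-- There is a condition at `p`. -/
theorem pPrime_mem_condT : pPrime p ∈ D.condT := D.mem_condT.mpr (Or.inl rfl)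

/-- There is a condition at the framed primes. -/
theorem setA_subset : D.setA ⊆ D.condT := fun _ h =>
  D.mem_condT.mpr (Or.inr (Or.inl (D.mem_setA.mp h)))

/-- `p` is not framed. -/
theorem pPrime_not_mem_setA : pPrime p ∉ D.setA := fun h => D.ne_of_mem (D.mem_setA.mp h) rfl

/-- The other primes with a condition have ramified torsion. -/
theorem ram_of_mem {v : Nat.Primes} (hv : v ∈ D.condT) (hp' : v ≠ pPrime p) (hA : v ∉ D.setA) :
    (v : ℕ) ≠ p ∧ ¬ IsResUnramified p rb v := by
  have h : (v : ℕ) ≠ p := fun e => hp' (Subtype.ext e)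
  exact ⟨h, ((D.mem_condT.mp hv).resolve_left h).resolve_left fun e => hA (D.mem_setA.mpr e)⟩

section Coeff

variable {O : Type} [CommRing O] [IsLocalRing O] [Algebra (ZMod p) (ResidueField O)]

include D in
/-- The residual representation is trivial on a level unramified outside the conditions. -/
theorem exists_level_resRep :
    ∃ N', (galLevels (D.condT : Set Nat.Primes)).IsLevel N' ∧ ∀ s ∈ N', resRep rb O s = 1 := by
  obtain ⟨N', hN', hle⟩ := exists_level_le_of_isOpen (S := (D.condT : Set Nat.Primes)) rb.ker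
    D.semi.isOpen_ker fun q hq B hB σ hσ => MonoidHom.mem_ker.mpr (by
      have h : IsResUnramified p rb q := by
        by_contra h
        exact hq (D.mem_condT.mpr (Or.inr (Or.inr h)))
      exact h B hB σ hσ)
  exact ⟨N', hN', fun s hs => resRep_eq_one O (MonoidHom.mem_ker.mp (hle hs))⟩

include D in
/-- The adjoint residual representation is unramified outside the primes with a condition. -/
theorem isSmooth_resRep :
    Coh.IsSmooth (galLevels (D.condT : Set Nat.Primes)) (adRep p (resRep rb O)) := fun X => by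
  obtain ⟨N', hN', h⟩ := D.exists_level_resRep (O := O)
  exact ⟨N', hN', fun s hs => Subtype.ext (by
    rw [coe_adRep, h s hs, h _ (inv_mem hs), one_mul, mul_one])⟩

/-- The strict conditions at the ramified primes. -/
structure RamConds (D : LiftData p rb W N r q₀) (O : Type) [CommRing O] [IsLocalRing O]
    [Algebra (ZMod p) (ResidueField O)] : Type where
  /-- The local conditions. -/
  L : ∀ v : Nat.Primes, Submodule (ZMod p) (LH1 v (adRep p (resRep rb O)))
  /-- At a ramified prime the condition is at most as large as the invariants. -/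
  card_le : ∀ v : Nat.Primes, (v : ℕ) ≠ p → ¬ IsResUnramified p rb v →
    Nat.card (L v) ≤ Nat.card (Coh.H0 (repAt v (adRep p (resRep rb O))))
  /-- The sign character at each prime. -/
  e : ∀ v : Nat.Primes, decAt v → O
  /-- A ramified inertia element at each prime. -/
  σ₀ : Nat.Primes → Γℚ
  /-- Each ramified prime is strict for its sign, with classes in the condition. -/
  strict : ∀ v : Nat.Primes, (v : ℕ) ≠ p → ¬ IsResUnramified p rb v →
    σ₀ v ∈ (placeAt v).inertiaSubgroupIn ℚ ∧ rb (σ₀ v) ≠ 1 ∧
      (∀ δ, e v δ = 1 ∨ e v δ = -1) ∧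
      (∀ δ : decAt v, (resRep rb O (σ₀ v) - 1) * resRep rb O δ.1 =
        residue O (e v δ) • (resRep rb O (σ₀ v) - 1)) ∧
      StrictClassesIn O v (e v) (L v)

/-- The local conditions at the ramified primes exist. -/
theorem nonempty_ramConds [Finite (ResidueField O)] (hO : (p : O) ∈ maximalIdeal O) :
    Nonempty (D.RamConds O) := by
  classical
  have hex : ∀ v : Nat.Primes, (v : ℕ) ≠ p ∧ ¬ IsResUnramified p rb v →
      _ := fun v h => exists_strictCond (T := (D.condT : Set Nat.Primes)) O D.semi D.two_lt hO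
    D.isSmooth_resRep h.1 h.2
  choose e σ₀ Sv hσ₀ hne he hrel hcard hclass using hex
  refine ⟨{ L := fun v => if h : (v : ℕ) ≠ p ∧ ¬ IsResUnramified p rb v then Sv v h else ⊥
            e := fun v => if h : (v : ℕ) ≠ p ∧ ¬ IsResUnramified p rb v then e v h else 1
            σ₀ := fun v => if h : (v : ℕ) ≠ p ∧ ¬ IsResUnramified p rb v then σ₀ v h else 1
            card_le := fun v hvp hram => ?_
            strict := fun v hvp hram => ?_ }⟩
  · have h : (v : ℕ) ≠ p ∧ ¬ IsResUnramified p rb v := ⟨hvp, hram⟩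
    simp only [dif_pos h]
    exact hcard v h
  · have h : (v : ℕ) ≠ p ∧ ¬ IsResUnramified p rb v := ⟨hvp, hram⟩
    simp only [dif_pos h]
    exact ⟨hσ₀ v h, hne v h, he v h, hrel v h, hclass v h⟩

open scoped Classical in
/-- The conditions, for a given one at `p`. -/
def RamConds.cond {D : LiftData p rb W N r q₀} (C : D.RamConds O)
    (S : Submodule (ZMod p) (LH1 (pPrime p) (adRep p (resRep rb O)))) (v : Nat.Primes) :
    Submodule (ZMod p) (LH1 v (adRep p (resRep rb O))) :=
  if hv : v = pPrime p then hv ▸ S else if v ∈ D.setA then ⊥ else C.L v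

/-- The condition at `p` is the given one. -/
theorem RamConds.cond_p {D : LiftData p rb W N r q₀} (C : D.RamConds O)
    (S : Submodule (ZMod p) (LH1 (pPrime p) (adRep p (resRep rb O)))) : C.cond S (pPrime p) = S :=
  dif_pos rfl

/-- The condition at a framed prime is zero. -/
theorem RamConds.cond_setA {D : LiftData p rb W N r q₀} (C : D.RamConds O)
    (S : Submodule (ZMod p) (LH1 (pPrime p) (adRep p (resRep rb O)))) {v : Nat.Primes}
    (hv : v ∈ D.setA) : C.cond S v = ⊥ := by
  have hvp : v ≠ pPrime p := fun e => D.pPrime_not_mem_setA (e ▸ hv)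
  rw [RamConds.cond, dif_neg hvp, if_pos hv]

/-- The condition at a prime of ramified torsion. -/
theorem RamConds.cond_ram {D : LiftData p rb W N r q₀} (C : D.RamConds O)
    (S : Submodule (ZMod p) (LH1 (pPrime p) (adRep p (resRep rb O)))) {v : Nat.Primes}
    (hvp : v ≠ pPrime p) (hv : v ∉ D.setA) : C.cond S v = C.L v := by
  rw [RamConds.cond, dif_neg hvp, if_neg hv]

/-- The auxiliary primes of a level, as primes. -/
def setL (_D : LiftData p rb W N r q₀) (L : List (GoodIx (liftBad rb W N q₀))) :
    Finset Nat.Primes :=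
  (L.map Subtype.val).toFinset

/-- The Selmer group of conditions at an auxiliary level is small. -/
def SelBound (D : LiftData p rb W N r q₀)
    (Lc : ∀ v : Nat.Primes, Submodule (ZMod p) (LH1 v (adRep p (resRep rb O))))
    (L : List (GoodIx (liftBad rb W N q₀))) (R : ℕ) : Prop :=
  Finite (selAt (D.condT ∪ D.setL L) (adRep p (resRep rb O))
      fun v => if v ∈ D.condT then Lc v else ⊤) ∧
    Nat.card (selAt (D.condT ∪ D.setL L) (adRep p (resRep rb O))
        fun v => if v ∈ D.condT then Lc v else ⊤) *
      ∏ v ∈ D.setA, Nat.card (Coh.H0 (repAt v (adRep p (resRep rb O)))) ≤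
        Nat.card (ResidueField O) ^ R

end Coeff

end LiftData

end Fermat.GR.RT

end
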