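import Mathlib
import Fermat.Agent.GR.RT.Lift.Ctx
import Fermat.Agent.HM.Raise.Package

/-!
# The auxiliary levels of lifting and the levels above them

Above an auxiliary level the primes of a set `T` are added with trivial characters.
-/

set_option autoImplicit false

noncomputable section

namespace Fermat.GR.RT

open Fermat.HM

local notation "Γℚ" => (AlgebraicClosure ℚ ≃ₐ[ℚ] AlgebraicClosure ℚ)

variable {p : ℕ} [hp : Fact p.Prime] {rb : Γℚ →* GL (Fin 2) (ZMod p)} {W : WeierstrassCurve ℤ}
  {N r q₀ : ℕ}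

namespace LiftData

variable (D : LiftData p rb W N r q₀) {n : ℕ} {L : List (GoodIx (liftBad rb W N q₀))}

/-- The auxiliary level. -/
abbrev levK (_D : LiftData p rb W N r q₀) (L : List (GoodIx (liftBad rb W N q₀))) : ℕ :=
  levN N (goodPr (liftBad rb W N q₀)) L

/-- A number whose prime factors are the bad primes of the auxiliary level. -/
def badL (_D : LiftData p rb W N r q₀) (L : List (GoodIx (liftBad rb W N q₀))) : ℕ :=
  liftBad rb W N q₀ * (L.map (goodPr (liftBad rb W N q₀))).prod

/-- The character at the auxiliary primes. -/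
abbrev chiL (hL : TWList p rb n L) : (ZMod (D.levK L))ˣ →* DeltaQ p (fun _ : Fin L.length => n) :=
  hL.chiQ (D.levK L) fun k => dvd_levN_of_mem (L.get_mem k)

/-- The group of the auxiliary level. -/
abbrev grpL (hL : TWList p rb n L) : Subgroup (ZMod (D.levK L))ˣ :=
  auxH (topQuot N) (dvd_levN N (goodPr (liftBad rb W N q₀)) L) (D.chiL hL)

/-- The auxiliary level is positive. -/
theorem neZero_levK [NeZero N] (L : List (GoodIx (liftBad rb W N q₀))) : NeZero (D.levK L) :=
  neZero_levN (N := N) (goodPr (liftBad rb W N q₀)) L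

include D in
/-- The characters at the auxiliary primes are jointly surjective. -/
theorem jointSurj [NeZero N] (hL : TWList p rb n L) :
    JointSurj (dvd_levN N (goodPr (liftBad rb W N q₀)) L) (D.chiL hL) :=
  jointSurj_chiPi (goodPr_injective _) hL.nodup (fun i _ => D.not_dvd_goodIx i) hL.fQ
    hL.fQ_surjective

/-- The diamond quotient. -/
abbrev quotL [NeZero N] (hL : TWList p rb n L) : DiamondQuot (D.levK L) ⊤ (D.grpL hL)
    (PUnit × DeltaQ p (fun _ : Fin L.length => n)) :=
  auxQuot (topQuot N) (D.jointSurj hL)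

/-- Membership in the group of the auxiliary level. -/
theorem mem_grpL {hL : TWList p rb n L} {u : (ZMod (D.levK L))ˣ} :
    u ∈ D.grpL hL ↔ D.chiL hL u = 1 := by
  rw [MonoidHom.mem_ker]
  exact ⟨fun h => congrArg Prod.snd h, fun h => Prod.ext (Subsingleton.elim _ _) h⟩

/-- The character of the diamond quotient. -/
theorem chiTop_quotL [NeZero N] (hL : TWList p rb n L) (v : (ZMod (D.levK L))ˣ) :
    (D.quotL hL).chiTop v = (PUnit.unit, D.chiL hL v) := Prod.ext (Subsingleton.elim _ _) rfl

/-- The diamond quotient is a `p`-group. -/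
theorem isPGroup_delta (L : List (GoodIx (liftBad rb W N q₀))) (m : Fin L.length → ℕ) :
    IsPGroup p (PUnit.{1} × DeltaQ p m) :=
  Fermat.HM.isPGroup_prod (IsPGroup.of_subsingleton p PUnit) (isPGroup_deltaQ p m)

/-- The `p ^ n`-th powers lie in the group of the auxiliary level. -/
theorem pow_mem_grpL (hL : TWList p rb n L) (u : (ZMod (D.levK L))ˣ) : u ^ p ^ n ∈ D.grpL hL := by
  rw [D.mem_grpL, map_pow]
  refine funext fun k => Multiplicative.toAdd.injective ?_
  rw [Pi.pow_apply, toAdd_pow, nsmul_eq_mul, ZMod.natCast_self, zero_mul]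
  rfl

include D in
/-- `-1` lies in the group of the auxiliary level. -/
theorem neg_mem_grpL [NeZero N] (hL : TWList p rb n L) : -1 ∈ D.grpL hL :=
  neg_one_mem_of_chiTop (D.quotL hL) D.p_ne_two (isPGroup_delta L _)

include D in
/-- The number `badL` is not zero. -/
theorem badL_ne_zero : D.badL L ≠ 0 :=
  mul_ne_zero D.bad_ne_zero fun h => by
    obtain ⟨j, -, hj⟩ := List.mem_map.mp (List.prod_eq_zero_iff.mp h)
    exact j.1.2.ne_zero hj

/-- Excluded primes stay excluded at the auxiliary level. -/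
theorem dvd_badL {q : ℕ} (h : q ∣ liftBad rb W N q₀) : q ∣ D.badL L := h.mul_right _

include D in
/-- The torsion is unramified at the good primes of the auxiliary level. -/
theorem resUnrL (i : GoodIx (D.badL L)) : IsResUnramified p rb (goodPr (D.badL L) i) :=
  D.resUnr i.1.2 fun h => i.2 (h.mul_right _)

include D in
/-- The auxiliary level is squarefree. -/
theorem squarefree_levK (hL : L.Nodup) : Squarefree (D.levK L) :=
  squarefree_levN (goodPr_injective _) D.squarefree L hL fun i _ => D.not_dvd_goodIx i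

/-- The level divides the auxiliary one. -/
theorem dvd_levK {q : ℕ} (hq : q ∣ N) : q ∣ D.levK L := hq.trans (dvd_levN N _ L)

/-- A prime of the auxiliary level divides `N` or is an auxiliary prime. -/
theorem levK_cases {q : ℕ} (hq : q.Prime) (h : q ∣ D.levK L) :
    q ∣ N ∨ ∃ i ∈ L, goodPr (liftBad rb W N q₀) i = q := by
  rw [levK, levN_eq] at h
  rcases hq.dvd_mul.mp h with h | h
  · exact Or.inl h
  · obtain ⟨a, ha, hqa⟩ := (Prime.dvd_prod_iff hq.prime).mp h
    obtain ⟨i, hi, rfl⟩ := List.mem_map.mp ha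
    exact Or.inr ⟨i, hi, ((Nat.prime_dvd_prime_iff_eq hq i.1.2).mp hqa).symm⟩

/-- An excluded prime not dividing `N` does not divide the auxiliary level. -/
theorem not_dvd_levK_of_dvd_bad {q : ℕ} (hq : q.Prime) (hqB : q ∣ liftBad rb W N q₀)
    (hqN : ¬ q ∣ N) : ¬ q ∣ D.levK L := fun h =>
  (D.levK_cases hq h).elim hqN fun ⟨i, _, hi⟩ => i.2 (by
    show ((i.1 : Nat.Primes) : ℕ) ∣ _
    rw [show ((i.1 : Nat.Primes) : ℕ) = q from hi]; exact hqB)

include D in
/-- The framed primes do not divide the auxiliary level. -/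
theorem not_dvd_levK_frame {q : ℕ} (h : q ∈ frPrimes rb W q₀) : ¬ q ∣ D.levK L :=
  D.not_dvd_levK_of_dvd_bad (D.prime_of_mem h) (D.dvd_bad_of_mem_frPrimes h) (D.not_dvd_of_mem h)

/-- `p` does not divide the auxiliary level, when it does not divide `N`. -/
theorem p_not_dvd_levK (hpN : ¬ p ∣ N) : ¬ p ∣ D.levK L :=
  D.not_dvd_levK_of_dvd_bad hp.out D.p_dvd_bad hpN

/-- The level with the primes of `T` added. -/
abbrev levT (L : List (GoodIx (liftBad rb W N q₀))) (T : Finset Nat.Primes) : ℕ :=
  D.levK L * ∏ t ∈ T, (t : ℕ)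

/-- The auxiliary level divides the level with `T` added. -/
theorem dvd_levT (T : Finset Nat.Primes) : D.levK L ∣ D.levT L T := dvd_mul_right _ _

/-- The level with `T` added is positive. -/
theorem neZero_levT [NeZero N] (L : List (GoodIx (liftBad rb W N q₀))) (T : Finset Nat.Primes) :
    NeZero (D.levT L T) :=
  haveI := D.neZero_levK L
  ⟨mul_ne_zero (NeZero.ne _) (Finset.prod_ne_zero_iff.mpr fun t _ => t.2.ne_zero)⟩

/-- The subgroup defining the level with `T` added. -/
abbrev grpT (hL : TWList p rb n L) (T : Finset Nat.Primes) : Subgroup (ZMod (D.levT L T))ˣ :=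
  lvlH (D.grpL hL) (D.dvd_levT T)

/-- The `p ^ n`-th powers lie in the group of the level with `T` added. -/
theorem pow_mem_grpT (hL : TWList p rb n L) (T : Finset Nat.Primes)
    (u : (ZMod (D.levT L T))ˣ) : u ^ p ^ n ∈ D.grpT hL T := by
  rw [Subgroup.mem_comap, map_pow]
  exact D.pow_mem_grpL hL _

include D in
/-- `-1` lies in the group of the level with `T` added. -/
theorem neg_mem_grpT [NeZero N] (hL : TWList p rb n L) (T : Finset Nat.Primes) :
    -1 ∈ D.grpT hL T :=
  (negMem_lvlH (D.neg_mem_grpL hL) (D.dvd_levT T)).neg_one_mem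

include D in
/-- The levels are squarefree. -/
theorem squarefree_levT (hL : L.Nodup) {T : Finset Nat.Primes}
    (hT : ∀ t ∈ T, ¬ (t : ℕ) ∣ D.levK L) : Squarefree (D.levT L T) := by
  classical
  have hsq : ∀ S : Finset Nat.Primes, Squarefree (∏ t ∈ S, (t : ℕ)) := by
    intro S
    induction S using Finset.induction_on with
    | empty => rw [Finset.prod_empty]; exact squarefree_one
    | insert a s ha ih =>
      rw [Finset.prod_insert ha]
      refine (Nat.squarefree_mul ?_).mpr ⟨a.2.squarefree, ih⟩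
      exact Nat.Coprime.prod_right fun t ht =>
        (Nat.coprime_primes a.2 t.2).mpr fun e => ha (Subtype.ext e ▸ ht)
  exact (Nat.squarefree_mul (Nat.Coprime.prod_right fun t ht =>
    ((t.2.coprime_iff_not_dvd).mpr (hT t ht)).symm)).mpr ⟨D.squarefree_levK hL, hsq T⟩

/-- A prime dividing `levT L T` divides `N`, is in `L` or is in `T`. -/
theorem levT_cases {T : Finset Nat.Primes} {q : ℕ} (hq : q.Prime) (h : q ∣ D.levT L T) :
    q ∣ N ∨ (∃ i ∈ L, goodPr (liftBad rb W N q₀) i = q) ∨ ∃ t ∈ T, (t : ℕ) = q := by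
  rcases hq.dvd_mul.mp h with h | h
  · exact (D.levK_cases hq h).imp_right Or.inl
  · obtain ⟨t, ht, hqt⟩ := (Prime.dvd_finsetProd_iff hq.prime _).mp h
    exact Or.inr (Or.inr ⟨t, ht, ((Nat.prime_dvd_prime_iff_eq hq t.2).mp hqt).symm⟩)

include D in
/-- Units congruent to one away from a prime which is not auxiliary lie in the group. -/
theorem mem_grpT_of_one [NeZero N] (hL : TWList p rb n L) {T : Finset Nat.Primes} {q K' : ℕ}
    (hqB : q ∣ liftBad rb W N q₀) (hK : K' * q = D.levT L T)
    {u : (ZMod (D.levT L T))ˣ} (hu : ((u : ZMod (D.levT L T)).val : ZMod K') = 1) :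
    u ∈ D.grpT hL T := by
  have := D.neZero_levT L T
  rw [Subgroup.mem_comap, D.mem_grpL]
  refine funext fun k => ?_
  change chiPi _ _ _ _ (ZMod.unitsMap (D.dvd_levT T) u) k = 1
  rw [chiPi_unitsMap _ _ _ fun j => (dvd_levN_of_mem (L.get_mem j)).trans (D.dvd_levT T)]
  refine chiPi_eq_one _ _ _ (val_cast_eq_one_of_dvd ?_ hu)
  have hd : goodPr (liftBad rb W N q₀) (L.get k) ∣ K' * q :=
    hK ▸ (dvd_levN_of_mem (L.get_mem k)).trans (D.dvd_levT T)
  refine ((L.get k).1.2.dvd_mul.mp hd).resolve_right fun e => (L.get k).2 ?_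
  exact e.trans hqB

/-- A prime divides a squarefree number only once. -/
theorem not_dvd_of_mul_eq {q K' K : ℕ} (hK : Squarefree K) (hq : q.Prime) (h : K' * q = K) :
    ¬ q ∣ K' := fun hd => hq.one_lt.ne' (Nat.isUnit_iff.mp (hK q (h ▸ Nat.mul_dvd_mul_right hd q)))

end LiftData

end Fermat.GR.RT

end
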