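import Mathlib
import Fermat.Agent.GR.RT.Lift.Ctx
import Fermat.Agent.GR.RT.Lift.OrdTwist
import Fermat.Agent.GR.RT.LevelChain

/-!
# Liftings and their local properties

The points used in modularity lifting, eigen systems and the curve alike, are liftings of `rb` with
coefficients in finite extensions of `O`.
-/

set_option autoImplicit false

noncomputable section

open IsLocalRing Fermat.CFT ExtCitation

namespace Fermat.GR.RT

local notation "ℚbar" => AlgebraicClosure ℚ
local notation "Γℚ" => (AlgebraicClosure ℚ ≃ₐ[ℚ] AlgebraicClosure ℚ)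
local notation "M2" R => Matrix (Fin 2) (Fin 2) R

/-- If `F` scales a traceless `X` by `q` and has trace `u (q + 1)`, the Steinberg relations hold. -/
theorem steinberg_relations {B : Type} [CommRing B] [IsDomain B] [CharZero B] {F X : M2 B} {u : B}
    {q : ℕ} (hq : q ≠ 1) (hX : X.trace = 0) (hF : F.trace = u * ((q : B) + 1))
    (hc : F * X = (q : B) • (X * F)) :
    (F - (u * (q : B)) • (1 : M2 B)) * X = 0 ∧ X * (F - u • (1 : M2 B)) = 0 := by
  have hq1 : (q : B) - 1 ≠ 0 := sub_ne_zero.mpr (by exact_mod_cast hq)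
  have hq2 : (q : B) + 1 ≠ 0 := Nat.cast_add_one_ne_zero q
  -- `F X` has trace zero, so `F X + X F = (tr F) X`
  have htr : (F * X).trace = 0 := by
    have h := congrArg Matrix.trace hc
    rw [Matrix.trace_smul, Matrix.trace_mul_comm X F, smul_eq_mul] at h
    exact (mul_eq_zero.mp (show ((q : B) - 1) * (F * X).trace = 0 by
      linear_combination -h)).resolve_left hq1
  have hsum : F * X + X * F = F.trace • X := by
    rw [Matrix.trace_fin_two] at hX
    rw [Matrix.trace_fin_two, Matrix.mul_apply, Matrix.mul_apply, Fin.sum_univ_two,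
      Fin.sum_univ_two] at htr
    ext i j
    fin_cases i <;> fin_cases j <;>
      simp [Matrix.mul_apply, Fin.sum_univ_two, Matrix.trace_fin_two]
    · linear_combination htr - (F 1 1) * hX
    · linear_combination (F 0 1) * hX
    · linear_combination (F 1 0) * hX
    · linear_combination htr - (F 0 0) * hX
  -- hence both relations
  have hXF : X * F = u • X := by
    rw [hc, hF] at hsum
    refine Matrix.ext fun i j => mul_left_cancel₀ hq2 ?_
    have h := congrFun (congrFun hsum i) j
    simp only [Matrix.add_apply, Matrix.smul_apply, smul_eq_mul] at h ⊢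
    linear_combination h
  refine ⟨?_, ?_⟩
  · rw [sub_mul, Matrix.smul_mul, one_mul, hc, hXF, smul_smul, mul_comm, sub_self]
  · rw [mul_sub, Matrix.mul_smul, mul_one, hXF, sub_self]

/-- A lifting of `rb` with cyclotomic determinant, in a finite extension of `O`. -/
structure Lifting {p : ℕ} [Fact p.Prime] (rb : Γℚ →* GL (Fin 2) (ZMod p)) {O : Type} [CommRing O]
    [IsLocalRing O] (hO : (p : O) ∈ maximalIdeal O) : Type 1 where
  /-- The coefficient ring, a finite extension of `O`. -/
  B : Type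
  [commRing : CommRing B]
  [isDomain : IsDomain B]
  [dvr : IsDiscreteValuationRing B]
  [complete : IsAdicComplete (maximalIdeal B) B]
  [algebra : Algebra O B]
  [finite : Module.Finite O B]
  [isLocal : IsLocalHom (algebraMap O B)]
  /-- `p` lies in the maximal ideal. -/
  mem : (p : B) ∈ maximalIdeal B
  /-- The representation. -/
  rep : Γℚ →* M2 B
  /-- It is continuous. -/
  cont : MatCont rep
  /-- Its determinant is cyclotomic. -/
  det : ∀ σ, (rep σ).det = cycO mem σ
  /-- Its trace reduces to that of `rb`. -/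
  trace : ∀ σ, residue B (rep σ).trace =
    ((ResidueField.map (algebraMap O B)).comp (resCast hO))
      (rb σ : Matrix (Fin 2) (Fin 2) (ZMod p)).trace

attribute [instance] Lifting.commRing Lifting.isDomain Lifting.dvr Lifting.complete
  Lifting.algebra Lifting.finite Lifting.isLocal

variable {p : ℕ} [hp : Fact p.Prime] {rb : Γℚ →* GL (Fin 2) (ZMod p)} {O : Type} [CommRing O]
  [IsLocalRing O] {hO : (p : O) ∈ maximalIdeal O}

namespace Lifting

variable (P : Lifting rb hO)

/-- Trivial on inertia outside `S`. -/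
def UnrOutside (S : Finset Nat.Primes) : Prop :=
  ∀ v : Nat.Primes, v ∉ S → ∀ A : ValuationSubring ℚbar, A.LiesOverPrime (v : ℕ) →
    ∀ σ ∈ A.inertiaSubgroupIn ℚ, P.rep σ = 1

/-- Trivial on inertia at `v`. -/
def UnrAt (v : Nat.Primes) : Prop := ∀ σ ∈ (placeAt v).inertiaSubgroupIn ℚ, P.rep σ = 1

/-- The Steinberg relations at `v`, with sign `u`. -/
def StAt (v : Nat.Primes) (u : O) : Prop :=
  ∀ φ : Γℚ, (placeAt v).IsFrobeniusAt φ v → ∀ σ ∈ (placeAt v).inertiaSubgroupIn ℚ,
    (P.rep φ).trace = algebraMap O P.B u * (((v : ℕ) : P.B) + 1) ∧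
    (P.rep σ).trace = 2 ∧ (P.rep σ).det = 1 ∧
    (P.rep φ - (algebraMap O P.B u * ((v : ℕ) : P.B)) • (1 : M2 P.B)) * (P.rep σ - 1) = 0 ∧
    (P.rep σ - 1) * (P.rep φ - algebraMap O P.B u • (1 : M2 P.B)) = 0

/-- A twist, unramified at `p` and of `p`-power order, of a flat representation. -/
def FlatAtP : Prop :=
  ∃ (r : Γℚ →* M2 P.B) (hr : MatCont r) (t : Γℚ →* P.B), (repOf r hr).IsFlatAt p ∧
    (∀ σ, ∃ n : ℕ, t σ ^ p ^ n = 1) ∧
    (∀ σ ∈ (placeAt (pPrime p)).inertiaSubgroupIn ℚ, t σ = 1) ∧ ∀ σ, P.rep σ = t σ • r σ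

/-- An unramified quotient at `p` on which Frobenius is a root of `X² - c X + p`. -/
def OrdRootAt (c : P.B) : Prop :=
  ∃ Q : (M2 P.B)ˣ, IsOrdBasis (placeAt (pPrime p)) P.rep Q ∧
    ∀ φ : Γℚ, (placeAt (pPrime p)).IsFrobeniusAt φ p →
      ((Q : M2 P.B) * P.rep φ * (↑Q⁻¹ : M2 P.B)) 1 1 ^ 2 -
        c * ((Q : M2 P.B) * P.rep φ * (↑Q⁻¹ : M2 P.B)) 1 1 + (p : P.B) = 0

/-- An unramified quotient at `p` on which Frobenius is `u`, with the strict relation for `e`. -/
def OrdSignAt [Finite (ResidueField O)] (e : decAt (pPrime p) → O) (u : O) : Prop :=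
  StrictRel O (pPrime p) e P.rep ∧
    ∃ Q : (M2 P.B)ˣ, IsOrdBasis (placeAt (pPrime p)) P.rep Q ∧
      ∀ φ : Γℚ, (placeAt (pPrime p)).IsFrobeniusAt φ p →
        ((Q : M2 P.B) * P.rep φ * (↑Q⁻¹ : M2 P.B)) 1 1 = algebraMap O P.B u

end Lifting

/-- The ordinary residual data at `p`: the triangular form and a sign character lifting the
quotient. -/
structure OrdSigns (rb : Γℚ →* GL (Fin 2) (ZMod p)) (O : Type) [CommRing O] [IsLocalRing O]
    [Algebra (ZMod p) (ResidueField O)] : Type where
  /-- The residual triangular form at `p`. -/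
  res : OrdRes (placeAt (pPrime p)) (resRep rb O)
  /-- The sign character. -/
  e : decAt (pPrime p) → O
  /-- Its value at Frobenius. -/
  u : O
  /-- `u` is a sign. -/
  u_sign : u = 1 ∨ u = -1
  /-- `e` takes the values `±1`. -/
  sign : ∀ δ, e δ = 1 ∨ e δ = -1
  /-- `e` lifts the residual quotient character. -/
  lift : ∀ δ, residue O (e δ) = res.d δ
  /-- Every Frobenius at `p` has sign `u`. -/
  frob : ∀ δ : decAt (pPrime p), (placeAt (pPrime p)).IsFrobeniusAt δ.1 p → e δ = u

variable [IsDomain O] [Algebra (ZMod p) (ResidueField O)]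

/-- Derivations killing the values at the points of `s`, and `extra`, have classes in `S` at
`p`. -/
def AtPCond (S : Submodule (ZMod p) (LH1 (pPrime p) (adRep p (resRep rb O)))) {ι : Type}
    (P : ι → Lifting rb hO) {R : Type} [CommRing R] [IsLocalRing R] [Algebra O R]
    (pr : ∀ i, R →ₐ[O] (P i).B) (rep : Γℚ →* M2 R) (s : Set ι) (extra : Set R) : Prop :=
  ∀ (π : R →+* ResidueField O) (d : R → ResidueField O), (∀ a ∈ maximalIdeal R, π a = 0) →
    π.comp (algebraMap O R) = residue O → resHom π rep = resRep rb O → IsDeriv π d →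
    (∀ o, d (algebraMap O R o) = 0) → (∀ σ, d (rep σ).det = 0) →
    (∀ y ∈ ptsIdeal pr s, d y = 0) → (∀ y ∈ extra, d y = 0) →
    ∀ z : Coh.Z1 (glev (decAt (pPrime p)).subtype) (repAt (pPrime p) (adRep p (resRep rb O))),
      (∀ δ, ((z.1 δ : adZero p (ResidueField O)) : M2 (ResidueField O)) = tcoc π rep d δ.1) →
        Coh.cl₁ (glev (decAt (pPrime p)).subtype)
          (repAt (pPrime p) (adRep p (resRep rb O))) z ∈ S

end Fermat.GR.RT

end
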