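import Mathlib
import Fermat.Agent.GR.RT.Lift.Level
import Fermat.Agent.GR.RT.Lift.Lifting
import Fermat.Agent.GR.RT.LiftInputs
import Fermat.Agent.GR.RT.LowerPoints

/-!
# The eigen systems of the levels of lifting

Definitions: the congruent systems of a level with prescribed signs at the raised primes, and what
is to be known about each of them.
-/

set_option autoImplicit false

noncomputable section

open MvPolynomial IsLocalRing Fermat.CFT ExtCitation

namespace Fermat.GR.RT

open Fermat.HM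

local notation "ℚbar" => AlgebraicClosure ℚ
local notation "Γℚ" => (AlgebraicClosure ℚ ≃ₐ[ℚ] AlgebraicClosure ℚ)

variable {p : ℕ} [hp : Fact p.Prime] {rb : Γℚ →* GL (Fin 2) (ZMod p)} {W : WeierstrassCurve ℤ}
  {N r q₀ : ℕ}

namespace LiftData

variable {O : Type} [CommRing O] {n : ℕ} {L : List (GoodIx (liftBad rb W N q₀))}

/-- The primes to be raised, with their square roots of the diamond operators and their signs. -/
structure Signs (D : LiftData p rb W N r q₀) (hL : TWList p rb n L) (Q : Finset Nat.Primes)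
    (v : ℕ → (ZMod (D.levK L))ˣ) (ε : ℕ → O) : Prop where
  /-- The primes are `p` or framed primes other than `q₀`. -/
  mem : ∀ t ∈ Q, t = pPrime p ∨ ((t : ℕ) ∈ frPrimes rb W q₀ ∧ (t : ℕ) ≠ q₀)
  /-- The primes are prime to the level. -/
  not_dvd : ∀ t ∈ Q, ¬ (t : ℕ) ∣ D.levK L
  /-- `ε` takes the values `±1`. -/
  sign : ∀ t ∈ Q, ε t = 1 ∨ ε t = -1
  /-- `v t` is a square root of `t` up to the subgroup of the level. -/
  root : ∀ t ∈ Q, ∀ u : (ZMod (D.levK L))ˣ, (u : ZMod (D.levK L)) * (t : ℕ) = 1 →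
    v t * v t * u ∈ D.grpL hL

variable [IsDomain O] [IsDiscreteValuationRing O] [IsAdicComplete (maximalIdeal O) O]
  [Finite (ResidueField O)] [CharZero O]

/-- The congruent systems of the level with the primes of `T` added, with the given signs there. -/
def ptsT [NeZero N] (D : LiftData p rb W N r q₀) (hL : TWList p rb n L)
    (hO : (p : O) ∈ maximalIdeal O) (v : ℕ → (ZMod (D.levK L))ˣ) (ε : ℕ → O)
    (T : Finset Nat.Primes) :
    Set (MvPolynomial (Nat.Primes ⊕ (ZMod (D.levT L T))ˣ) ℤ →+*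
      AlgebraicClosure (FractionRing O)) :=
  haveI := D.neZero_levT L T
  {x | IsPoint (D.levT L T) (D.grpT hL T) x ∧
    CongruentTo (goodPr (D.badL L)) (sysIdeal (theta rb hO (D.badL L))) x ∧
    ∀ t ∈ T, ∀ w : (ZMod (D.levT L T))ˣ, ZMod.unitsMap (D.dvd_levT T) w = v t →
      algebraMap O _ (ε t) + x (X (Sum.inr w)) * x (X (Sum.inl t)) = 0}

/-- `p` is in the level and cannot leave it. -/
def PStuck (_D : LiftData p rb W N r q₀) : Prop :=
  p ∣ N ∧ ∀ M : ℕ, Squarefree M → ¬ p ∣ M → ¬ ModularOf p rb M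

variable [Algebra (ZMod p) (ResidueField O)]

/-- What is used about a congruent system: a lifting with its local properties and its values. -/
structure PtFacts [NeZero N] (D : LiftData p rb W N r q₀) (C : D.RamConds O)
    (hL : TWList p rb n L) (hO : (p : O) ∈ maximalIdeal O) (Q T : Finset Nat.Primes)
    (v : ℕ → (ZMod (D.levK L))ˣ) (ε : ℕ → O)
    (x : MvPolynomial (Nat.Primes ⊕ (ZMod (D.levT L T))ˣ) ℤ →+*
      AlgebraicClosure (FractionRing O)) : Type 1 where
  /-- The lifting. -/
  lift : Lifting rb hO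
  /-- The integral form of the system. -/
  y : MvPolynomial (Nat.Primes ⊕ (ZMod (D.levT L T))ˣ) ℤ →+* lift.B
  /-- The embedding of the ring of values. -/
  j : lift.B →ₐ[O] AlgebraicClosure (FractionRing O)
  /-- `y` is an integral form of `x`. -/
  comp : (j : lift.B →+* _).comp y = x
  /-- The diamond character. -/
  dia : (ZMod (D.levT L T))ˣ →* lift.B
  /-- It gives the values of the diamond operators. -/
  dia_apply : ∀ w, y (X (Sum.inr w)) = dia w
  /-- It is trivial on the subgroup of the level. -/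
  dia_mem : ∀ w, w ∈ D.grpT hL T → dia w = 1
  /-- Frobenius at good primes: trace `T ℓ` times a diamond value, determinant `ℓ`. -/
  frob : ∀ ℓ : Nat.Primes, ¬ (ℓ : ℕ) ∣ D.badL L → ∀ A : ValuationSubring ℚbar,
    A.LiesOverPrime (ℓ : ℕ) → ∀ φ : Γℚ, A.IsFrobeniusAt φ ℓ →
      (∀ u : (ZMod (D.levT L T))ˣ, (u : ZMod (D.levT L T)) = ((ℓ : ℕ) : ZMod (D.levT L T)) →
        (lift.rep φ).trace = y (X (Sum.inl ℓ)) * dia (u ^ ((p ^ n + 1) / 2))) ∧
      (lift.rep φ).det = ((ℓ : ℕ) : lift.B)
  /-- The lifting is unramified outside the bad and auxiliary primes. -/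
  unr : lift.UnrOutside (D.condT ∪ D.setL L)
  /-- It is strict at the ramified primes other than `p`. -/
  ram : ∀ q : Nat.Primes, (q : ℕ) ≠ p → ¬ IsResUnramified p rb q →
    StrictRel O q (C.e q) lift.rep
  /-- It is unramified at framed primes not yet raised. -/
  unrA : ∀ q ∈ D.setA, q ∉ T → lift.UnrAt q
  /-- It is Steinberg of sign `-ε q` at raised framed primes. -/
  stA : ∀ q ∈ D.setA, q ∈ T → lift.StAt q (-ε q)
  /-- Inertia at an auxiliary prime has trace a diamond value plus its inverse. -/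
  inertiaL : ∀ i ∈ L, ∀ σ ∈ (placeAt i.1).inertiaSubgroupIn ℚ,
    haveI := D.neZero_levT L T
    (lift.rep σ).trace = dia (cycK (D.levT L T) σ ^ ((p ^ n - 1) / 2)) +
      dia (cycK (D.levT L T) σ⁻¹ ^ ((p ^ n - 1) / 2))
  /-- At a prime `t` still to be raised Frobenius has trace `⟨w⟩ T_t`, `w` above the root `v t`. -/
  trace_raise : ∀ t ∈ Q, t ∉ T → t ≠ pPrime p → ∀ w : (ZMod (D.levT L T))ˣ,
    ZMod.unitsMap (D.dvd_levT T) w = v t → ∀ φ : Γℚ, (placeAt t).IsFrobeniusAt φ t →
      (lift.rep φ).trace = dia w * y (X (Sum.inl t))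
  /-- It is flat at `p` if the level is prime to `p`. -/
  flat : ¬ p ∣ D.levT L T → lift.FlatAtP
  /-- At level prime to `p` it is ordinary with Frobenius a root of `X² - ⟨w⟩ T_p X + p`. -/
  ordRoot : ¬ p ∣ D.levT L T → OrdSigns rb O → pPrime p ∈ Q →
    ∀ w : (ZMod (D.levT L T))ˣ, ZMod.unitsMap (D.dvd_levT T) w = v p →
      lift.OrdRootAt (dia w * y (X (Sum.inl (pPrime p))))
  /-- It is ordinary with the given signs if `p` is raised with `ε p = -u` or is stuck in the
  level. -/
  ordSign : ∀ S : OrdSigns rb O, (pPrime p ∈ T ∧ ε p = -S.u) ∨ D.PStuck →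
    lift.OrdSignAt S.e S.u

end LiftData

end Fermat.GR.RT

end
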