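import Mathlib
import Fermat.Agent.GR.RT.Lift.PointSet
import Fermat.Agent.GR.RT.LowerDiamond

/-!
# Inertia at the auxiliary primes reaches the diamond parameters

`exists_inertia_chiL`: some inertia element at an auxiliary prime reaches its generator.
-/

set_option autoImplicit false

noncomputable section

namespace Fermat.GR.RT

open Fermat.HM

local notation "Γℚ" => (AlgebraicClosure ℚ ≃ₐ[ℚ] AlgebraicClosure ℚ)

namespace LiftData

variable {p : ℕ} [hp : Fact p.Prime] {rb : Γℚ →* GL (Fin 2) (ZMod p)} {W : WeierstrassCurve ℤ}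
  {N r q₀ : ℕ} {D : LiftData p rb W N r q₀} {n : ℕ} {L : List (GoodIx (liftBad rb W N q₀))}
  {hL : TWList p rb n L}

/-- The auxiliary primes divide the auxiliary level. -/
theorem dvd_levK_get (k : Fin L.length) : goodPr (liftBad rb W N q₀) (L.get k) ∣ D.levK L :=
  dvd_levN_of_mem (L.get_mem k)

/-- **Inertia at an auxiliary prime reaches its generator.** -/
theorem exists_inertia_chiL [NeZero (D.levK L)] (k : Fin L.length) :
    ∃ τ ∈ (Fermat.CFT.placeAt (L.get k).1).inertiaSubgroupIn ℚ,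
      D.chiL hL (cycK (D.levK L) τ) = Pi.mulSingle k (Multiplicative.ofAdd (1 : ZMod (p ^ n))) := by
  classical
  obtain ⟨b, hb⟩ := hL.fQ_surjective k (Multiplicative.ofAdd 1)
  -- a unit trivial away from the prime with the generator as value there
  obtain ⟨v, hv1, hvb⟩ := exists_unit_crt (N := N) (goodPr_injective (liftBad rb W N q₀)) L hL.nodup
    (fun i _ => D.not_dvd_goodIx i) 1
    fun i => if h : L.get k = i then h ▸ b else 1
  obtain ⟨K', hK⟩ := dvd_levK_get (D := D) (L := L) k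
  rw [mul_comm] at hK
  have hℓ := (L.get k).1.2
  have hℓK' : ¬ goodPr (liftBad rb W N q₀) (L.get k) ∣ K' :=
    not_dvd_of_mul_eq (D.squarefree_levK hL.nodup) hℓ hK.symm
  have : NeZero K' := ⟨fun h => NeZero.ne (D.levK L) (by rw [hK, h, zero_mul])⟩
  have hv : ((v : ZMod (D.levK L)).val : ZMod K') = 1 :=
    val_eq_one_of_unitsMap ⟨_, hK⟩ ((D.squarefree_levK hL.nodup).squarefree_of_dvd ⟨_, hK⟩) hv1
      fun i hi hiK => by
        have hne : L.get k ≠ i := fun e => hℓK' (e ▸ hiK)
        rw [hvb i hi, dif_neg hne]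
  -- it is the value of an inertia element
  obtain ⟨τ, hτ, hτv⟩ := exists_inertia_cycK hℓ hK.symm hℓK' (Fermat.CFT.placeAt_spec _) v hv
  refine ⟨τ, hτ, ?_⟩
  rw [hτv]
  refine funext fun j => ?_
  change chiPi _ hL.fQ _ _ v j =
      (Pi.mulSingle k (Multiplicative.ofAdd (1 : ZMod (p ^ n))) :
        Fin L.length → Multiplicative (ZMod (p ^ n))) j
  rw [chiPi_apply, hvb _ (L.get_mem j)]
  by_cases hjk : j = k
  · subst hjk
    rw [dif_pos rfl, Pi.mulSingle_eq_same]
    exact hb
  · rw [dif_neg fun e => hjk ((List.nodup_iff_injective_get.mp hL.nodup) e.symm),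
      Pi.mulSingle_eq_of_ne hjk, map_one]

include D in
/-- Some inertia element at the `k`-th auxiliary prime gives, after the power `(p ^ n - 1) / 2`, the
generator of the `k`-th diamond quotient. -/
theorem exists_inertia_half [NeZero N] [NeZero (D.levK L)] (k : Fin L.length) :
    ∃ σ ∈ (Fermat.CFT.placeAt (L.get k).1).inertiaSubgroupIn ℚ,
      D.chiL hL (cycK (D.levK L) σ ^ ((p ^ n - 1) / 2)) =
        Pi.mulSingle k (Multiplicative.ofAdd (1 : ZMod (p ^ n))) := by
  obtain ⟨τ, hτ, hχ⟩ := exists_inertia_chiL (D := D) (hL := hL) k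
  refine ⟨τ ^ (p ^ n - 2), pow_mem hτ _, ?_⟩
  obtain ⟨m, hm⟩ : Odd (p ^ n) := Odd.pow (hp.out.odd_of_ne_two D.p_ne_two)
  have hm1 : 1 ≤ m := by
    have : 3 ≤ p ^ n := le_trans (by have := D.two_lt; omega)
      (Nat.le_self_pow (by have := hL.pos; omega) p)
    omega
  simp only [map_pow]
  rw [← pow_mul, hχ, ← Pi.mulSingle_pow, ← ofAdd_nsmul, nsmul_one]
  refine congrArg (Pi.mulSingle k) (congrArg Multiplicative.ofAdd ?_)
  obtain ⟨l, rfl⟩ : ∃ l, m = l + 1 := ⟨m - 1, by omega⟩
  have e : (p ^ n - 2) * ((p ^ n - 1) / 2) = l * p ^ n + 1 := by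
    rw [hm, show (2 * (l + 1) + 1 - 1) / 2 = l + 1 by omega,
      show 2 * (l + 1) + 1 - 2 = 2 * l + 1 by omega]
    ring
  rw [e, Nat.cast_add, Nat.cast_mul, ZMod.natCast_self, mul_zero, zero_add, Nat.cast_one]

end LiftData

end Fermat.GR.RT

end
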