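import Mathlib
import Fermat.Agent.GR.RT.Lift.PointSet
import Fermat.Agent.HM.Raise.Package

/-!
# Raising at the framed primes over the levels of lifting

The contexts of raising at the base level and at an auxiliary level, and the labels of the
operators used.
-/

set_option autoImplicit false
set_option linter.unusedSectionVars false

noncomputable section

open IsLocalRing

namespace Fermat.GR.RT

open Fermat.HM

variable {p : ℕ} [hp : Fact p.Prime]

local notation "Γℚ" => (AlgebraicClosure ℚ ≃ₐ[ℚ] AlgebraicClosure ℚ)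

variable {rb : Γℚ →* GL (Fin 2) (ZMod p)} {W : WeierstrassCurve ℤ} {N r q₀ : ℕ}

namespace LiftData

variable {O : Type} [CommRing O] {L : List (GoodIx (liftBad rb W N q₀))} {n : ℕ}

/-- The data of raising at a list of primes. -/
structure Raise (_D : LiftData p rb W N r q₀) (qs : List ℕ) (ε : ℕ → O) : Prop where
  /-- The primes are distinct. -/
  nodup : qs.Nodup
  /-- The primes are `p` or framed primes other than `q₀`. -/
  mem : ∀ s ∈ qs, s = p ∨ (s ∈ frPrimes rb W q₀ ∧ s ≠ q₀)
  /-- The primes do not divide the level. -/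
  not_dvd : ∀ s ∈ qs, ¬ s ∣ N
  /-- `ε` takes the values `±1`. -/
  sign : ∀ s ∈ qs, ε s = 1 ∨ ε s = -1

/-- The primes of a list. -/
def primeSet (qs : List ℕ) : Finset Nat.Primes :=
  (qs.toFinset.subtype Nat.Prime).map ⟨fun q => (⟨q.1, q.2⟩ : Nat.Primes), fun _ _ h =>
    Subtype.ext (congrArg (fun v : Nat.Primes => (v : ℕ)) h)⟩

/-- The members of `primeSet`. -/
theorem mem_primeSet {qs : List ℕ} {t : Nat.Primes} : t ∈ primeSet qs ↔ (t : ℕ) ∈ qs := by
  simp only [primeSet, Finset.mem_map, Finset.mem_subtype, List.mem_toFinset]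
  exact ⟨fun ⟨_, ha, e⟩ => e ▸ ha, fun h => ⟨⟨t, t.2⟩, h, Subtype.ext rfl⟩⟩

variable {D : LiftData p rb W N r q₀} {qs : List ℕ} {ε : ℕ → O}

/-- The raised primes are excluded from the operators. -/
theorem Raise.dvd_bad (h : D.Raise qs ε) {s : ℕ} (hs : s ∈ qs) : s ∣ liftBad rb W N q₀ := by
  rcases h.mem s hs with rfl | h'
  · exact D.p_dvd_bad
  · exact D.dvd_bad_of_mem_frPrimes h'.1

/-- The raised primes are prime. -/
theorem Raise.prime (h : D.Raise qs ε) {s : ℕ} (hs : s ∈ qs) : s.Prime := by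
  rcases h.mem s hs with rfl | h'
  · exact hp.out
  · exact D.prime_of_mem h'.1

/-- The raised primes are none of the primes of the operators. -/
theorem Raise.family (h : D.Raise qs ε) {s : ℕ} (hs : s ∈ qs)
    (i : GoodIx (liftBad rb W N q₀)) : goodPr (liftBad rb W N q₀) i ≠ s := fun e =>
  i.2 (show ((i.1 : Nat.Primes) : ℕ) ∣ _ by
    rw [show ((i.1 : Nat.Primes) : ℕ) = s from e]; exact h.dvd_bad hs)

variable [IsDomain O] [IsDiscreteValuationRing O]
  [IsAdicComplete (maximalIdeal O) O] [Finite (ResidueField O)] [CharZero O]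

/-- The data of raising at the base level. -/
theorem Raise.rootData (h : D.Raise qs ε) (hO : (p : O) ∈ maximalIdeal O) :
    RootData (topQuot N).chiTop (goodPr (liftBad rb W N q₀)) (fun _ => 1) ε qs where
  two := isUnit_two_of_mem D.p_ne_two hO
  good := ⟨h.nodup, fun s hs => ⟨h.prime hs, h.not_dvd s hs⟩⟩
  family s hs := h.family hs
  sign s hs := by rcases h.sign s hs with e | e <;> simp [e]
  root s hs := by
    have hcop : s.Coprime N := (h.prime hs).coprime_iff_not_dvd.mpr (h.not_dvd s hs)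
    refine ⟨(ZMod.unitOfCoprime s hcop)⁻¹, ?_, Subsingleton.elim _ _⟩
    rw [← ZMod.coe_unitOfCoprime s hcop, ← Units.val_mul, inv_mul_cancel, Units.val_one]

/-- The context at the base level. -/
theorem Raise.ctxBase [NeZero N] (h : D.Raise qs ε) (hO : (p : O) ∈ maximalIdeal O) :
    RaiseCtx p (goodPr (liftBad rb W N q₀)) (topQuot N)
      (sysIdeal (theta rb hO (liftBad rb W N q₀))) (fun _ => 1) ε qs :=
  (D.baseData hO).raiseCtx (h.rootData hO)

variable {ζ : O}

/-- The context at an auxiliary level. -/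
theorem Raise.exists_ctx [NeZero N] [NeZero (D.levK L)] (h : D.Raise qs ε) (hc : CoeffData p O ζ)
    (hL : TWList p rb n L) :
    ∃ v : ℕ → (ZMod (D.levK L))ˣ,
      RaiseCtx p (goodPr (liftBad rb W N q₀)) (D.quotL hL) (sysIdeal (thetaL rb hc.mem ζ L))
        v ε qs ∧
      (∀ s ∈ qs, ZMod.unitsMap (dvd_levN N (goodPr (liftBad rb W N q₀)) L) (v s) = 1) ∧
      D.Signs hL (primeSet qs) v ε := by
  obtain ⟨v, hC, hv⟩ := (D.baseData hc.mem).exists_auxRaiseCtx (L := L)
    (α := alphaRes (p := p) ζ) (h.rootData hc.mem) (isPGroup_deltaQ p _) (D.jointSurj hL)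
  refine ⟨v, hC, fun s hs => hv s hs, fun t ht => ?_, fun t ht => ?_,
    fun t ht => h.sign t (mem_primeSet.mp ht), fun t ht u hu => ?_⟩
  · rcases h.mem t (mem_primeSet.mp ht) with e | e
    · exact Or.inl (Subtype.ext e)
    · exact Or.inr e
  · exact (hC.roots.good.2 t (mem_primeSet.mp ht)).2
  · obtain ⟨u', hu', hχ⟩ := hC.roots.root t (mem_primeSet.mp ht)
    have e : u = u' := Units.ext (left_inv_eq_right_inv hu (by rw [mul_comm]; exact hu'))
    rw [e, D.mem_grpL]
    exact congrArg Prod.snd ((D.chiTop_quotL hL _).symm.trans hχ)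

/-- The labels of the operators: Hecke at good primes, and diamond. -/
abbrev labK (D : LiftData p rb W N r q₀) (L : List (GoodIx (liftBad rb W N q₀))) : Type :=
  GoodIx (D.badL L) ⊕ (ZMod (D.levK L))ˣ

/-- The operators of the labels. -/
def famK (D : LiftData p rb W N r q₀) (L : List (GoodIx (liftBad rb W N q₀))) :
    D.labK L → Op (D.levK L)
  | .inl i => .hecke i.1
  | .inr u => .dia u

/-- The Hecke labels sit at good primes of the auxiliary level. -/
theorem famK_good {i : D.labK L} {l : Nat.Primes} (h : D.famK L i = .hecke l) :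
    ¬ (l : ℕ) ∣ D.badL L := by
  rcases i with i | u
  · simp only [famK, Op.hecke.injEq] at h
    exact h ▸ i.2
  · simp [famK] at h

/-- The family avoids the raised primes. -/
theorem avoids_famK (h : D.Raise qs ε) {J : List ℕ} (hJ : J ⊆ qs) :
    RaiseCtx.Avoids (D.famK L) J := fun _ _ hi _ hs e =>
  famK_good hi (e ▸ D.dvd_badL (h.dvd_bad (hJ hs)))

/-- The Hecke labels sit at primes not dividing the auxiliary level. -/
theorem not_dvd_levK_famK {i : D.labK L} {l : Nat.Primes} (h : D.famK L i = .hecke l) :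
    ¬ (l : ℕ) ∣ D.levK L := fun hd => famK_good h (by
  rcases D.levK_cases l.2 hd with hN | ⟨j, hj, e⟩
  · exact D.dvd_badL (D.dvd_bad hN)
  · exact e ▸ ((List.dvd_prod (List.mem_map.mpr ⟨j, hj, rfl⟩)).mul_left _))

/-- A Hecke label comes from a good prime which is not auxiliary. -/
theorem famK_descends {i : D.labK L} {l : Nat.Primes} (h : D.famK L i = .hecke l) :
    ∃ j, j ∉ L ∧ goodPr (liftBad rb W N q₀) j = (l : ℕ) := by
  refine ⟨⟨l, fun hd => famK_good h (D.dvd_badL hd)⟩, fun hL => famK_good h ?_, rfl⟩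
  exact (List.dvd_prod (List.mem_map.mpr ⟨_, hL, rfl⟩)).mul_left _

end LiftData

end Fermat.GR.RT

end
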