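import Mathlib
import Fermat.Agent.GR.RT.Lift.Raise
import Fermat.Agent.GR.RT.Points

/-!
# An integral operator vanishing at the systems of the base levels but not at the curve

If no system of the levels `N ∏ T` has almost all values of the curve, a product of minimal
polynomials of values does this.
-/

set_option autoImplicit false

noncomputable section

open MvPolynomial

namespace Fermat.GR.RT

open Fermat.MC.Lvl

local notation "Γℚ" => (AlgebraicClosure ℚ ≃ₐ[ℚ] AlgebraicClosure ℚ)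

variable {p : ℕ} [hp : Fact p.Prime] {rb : Γℚ →* GL (Fin 2) (ZMod p)} {W : WeierstrassCurve ℤ}
  {N r q₀ : ℕ}

/-- A value of a system is a root of an integral polynomial not vanishing at a given integer other
than it. -/
theorem IsPoint.exists_poly_ne {K : ℕ} [NeZero K] {H : Subgroup (ZMod K)ˣ} [NegMem H] {Ω : Type}
    [CommRing Ω] [IsDomain Ω] [CharZero Ω] {x : MvPolynomial (Nat.Primes ⊕ (ZMod K)ˣ) ℤ →+* Ω}
    (hx : IsPoint K H x) (i : Nat.Primes ⊕ (ZMod K)ˣ) (a : ℤ) (ha : x (X i) ≠ (a : Ω)) :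
    ∃ Q : Polynomial ℤ, Q.eval a ≠ 0 ∧ Polynomial.aeval (x (X i)) Q = 0 := by
  obtain ⟨f, rfl⟩ := IsPoint.exists_factor K H hx
  have hint : IsIntegral ℤ ((f.comp (Fermat.JAC.XH.ringEval K H)) (X i)) :=
    (Algebra.IsIntegral.isIntegral (R := ℤ) (Fermat.JAC.XH.ringEval K H (X i))).map
      ({ f with commutes' := fun m => by simp } : _ →ₐ[ℤ] Ω)
  refine ⟨minpoly ℤ _, fun h => ha ?_, minpoly.aeval ℤ _⟩
  have hdvd : Polynomial.X - Polynomial.C a ∣
      minpoly ℤ ((f.comp (Fermat.JAC.XH.ringEval K H)) (X i)) :=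
    Polynomial.dvd_iff_isRoot.mpr h
  obtain ⟨c, hc⟩ := hdvd
  have hu : IsUnit c := ((minpoly.irreducible hint).isUnit_or_isUnit hc).resolve_left
    (Polynomial.not_isUnit_X_sub_C a)
  obtain ⟨e, he⟩ := hu
  have h0 := minpoly.aeval ℤ ((f.comp (Fermat.JAC.XH.ringEval K H)) (X i))
  rw [hc, map_mul, ← he] at h0
  have hne : Polynomial.aeval ((f.comp (Fermat.JAC.XH.ringEval K H)) (X i))
      (e : Polynomial ℤ) ≠ 0 :=
    (e.isUnit.map (Polynomial.aeval _)).ne_zero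
  have h1 := (mul_eq_zero.mp h0).resolve_right hne
  rwa [map_sub, Polynomial.aeval_X, Polynomial.aeval_C, sub_eq_zero, algebraMap_int_eq,
    eq_intCast] at h1

namespace LiftData

/-- The values of the curve at the indices. -/
def apVal (W : WeierstrassCurve ℤ) {B : ℕ} (i : GoodIx B) : ℤ := W.apOfModel (goodPr B i)

/-- **The killer of the base levels**, when for each of them the curve is not modular at some
squarefree multiple. -/
theorem exists_killer [NeZero N] (D : LiftData p rb W N r q₀) (hAg : AgreeStatement)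
    (Q : Finset Nat.Primes)
    (hnot : ∀ T ⊆ Q, ∃ K : ℕ, Squarefree K ∧ N * ∏ t ∈ T, (t : ℕ) ∣ K ∧
      ¬ W.IsModularModelOfLevel K) :
    ∃ z₀ : MvPolynomial (GoodIx (liftBad rb W N q₀)) ℤ,
      aeval (apVal W (B := liftBad rb W N q₀)) z₀ ≠ 0 ∧
      ∀ T ⊆ Q, ∀ [NeZero (N * ∏ t ∈ T, (t : ℕ))]
        (x : MvPolynomial (Nat.Primes ⊕ (ZMod (N * ∏ t ∈ T, (t : ℕ)))ˣ) ℤ →+* ℂ),
        IsPoint (N * ∏ t ∈ T, (t : ℕ)) ⊤ x →
          aeval (fun i : GoodIx (liftBad rb W N q₀) => x (X (Sum.inl i.1))) z₀ = 0 := by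
  classical
  have hK : ∀ T : Finset Nat.Primes, NeZero (N * ∏ t ∈ T, (t : ℕ)) := fun T =>
    ⟨mul_ne_zero (NeZero.ne N) (Finset.prod_ne_zero_iff.mpr fun t _ => t.2.ne_zero)⟩
  set S := (liftBad rb W N q₀).primeFactors
  -- one element for each level, a product over its systems
  have h1 : ∀ T : Finset Nat.Primes, ∃ z : MvPolynomial (GoodIx (liftBad rb W N q₀)) ℤ,
      T ⊆ Q → aeval (apVal W (B := liftBad rb W N q₀)) z ≠ 0 ∧
        ∀ (x : haveI := hK T; MvPolynomial (Nat.Primes ⊕ (ZMod (N * ∏ t ∈ T, (t : ℕ)))ˣ) ℤ →+* ℂ),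
          (haveI := hK T; IsPoint (N * ∏ t ∈ T, (t : ℕ)) ⊤ x) →
            aeval (fun i : GoodIx (liftBad rb W N q₀) => x (X (Sum.inl i.1))) z = 0 := by
    intro T
    by_cases hT : T ⊆ Q
    swap
    · exact ⟨0, fun h => absurd h hT⟩
    have := hK T
    have : NegMem (⊤ : Subgroup (ZMod (N * ∏ t ∈ T, (t : ℕ)))ˣ) := ⟨Subgroup.mem_top _⟩
    have hx : ∀ x : MvPolynomial (Nat.Primes ⊕ (ZMod (N * ∏ t ∈ T, (t : ℕ)))ˣ) ℤ →+* ℂ,
        ∃ z : MvPolynomial (GoodIx (liftBad rb W N q₀)) ℤ,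
          IsPoint (N * ∏ t ∈ T, (t : ℕ)) ⊤ x →
            aeval (apVal W (B := liftBad rb W N q₀)) z ≠ 0 ∧
              aeval (fun i : GoodIx (liftBad rb W N q₀) => x (X (Sum.inl i.1))) z = 0 := by
      intro x
      by_cases hp' : IsPoint (N * ∏ t ∈ T, (t : ℕ)) ⊤ x
      swap
      · exact ⟨0, fun h => absurd h hp'⟩
      obtain ⟨i, hi⟩ : ∃ i : GoodIx (liftBad rb W N q₀),
          x (X (Sum.inl i.1)) ≠ ((apVal W i : ℤ) : ℂ) := by
        by_contra hne
        push Not at hne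
        obtain ⟨K', hK'sq, hK'd, hK'⟩ := hnot T hT
        refine hK' (hAg W D.disc_ne D.ssm _ ℂ x hp' S (fun ℓ hℓ hℓS => ?_) _ hK'sq hK'd)
        have hℓb : ¬ ℓ ∣ liftBad rb W N q₀ := fun hd =>
          hℓS (Nat.mem_primeFactors.mpr ⟨hℓ, hd, D.bad_ne_zero⟩)
        rw [tVal, dif_pos hℓ]
        exact hne ⟨⟨ℓ, hℓ⟩, hℓb⟩
      obtain ⟨P, hP, hP0⟩ := hp'.exists_poly_ne _ _ hi
      refine ⟨Polynomial.aeval (X i) P, fun _ => ⟨?_, ?_⟩⟩
      · rw [← Polynomial.aeval_algHom_apply, aeval_X]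
        exact hP
      · rw [← Polynomial.aeval_algHom_apply, aeval_X]
        exact hP0
    choose z hz using hx
    have hfin := finite_isPoint (N * ∏ t ∈ T, (t : ℕ)) ⊤ ℂ
    refine ⟨∏ x ∈ hfin.toFinset, z x, fun _ => ⟨?_, fun x hx => ?_⟩⟩
    · rw [map_prod]
      exact Finset.prod_ne_zero_iff.mpr fun x hx => (hz x (hfin.mem_toFinset.mp hx)).1
    · rw [map_prod]
      exact Finset.prod_eq_zero (hfin.mem_toFinset.mpr hx) (hz x hx).2
  -- their product
  choose z hz using h1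
  refine ⟨∏ T ∈ Q.powerset, z T, ?_, fun T hT _ x hx => ?_⟩
  · rw [map_prod]
    exact Finset.prod_ne_zero_iff.mpr fun T hT => (hz T (Finset.mem_powerset.mp hT)).1
  · have : NegMem (⊤ : Subgroup (ZMod (N * ∏ t ∈ T, (t : ℕ)))ˣ) := ⟨Subgroup.mem_top _⟩
    rw [map_prod]
    exact Finset.prod_eq_zero (Finset.mem_powerset.mpr hT) ((hz T hT).2 x hx)

end LiftData

end Fermat.GR.RT

end
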