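import Mathlib
import Fermat.Agent.GR.RT.Lift.Raise
import Fermat.Agent.GR.RT.Points

/-!
# The systems of the levels separate the operators on the raised modules

An eigenform of a level with prescribed signs gives a system of that level; operators outside the
maximal ideal act invertibly, so only congruent systems matter.
-/

set_option autoImplicit false
set_option linter.unusedSectionVars false
set_option linter.overlappingInstances false

noncomputable section

open MvPolynomial IsLocalRing
open scoped MatrixGroups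

namespace Fermat.GR.RT

open Fermat.HM Fermat.MC.Lvl

local notation "Γℚ" => (AlgebraicClosure ℚ ≃ₐ[ℚ] AlgebraicClosure ℚ)

/-- A diamond label over a lower level is the diamond operator of a lift. -/
theorem formOpOver_dia_unitsMap {M₀ K : ℕ} [NeZero K] {H : Subgroup (ZMod K)ˣ}
    (hH : LevelOver M₀ K H) (w : (ZMod K)ˣ) :
    formOpOver hH (.dia (ZMod.unitsMap hH.dvd w)) = formOp K H (Sum.inr w) := by
  refine LinearMap.ext fun f => formPeriod_injective ?_
  rw [formPeriod_formOpOver, formPeriod_formOp]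
  change diaOp hH (ZMod.unitsMap hH.dvd w) (formPeriod f) =
    diaOp (LevelOver.self K H) w (formPeriod f)
  obtain ⟨g, hg, hgw⟩ := exists_diaLift (dvd_refl K) w
  rw [← pull_eq_diaOp (LevelOver.self K H) hg hgw, ← pull_eq_diaOp hH hg ?_]
  rw [ZMod.unitsMap_def, Units.coe_map, ← hgw]
  exact (map_intCast (ZMod.castHom hH.dvd (ZMod M₀)) _).symm

section Invertible

variable {O : Type} [CommRing O] [IsLocalRing O] [IsDomain O] [IsDiscreteValuationRing O]
  [IsAdicComplete (maximalIdeal O) O] [CharZero O] {pp : ℕ} [Fact pp.Prime]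
  {σ : Type} {pr : σ → ℕ} [hpr : ∀ i, Fact (pr i).Prime] {M : ℕ} [NeZero M]
  {H : Subgroup (ZMod M)ˣ} {Δ : Type} [CommGroup Δ] [Finite Δ] {D : DiamondQuot M ⊤ H Δ}
  {m : Ideal (MvPolynomial σ O)} [m.IsMaximal] {v : ℕ → (ZMod M)ˣ} {ε : ℕ → O} {qs J : List ℕ}
  {ι : Type}

/-- The primes of the family, as operators. -/
def heckeFam (pr : σ → ℕ) [hpr : ∀ i, Fact (pr i).Prime] (M : ℕ) (i : σ) : Op M :=
  .hecke ⟨pr i, (hpr i).out⟩

/-- **Operators outside the maximal ideal act surjectively on the raised module.** -/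
theorem eAct_surjective (C : RaiseCtx pp pr D m v ε qs) (hJ : IsRaised qs J) (fam : ι → Op M)
    (hfam : RaiseCtx.Avoids fam J) (g : MvPolynomial ι O) (P : MvPolynomial σ O) (hP : P ∉ m)
    (hg : ∀ {K : ℕ} [NeZero K] {H' : Subgroup (ZMod K)ˣ} (hH : LevelOver M K H')
      (φ : Homs O (GammaH K H')), opsAct O O hH fam g φ = heckeAct O O K H' pr P φ) :
    Function.Surjective (C.eAct hJ fam hfam g) := by
  have := C.neZero hJ
  have := (C.goodJ hJ).moduleFinite
  have hσ : RaiseCtx.Avoids (heckeFam pr M) J := fun i l hi s hs e => by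
    simp only [heckeFam, Op.hecke.injEq] at hi
    exact C.roots.family s (hJ.1 hs) i ((congrArg (fun z : Nat.Primes => (z : ℕ)) hi).trans e)
  obtain ⟨s, hs⟩ := exists_projector m (heckeAct O O (chainN M J) (chainH H J) pr)
  obtain ⟨w, hw⟩ := hs.2.2 P hP
  intro x
  refine ⟨C.eAct hJ (heckeFam pr M) hσ w x, Subtype.ext (DiamondQuot.LocMod.ext_val ?_)⟩
  refine ((coe_coe_symAct m _ _ fam hfam g _).trans ?_)
  rw [hg]
  refine Eq.trans (congrArg _ (coe_coe_symAct m _ _ (heckeFam pr M) hσ w x)) ?_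
  rw [show opsAct O O _ (heckeFam pr M) w _ = _ from opsAct_hecke _ pr w _, ← Module.End.mul_apply,
    ← map_mul, ← hw]
  obtain ⟨y, hy⟩ := hs.locPart_eq.le (x.1.val).2
  rw [← hy, hs.apply_apply]

end Invertible

namespace LiftData

variable {p : ℕ} [hp : Fact p.Prime] {rb : Γℚ →* GL (Fin 2) (ZMod p)} {W : WeierstrassCurve ℤ}
  {N r q₀ : ℕ} {D : LiftData p rb W N r q₀} {L : List (GoodIx (liftBad rb W N q₀))}

/-- A lift of a unit to the level with `T` added. -/
def liftU [NeZero N] (D : LiftData p rb W N r q₀) (T : Finset Nat.Primes)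
    (u : (ZMod (D.levK L))ˣ) : (ZMod (D.levT L T))ˣ :=
  haveI := D.neZero_levT L T
  (ZMod.unitsMap_surjective (D.dvd_levT T) u).choose

/-- `liftU` lifts units. -/
theorem unitsMap_liftU [NeZero N] (T : Finset Nat.Primes) (u : (ZMod (D.levK L))ˣ) :
    ZMod.unitsMap (D.dvd_levT T) (D.liftU T u) = u :=
  haveI := D.neZero_levT L T
  (ZMod.unitsMap_surjective (D.dvd_levT T) u).choose_spec

/-- The label of the level with `T` added over a label. -/
def lblOf [NeZero N] (D : LiftData p rb W N r q₀) (T : Finset Nat.Primes) :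
    D.labK L → Nat.Primes ⊕ (ZMod (D.levT L T))ˣ :=
  Sum.elim (fun i => Sum.inl i.1) fun u => Sum.inr (D.liftU T u)

/-- The values of the labels at a system. -/
def lblVal [NeZero N] (D : LiftData p rb W N r q₀) (T : Finset Nat.Primes) {B : Type}
    [CommRing B] (x : MvPolynomial (Nat.Primes ⊕ (ZMod (D.levT L T))ˣ) ℤ →+* B) (i : D.labK L) :
    B := x (X (D.lblOf T i))

variable {O : Type} [CommRing O] [IsDomain O] [IsDiscreteValuationRing O]
  [IsAdicComplete (maximalIdeal O) O] [Finite (ResidueField O)] [CharZero O] {ζ : O} {n : ℕ}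
  {qs : List ℕ} {ε : ℕ → O} {v : ℕ → (ZMod (D.levK L))ˣ}

/-- An operator outside the maximal ideal vanishing at the systems which are not congruent. -/
theorem exists_sep [NeZero N] (hL : TWList p rb n L) (hO : (p : O) ∈ maximalIdeal O)
    (Q : Finset Nat.Primes) :
    ∃ s : MvPolynomial (GoodIx (D.badL L)) O, s ∉ sysIdeal (theta rb hO (D.badL L)) ∧
      ∀ T ⊆ Q, haveI := D.neZero_levT L T
        ∀ x : MvPolynomial (Nat.Primes ⊕ (ZMod (D.levT L T))ˣ) ℤ →+*
            AlgebraicClosure (FractionRing O), IsPoint (D.levT L T) (D.grpT hL T) x →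
          ¬ CongruentTo (goodPr (D.badL L)) (sysIdeal (theta rb hO (D.badL L))) x →
          aeval (fun i => x (X (heckeLbl (goodPr (D.badL L)) (D.levT L T) i))) s = 0 := by
  classical
  set m := sysIdeal (theta rb hO (D.badL L)) with hm
  have : m.IsMaximal := inferInstance
  -- one separator for each level, a product over the systems not congruent
  have h1 : ∀ T : Finset Nat.Primes, ∃ s, s ∉ m ∧
      (haveI := D.neZero_levT L T
       ∀ x : MvPolynomial (Nat.Primes ⊕ (ZMod (D.levT L T))ˣ) ℤ →+*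
            AlgebraicClosure (FractionRing O), IsPoint (D.levT L T) (D.grpT hL T) x →
          ¬ CongruentTo (goodPr (D.badL L)) m x →
          aeval (fun i => x (X (heckeLbl (goodPr (D.badL L)) (D.levT L T) i))) s = 0) := by
    intro T
    have := D.neZero_levT L T
    have : NegMem (D.grpT hL T) := ⟨D.neg_mem_grpT hL T⟩
    have hs : ∀ x : MvPolynomial (Nat.Primes ⊕ (ZMod (D.levT L T))ˣ) ℤ →+*
        AlgebraicClosure (FractionRing O), ∃ s, s ∉ m ∧
          (¬ CongruentTo (goodPr (D.badL L)) m x →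
            aeval (fun i => x (X (heckeLbl (goodPr (D.badL L)) (D.levT L T) i))) s = 0) :=
              fun x => by
      by_cases hc : CongruentTo (goodPr (D.badL L)) m x
      · exact ⟨1, (Ideal.ne_top_iff_one m).mp (Ideal.IsPrime.ne_top inferInstance),
          fun h => absurd hc h⟩
      · simp only [CongruentTo, not_forall] at hc
        obtain ⟨P, hP, hPm⟩ := hc
        exact ⟨P, hPm, fun _ => hP⟩
    choose s hs1 hs2 using hs
    have hfin := finite_isPoint (D.levT L T) (D.grpT hL T) (AlgebraicClosure (FractionRing O))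
    refine ⟨∏ x ∈ hfin.toFinset, s x, fun hp' => ?_, fun x hx hc => ?_⟩
    · obtain ⟨x, -, hx⟩ := (Ideal.IsPrime.prod_mem_iff).mp hp'
      exact hs1 x hx
    · rw [map_prod]
      exact Finset.prod_eq_zero (hfin.mem_toFinset.mpr hx) (hs2 x hc)
  choose s hs1 hs2 using h1
  refine ⟨∏ T ∈ Q.powerset, s T, fun hp' => ?_, fun T hT x hx hc => ?_⟩
  · obtain ⟨T, -, hT⟩ := (Ideal.IsPrime.prod_mem_iff).mp hp'
    exact hs1 T hT
  · rw [map_prod]
    exact Finset.prod_eq_zero (Finset.mem_powerset.mpr hT) (hs2 T x hx hc)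

/-- The operator of a label of the level with `T` added, over the level below. -/
def opOf (D : LiftData p rb W N r q₀) (T : Finset Nat.Primes) :
    Nat.Primes ⊕ (ZMod (D.levT L T))ˣ → Op (D.levK L) :=
  Sum.elim Op.hecke fun w => Op.dia (ZMod.unitsMap (D.dvd_levT T) w)

/-- The label at a higher level lies over the label of the level. -/
theorem opOf_lblOf [NeZero N] (T : Finset Nat.Primes) (i : D.labK L) :
    D.opOf T (D.lblOf T i) = D.famK L i := by
  rcases i with i | w
  · rfl
  · change Op.dia _ = _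
    rw [D.unitsMap_liftU]
    rfl

variable {ι : Type}

/-- **An operator killing the systems of a level, times a separator, kills its eigenforms with
signs.** -/
theorem killsPoints_mul_sep [NeZero N] (hL : TWList p rb n L) (hO : (p : O) ∈ maximalIdeal O)
    {T : Finset Nat.Primes} (fam : ι → Op (D.levK L))
    (g : ι → Nat.Primes ⊕ (ZMod (D.levT L T))ˣ) (hg : ∀ i, D.opOf T (g i) = fam i)
    (incl : GoodIx (D.badL L) → ι) (hincl : ∀ i, g (incl i) = Sum.inl i.1)
    {s : MvPolynomial (GoodIx (D.badL L)) O}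
    (hs : haveI := D.neZero_levT L T
      ∀ x : MvPolynomial (Nat.Primes ⊕ (ZMod (D.levT L T))ˣ) ℤ →+*
          AlgebraicClosure (FractionRing O), IsPoint (D.levT L T) (D.grpT hL T) x →
        ¬ CongruentTo (goodPr (D.badL L)) (sysIdeal (theta rb hO (D.badL L))) x →
        aeval (fun i => x (X (heckeLbl (goodPr (D.badL L)) (D.levT L T) i))) s = 0)
    (h : MvPolynomial ι O)
    (hh : ∀ x ∈ D.ptsT hL hO v ε T, aeval (fun i => x (X (g i))) h = 0) :
    KillsPoints (D.grpL hL) v ε fam T (h * rename incl s) := by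
  intro K _ hd hK u hu f hf μ hμ hsign
  subst hK
  have := D.neZero_levT L T
  have : NegMem (D.grpT hL T) := ⟨D.neg_mem_grpT hL T⟩
  obtain ⟨x, hx, hxP⟩ := exists_point_of_eigen (D.levT L T) (D.grpT hL T) O u hu hf
    (fun i => μ (D.opOf T i)) fun i => by
      rcases i with l | w
      · exact hμ (.hecke l)
      · rw [← formOpOver_dia_unitsMap (levelOver_lvlH (D.grpL hL) (D.dvd_levT T))]
        exact hμ _
  -- a congruent eigenform is a system, killed by `h`; the others are killed by the separator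
  have hμfam : μ ∘ fam = (fun i => μ (D.opOf T i)) ∘ g :=
    funext fun i => (congrArg μ (hg i)).symm
  by_cases hc : CongruentTo (goodPr (D.badL L)) (sysIdeal (theta rb hO (D.badL L))) x
  · have hmem : x ∈ D.ptsT hL hO v ε T := by
      refine ⟨hx, hc, fun t ht w hw => ?_⟩
      have h0 := (hxP (C (ε t) + X (Sum.inr w) * X (Sum.inl t))).mpr (by
        simp only [eval₂_add, eval₂_mul, eval₂_C, eval₂_X]
        change u (ε t) + μ (.dia (ZMod.unitsMap _ w)) * μ (.hecke t) = 0
        rw [hw]
        exact hsign t ht)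
      simpa only [eval₂_add, eval₂_mul, eval₂_C, eval₂_X] using h0
    have h1 := (hxP (rename g h)).mp (by
      rw [eval₂_rename, ← aeval_def]
      exact hh x hmem)
    rw [eval₂_rename] at h1
    rw [eval₂_mul, hμfam, h1, zero_mul]
  · have h1 := (hxP (rename (heckeLbl (goodPr (D.badL L)) (D.levT L T)) s)).mp (by
      rw [eval₂_rename, ← aeval_def]
      exact hs x hx hc)
    rw [eval₂_rename] at h1
    rw [eval₂_mul, eval₂_rename, hμfam]
    convert mul_zero _ using 2
    rw [← h1]
    congr 1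
    funext i
    change μ (D.opOf T (g (incl i))) = μ (D.opOf T (Sum.inl ⟨_, _⟩))
    rw [hincl]
    rfl

variable {hL : TWList p rb n L} {hc : CoeffData p O ζ} {J : List ℕ}

/-- An element outside the residual ideal stays outside the twisted one of the auxiliary level. -/
theorem sep_not_mem {s : MvPolynomial (GoodIx (D.badL L)) O}
    (hs : s ∉ sysIdeal (theta rb hc.mem (D.badL L))) :
    rename (fun i : GoodIx (D.badL L) =>
      (⟨i.1, fun h => i.2 (D.dvd_badL h)⟩ : GoodIx (liftBad rb W N q₀))) s ∉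
      sysIdeal (thetaL rb hc.mem ζ L) := fun hmem => hs (by
  rw [sysIdeal, RingHom.mem_ker, aeval_rename] at hmem
  rw [sysIdeal, RingHom.mem_ker]
  convert hmem using 3
  funext i
  change _ = sysUpd _ _ _ _
  rw [sysUpd, if_neg fun h => i.2 ((List.dvd_prod (List.mem_map.mpr ⟨_, h, rfl⟩)).mul_left _)]
  rfl)

variable [NeZero N] [NeZero (D.levK L)]

/-- The separator acts surjectively. -/
theorem eAct_sep_surjective
    (C : RaiseCtx p (goodPr (liftBad rb W N q₀)) (D.quotL hL) (sysIdeal (thetaL rb hc.mem ζ L))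
      v ε qs)
    (hJ : IsRaised qs J) (fam : ι → Op (D.levK L)) (hfam : RaiseCtx.Avoids fam J)
    (incl : GoodIx (D.badL L) → ι) (g : ∀ T, ι → Nat.Primes ⊕ (ZMod (D.levT L T))ˣ)
    (hg : ∀ T i, D.opOf T (g T i) = fam i) (hincl : ∀ T i, g T (incl i) = Sum.inl i.1)
    {s : MvPolynomial (GoodIx (D.badL L)) O}
    (hsm : s ∉ sysIdeal (theta rb hc.mem (D.badL L))) :
    Function.Surjective (C.eAct hJ fam hfam (rename incl s)) :=
  eAct_surjective C hJ fam hfam (rename incl s) _ (sep_not_mem (hc := hc) hsm) fun hH φ => by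
    rw [← opsAct_hecke hH (goodPr (liftBad rb W N q₀)), opsAct_rename, opsAct_rename]
    refine congrArg (fun f => opsAct O O hH f s φ) (funext fun i => ?_)
    change fam (incl i) = Op.hecke ⟨_, _⟩
    rw [← hg ∅ (incl i), hincl ∅ i]
    rfl

/-- **The systems separate the operators on the module of union type.** -/
theorem eAct_eq_zero_of_pts
    (C : RaiseCtx p (goodPr (liftBad rb W N q₀)) (D.quotL hL) (sysIdeal (thetaL rb hc.mem ζ L))
      v ε qs)
    (hJ : IsRaised qs J) (fam : ι → Op (D.levK L)) (hfam : RaiseCtx.Avoids fam J)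
    (hgood : ∀ i (l : Nat.Primes), fam i = .hecke l → ¬ (l : ℕ) ∣ D.levK L)
    (incl : GoodIx (D.badL L) → ι) (g : ∀ T, ι → Nat.Primes ⊕ (ZMod (D.levT L T))ˣ)
    (hg : ∀ T i, D.opOf T (g T i) = fam i) (hincl : ∀ T i, g T (incl i) = Sum.inl i.1)
    {u : O →+* ℂ} (hu : Function.Injective u) (h : MvPolynomial ι O)
    (hh : ∀ T, T ⊆ primeSet J → ∀ x ∈ D.ptsT hL hc.mem v ε T,
      aeval (fun i => x (X (g T i))) h = 0) :
    C.eAct hJ fam hfam h = 0 := by
  obtain ⟨s, hsm, hs⟩ := exists_sep hL hc.mem (primeSet J)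
  have h0 : C.eAct hJ fam hfam (h * rename incl s) = 0 :=
    C.eAct_eq_zero hJ fam hfam hgood (fun K _ hd => heckeSemisimple_over C.neg_mem K hd) hu _
      fun T hT => killsPoints_mul_sep hL hc.mem fam (g T) (hg T) incl (hincl T)
        (hs T fun t ht => mem_primeSet.mpr (hT t ht)) h
        (hh T fun t ht => mem_primeSet.mpr (hT t ht))
  have hsurj := eAct_sep_surjective C hJ fam hfam incl g hg hincl (hc := hc) hsm
  refine LinearMap.ext fun y => ?_
  obtain ⟨x, rfl⟩ := hsurj y
  rw [← Module.End.mul_apply, ← map_mul, h0]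
  rfl

/-- **The systems separate the operators on the module special at `q`.** -/
theorem xAct_eq_zero_of_pts {q : ℕ}
    (C : RaiseCtx p (goodPr (liftBad rb W N q₀)) (D.quotL hL) (sysIdeal (thetaL rb hc.mem ζ L))
      v ε qs)
    (hJ : IsRaised qs (q :: J)) (fam : ι → Op (D.levK L)) (hfam : RaiseCtx.Avoids fam (q :: J))
    (hgood : ∀ i (l : Nat.Primes), fam i = .hecke l → ¬ (l : ℕ) ∣ D.levK L)
    (incl : GoodIx (D.badL L) → ι) (g : ∀ T, ι → Nat.Primes ⊕ (ZMod (D.levT L T))ˣ)
    (hg : ∀ T i, D.opOf T (g T i) = fam i) (hincl : ∀ T i, g T (incl i) = Sum.inl i.1)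
    {u : O →+* ℂ} (hu : Function.Injective u) (h : MvPolynomial ι O)
    (hh : ∀ T, T ⊆ primeSet (q :: J) →
      (⟨q, (C.fact_head hJ).out⟩ : Nat.Primes) ∈ T → ∀ x ∈ D.ptsT hL hc.mem v ε T,
      aeval (fun i => x (X (g T i))) h = 0) :
    C.xAct hJ fam hfam h = 0 := by
  obtain ⟨s, hsm, hs⟩ := exists_sep hL hc.mem (primeSet (q :: J))
  have h0 : C.xAct hJ fam hfam (h * rename incl s) = 0 :=
    C.xAct_eq_zero hJ fam hfam hgood (fun K _ hd => heckeSemisimple_over C.neg_mem K hd) hu _
      fun T hT hq => killsPoints_mul_sep hL hc.mem fam (g T) (hg T) incl (hincl T)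
        (hs T fun t ht => mem_primeSet.mpr (hT t ht)) h
        (hh T (fun t ht => mem_primeSet.mpr (hT t ht)) hq)
  have hsurj := eAct_sep_surjective C hJ fam hfam incl g hg hincl (hc := hc) hsm
  refine LinearMap.ext fun y => ?_
  obtain ⟨x, rfl⟩ := C.proj_surjective hJ y
  obtain ⟨x, rfl⟩ := hsurj x
  rw [C.proj_eAct, ← Module.End.mul_apply, ← map_mul, h0]
  rfl

end LiftData

end Fermat.GR.RT

end
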