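import Mathlib
import Fermat.Agent.GR.RT.Lift.Family
import Fermat.Agent.GR.RT.ModMatrices

/-!
# The modules of the chains of lifting

Diamond operators are scalars, an integral operator killing the systems of the base levels acts as
zero there, the ranks at the auxiliary levels are the ranks at the base, and the modules of a chain
are not zero when the operators cutting them are in the maximal ideal.
-/

set_option autoImplicit false
set_option linter.unusedSectionVars false

noncomputable section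

open MvPolynomial IsLocalRing
open scoped MatrixGroups

namespace Fermat.GR.RT

open Fermat.HM Fermat.MC.Lvl

local notation "Γℚ" => (AlgebraicClosure ℚ ≃ₐ[ℚ] AlgebraicClosure ℚ)

/-- An element of the maximal ideal does not act surjectively on a nonzero module. -/
theorem not_surjective_of_mem {O : Type} [CommRing O] {R : Type} [CommRing R] [IsLocalRing R]
    [Algebra O R] {A : Type} [CommRing A] [Algebra O A] [Module.Finite O A] {M : Type}
    [AddCommGroup M] [Module A M] [Module O M] [IsScalarTower O A M] [Module.Finite A M]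
    [Nontrivial M] (α : R →ₐ[O] Module.End A M) {te : R} (hte : te ∈ maximalIdeal R) :
    ¬ Function.Surjective (α te) := by
  intro hs
  let : Module R M := Module.compHom M α.toRingHom
  have : IsScalarTower O R M := ⟨fun o r m => by
    change α (o • r) m = o • α r m
    rw [map_smul, LinearMap.smul_apply]⟩
  have : Module.Finite O M := Module.Finite.trans A M
  have : Module.Finite R M := Module.Finite.of_restrictScalars_finite O R M
  have h : (⊤ : Submodule R M) = ⊥ := by
    refine Submodule.eq_bot_of_le_smul_of_le_jacobson_bot (Ideal.span {te}) _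
      Module.Finite.fg_top (fun y _ => ?_) ?_
    · obtain ⟨x, rfl⟩ := hs y
      exact Submodule.smul_mem_smul (Ideal.mem_span_singleton_self te) (Submodule.mem_top (x := x))
    · rw [IsLocalRing.jacobson_eq_maximalIdeal _ bot_ne_top, Ideal.span_singleton_le_iff_mem]
      exact hte
  exact bot_ne_top h.symm

section Ctx

variable {O : Type} [CommRing O] [IsDomain O] [IsDiscreteValuationRing O]
  [IsAdicComplete (maximalIdeal O) O] [CharZero O] {pp : ℕ} [Fact pp.Prime]
  {σ : Type} {pr : σ → ℕ} [hpr : ∀ i, Fact (pr i).Prime] {M : ℕ} [NeZero M]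
  {H : Subgroup (ZMod M)ˣ} {Δ : Type} [CommGroup Δ] [Finite Δ] {D : DiamondQuot M ⊤ H Δ}
  {m : Ideal (MvPolynomial σ O)} [m.IsMaximal] {v : ℕ → (ZMod M)ˣ} {ε : ℕ → O} {qs J : List ℕ}
  {q : ℕ} {ι : Type}

/-- A diamond label acts by its scalar. -/
theorem eAct_dia (C : RaiseCtx pp pr D m v ε qs) (hJ : IsRaised qs J) (fam : ι → Op M)
    (hfam : RaiseCtx.Avoids fam J) {i : ι} {u : (ZMod M)ˣ} (hi : fam i = .dia u)
    (x : (C.eMod hJ).X) :
    C.eAct hJ fam hfam (X i) x = MonoidAlgebra.of O Δ (D.chiTop u) • x := by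
  have := C.neZero hJ
  refine Subtype.ext ?_
  change famAct m (C.lchar hJ) fam (X i) x.1 = _
  rw [famAct_X, hi, opEnd_dia]
  rfl

/-- The cut module is nonzero, when the cutting operator is not surjective. -/
theorem nontrivial_xMod (C : RaiseCtx pp pr D m v ε qs) (hJ : IsRaised qs (q :: J))
    (hns : ¬ Function.Surjective (C.tEnd hJ)) : Nontrivial (C.xMod hJ).X := by
  by_contra h
  have := not_nontrivial_iff_subsingleton.mp h
  obtain ⟨F, hF, -⟩ := C.exists_desc hJ (fun _ : Empty => Op.dia (1 : (ZMod M)ˣ))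
    fun i => i.elim
  refine hns fun y => ?_
  obtain ⟨x, z, hy⟩ := hF y
  exact ⟨z, by rw [hy, Subsingleton.elim x 0, map_zero, zero_add]⟩

/-- A module of the chain is nonzero, when the cut one above it is. -/
theorem nontrivial_eMod_cons (C : RaiseCtx pp pr D m v ε qs) (hJ : IsRaised qs (q :: J))
    (h : Nontrivial (C.xMod hJ).X) : Nontrivial (C.eMod hJ).X :=
  (C.proj_surjective hJ).nontrivial

end Ctx

namespace LiftData

variable {p : ℕ} [hp : Fact p.Prime] {rb : Γℚ →* GL (Fin 2) (ZMod p)} {W : WeierstrassCurve ℤ}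
  {N r q₀ : ℕ} {D : LiftData p rb W N r q₀} {L : List (GoodIx (liftBad rb W N q₀))}
  {O : Type} [CommRing O] [IsDomain O] [IsDiscreteValuationRing O]
  [IsAdicComplete (maximalIdeal O) O] [Finite (ResidueField O)] [CharZero O] {ζ : O} {n : ℕ}
  {qs J : List ℕ} {q : ℕ} {ε : ℕ → O}

open scoped Classical in
/-- The operator giving the trace of Frobenius. -/
def tlK (D : LiftData p rb W N r q₀) (L : List (GoodIx (liftBad rb W N q₀))) (O : Type) [CommRing O]
    (n ℓ : ℕ) : MvPolynomial (D.labK L) O :=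
  if h : ℓ.Prime ∧ ¬ ℓ ∣ D.badL L ∧ ℓ.Coprime (D.levK L) then
    X (Sum.inl ⟨⟨ℓ, h.1⟩, h.2.1⟩) *
      X (Sum.inr (ZMod.unitOfCoprime ℓ h.2.2 ^ ((p ^ n + 1) / 2)))
  else 0

/-- The shape of `tlK` at a good prime. -/
theorem tlK_eq {ℓ : Nat.Primes} (h : ¬ (ℓ : ℕ) ∣ D.badL L) :
    ∃ u : (ZMod (D.levK L))ˣ, (u : ZMod (D.levK L)) = ((ℓ : ℕ) : ZMod (D.levK L)) ∧
      D.tlK L O n ℓ = X (Sum.inl ⟨ℓ, h⟩) * X (Sum.inr (u ^ ((p ^ n + 1) / 2))) := by
  classical
  have hcop : (ℓ : ℕ).Coprime (D.levK L) := ℓ.2.coprime_iff_not_dvd.mpr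
    (not_dvd_levK_famK (i := Sum.inl ⟨ℓ, h⟩) rfl)
  refine ⟨ZMod.unitOfCoprime _ hcop, ZMod.coe_unitOfCoprime _ hcop, ?_⟩
  rw [tlK, dif_pos ⟨ℓ.2, h, hcop⟩]
  rfl

/-- An integral polynomial in the Hecke operators, as an operator of the level. -/
def killK (D : LiftData p rb W N r q₀) (L : List (GoodIx (liftBad rb W N q₀))) (O : Type)
    [CommRing O] (n : ℕ) (z : MvPolynomial (GoodIx (liftBad rb W N q₀)) ℤ) :
    MvPolynomial (D.labK L) O :=
  eval₂ (Int.castRingHom _) (fun i => D.tlK L O n (goodPr _ i)) z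

variable [NeZero N]

/-- **An operator killing the systems of the base levels acts as zero at the base.** -/
theorem eAct_killK_eq_zero {hO : (p : O) ∈ maximalIdeal O} {v₀ : ℕ → (ZMod N)ˣ}
    (C₀ : RaiseCtx p (goodPr (liftBad rb W N q₀)) (topQuot N)
      (sysIdeal (theta rb hO (liftBad rb W N q₀))) v₀ ε qs)
    (hJ : IsRaised qs J) (hfam : RaiseCtx.Avoids (Op.down (dvd_levN N _ L) ∘ D.famK L) J)
    {u : O →+* ℂ} (hu : Function.Injective u)
    (z : MvPolynomial (GoodIx (liftBad rb W N q₀)) ℤ)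
    (hvar : ∀ i ∈ z.vars, ¬ goodPr _ i ∣ D.badL L)
    (hz : ∀ T ⊆ primeSet J, ∀ [NeZero (N * ∏ t ∈ T, (t : ℕ))]
      (x : MvPolynomial (Nat.Primes ⊕ (ZMod (N * ∏ t ∈ T, (t : ℕ)))ˣ) ℤ →+* ℂ),
      IsPoint (N * ∏ t ∈ T, (t : ℕ)) ⊤ x →
        aeval (fun i : GoodIx (liftBad rb W N q₀) => x (X (Sum.inl i.1))) z = 0) :
    C₀.eAct hJ (Op.down (dvd_levN N _ L) ∘ D.famK L) hfam (D.killK L O n z) = 0 := by
  classical
  refine C₀.eAct_eq_zero hJ _ hfam (fun i l hi hd => ?_)
    (fun K _ hd => heckeSemisimple_over C₀.neg_mem K hd) hu _ ?_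
  · rcases i with i | w
    · have e : Op.hecke i.1 = (Op.hecke l : Op N) := hi
      cases e
      exact i.2 (D.dvd_badL (D.dvd_bad hd))
    · cases hi
  intro T hT K _ hd hK u' _ f hf μ hμ _
  subst hK
  have : NegMem (lvlH (⊤ : Subgroup (ZMod N)ˣ) hd) := negMem_lvlH (Subgroup.mem_top _) hd
  -- the eigenform gives a system of the level, with trivial diamond values
  let c : Nat.Primes ⊕ (ZMod (N * ∏ t ∈ T, (t : ℕ)))ˣ → ℂ :=
    Sum.elim (fun l => μ (.hecke l)) fun w => μ (.dia (ZMod.unitsMap hd w))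
  obtain ⟨χ, h1, h2⟩ := Fermat.JAC.XH.exists_point_of_eigenform _ _ hf c fun i => by
    rcases i with l | w
    · exact hμ (.hecke l)
    · rw [← formOpOver_dia_unitsMap (levelOver_lvlH ⊤ hd)]
      exact hμ _
  set x := χ.comp (Fermat.JAC.XH.ringEval (N * ∏ t ∈ T, (t : ℕ)) (lvlH ⊤ hd))
  have hx := isPoint_of_factor _ _ χ
  have hdia : ∀ a : (ZMod N)ˣ, μ (.dia a) = 1 := fun a => by
    obtain ⟨w, rfl⟩ := ZMod.unitsMap_surjective hd a
    have h := hx.dia_eq_one (u := w) (Subgroup.mem_top _)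
    rw [RingHom.comp_apply, Fermat.JAC.XH.ringEval_inr, h2] at h
    exact h
  -- on which `killK` takes the value of `z`
  have key : (eval₂Hom u' (μ ∘ Op.down (dvd_levN N _ L) ∘ D.famK L)).comp
      (eval₂Hom (Int.castRingHom _) fun i => D.tlK L O n (goodPr _ i)) z =
      (aeval fun i : GoodIx (liftBad rb W N q₀) => x (X (Sum.inl i.1))).toRingHom z := by
    refine hom_congr_vars (RingHom.ext_int _ _) (fun i hi _ => ?_) rfl
    obtain ⟨w, -, hw⟩ := D.tlK_eq (O := O) (n := n) (ℓ := i.1) (hvar i hi)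
    change eval₂Hom u' _ (eval₂Hom _ _ (X i)) = aeval _ (X i)
    rw [eval₂Hom_X', aeval_X, show goodPr _ i = ((i.1 : Nat.Primes) : ℕ) from rfl, hw, map_mul,
      eval₂Hom_X', eval₂Hom_X', RingHom.comp_apply, Fermat.JAC.XH.ringEval_inl, h1]
    change μ (.hecke i.1) * μ (.dia (ZMod.unitsMap _ (w ^ _))) = μ (.hecke i.1)
    rw [hdia, mul_one]
  refine key.trans (hz T (fun t ht => mem_primeSet.mpr (hT t ht)) x ?_)
  exact (show lvlH (⊤ : Subgroup (ZMod N)ˣ) hd = ⊤ from Subgroup.comap_top _) ▸ hx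

variable [NeZero (D.levK L)] {v : ℕ → (ZMod (D.levK L))ˣ} {hL : TWList p rb n L}
  {hc : CoeffData p O ζ}

/-- The rank of the module of union type, read at the base. -/
def rkE (h : D.Raise qs ε) (hO : (p : O) ∈ maximalIdeal O) (hJ : IsRaised qs J) : ℕ :=
  Module.finrank (MonoidAlgebra O PUnit.{1}) ((h.ctxBase hO).eMod hJ).X

/-- The rank of the module special at the head, read at the base. -/
def rkX (h : D.Raise qs ε) (hO : (p : O) ∈ maximalIdeal O) (hJ : IsRaised qs (q :: J)) : ℕ :=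
  Module.finrank (MonoidAlgebra O PUnit.{1}) ((h.ctxBase hO).xMod hJ).X

variable (h : D.Raise qs ε)
  (C : RaiseCtx p (goodPr (liftBad rb W N q₀)) (D.quotL hL) (sysIdeal (thetaL rb hc.mem ζ L))
    v ε qs)
  (hv : ∀ s ∈ qs, ZMod.unitsMap (dvd_levN N (goodPr (liftBad rb W N q₀)) L) (v s) = 1)

include hv in
/-- **The module of union type has the rank of the base, and operators vanishing at the base
reduce to zero.** -/
theorem exists_eBasis (hJ : IsRaised qs J) :
    ∃ b : Module.Basis (Fin (rkE h hc.mem hJ))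
        (MonoidAlgebra O (PUnit.{1} × DeltaQ p (fun _ : Fin L.length => n))) (C.eMod hJ).X,
      ∀ (hfam : RaiseCtx.Avoids (D.famK L) J) (P : MvPolynomial (D.labK L) O),
        (∀ hfam₀, (h.ctxBase hc.mem).eAct hJ (Op.down (dvd_levN N _ L) ∘ D.famK L) hfam₀ P = 0) →
        (LinearMap.toMatrix b b (C.eAct hJ (D.famK L) hfam P)).map
          (projRing O PUnit.{1} (DeltaQ p (fun _ : Fin L.length => n))) = 0 := by
  classical
  have : Finite (DeltaQ p (fun _ : Fin L.length => n)) := inferInstance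
  obtain ⟨T, hT⟩ := exists_eDesc (D.baseData hc.mem) hL.nodup
    (fun i hi => hL.isTWPrime hc D.p_ne_two D.not_dvd_goodIx hi) (isPGroup_deltaQ p _)
    (h.ctxBase hc.mem) C hv hJ (D.famK L) fun i l hi => famK_descends hi
  have hr : rkE h hc.mem hJ = Module.finrank
      (MonoidAlgebra O (PUnit.{1} × DeltaQ p (fun _ : Fin L.length => n))) (C.eMod hJ).X :=
    finrank_descent (O := O) T
  refine ⟨(Module.finBasis _ _).reindex (finCongr hr.symm), fun hfam P hP => ?_⟩
  exact map_matAct_eq_zero _ T (Module.finBasis (MonoidAlgebra O PUnit.{1}) _)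
    (C.eAct hJ (D.famK L) hfam)
    ((h.ctxBase hc.mem).eAct hJ (Op.down (dvd_levN N _ L) ∘ D.famK L) (avoids_down hfam))
    (fun x => hT hfam P x) (hP _)

include hv in
/-- **The module special at the head has the rank of the base, and operators vanishing at the base
reduce to zero.** -/
theorem exists_xBasis (hJ : IsRaised qs (q :: J)) :
    ∃ b : Module.Basis (Fin (rkX h hc.mem hJ))
        (MonoidAlgebra O (PUnit.{1} × DeltaQ p (fun _ : Fin L.length => n))) (C.xMod hJ).X,
      ∀ (hfam : RaiseCtx.Avoids (D.famK L) (q :: J)) (P : MvPolynomial (D.labK L) O),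
        (∀ hfam₀, (h.ctxBase hc.mem).eAct hJ (Op.down (dvd_levN N _ L) ∘ D.famK L) hfam₀ P = 0) →
        (LinearMap.toMatrix b b (C.xAct hJ (D.famK L) hfam P)).map
          (projRing O PUnit.{1} (DeltaQ p (fun _ : Fin L.length => n))) = 0 := by
  classical
  obtain ⟨T, hT⟩ := exists_xDesc (D.baseData hc.mem) hL.nodup
    (fun i hi => hL.isTWPrime hc D.p_ne_two D.not_dvd_goodIx hi) (isPGroup_deltaQ p _)
    (h.ctxBase hc.mem) C hv hJ (D.famK L) fun i l hi => famK_descends hi
  have hr : rkX h hc.mem hJ = Module.finrank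
      (MonoidAlgebra O (PUnit.{1} × DeltaQ p (fun _ : Fin L.length => n))) (C.xMod hJ).X :=
    finrank_descent (O := O) T
  refine ⟨(Module.finBasis _ _).reindex (finCongr hr.symm), fun hfam P hP => ?_⟩
  refine map_matAct_eq_zero _ T (Module.finBasis (MonoidAlgebra O PUnit.{1}) _)
    (C.xAct hJ (D.famK L) hfam)
    ((h.ctxBase hc.mem).xAct hJ (Op.down (dvd_levN N _ L) ∘ D.famK L) (avoids_down hfam))
    (fun x => hT hfam P x) (LinearMap.ext fun x => ?_)
  obtain ⟨x, rfl⟩ := (h.ctxBase hc.mem).proj_surjective hJ x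
  rw [← (h.ctxBase hc.mem).proj_eAct, hP (avoids_down hfam)]
  rfl

include h hv in
/-- The module at the start of a chain is not zero. -/
theorem nontrivial_eMod_nil (hJ : IsRaised qs []) : Nontrivial (C.eMod hJ).X := by
  have := (h.ctxBase hc.mem).neZero hJ
  have hne : Nontrivial ((h.ctxBase hc.mem).eMod hJ).X := by
    obtain ⟨x, hx⟩ := (D.baseData hc.mem).exists_ne
    refine ⟨⟨⟨x, ?_⟩, 0, fun e => hx (congrArg Subtype.val e)⟩⟩
    exact (mem_symMod_iff ((h.ctxBase hc.mem).lchar hJ)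
      ((h.ctxBase hc.mem).rootData hJ).symData ((h.ctxBase hc.mem).rootData hJ).family x).mpr
      fun s hs => (List.not_mem_nil hs).elim
  obtain ⟨b, -⟩ := exists_eBasis (hc := hc) h C hv hJ
  have : Nonempty (Fin (rkE h hc.mem hJ)) :=
    ⟨⟨0, (Module.finrank_pos_iff_of_free _ _).mpr inferInstance⟩⟩
  exact nontrivial_of_ne (b (Classical.arbitrary _)) 0 (b.ne_zero _)

/-- **The operator cutting the chain at `q` is an operator of the level**, when it has its values
at the systems. -/
theorem eAct_eq_tEnd (hJ : IsRaised qs (q :: J)) (hfam : RaiseCtx.Avoids (D.famK L) J)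
    {u : O →+* ℂ} (hu : Function.Injective u) (hqK : ¬ q ∣ D.levK L) (hqJ : q ∉ J)
    (tt : MvPolynomial (D.labK L) O)
    (hh : ∀ T, T ⊆ primeSet J → ∀ x ∈ D.ptsT hL hc.mem v ε T,
      aeval (D.lblVal T x) tt = x (X (Sum.inr (D.liftU T (v q)))) *
        x (X (Sum.inl ⟨q, (C.fact_head hJ).out⟩)) + algebraMap O _ (ε q * (q + 1 : ℕ))) :
    C.eAct hJ.tail (D.famK L) hfam tt = C.tEnd hJ := by
  set t : Nat.Primes := ⟨q, (C.fact_head hJ).out⟩
  let fam' : D.labK L ⊕ Unit → Op (D.levK L) := Sum.elim (D.famK L) fun _ => .hecke t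
  have hfam' : RaiseCtx.Avoids fam' J := fun i l hi s hs => by
    rcases i with i | w
    · exact hfam i l hi s hs
    · have e : Op.hecke t = (Op.hecke l : Op (D.levK L)) := hi
      cases e
      exact fun e => hqJ ((show q = s from e) ▸ hs)
  -- adjoin the operator at `q`: both sides agree at the systems
  have h0 := eAct_eq_zero_of_pts (hc := hc) C hJ.tail fam' hfam'
    (fun i l hi => by
      rcases i with i | w
      · exact not_dvd_levK_famK hi
      · have e : Op.hecke t = (Op.hecke l : Op (D.levK L)) := hi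
        cases e
        exact hqK)
    (fun i => Sum.inl (Sum.inl i))
    (fun T => Sum.elim (D.lblOf T) fun _ => Sum.inl t)
    (fun T i => by
      rcases i with i | w
      · exact D.opOf_lblOf T i
      · rfl)
    (fun T i => rfl) hu
    (rename Sum.inl tt -
      (X (Sum.inl (Sum.inr (v q))) * X (Sum.inr ()) + MvPolynomial.C (ε q * (q + 1 : ℕ))))
    fun T hT x hx => by
      rw [map_sub, aeval_rename, map_add, map_mul, aeval_X, aeval_X, aeval_C, sub_eq_zero]
      exact hh T hT x hx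
  rw [map_sub, sub_eq_zero,
    ← C.tEnd_eq hJ fam' hfam' (i := Sum.inl (Sum.inr (v q))) (j := Sum.inr ()) rfl rfl] at h0
  -- forget the adjoined operator
  rw [← h0]
  have := C.neZero hJ.tail
  refine LinearMap.ext fun x => Subtype.ext (DiamondQuot.LocMod.ext_val ?_)
  refine (coe_coe_symAct _ _ _ _ hfam tt x).trans ?_
  refine Eq.trans ?_ (coe_coe_symAct _ _ _ _ hfam' (rename Sum.inl tt) x).symm
  rw [opsAct_rename]
  rfl

/-- The descent of the chain, with an operator of the level cutting it. -/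
theorem exists_descK (hJ : IsRaised qs (q :: J)) (hfam : RaiseCtx.Avoids (D.famK L) (q :: J))
    (hfamJ : RaiseCtx.Avoids (D.famK L) J) (tt : MvPolynomial (D.labK L) O)
    (htt : C.eAct hJ.tail (D.famK L) hfamJ tt = C.tEnd hJ) :
    ∃ F : (C.xMod hJ).X →ₗ[MonoidAlgebra O (PUnit.{1} × DeltaQ p (fun _ : Fin L.length => n))]
        (C.eMod hJ.tail).X,
      (∀ y, ∃ x z, y = F x + C.eAct hJ.tail (D.famK L) hfamJ tt z) ∧
      ∀ P x, ∃ z, F (C.xAct hJ (D.famK L) hfam P x) - C.eAct hJ.tail (D.famK L) hfamJ P (F x) =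
        C.eAct hJ.tail (D.famK L) hfamJ tt z := by
  rw [htt]
  exact C.exists_desc hJ (D.famK L) hfam

end LiftData

end Fermat.GR.RT

end
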