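import Mathlib
import Fermat.Agent.GR.RT.Lift.Modules
import Fermat.Agent.GR.RT.Lift.Diamond
import Fermat.Agent.GR.RT.TameGen
import Fermat.Agent.GR.RT.Lift.Killer

/-!
# The family of liftings of one level: values, separation, Frobenius

`liftFam` is the family on which the patching levels are built: the curve (index `none`) and the
congruent systems of the levels above one auxiliary level (`PtIx`), with the values `ptK` of the
operators of that level at each. Main results: the systems of a module separate the operators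
acting on it (`eAct_eq_zero_of_ptK`, `xAct_eq_zero_of_ptK`), operators give the traces of Frobenius
(`frob_ptK`), and the family has a trace ring (`nonempty_famTraceRep`). `Chain`, `CaseChain` and
`CaseTransfer` turn these into the data of one level of patching.
-/

set_option autoImplicit false
set_option linter.unusedSectionVars false

noncomputable section

open MvPolynomial IsLocalRing Fermat.CFT

namespace Fermat.GR.RT

open Fermat.HM Fermat.MC.Lvl

local notation "ℚbar" => AlgebraicClosure ℚ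
local notation "Γℚ" => (AlgebraicClosure ℚ ≃ₐ[ℚ] AlgebraicClosure ℚ)

variable {p : ℕ} [hp : Fact p.Prime] {rb : Γℚ →* GL (Fin 2) (ZMod p)} {W : WeierstrassCurve ℤ}
  {N r q₀ : ℕ} {O : Type} [CommRing O] [IsDomain O] [IsDiscreteValuationRing O]
  [IsAdicComplete (maximalIdeal O) O] [Finite (ResidueField O)] [CharZero O]

/-- What is used about the curve as a lifting `Wl`, the member `none` of the family. -/
structure CurveFacts {hO : (p : O) ∈ maximalIdeal O} (D : LiftData p rb W N r q₀)
    (Wl : Lifting rb hO) : Prop where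
  /-- Frobenius at good primes has trace `a_ℓ`. -/
  trace : ∀ i : GoodIx (liftBad rb W N q₀), ∀ A : ValuationSubring ℚbar,
    A.LiesOverPrime (goodPr _ i) → ∀ φ : Γℚ, A.IsFrobeniusAt φ (goodPr _ i) →
      (Wl.rep φ).trace = ((W.apOfModel (goodPr _ i) : ℤ) : Wl.B)
  /-- The good primes are unramified. -/
  inertia : ∀ i : GoodIx (liftBad rb W N q₀), ∀ σ ∈ (placeAt i.1).inertiaSubgroupIn ℚ,
    Wl.rep σ = 1

namespace LiftData

variable [Algebra (ZMod p) (ResidueField O)] [NeZero N] {ζ : O} {n : ℕ}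
  {L : List (GoodIx (liftBad rb W N q₀))} {D : LiftData p rb W N r q₀}

/-- The index of the family: `none` for the curve, and a pair of a set `T` of raised primes and a
congruent system of the level with `T` added. -/
abbrev PtIx (D : LiftData p rb W N r q₀) (hL : TWList p rb n L) (hO : (p : O) ∈ maximalIdeal O)
    (qs : List ℕ) (v : ℕ → (ZMod (D.levK L))ˣ) (ε : ℕ → O) : Type :=
  Option (Σ T : {T // T ∈ (primeSet qs).powerset}, {x // x ∈ D.ptsT hL hO v ε T.1})

variable {C : D.RamConds O} {hL : TWList p rb n L} {hc : CoeffData p O ζ} {qs : List ℕ}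
  {v : ℕ → (ZMod (D.levK L))ˣ} {ε : ℕ → O}

/-- The family is finite. -/
theorem finite_ptIx : Finite (D.PtIx hL hc.mem qs v ε) := by
  have : ∀ T : {T // T ∈ (primeSet qs).powerset}, Finite {x // x ∈ D.ptsT hL hc.mem v ε T.1} :=
    fun T => by
      have := D.neZero_levT L T.1
      have : NegMem (D.grpT hL T.1) := ⟨D.neg_mem_grpT hL T.1⟩
      exact ((finite_isPoint _ _ _).subset fun x hx => hx.1).to_subtype
  infer_instance

/-- For every system in `PtIx`, its lifting with the properties used (`PtFacts`). -/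
abbrev AllFacts (D : LiftData p rb W N r q₀) (C : D.RamConds O) (hL : TWList p rb n L)
    (hO : (p : O) ∈ maximalIdeal O) (qs : List ℕ) (v : ℕ → (ZMod (D.levK L))ˣ) (ε : ℕ → O) :
    Type 1 :=
  ∀ a : Σ T : {T // T ∈ (primeSet qs).powerset}, {x // x ∈ D.ptsT hL hO v ε T.1},
    D.PtFacts C hL hO (primeSet qs) a.1.1 v ε a.2.1

/-- The family of liftings: the curve at `none`, the lifting of each system elsewhere. -/
def liftFam {hO : (p : O) ∈ maximalIdeal O} (Wl : Lifting rb hO)
    (F : D.AllFacts C hL hO qs v ε) : D.PtIx hL hO qs v ε → Lifting rb hO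
  | none => Wl
  | some a => (F a).lift

/-- The value of an operator of the level at a member of the family: at the curve the coefficients
`a_ℓ` (and `1` at the diamonds), at a system its eigenvalues. -/
def ptK {hO : (p : O) ∈ maximalIdeal O} (Wl : Lifting rb hO) (F : D.AllFacts C hL hO qs v ε) :
    ∀ i : D.PtIx hL hO qs v ε, MvPolynomial (D.labK L) O →ₐ[O] (liftFam Wl F i).B
  | none => aeval (R := O) (S₁ := Wl.B)
      (Sum.elim (fun l => ((W.apOfModel (l.1 : ℕ) : ℤ) : Wl.B)) fun _ => 1)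
  | some a => aeval (R := O) (S₁ := (F a).lift.B) fun l => (F a).y (X (D.lblOf a.1.1 l))

variable {hO : (p : O) ∈ maximalIdeal O} (Wl : Lifting rb hO) (F : D.AllFacts C hL hO qs v ε)

/-- The systems of the levels with raised primes in `J`. -/
def ptsE (J : List ℕ) : Set (D.PtIx hL hO qs v ε) :=
  {i | ∃ a, i = some a ∧ a.1.1 ⊆ primeSet J}

/-- The systems raised at `q`, the other raised primes in `J`. -/
def ptsX (q : ℕ) (J : List ℕ) : Set (D.PtIx hL hO qs v ε) :=
  {i | ∃ a, i = some a ∧ a.1.1 ⊆ primeSet (q :: J) ∧ ∃ t ∈ a.1.1, (t : ℕ) = q}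

/-- The values at a system, in the algebraic closure. -/
theorem j_ptK (a) (h : MvPolynomial (D.labK L) O) :
    (F a).j (ptK Wl F (some a) h) = aeval (D.lblVal a.1.1 a.2.1) h := by
  change (F a).j (aeval (R := O) (fun l => (F a).y (X (D.lblOf a.1.1 l))) h) = _
  rw [← AlgHom.comp_apply, comp_aeval]
  refine congrArg (fun f => aeval f h) (funext fun l => ?_)
  exact RingHom.congr_fun (F a).comp _

/-- `primeSet` is monotone. -/
theorem primeSet_mono {J J' : List ℕ} (h : J ⊆ J') : primeSet J ⊆ primeSet J' := fun _ ht =>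
  mem_primeSet.mpr (h (mem_primeSet.mp ht))

/-- **Separation on the module of union type**: an operator whose values vanish at all systems
raised only at primes in `J` acts as zero on it. -/
theorem eAct_eq_zero_of_ptK [NeZero (D.levK L)]
    (Cx : RaiseCtx p (goodPr (liftBad rb W N q₀)) (D.quotL hL) (sysIdeal (thetaL rb hc.mem ζ L))
      v ε qs) {J : List ℕ} (hJ : IsRaised qs J) (hfam : RaiseCtx.Avoids (D.famK L) J)
    {u : O →+* ℂ} (hu : Function.Injective u) (h : MvPolynomial (D.labK L) O)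
    (hh : ∀ i ∈ D.ptsE (hL := hL) (hO := hO) (qs := qs) (v := v) (ε := ε) J, ptK Wl F i h = 0) :
    Cx.eAct hJ (D.famK L) hfam h = 0 :=
  eAct_eq_zero_of_pts (hc := hc) Cx hJ (D.famK L) hfam (fun i l hi => not_dvd_levK_famK hi)
    Sum.inl (fun T => D.lblOf T) (fun T i => D.opOf_lblOf T i) (fun T i => rfl) hu h
    fun T hT x hx => by
      let a : Σ T : {T // T ∈ (primeSet qs).powerset}, {x // x ∈ D.ptsT hL hO v ε T.1} :=
        ⟨⟨T, Finset.mem_powerset.mpr (hT.trans (primeSet_mono hJ.1))⟩, ⟨x, hx⟩⟩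
      have h1 := j_ptK Wl F a h
      simp only [hh (some a) ⟨a, rfl, hT⟩] at h1
      exact h1.symm.trans (map_zero _)

/-- **Separation on the module special at `q`**: an operator whose values vanish at all systems
raised at `q`, and otherwise only in `J`, acts as zero on it. -/
theorem xAct_eq_zero_of_ptK [NeZero (D.levK L)]
    (Cx : RaiseCtx p (goodPr (liftBad rb W N q₀)) (D.quotL hL) (sysIdeal (thetaL rb hc.mem ζ L))
      v ε qs) {q : ℕ} {J : List ℕ} (hJ : IsRaised qs (q :: J))
    (hfam : RaiseCtx.Avoids (D.famK L) (q :: J))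
    {u : O →+* ℂ} (hu : Function.Injective u) (h : MvPolynomial (D.labK L) O)
    (hh : ∀ i ∈ D.ptsX (hL := hL) (hO := hO) (qs := qs) (v := v) (ε := ε) q J,
      ptK Wl F i h = 0) :
    Cx.xAct hJ (D.famK L) hfam h = 0 :=
  xAct_eq_zero_of_pts (hc := hc) Cx hJ (D.famK L) hfam (fun i l hi => not_dvd_levK_famK hi)
    Sum.inl (fun T => D.lblOf T) (fun T i => D.opOf_lblOf T i) (fun T i => rfl) hu h
    fun T hT hq x hx => by
      let a : Σ T : {T // T ∈ (primeSet qs).powerset}, {x // x ∈ D.ptsT hL hO v ε T.1} :=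
        ⟨⟨T, Finset.mem_powerset.mpr (hT.trans (primeSet_mono hJ.1))⟩, ⟨x, hx⟩⟩
      have h1 := j_ptK Wl F a h
      simp only [hh (some a) ⟨a, rfl, hT, _, hq, rfl⟩] at h1
      exact h1.symm.trans (map_zero _)

/-- The diamond value only depends on the image in the auxiliary level. -/
theorem PtFacts.dia_congr {Q T : Finset Nat.Primes}
    {x : MvPolynomial (Nat.Primes ⊕ (ZMod (D.levT L T))ˣ) ℤ →+* AlgebraicClosure (FractionRing O)}
    (P : D.PtFacts C hL hO Q T v ε x) {a b : (ZMod (D.levT L T))ˣ}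
    (h : ZMod.unitsMap (D.dvd_levT T) a = ZMod.unitsMap (D.dvd_levT T) b) : P.dia a = P.dia b := by
  have hm : a⁻¹ * b ∈ D.grpT hL T := by
    rw [Subgroup.mem_comap, map_mul, map_inv, h, inv_mul_cancel]
    exact one_mem _
  rw [← mul_inv_cancel_left a b, map_mul, P.dia_mem _ hm, mul_one]

/-- A good prime does not divide a level with raised primes added. -/
theorem not_dvd_levT_of_not_dvd_badL (hR : D.Raise qs ε) {T : Finset Nat.Primes}
    (hT : T ⊆ primeSet qs) {ℓ : Nat.Primes} (h : ¬ (ℓ : ℕ) ∣ D.badL L) :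
    ¬ (ℓ : ℕ) ∣ D.levT L T := fun hd => h (by
  rcases D.levT_cases ℓ.2 hd with hN | ⟨i, hi, e⟩ | ⟨t, ht, e⟩
  · exact D.dvd_badL (D.dvd_bad hN)
  · rw [← e]
    exact (List.dvd_prod (List.mem_map.mpr ⟨i, hi, rfl⟩)).mul_left _
  · rw [← e]
    exact D.dvd_badL (hR.dvd_bad (mem_primeSet.mp (hT ht))))

/-- **The operators give the values of Frobenius.** -/
theorem frob_ptK (hR : D.Raise qs ε) (hW : CurveFacts D Wl) {ℓ : ℕ} (hℓ : ℓ.Prime)
    (hbad : ℓ ∉ (D.badL L).primeFactors) {A : ValuationSubring ℚbar} (hA : A.LiesOverPrime ℓ)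
    {φ : Γℚ} (hφ : A.IsFrobeniusAt φ ℓ) (i : D.PtIx hL hO qs v ε) :
    ((liftFam Wl F i).rep φ).trace = ptK Wl F i (D.tlK L O n ℓ) ∧
      ((liftFam Wl F i).rep φ).det = ptK Wl F i (ℓ : MvPolynomial (D.labK L) O) := by
  have hb : ¬ ((⟨ℓ, hℓ⟩ : Nat.Primes) : ℕ) ∣ D.badL L := fun hd =>
    hbad (Nat.mem_primeFactors.mpr ⟨hℓ, hd, D.badL_ne_zero⟩)
  have hℓp : ℓ ≠ p := fun e => hb (show ℓ ∣ _ by rw [e]; exact D.dvd_badL D.p_dvd_bad)
  refine ⟨?_, by rw [(liftFam Wl F i).det, cycO_frobenius _ hℓ hℓp hA hφ, map_natCast]⟩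
  obtain ⟨w, hw, hwe⟩ := D.tlK_eq (O := O) (n := n) (ℓ := ⟨ℓ, hℓ⟩) hb
  rw [show D.tlK L O n ℓ = _ from hwe, map_mul]
  rcases i with _ | a
  · change (Wl.rep φ).trace = aeval (R := O) _ (X _) * aeval (R := O) _ (X _)
    rw [aeval_X, aeval_X, Sum.elim_inl, Sum.elim_inr, mul_one]
    exact hW.trace ⟨⟨ℓ, hℓ⟩, fun hd => hb (D.dvd_badL hd)⟩ A hA φ hφ
  · change ((F a).lift.rep φ).trace = aeval (R := O) _ (X _) * aeval (R := O) _ (X _)
    simp only [aeval_X]
    have hcop : ℓ.Coprime (D.levT L a.1.1) := hℓ.coprime_iff_not_dvd.mpr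
      (not_dvd_levT_of_not_dvd_badL hR (Finset.mem_powerset.mp a.1.2) (ℓ := ⟨ℓ, hℓ⟩) hb)
    rw [((F a).frob ⟨ℓ, hℓ⟩ hb A hA φ hφ).1 (ZMod.unitOfCoprime ℓ hcop)
      (ZMod.coe_unitOfCoprime _ hcop)]
    refine congrArg₂ _ rfl ?_
    change _ = (F a).y (X (Sum.inr (D.liftU a.1.1 _)))
    simp only [(F a).dia_apply]
    refine (F a).dia_congr ?_
    rw [D.unitsMap_liftU, map_pow]
    refine congrArg (· ^ _) (Units.ext ?_)
    rw [hw, ZMod.unitsMap_def, Units.coe_map, ZMod.coe_unitOfCoprime]
    exact map_natCast (ZMod.castHom (D.dvd_levT a.1.1) (ZMod (D.levK L))) ℓ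

/-- An integral polynomial in the Hecke operators is given by an element of the ring of traces. -/
theorem exists_frobElt (hR : D.Raise qs ε) (hW : CurveFacts D Wl)
    [Fintype (D.PtIx hL hO qs v ε)]
    (T : TraceRep (normDataOf D.semi.surjective O) (fun i => (liftFam Wl F i).B)
      (fun i => (liftFam Wl F i).rep))
    (z : MvPolynomial (GoodIx (liftBad rb W N q₀)) ℤ)
    (hvar : ∀ i ∈ z.vars, ¬ goodPr _ i ∣ D.badL L) :
    ∃ y : T.R, ∀ i, T.pr i y = ptK Wl F i (D.killK L O n z) := by
  refine ⟨eval₂Hom (Int.castRingHom T.R) (fun l => (T.rep (frobOf l.1)).trace) z, fun i => ?_⟩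
  change ((T.pr i).toRingHom.comp (eval₂Hom (Int.castRingHom T.R) _)) z =
    ((ptK Wl F i).toRingHom.comp (eval₂Hom (Int.castRingHom _) _)) z
  refine hom_congr_vars (RingHom.ext_int _ _) (fun l hl _ => ?_) rfl
  change T.pr i (eval₂Hom _ _ (X l)) = ptK Wl F i (eval₂Hom _ _ (X l))
  rw [eval₂Hom_X', eval₂Hom_X', pr_trace_rep]
  exact (frob_ptK Wl F hR hW l.1.2
    (fun h => hvar l hl (Nat.dvd_of_mem_primeFactors h)) (placeAt_spec l.1) (frobOf_spec l.1) i).1

/-- At the curve such a polynomial takes its value at the coefficients of the curve. -/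
theorem ptK_none_killK (z : MvPolynomial (GoodIx (liftBad rb W N q₀)) ℤ)
    (hvar : ∀ i ∈ z.vars, ¬ goodPr _ i ∣ D.badL L) :
    ptK Wl F none (D.killK L O n z) =
      ((aeval (apVal W (B := liftBad rb W N q₀)) z : ℤ) : Wl.B) := by
  change ((ptK Wl F none).toRingHom.comp (eval₂Hom (Int.castRingHom _) _)) z =
    ((Int.castRingHom Wl.B).comp (aeval (apVal W (B := liftBad rb W N q₀))).toRingHom) z
  refine hom_congr_vars (RingHom.ext_int _ _) (fun l hl _ => ?_) rfl
  obtain ⟨w, -, hwe⟩ := D.tlK_eq (O := O) (n := n) (ℓ := l.1) (hvar l hl)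
  change ptK Wl F none (eval₂Hom _ _ (X l)) = ((aeval (apVal W) (X l) : ℤ) : Wl.B)
  rw [eval₂Hom_X', aeval_X, show D.tlK L O n (goodPr _ l) = _ from hwe, map_mul]
  change aeval (R := O) _ (X _) * aeval (R := O) _ (X _) = _
  rw [aeval_X, aeval_X, Sum.elim_inl, Sum.elim_inr]
  exact mul_one _

/-- The operator `⟨u⟩ + ⟨u⁻¹⟩ - 2` at a unit `u`, one of the parameters of patching. -/
def parOp (D : LiftData p rb W N r q₀) (L : List (GoodIx (liftBad rb W N q₀))) (O : Type)
    [CommRing O] (u : (ZMod (D.levK L))ˣ) : MvPolynomial (D.labK L) O :=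
  X (Sum.inr u) + X (Sum.inr u⁻¹) - 2

/-- **The diamond parameters at the systems.** -/
theorem ptK_parOp [NeZero (D.levK L)] (hW : CurveFacts D Wl) (k : Fin L.length) {σ : Γℚ}
    (hσ : σ ∈ (placeAt (L.get k).1).inertiaSubgroupIn ℚ) (i : D.PtIx hL hO qs v ε) :
    ptK Wl F i (D.parOp L O (cycK (D.levK L) σ ^ ((p ^ n - 1) / 2))) =
      ((liftFam Wl F i).rep σ).trace - 2 := by
  rw [parOp, map_sub, map_add, map_ofNat]
  rcases i with _ | a
  · change aeval (R := O) _ (X _) + aeval (R := O) _ (X _) - 2 = (Wl.rep σ).trace - 2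
    rw [aeval_X, aeval_X, Sum.elim_inr, hW.inertia _ σ hσ, Sum.elim_inr, Matrix.trace_one]
    norm_num
  · change aeval (R := O) _ (X _) + aeval (R := O) _ (X _) - 2 = ((F a).lift.rep σ).trace - 2
    have := D.neZero_levT L a.1.1
    simp only [aeval_X, (F a).inertiaL _ (L.get_mem k) σ hσ]
    change (F a).y (X (Sum.inr (D.liftU a.1.1 _))) + (F a).y (X (Sum.inr (D.liftU a.1.1 _))) - 2 = _
    simp only [(F a).dia_apply]
    refine congrArg (· - 2) (congrArg₂ _ ((F a).dia_congr ?_) ((F a).dia_congr ?_))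
    · rw [D.unitsMap_liftU, map_pow, unitsMap_cycK]
    · rw [D.unitsMap_liftU, map_pow, unitsMap_cycK, map_inv (cycK (D.levK L)), inv_pow]

include D in
/-- **The trace ring of the family.** The liftings of the family come from one representation over
the ring generated by their traces. -/
theorem nonempty_famTraceRep [Fintype (D.PtIx hL hO qs v ε)] :
    Nonempty (TraceRep (normDataOf D.semi.surjective O) (fun i => (liftFam Wl F i).B)
      (fun i => (liftFam Wl F i).rep)) := by
  choose Q hQ using fun i => exists_isRed (O := O) D.semi.surjective _ (liftFam Wl F i).rep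
    (liftFam Wl F i).trace
  obtain ⟨T'⟩ := nonempty_traceRep (normDataOf D.semi.surjective O)
    (isUnit_two_of_mem D.p_ne_two hO) (exists_isUnit_bar D.semi.surjective)
    (fun i => conjHom (Q i) (liftFam Wl F i).rep)
    (fun i => matCont_conjHom (liftFam Wl F i).cont (Q i)) hQ
  exact TraceRep.nonempty_of_conj (r := fun i => (liftFam Wl F i).rep) T' Q fun i σ => rfl

include D in
/-- **Generators of tame inertia at the framed primes**: elements `τ q` which, with a Frobenius,
generate the image of the decomposition group modulo the square of the maximal ideal. -/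
theorem exists_frameGen
    (T : TraceRep (normDataOf D.semi.surjective O) (fun i => (liftFam Wl F i).B)
      (fun i => (liftFam Wl F i).rep)) :
    ∃ τ : frPrimes rb W q₀ → Γℚ, ∀ q, τ q ∈ (placeAt (D.primeA q)).inertiaSubgroupIn ℚ ∧
      ∀ δ ∈ (placeAt (D.primeA q)).decompositionSubgroup ℚ, ∃ i j : ℕ,
        ∀ a b, T.rep δ a b - T.rep (frobOf (D.primeA q) ^ i * τ q ^ j) a b ∈
          maximalIdeal T.R ^ 2 := by
  have hpR : (p : T.R) ∈ maximalIdeal T.R := by
    have := map_nonunit (algebraMap O T.R) _ hO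
    rwa [map_natCast] at this
  have hres : ∀ q : frPrimes rb W q₀, ∀ σ ∈ (placeAt (D.primeA q)).inertiaSubgroupIn ℚ,
      ∀ i j, (T.rep σ - 1) i j ∈ maximalIdeal T.R := fun q σ hσ i j => by
    have h := T.normal.red σ i j
    rw [normDataOf_bar_eq_one _ (D.unr_of_mem q.2 _ (placeAt_spec _) σ hσ), Matrix.one_apply] at h
    rw [Matrix.sub_apply, Matrix.one_apply]
    split_ifs at h ⊢ <;> simpa using h
  choose τ hτI _ _ hτgen using fun q : frPrimes rb W q₀ =>
    exists_generators_modPow T.cont hpR (D.prime_of_mem q.2) (D.ne_of_mem q.2) (placeAt_spec _)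
      (hres q) (1 : Γℚ →* Multiplicative (ZMod p))
      (by rw [show ((1 : Γℚ →* Multiplicative (ZMod p)).ker : Set Γℚ) = Set.univ from
            Set.eq_univ_of_forall fun _ => rfl]; exact isOpen_univ)
      (fun d => ⟨1, Multiplicative.toAdd.injective (by
        rw [toAdd_pow, pow_one, nsmul_eq_mul, ZMod.natCast_self, zero_mul]; rfl)⟩)
      (frobOf_spec (D.primeA q)) 2
  exact ⟨τ, fun q => ⟨hτI q, hτgen q⟩⟩

end LiftData

end Fermat.GR.RT

end
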