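import Fermat.Agent.GR.RT.Lift.Lifting
import Fermat.Agent.GR.RT.LowerTangentBound

/-!
# The tangent bounds of modularity lifting

For a family of liftings unramified outside the conditions and the auxiliary primes, with the strict
relation at the ramified primes, the tangent vectors killing a condition at `p` and the frames are
bounded by the Selmer group.
-/

set_option autoImplicit false
set_option linter.unusedSectionVars false

noncomputable section

open IsLocalRing Fermat.CFT ExtCitation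

namespace Fermat.GR.RT

open Fermat.GR.Patch

local notation "ℚbar" => AlgebraicClosure ℚ
local notation "Γℚ" => (AlgebraicClosure ℚ ≃ₐ[ℚ] AlgebraicClosure ℚ)
local notation "M2" R => Matrix (Fin 2) (Fin 2) R

variable {p : ℕ} [hp : Fact p.Prime] {rb : Γℚ →* GL (Fin 2) (ZMod p)} {O : Type} [CommRing O]
  [IsDomain O] [IsDiscreteValuationRing O] [IsAdicComplete (maximalIdeal O) O]
  [Finite (ResidueField O)] [CharZero O] {hO : (p : O) ∈ maximalIdeal O}

namespace TraceRep

variable {hs : Function.Surjective rb} {ι : Type} [Fintype ι] {P : ι → Lifting rb hO}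
  (T : TraceRep (normDataOf hs O) (fun i => (P i).B) (fun i => (P i).rep))

/-- The determinant of the trace representation is cyclotomic. -/
theorem det_rep [Nonempty ι] (σ : Γℚ) : (T.rep σ).det = algebraMap O T.R (cycO hO σ) := by
  have := T.finite_residueField
  refine det_eq_cycO hO T.cont {p} (fun ℓ hℓ hbad A hA φ hφ => T.pr_injective _ _ fun i => ?_) σ
  obtain ⟨Q, hQ⟩ := T.pr_rep i
  rw [map_natCast, AlgHom.map_det, ← cycO_frobenius (P i).mem hℓ
    (fun e => hbad (Finset.mem_singleton.mpr e)) hA hφ, ← (P i).det φ]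
  exact (trace_det_of_conj Q (hQ φ)).2

/-- Inertia acts trivially where it does so at every point. -/
theorem inertia_eq_one {S : Finset Nat.Primes} (hunr : ∀ i, (P i).UnrOutside S) {v : Nat.Primes}
    (hv : v ∉ S) {A : ValuationSubring ℚbar} (hA : A.LiesOverPrime (v : ℕ)) {σ : Γℚ}
    (hσ : σ ∈ A.inertiaSubgroupIn ℚ) : T.rep σ = 1 := by
  refine Matrix.ext fun a b => T.pr_injective _ _ fun i => ?_
  obtain ⟨Q, hQ⟩ := T.pr_rep i
  have h1 := hQ σ
  rw [hunr i v hv A hA σ hσ, mul_one] at h1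
  refine (congrFun (congrFun (Q.mul_left_inj.mp (h1.trans (one_mul _).symm)) a) b).trans ?_
  rw [Matrix.one_apply, Matrix.one_apply]
  split_ifs <;> simp

end TraceRep

namespace LiftData

variable [Algebra (ZMod p) (ResidueField O)] {W : WeierstrassCurve ℤ} {N r q₀ : ℕ}
  {D : LiftData p rb W N r q₀}
  {S : Submodule (ZMod p) (LH1 (pPrime p) (adRep p (resRep rb O)))}
  {ι : Type} [Fintype ι] {P : ι → Lifting rb hO}
  {T : TraceRep (normDataOf D.semi.surjective O) (fun i => (P i).B) (fun i => (P i).rep)}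
  {s : Set ι} {extra : Set T.R}

/-- **The classes of the derivations satisfy the conditions.** -/
theorem RamConds.cl_mem (C : D.RamConds O)
    (hram : ∀ i (q : Nat.Primes), (q : ℕ) ≠ p → ¬ IsResUnramified p rb q →
      StrictRel O q (C.e q) (P i).rep)
    (hp' : AtPCond S P T.pr T.rep s extra) {v : Nat.Primes} (hvT : v ∈ D.condT)
    (hvA : v ∉ D.setA) {π : T.R →+* ResidueField O} (hπm : ∀ a ∈ maximalIdeal T.R, π a = 0)
    (hπO : π.comp (algebraMap O T.R) = residue O) (hres : resHom π T.rep = resRep rb O)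
    {d : T.R → ResidueField O} (hd : IsDeriv π d) (hdO : ∀ o, d (algebraMap O T.R o) = 0)
    (hdet : ∀ σ, d (T.rep σ).det = 0) (hJ : ∀ y ∈ (ptsIdeal T.pr s : Set T.R) ∪ extra, d y = 0)
    (z : Coh.Z1 (glev (decAt v).subtype) (repAt v (adRep p (resRep rb O))))
    (hz : ∀ δ, ((z.1 δ : adZero p (ResidueField O)) : M2 (ResidueField O)) = tcoc π T.rep d δ.1) :
    Coh.cl₁ (glev (decAt v).subtype) (repAt v (adRep p (resRep rb O))) z ∈ C.cond S v := by
  by_cases hvp : v = pPrime p
  · subst hvp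
    rw [C.cond_p]
    exact hp' π d hπm hπO hres hd hdO hdet (fun y hy => hJ y (Set.mem_union_left _ hy))
      (fun y hy => hJ y (Set.mem_union_right _ hy)) z hz
  · obtain ⟨hne, hr⟩ := D.ram_of_mem hvT hvp hvA
    obtain ⟨-, -, -, -, hcl⟩ := C.strict v hne hr
    rw [C.cond_ram S hvp hvA]
    refine hcl T.R T.rep π d hd hπO hdO hdet hres ?_ z hz
    refine StrictRel.of_injective T.pr T.pr_injective fun i => ?_
    obtain ⟨Q, hQ⟩ := T.pr_rep i
    exact StrictRel.conj (P := Q) hQ (hram i v hne hr)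

/-- The classes of the derivations over an isomorphic field. -/
theorem RamConds.cl_mem_back (C : D.RamConds O)
    (hram : ∀ i (q : Nat.Primes), (q : ℕ) ≠ p → ¬ IsResUnramified p rb q →
      StrictRel O q (C.e q) (P i).rep)
    (hp' : AtPCond S P T.pr T.rep s extra) {k' : Type} [Field k'] [Algebra (ZMod p) k']
    (e : ResidueField O ≃+* k') {π' : T.R →+* k'} (hπm : ∀ a ∈ maximalIdeal T.R, π' a = 0)
    (he : ∀ o, e (residue O o) = π' (algebraMap O T.R o))
    (hr : ∀ σ, resHom π' T.rep σ = (resRep rb O σ).map e) {v : Nat.Primes} (hvT : v ∈ D.condT)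
    (hvA : v ∉ D.setA) {d : T.R → k'} (hd : IsDeriv π' d)
    (hdO : ∀ o, d (algebraMap O T.R o) = 0) (hdet : ∀ σ, d (T.rep σ).det = 0)
    (hJ : ∀ y ∈ (ptsIdeal T.pr s : Set T.R) ∪ extra, d y = 0)
    (z : Coh.Z1 (glev ((placeAt v).decompositionSubgroup ℚ).subtype)
      (locRep p (resHom π' T.rep) (placeAt v)))
    (hz : ∀ δ, ((z.1 δ : adZero p k') : M2 k') = tcoc π' T.rep d δ.1) :
    locBack (p := p) e hr (placeAt v) (Coh.cl₁ (glev ((placeAt v).decompositionSubgroup ℚ).subtype)
      (locRep p (resHom π' T.rep) (placeAt v)) z) ∈ C.cond S v := by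
  refine locBack_cl₁_mem e hr rfl hd (placeAt v) (fun hd' hres z₀ hz₀ => ?_) z hz
  exact C.cl_mem hram hp' hvT hvA (fun a ha => by simp [hπm a ha])
    (RingHom.ext fun o => by simp [← he]) hres hd' (fun o => by simp [hdO])
    (fun σ => by simp [hdet])
    (fun y hy => by simp [hJ y hy]) z₀ hz₀

variable {L : List (GoodIx (liftBad rb W N q₀))}

/-- The Selmer group of the conditions over an isomorphic field is small. -/
theorem RamConds.selmer_le (C : D.RamConds O) {nR : ℕ} (hR : D.SelBound (C.cond S) L nR)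
    {k' : Type} [Field k'] [Algebra (ZMod p) k'] (e : ResidueField O ≃+* k')
    {r' : Γℚ →* M2 k'} (hr : ∀ σ, r' σ = (resRep rb O σ).map e) :
    let L' : ∀ v : {v : Nat.Primes // v ∈ D.condT ∧ v ∉ D.setA},
        Submodule (ZMod p) (locH1 p r' (placeAt v.1)) :=
      fun v => (C.cond S v.1).comap (locBack (p := p) e hr (placeAt v.1))
    let sel := selmer p ((D.condT ∪ D.setL L : Finset Nat.Primes) : Set Nat.Primes) r'
      (Sum.elim (fun v : {v : Nat.Primes // v ∈ D.condT ∧ v ∉ D.setA} => placeAt v.1)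
        fun q : frPrimes rb W q₀ => placeAt (D.primeA q)) (Sum.rec L' fun _ => ⊥)
    Finite sel ∧ Nat.card sel * ∏ q : frPrimes rb W q₀,
      Nat.card (Coh.H0 (locRep p r' (placeAt (D.primeA q)))) ≤ Nat.card k' ^ nR := by
  classical
  intro L' sel
  obtain ⟨hfinS, hcardS⟩ := hR
  have := hfinS
  obtain ⟨hfin, hcard⟩ := selmer_back (p := p) e hr (S := D.condT ∪ D.setL L)
    (fun v => if v ∈ D.condT then C.cond S v else ⊤)
    (Sum.elim (fun v : {v : Nat.Primes // v ∈ D.condT ∧ v ∉ D.setA} => placeAt v.1)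
      fun q : frPrimes rb W q₀ => placeAt (D.primeA q)) (Sum.rec L' fun _ => ⊥) fun y hy v _ => by
      by_cases hvT : v ∈ D.condT
      · rw [if_pos hvT]
        by_cases hvA : v ∈ D.setA
        · obtain ⟨q, -, rfl⟩ := Finset.mem_image.mp hvA
          have h := hy (Sum.inr q)
          rw [Submodule.mem_bot] at h
          have h0 := (congrArg (locBack (p := p) e hr (placeAt (D.primeA q))) h).trans (map_zero _)
          exact Eq.mpr (congrArg (· ∈ C.cond S (D.primeA q)) h0) (zero_mem _)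
        · exact hy (Sum.inl ⟨v, hvT, hvA⟩)
      · rw [if_neg hvT]; exact Submodule.mem_top
  refine ⟨hfin, ?_⟩
  rw [← Nat.card_congr e.toEquiv]
  refine (Nat.mul_le_mul hcard ?_).trans hcardS
  rw [setA, Finset.prod_image fun a _ b _ h => D.primeA_injective h]
  exact Finset.prod_le_prod' fun q _ => card_H0_le e hr _

/-- **The tangent bound at an auxiliary level.** -/
theorem RamConds.tangent_le [Nonempty ι] (C : D.RamConds O) {nR : ℕ}
    (hR : D.SelBound (C.cond S) L nR) (hunr : ∀ i, (P i).UnrOutside (D.condT ∪ D.setL L))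
    (hram : ∀ i (q : Nat.Primes), (q : ℕ) ≠ p → ¬ IsResUnramified p rb q →
      StrictRel O q (C.e q) (P i).rep)
    (hp' : AtPCond S P T.pr T.rep s extra) (a₀ : frPrimes rb W q₀)
    (φ τ : frPrimes rb W q₀ → Γℚ) (Pq : frPrimes rb W q₀ → (M2 O)ˣ)
    (hgen : ∀ q, ∀ δ ∈ (placeAt (D.primeA q)).decompositionSubgroup ℚ, ∃ i j : ℕ, ∀ a b,
      T.rep δ a b - T.rep (φ q ^ i * τ q ^ j) a b ∈ maximalIdeal T.R ^ 2)
    {g : ℕ} (hg : g + 1 = nR + Fintype.card (frPrimes rb W q₀))
    (K : Submodule (ResidueField (MvPowerSeries (FrameVar (frPrimes rb W q₀) a₀) T.R))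
      (MvPowerSeries (FrameVar (frPrimes rb W q₀) a₀) T.R →
        ResidueField (MvPowerSeries (FrameVar (frPrimes rb W q₀) a₀) T.R)))
    (hK : ∀ l ∈ K, l ∈ tangentSpace O (MvPowerSeries (FrameVar (frPrimes rb W q₀) a₀) T.R) ∧
      (∀ q i j, l (framed a₀ q (frameAt T Pq φ q) i j) = 0) ∧
      (∀ q i j, l (framed a₀ q (frameAt T Pq τ q) i j) = 0) ∧
      (∀ y ∈ ptsIdeal T.pr s, l (MvPowerSeries.C y) = 0) ∧
      ∀ y ∈ extra, l (MvPowerSeries.C y) = 0) :
    Finite K ∧ Nat.card K ≤
      Nat.card (ResidueField (MvPowerSeries (FrameVar (frPrimes rb W q₀) a₀) T.R)) ^ g := by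
  classical
  obtain ⟨e, he⟩ := exists_equiv_redW (q₀ := a₀) T.hres
  let : Algebra (ZMod p) (ResidueField (MvPowerSeries (FrameVar (frPrimes rb W q₀) a₀) T.R)) :=
    ((e : ResidueField O →+* _).comp (algebraMap (ZMod p) (ResidueField O))).toAlgebra
  have : Finite (ResidueField (MvPowerSeries (FrameVar (frPrimes rb W q₀) a₀) T.R)) :=
    Finite.of_equiv _ e.toEquiv
  have := T.finite_residueField
  have hr : ∀ σ, resHom (redW a₀) T.rep σ = (resRep rb O σ).map e := fun σ => by
    rw [← resRep_eq_bar D.semi.surjective σ, Matrix.map_map]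
    refine Matrix.ext fun a b => ?_
    have h := redW_eq_zero (q₀ := a₀) (T.normal.red σ a b)
    rw [map_sub, sub_eq_zero] at h
    exact h.trans (he _).symm
  have h2 : (2 : ResidueField (MvPowerSeries (FrameVar (frPrimes rb W q₀) a₀) T.R)) ≠ 0 := by
    rw [← map_ofNat e 2, map_ne_zero]
    intro h
    have h' : algebraMap (ZMod p) (ResidueField O) 2 = 0 := by rw [map_ofNat]; exact h
    rw [map_eq_zero] at h'
    have := Nat.le_of_dvd two_pos ((ZMod.natCast_eq_zero_iff 2 p).mp h')
    have := D.two_lt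
    omega
  -- the Selmer bound over this field, and a level on which the representation is trivial to first
  -- order
  obtain ⟨hfin, hsel⟩ := C.selmer_le hR e hr
  have := hfin
  have hlev : ∃ N', (galLevels ((D.condT ∪ D.setL L : Finset Nat.Primes) :
    Set Nat.Primes)).IsLevel N' ∧
      ∀ σ ∈ N', ∀ a b, T.rep σ a b - (1 : M2 T.R) a b ∈ maximalIdeal T.R ^ 2 :=
    exists_level_modPow T.cont 2 fun v hv B hB σ hσ a b => by
      rw [T.inertia_eq_one hunr hv hB hσ, sub_self]; exact zero_mem _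
  exact card_tangent_le_of_kills (p := p) (r := nR) h2 hg T.rep
    ((D.condT ∪ D.setL L : Finset Nat.Primes) : Set Nat.Primes) (fun q => placeAt (D.primeA q))
    (fun v : {v : Nat.Primes // v ∈ D.condT ∧ v ∉ D.setA} => placeAt v.1)
    (fun v => (C.cond S v.1).comap (locBack (p := p) e hr (placeAt v.1))) φ τ Pq hgen
    (fun σ => ⟨_, (T.det_rep σ).symm⟩) hlev T.adjoin_traces
    ((ptsIdeal T.pr s : Set T.R) ∪ extra)
    (fun v d hd hdO hJ z hz => C.cl_mem_back hram hp' e
      (fun a ha => redW_eq_zero ha) he hr v.2.1 v.2.2 hd hdO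
      (fun σ => by rw [T.det_rep, hdO]) hJ z hz) hsel K fun l hl => by
        obtain ⟨h1, h2', h3, h4, h5⟩ := hK l hl
        exact ⟨h1, fun y hy => hy.elim (h4 y) (h5 y), h2', h3⟩

end LiftData

end Fermat.GR.RT

end
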