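import Mathlib
import Fermat.Agent.GR.RT.Lift.Setup
import Fermat.Agent.GR.RT.Lift.Tangents
import Fermat.Agent.GR.RT.LevelChain

/-!
# Chains of lifting: the relations at the systems and the operators cutting the chain

`chainRel_ptsX` gives the chain relations at the systems of one step, and `tEnd_not_surjective`
the non-surjectivity of the operator cutting the chain.
-/

set_option autoImplicit false
set_option linter.unusedSectionVars false

noncomputable section

open IsLocalRing Fermat.CFT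

namespace Fermat.GR.RT

open Fermat.HM Fermat.GR.Patch

local notation "Γℚ" => (AlgebraicClosure ℚ ≃ₐ[ℚ] AlgebraicClosure ℚ)
local notation "M2" R => Matrix (Fin 2) (Fin 2) R

/-- The first members of a sequence, the last first. -/
def stepList (e : ℕ → ℕ) : ℕ → List ℕ
  | 0 => []
  | k + 1 => e k :: stepList e k

/-- The members of the list of the first `k` steps. -/
theorem mem_stepList {e : ℕ → ℕ} {k a : ℕ} : a ∈ stepList e k ↔ ∃ i < k, e i = a := by
  induction k with
  | zero => simp [stepList]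
  | succ k ih =>
    rw [stepList, List.mem_cons, ih]
    constructor
    · rintro (rfl | ⟨i, hi, rfl⟩)
      exacts [⟨k, Nat.lt_succ_self k, rfl⟩, ⟨i, Nat.lt_succ_of_lt hi, rfl⟩]
    · rintro ⟨i, hi, rfl⟩
      rcases Nat.lt_succ_iff_lt_or_eq.mp hi with h | rfl
      exacts [Or.inr ⟨i, h, rfl⟩, Or.inl rfl]

/-- The lists of steps increase. -/
theorem stepList_subset {e : ℕ → ℕ} {k M : ℕ} (h : k ≤ M) : stepList e k ⊆ stepList e M :=
  fun _ ha => by
    obtain ⟨i, hi, he⟩ := mem_stepList.mp ha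
    exact mem_stepList.mpr ⟨i, lt_of_lt_of_le hi h, he⟩

/-- An injective sequence of primes gives lists without repetition. -/
theorem nodup_stepList {e : ℕ → ℕ} {M : ℕ} (he : Set.InjOn e (Set.Iio M)) :
    ∀ {k : ℕ}, k ≤ M → (stepList e k).Nodup
  | 0, _ => List.nodup_nil
  | k + 1, hk => List.nodup_cons.mpr ⟨fun h => by
      obtain ⟨i, hi, hie⟩ := mem_stepList.mp h
      exact absurd (he (Set.mem_Iio.mpr (lt_of_lt_of_le (Nat.lt_succ_of_lt hi) hk))
        (Set.mem_Iio.mpr hk) hie) hi.ne, nodup_stepList he (Nat.le_of_succ_le hk)⟩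

/-- The lists of steps of an injective sequence inside `qs` are raised. -/
theorem isRaised_stepList {e : ℕ → ℕ} {M : ℕ} (he : Set.InjOn e (Set.Iio M)) {qs : List ℕ}
    (hqs : stepList e M ⊆ qs) {k : ℕ} (hk : k ≤ M) : IsRaised qs (stepList e k) :=
  ⟨List.Subset.trans (stepList_subset hk) hqs, nodup_stepList he hk⟩

/-- Trivial inertia is of union type. -/
theorem unionRel_one {O : Type} [CommRing O] [IsLocalRing O] {A B : Type} [CommRing B]
    (D : SingleData O A) (q : A) (u : B) (P : M2 B) : D.UnionRel q u P 1 := by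
  have : Subsingleton (B ⧸ SingleData.sigAnn (1 : M2 B)) := Ideal.Quotient.subsingleton_iff.mpr
    ((Ideal.eq_top_iff_one _).mpr (SingleData.mem_sigAnn.mpr fun i j => by
      rw [sub_self, Matrix.zero_apply, mul_zero]))
  exact ⟨Subsingleton.elim _ _, Subsingleton.elim _ _, Subsingleton.elim _ _,
    Subsingleton.elim _ _, Subsingleton.elim _ _⟩

variable {p : ℕ} [hp : Fact p.Prime] {rb : Γℚ →* GL (Fin 2) (ZMod p)} {W : WeierstrassCurve ℤ}
  {N r q₀ : ℕ} {O : Type} [CommRing O] [IsDomain O] [IsDiscreteValuationRing O]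
  [IsAdicComplete (maximalIdeal O) O] [Finite (ResidueField O)] [CharZero O]

/-- The Steinberg relations of a lifting in the notation of the patching types. -/
theorem Lifting.StAt.stRel {hO : (p : O) ∈ maximalIdeal O} {P : Lifting rb hO} {v : Nat.Primes}
    {u : O} (h : P.StAt v u) {A : Type} (D : SingleData O A) {q : A} (hq : D.N q = (v : ℕ))
    (hu : D.u q = u) {φ σ : Γℚ} (hφ : (placeAt v).IsFrobeniusAt φ v)
    (hσ : σ ∈ (placeAt v).inertiaSubgroupIn ℚ) :
    D.StRel q (algebraMap O P.B (D.u q)) (P.rep φ) (P.rep σ) := by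
  have := h φ hφ σ hσ
  rw [SingleData.StRel, hu, hq]
  exact this

namespace LiftData

variable [Algebra (ZMod p) (ResidueField O)] [NeZero N] {ζ : O} {n : ℕ}
  {L : List (GoodIx (liftBad rb W N q₀))} {D : LiftData p rb W N r q₀} {C : D.RamConds O}
  {hL : TWList p rb n L} {hO : (p : O) ∈ maximalIdeal O} {qs : List ℕ}
  {v : ℕ → (ZMod (D.levK L))ˣ} {ε : ℕ → O}

/-- What is to be known about the systems of all levels of one data. -/
def FactsAvail (D : LiftData p rb W N r q₀) (C : D.RamConds O) (hO : (p : O) ∈ maximalIdeal O) :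
    Prop :=
  ∀ (n : ℕ) (L : List (GoodIx (liftBad rb W N q₀))) (hL : TWList p rb n L)
    (Q : Finset Nat.Primes) (v : ℕ → (ZMod (D.levK L))ˣ) (ε : ℕ → O), D.Signs hL Q v ε →
      ∀ T ⊆ Q, ∀ x ∈ D.ptsT hL hO v ε T, Nonempty (D.PtFacts C hL hO Q T v ε x)

variable (Wl : Lifting rb hO) (F : D.AllFacts C hL hO qs v ε) (D₁ : SingleData O (frPrimes rb W q₀))

/-- The determinant of Frobenius at a framed prime. -/
theorem det_at (hN : ∀ q, D₁.N q = (q : ℕ)) (P : Lifting rb hO) (q : frPrimes rb W q₀) {φ : Γℚ}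
    (hφ : (placeAt (D.primeA q)).IsFrobeniusAt φ (D.primeA q)) :
    (P.rep φ).det = (D₁.N q : P.B) := by
  rw [P.det, hN]
  exact cycO_frobenius P.mem (D.prime_of_mem q.2) (D.ne_of_mem q.2) (placeAt_spec (D.primeA q)) hφ

/-- A system with the framed prime `q` raised satisfies the Steinberg relations at `q`. -/
theorem stRel_some (hN : ∀ q, D₁.N q = (q : ℕ))
    (hε : ∀ q : frPrimes rb W q₀, (q : ℕ) ≠ q₀ → ε q = -D₁.u q) {q : frPrimes rb W q₀}
    (hq : (q : ℕ) ≠ q₀) (a : Σ T : {T // T ∈ (primeSet qs).powerset}, {x // x ∈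
      D.ptsT hL hO v ε T.1})
    (hqa : D.primeA q ∈ a.1.1) {σ : Γℚ}
    (hσ : σ ∈ (placeAt (D.primeA q)).inertiaSubgroupIn ℚ) :
    D₁.StRel q (algebraMap O (F a).lift.B (D₁.u q)) ((F a).lift.rep (frobOf (D.primeA q)))
      ((F a).lift.rep σ) :=
  Lifting.StAt.stRel ((F a).stA _ (D.mem_setA.mpr q.2) hqa) D₁ (hN q)
    (show D₁.u q = -ε ((D.primeA q : Nat.Primes) : ℕ) by
      rw [show ((D.primeA q : Nat.Primes) : ℕ) = (q : ℕ) from rfl, hε q hq, neg_neg])
    (frobOf_spec _) hσ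

/-- A system without `q` raised is unramified at `q`. -/
theorem rep_eq_one_some (a : Σ T : {T // T ∈ (primeSet qs).powerset}, {x // x ∈
    D.ptsT hL hO v ε T.1})
    {q : frPrimes rb W q₀} (hqa : D.primeA q ∉ a.1.1) {σ : Γℚ}
    (hσ : σ ∈ (placeAt (D.primeA q)).inertiaSubgroupIn ℚ) : (F a).lift.rep σ = 1 :=
  (F a).unrA _ (D.mem_setA.mpr q.2) hqa σ hσ

variable {Nc : ℕ} (qsA : Fin Nc → frPrimes rb W q₀) {e : ℕ → ℕ}

/-- **The chain relations at the systems of one step.** -/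
theorem chainRel_ptsX (hN : ∀ q, D₁.N q = (q : ℕ))
    (hε : ∀ q : frPrimes rb W q₀, (q : ℕ) ≠ q₀ → ε q = -D₁.u q)
    (hqe : ∀ j : Fin Nc, (qsA j : ℕ) = e j) (hq0 : ∀ j, (qsA j : ℕ) ≠ q₀) (j : Fin Nc)
    {i : D.PtIx hL hO qs v ε} (hi : i ∈ D.ptsX (hL := hL) (hO := hO) (qs := qs) (v := v) (ε := ε)
      (e j) (stepList e j)) (τ : frPrimes rb W q₀ → Γℚ)
    (hτ : ∀ q, τ q ∈ (placeAt (D.primeA q)).inertiaSubgroupIn ℚ) (q : frPrimes rb W q₀) :
    D₁.ChainRel (qsA j) (chainSt qsA j) q (algebraMap O (liftFam Wl F i).B (D₁.u q))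
      ((liftFam Wl F i).rep (frobOf (D.primeA q))) ((liftFam Wl F i).rep (τ q)) := by
  obtain ⟨a, rfl, haJ, t, ht, hte⟩ := hi
  refine ⟨det_at D₁ hN (F a).lift q (frobOf_spec _), fun hq => ?_, fun hq => ⟨fun hJ => ?_,
    fun hJ => ?_⟩⟩
  · subst hq
    refine stRel_some F D₁ hN hε (hq0 j) a ?_ (hτ _)
    rwa [show D.primeA (qsA j) = t from Subtype.ext ((hqe j).trans hte.symm)]
  · refine rep_eq_one_some F a (fun hmem => ?_) (hτ q)
    rcases List.mem_cons.mp (mem_primeSet.mp (haJ hmem)) with h | h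
    · exact hq (Subtype.ext (h.trans (hqe j).symm))
    · obtain ⟨i, hi, hie⟩ := mem_stepList.mp h
      have htrue := (chainSt_eq_true qsA (j : ℕ) q).mpr
        ⟨⟨i, hi.trans j.2⟩, hi, Subtype.ext ((hqe _).trans hie)⟩
      rw [hJ] at htrue
      exact Bool.false_ne_true htrue
  · obtain ⟨i, hi, rfl⟩ := (chainSt_eq_true qsA (j : ℕ) q).mp hJ
    by_cases hmem : D.primeA (qsA i) ∈ a.1.1
    · exact SingleData.StRel.map D₁ (stRel_some F D₁ hN hε (hq0 i) a hmem (hτ _)) _
    · rw [show (liftFam Wl F (some a)).rep (τ (qsA i)) = 1 from rep_eq_one_some F a hmem (hτ _)]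
      exact unionRel_one D₁ _ _ _

/-- The systems of the start are unramified at the framed primes. -/
theorem unr_ptsE_nil (hN : ∀ q, D₁.N q = (q : ℕ)) {i : D.PtIx hL hO qs v ε}
    (hi : i ∈ D.ptsE (hL := hL) (hO := hO) (qs := qs) (v := v) (ε := ε) [])
    (τ : frPrimes rb W q₀ → Γℚ) (hτ : ∀ q, τ q ∈ (placeAt (D.primeA q)).inertiaSubgroupIn ℚ)
    (q : frPrimes rb W q₀) :
    ((liftFam Wl F i).rep (frobOf (D.primeA q))).det = (D₁.N q : (liftFam Wl F i).B) ∧
      (liftFam Wl F i).rep (τ q) = 1 := by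
  obtain ⟨a, rfl, haJ⟩ := hi
  exact ⟨det_at D₁ hN (F a).lift q (frobOf_spec _),
    rep_eq_one_some F a (fun h => List.not_mem_nil (mem_primeSet.mp (haJ h))) (hτ q)⟩

/-- The curve has the exact type. -/
theorem typeRel_curve (hN : ∀ q, D₁.N q = (q : ℕ))
    (hSt : ∀ q, D₁.isSt q = true ↔ (q : ℕ) ≠ q₀) (xB : Wl.B →ₐ[O] O)
    (hWst : ∀ q : frPrimes rb W q₀, (q : ℕ) ≠ q₀ → Wl.StAt (D.primeA q) (D₁.u q))
    (hW0 : ∀ q : frPrimes rb W q₀, (q : ℕ) = q₀ → Wl.UnrAt (D.primeA q))
    (τ : frPrimes rb W q₀ → Γℚ) (hτ : ∀ q, τ q ∈ (placeAt (D.primeA q)).inertiaSubgroupIn ℚ)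
    (q : frPrimes rb W q₀) :
    D₁.TypeRel q (algebraMap O O (D₁.u q)) ((Wl.rep (frobOf (D.primeA q))).map xB)
      ((Wl.rep (τ q)).map xB) := by
  refine ⟨?_, fun hq => ?_, fun hq => ?_⟩
  · change (xB.toRingHom.mapMatrix (Wl.rep (frobOf (D.primeA q)))).det = _
    rw [← RingHom.map_det, det_at D₁ hN Wl q (frobOf_spec _), map_natCast]
  · rw [hW0 q (by_contra fun h => by rw [(hSt q).mpr h] at hq; exact Bool.noConfusion hq) _ (hτ q),
      Matrix.map_one _ (map_zero xB) (map_one xB)]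
  · have h := SingleData.StRel.map D₁ (Lifting.StAt.stRel (hWst q ((hSt q).mp hq)) D₁ (hN q) rfl
      (frobOf_spec _) (hτ q)) xB.toRingHom
    rw [show xB.toRingHom (algebraMap O Wl.B (D₁.u q)) = algebraMap O O (D₁.u q) from
      xB.commutes _] at h
    exact h

variable [Fintype (D.PtIx hL hO qs v ε)]
  (T : TraceRep (normDataOf D.semi.surjective O) (fun i => (liftFam Wl F i).B)
    (fun i => (liftFam Wl F i).rep))
  (Pq : frPrimes rb W q₀ → (M2 O)ˣ)

/-- The element cutting the chain at `q`. -/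
def stElt (q : frPrimes rb W q₀) : T.R :=
  (frameAt T Pq (fun q => frobOf (D.primeA q)) q).trace -
    algebraMap O T.R (D₁.u q) * ((D₁.N q : T.R) + 1)

/-- The values of the Steinberg element. -/
theorem pr_stElt (q : frPrimes rb W q₀) (i : D.PtIx hL hO qs v ε) :
    T.pr i (stElt Wl F D₁ T Pq q) = ((liftFam Wl F i).rep (frobOf (D.primeA q))).trace -
      algebraMap O (liftFam Wl F i).B (D₁.u q) * ((D₁.N q : (liftFam Wl F i).B) + 1) := by
  rw [stElt, map_sub, pr_trace_frameAt, map_mul, AlgHom.commutes, map_add, map_natCast, map_one]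

/-- The Steinberg element lies in the maximal ideal. -/
theorem stElt_mem (hfr : ∀ q φ, (placeAt (D.primeA q)).IsFrobeniusAt φ (D.primeA q) → ∀ i j,
      ((Pq q : M2 O) * (normDataOf D.semi.surjective O).bar φ * (↑(Pq q)⁻¹ : M2 O) - D₁.phi0 q) i j
        ∈ maximalIdeal O)
    {q : frPrimes rb W q₀} (hq : D₁.isSt q = true) : stElt Wl F D₁ T Pq q ∈ maximalIdeal T.R := by
  have h := frameAt_red T Pq (fun q => frobOf (D.primeA q)) D₁.phi0
    (fun q => hfr q _ (frobOf_spec _)) q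
  have e := add_mem (h 0 0) (h 1 1)
  rw [D₁.phi0_of_isSt hq] at e
  simp only [Matrix.of_apply, Matrix.cons_val', Matrix.cons_val_zero, Matrix.cons_val_one,
    Matrix.empty_val', Matrix.cons_val_fin_one, map_mul, map_natCast] at e
  rw [stElt, Matrix.trace_fin_two]
  convert e using 1
  ring

variable {hc : CoeffData p O ζ} [NeZero (D.levK L)]

/-- **The element cutting the chain acts as the operator cutting the chain.** -/
theorem eAct_stElt
    (Cx : RaiseCtx p (goodPr (liftBad rb W N q₀)) (D.quotL hL) (sysIdeal (thetaL rb hc.mem ζ L))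
      v ε qs)
    (hN : ∀ q, D₁.N q = (q : ℕ)) (hε : ∀ q : frPrimes rb W q₀, (q : ℕ) ≠ q₀ → ε q = -D₁.u q)
    {J : List ℕ} {q : ℕ} (qA : frPrimes rb W q₀) (hqA : (qA : ℕ) = q) (hq0 : q ≠ q₀)
    (hJ : IsRaised qs (q :: J)) (hfam : RaiseCtx.Avoids (D.famK L) J) {u : O →+* ℂ}
    (hu : Function.Injective u) (tt : MvPolynomial (D.labK L) O)
    (htt : ∀ i, T.pr i (stElt Wl F D₁ T Pq qA) = ptK Wl F i tt) :
    Cx.eAct hJ.tail (D.famK L) hfam tt = Cx.tEnd hJ := by
  subst hqA
  refine eAct_eq_tEnd (hc := hc) Cx hJ hfam hu (D.not_dvd_levK_frame qA.2)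
    (List.nodup_cons.mp hJ.2).1 tt fun T' hT' x hx => ?_
  let a : Σ T : {T // T ∈ (primeSet qs).powerset}, {x // x ∈ D.ptsT hL hO v ε T.1} :=
    ⟨⟨T', Finset.mem_powerset.mpr (hT'.trans (primeSet_mono hJ.tail.1))⟩, ⟨x, hx⟩⟩
  have h1 := j_ptK Wl F a tt
  rw [← htt, pr_stElt] at h1
  have htr := (F a).trace_raise (D.primeA qA) (mem_primeSet.mpr (hJ.1 List.mem_cons_self))
    (fun h => (List.nodup_cons.mp hJ.2).1 (mem_primeSet.mp (hT' h)))
    (fun h => D.ne_of_mem qA.2 (congrArg (fun z : Nat.Primes => (z : ℕ)) h))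
    (D.liftU T' (v qA)) (D.unitsMap_liftU T' _) (frobOf (D.primeA qA)) (frobOf_spec _)
  rw [← h1, show ((liftFam Wl F (some a)).rep (frobOf (D.primeA qA))).trace = _ from htr]
  change (F a).j ((F a).dia _ * (F a).y _ -
    algebraMap O (F a).lift.B (D₁.u qA) * ((D₁.N qA : (F a).lift.B) + 1)) = _
  simp only [map_sub, map_mul, AlgHom.commutes, map_add, map_natCast, map_one, hN,
    ← (F a).dia_apply, hε qA hq0]
  have hc1 : ∀ z, (F a).j ((F a).y z) = x z := fun z => RingHom.congr_fun (F a).comp z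
  simp only [hc1, map_neg, neg_mul, Nat.cast_add, Nat.cast_one, ← sub_eq_add_neg]
  rfl

/-- **The operator cutting the chain at `q` is not surjective** on a nonzero module, when it is the
action of an element of the maximal ideal. -/
theorem tEnd_not_surjective
    (Cx : RaiseCtx p (goodPr (liftBad rb W N q₀)) (D.quotL hL) (sysIdeal (thetaL rb hc.mem ζ L))
      v ε qs)
    (hR : D.Raise qs ε) (hW : CurveFacts D Wl)
    {J : List ℕ} {q : ℕ} (hJ : IsRaised qs (q :: J)) (hfam : RaiseCtx.Avoids (D.famK L) J)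
    {u : O →+* ℂ} (hu : Function.Injective u) (te : T.R) (hte : te ∈ maximalIdeal T.R)
    (tt : MvPolynomial (D.labK L) O) (htt : ∀ i, T.pr i te = ptK Wl F i tt)
    (htE : Cx.eAct hJ.tail (D.famK L) hfam tt = Cx.tEnd hJ)
    (hne : Nontrivial (Cx.eMod hJ.tail).X) : ¬ Function.Surjective (Cx.tEnd hJ) := by
  obtain ⟨α, hα⟩ := T.exists_action (ptK Wl F) (Cx.eAct hJ.tail (D.famK L) hfam)
    (fun h hh => eAct_eq_zero_of_ptK (hc := hc) Wl F Cx hJ.tail hfam hu h fun i _ => hh i)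
    (D.tlK L O n) (fun ℓ => (ℓ : MvPolynomial (D.labK L) O)) (D.badL L).primeFactors
    fun ℓ hℓ hbad A hA φ hφ i => frob_ptK Wl F hR hW hℓ hbad hA hφ i
  rw [← htE, ← hα te tt htt]
  exact not_surjective_of_mem α hte

end LiftData

/-- The augmentation of the trivial group ring. -/
def augPUnit (O : Type) [CommRing O] : MonoidAlgebra O PUnit.{1} →ₐ[O] O :=
  MonoidAlgebra.lift O O PUnit.{1} 1

/-- **The diamond parameters and the base agree modulo the uniformiser.** -/
theorem constRed_lift_diamond {d n len : ℕ} {ϖ : O} (hϖ : Irreducible ϖ)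
    (χd : DeltaQ p (fun _ : Fin len => n + 1) →*
      MvPowerSeries (Fin d) O ⧸ maximalIdeal (MvPowerSeries (Fin d) O) ^ n)
    (vs : Fin len → Fin d)
    (hχ : ∀ δ, χd δ = ∏ k, Ideal.Quotient.mk (maximalIdeal (MvPowerSeries (Fin d) O) ^ n)
      (1 + MvPowerSeries.X (vs k)) ^ (Multiplicative.toAdd (δ k)).val)
    (a : MonoidAlgebra O (PUnit.{1} × DeltaQ p (fun _ : Fin len => n + 1))) :
    constRed d hϖ n (MonoidAlgebra.lift O _ (PUnit.{1} × DeltaQ p (fun _ : Fin len => n + 1))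
      (χd.comp (MonoidHom.snd _ _)) a) =
      Ideal.Quotient.mk _ (augPUnit O (projRing O PUnit.{1}
        (DeltaQ p (fun _ : Fin len => n + 1)) a)) := by
  induction a using MonoidAlgebra.induction_linear with
  | zero => simp
  | add a b ha hb => rw [map_add, map_add, ha, hb, map_add, map_add, map_add]
  | single g c =>
    obtain ⟨g, δ⟩ := g
    have h1 : constRed d hϖ n (χd δ) = 1 := by
      rw [hχ, map_prod]
      refine Finset.prod_eq_one fun k _ => ?_
      rw [← map_pow, constRed_mk, map_pow, map_add, map_one, MvPowerSeries.constantCoeff_X,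
        add_zero, one_pow, map_one]
    rw [MonoidAlgebra.lift_single, Algebra.smul_def, map_mul, MonoidHom.comp_apply,
      MonoidHom.coe_snd, h1, mul_one, ← Ideal.Quotient.mk_algebraMap, constRed_mk]
    simp [projRing, augPUnit, MvPowerSeries.algebraMap_apply]

end Fermat.GR.RT

end
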