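import Fermat.Agent.GR.RT.Lift.Ctx
import Fermat.Agent.GR.RT.Count
import Fermat.Agent.GR.RT.LowerTangent

/-!
# The auxiliary lists of modularity lifting

One choice of auxiliary primes makes the Selmer groups of all conditions at `p` containing a given
one small.
-/

set_option autoImplicit false

noncomputable section

open IsLocalRing Fermat.CFT ExtCitation

namespace Fermat.GR.RT

local notation "Γℚ" => (AlgebraicClosure ℚ ≃ₐ[ℚ] AlgebraicClosure ℚ)

namespace LiftData

variable {p : ℕ} [hp : Fact p.Prime] {rb : Γℚ →* GL (Fin 2) (ZMod p)} {O : Type} [CommRing O]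
  [IsDomain O] [IsDiscreteValuationRing O] [Finite (ResidueField O)]
  [Algebra (ZMod p) (ResidueField O)] {W : WeierstrassCurve ℤ} {N r q₀ : ℕ}
  {D : LiftData p rb W N r q₀}

/-- **The auxiliary lists.** There are Taylor–Wiles lists of a fixed length `R`, one for each `n`
and avoiding a given set, for which the Selmer groups are as small as patching needs. -/
theorem RamConds.exists_lists (C : D.RamConds O)
    (S₀ : Submodule (ZMod p) (LH1 (pPrime p) (adRep p (resRep rb O)))) (avoid : Finset ℕ) :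
    ∃ R : ℕ, ∀ n : ℕ, 1 ≤ n → ∃ L : List (GoodIx (liftBad rb W N q₀)),
      TWList p rb n L ∧ L.length = R ∧ (∀ i ∈ L, goodPr (liftBad rb W N q₀) i ∉ avoid) ∧
      ∀ S : Submodule (ZMod p) (LH1 (pPrime p) (adRep p (resRep rb O))), S₀ ≤ S → Finite S →
        (Nat.card S ≤ Nat.card (Coh.H0 (repAt (pPrime p) (adRep p (resRep rb O)))) *
            Nat.card (ResidueField O) → D.SelBound (C.cond S) L R) ∧
        (Nat.card S ≤ Nat.card (Coh.H0 (repAt (pPrime p) (adRep p (resRep rb O)))) →
          1 ≤ R ∧ D.SelBound (C.cond S) L (R - 1)) := by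
  classical
  -- auxiliary primes for the smallest conditions, avoiding the bad primes
  obtain ⟨R, hR⟩ := exists_twPrimes_selmer_family (r := resRep rb O)
    (fun σ => det_resRep O D.semi σ) (fun σ => ⟨_, resRep_apply rb O σ⟩)
    (fun g hg => by
      obtain ⟨σ, hσ⟩ := exists_preimage rb D.semi.surjective g
        hg.ne_zero
      exact ⟨σ, by rw [resRep_apply, hσ]⟩)
    D.two_lt Fermat.CFT.gwBound D.pPrime_mem_condT D.isSmooth_resRep D.exists_level_resRep D.setA
    D.setA_subset D.pPrime_not_mem_setA (C.cond S₀)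
    (avoid ∪ (liftBad rb W N q₀).primeFactors)
  refine ⟨R, fun n hn => ?_⟩
  obtain ⟨vs, hinj, hvs, hfam⟩ := hR n
  have hgood : ∀ i, ¬ ((vs i : Nat.Primes) : ℕ) ∣ liftBad rb W N q₀ := fun i h =>
    (hvs i).1 (Finset.mem_union_right _ (Nat.mem_primeFactors.mpr ⟨(vs i).2, h, D.bad_ne_zero⟩))
  let ix : Fin R → GoodIx (liftBad rb W N q₀) := fun i => ⟨vs i, hgood i⟩
  have hset : D.setL (List.ofFn ix) = Finset.univ.image vs := by
    ext v
    simp only [setL, List.map_ofFn, List.mem_toFinset, List.mem_ofFn, Finset.mem_image,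
      Finset.mem_univ, true_and, Function.comp_apply]
    rfl
  refine ⟨List.ofFn ix, ⟨hn, List.nodup_ofFn.mpr fun a b h => hinj (congrArg Subtype.val h),
    fun i hi => ?_, fun i hi => ?_⟩, List.length_ofFn, fun i hi h => ?_, fun S hle hfin => ?_⟩
  · obtain ⟨j, rfl⟩ := List.mem_ofFn.mp hi
    exact (hvs j).2.2.2.1
  · obtain ⟨j, rfl⟩ := List.mem_ofFn.mp hi
    obtain ⟨-, -, -, φ, hφ, ht, -⟩ := (hvs j).2.2
    rw [trace_frobenius_eq (vs j).2 (D.resUnr (vs j).2 (hgood j)) (placeAt_spec _)
      (placeAt_spec _) hφ (frobOf_spec _)]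
    refine (algebraMap (ZMod p) (ResidueField O)).injective ?_
    rw [map_zero, ← ht, resRep_apply, Matrix.trace_fin_two, Matrix.trace_fin_two, Matrix.map_apply,
      Matrix.map_apply, map_add]
  · obtain ⟨j, rfl⟩ := List.mem_ofFn.mp hi
    exact (hvs j).1 (Finset.mem_union_left _ h)
  -- the larger conditions, and their sizes
  have hmono : ∀ v ∈ D.condT, C.cond S₀ v ≤ C.cond S v := fun v _ => by
    by_cases hv : v = pPrime p
    · subst hv; rw [C.cond_p, C.cond_p]; exact hle
    · by_cases hvA : v ∈ D.setA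
      · rw [C.cond_setA S₀ hvA, C.cond_setA S hvA]
      · rw [C.cond_ram S₀ hv hvA, C.cond_ram S hv hvA]
  have hc : ∀ c : ℕ, Nat.card S ≤ Nat.card (Coh.H0 (repAt (pPrime p) (adRep p (resRep rb O)))) * c →
      ∀ v ∈ D.condT, v ∉ D.setA → Nat.card (C.cond S v) ≤
        Nat.card (Coh.H0 (repAt v (adRep p (resRep rb O)))) * if v = pPrime p then c else 1 := by
    intro c hS v hvT hvA
    by_cases hv : v = pPrime p
    · subst hv
      rw [C.cond_p, if_pos rfl]
      exact hS
    · obtain ⟨hne, hram⟩ := D.ram_of_mem hvT hv hvA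
      rw [C.cond_ram S hv hvA, if_neg hv, mul_one]
      exact C.card_le v hne hram
  have hk : 1 < Nat.card (ResidueField O) := Finite.one_lt_card
  -- the Selmer bounds for the two sizes at `p`
  refine ⟨fun hS => ?_, fun hS => ?_⟩
  · obtain ⟨h1, h2⟩ := hfam (C.cond S) hmono (fun v hv => C.cond_setA S hv) _ (hc _ hS)
    rw [SelBound, hset]
    refine ⟨h1, Nat.le_of_mul_le_mul_right (h2.trans (le_of_eq (mul_comm _ _))) (by omega)⟩
  · obtain ⟨h1, h2⟩ := hfam (C.cond S) hmono (fun v hv => C.cond_setA S hv) 1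
      (hc 1 (by rwa [mul_one]))
    rw [one_mul] at h2
    have := h1 -- the Selmer group is finite
    have hpos : 0 < Nat.card (selAt (D.condT ∪ Finset.univ.image vs) (adRep p (resRep rb O))
        fun v => if v ∈ D.condT then C.cond S v else ⊤) *
        ∏ v ∈ D.setA, Nat.card (Coh.H0 (repAt v (adRep p (resRep rb O)))) := by
      refine Nat.mul_pos Nat.card_pos (Finset.prod_pos fun v _ => ?_)
      have : Finite (adZero p (ResidueField O)) := Subtype.finite
      have : Finite (Coh.H0 (repAt v (adRep p (resRep rb O)))) := Subtype.finite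
      exact Nat.card_pos
    have hR1 : 1 ≤ R := by
      by_contra hR0
      obtain rfl : R = 0 := by omega
      rw [pow_zero] at h2
      have := Nat.le_mul_of_pos_left (Nat.card (ResidueField O)) hpos
      omega
    refine ⟨hR1, ?_⟩
    rw [SelBound, hset]
    refine ⟨h1, Nat.le_of_mul_le_mul_right (h2.trans (le_of_eq ?_)) (lt_trans Nat.zero_lt_one hk)⟩
    rw [← pow_succ, Nat.sub_add_cancel hR1]

end LiftData

end Fermat.GR.RT

end
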