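import Mathlib
import Fermat.Agent.GR.RT.Lift.Chain
import Fermat.Agent.GR.RT.Lift.Lists
import Fermat.Agent.GR.RT.Lift.Killer
import Fermat.Agent.GR.Patch.MultiFrames

/-!
# Raising the level at the bad primes with one condition at `p`

`false_of_chain`: if the curve and all systems satisfy one condition at `p`, of the expected size,
the curve is modular at one of the levels `N ∏ T`, `T` among the bad primes. Otherwise an integral
operator (`exists_killer`) kills all these systems but not the curve. For each exponent `n` the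
modules of the levels raised one prime at a time, over auxiliary primes from `Lists`, form a
`ChainLevel` (`exists_chainLevel`), and patching (`eq_zero_of_chainLevels` in
`GR/Patch/MultiFrames`) makes the value at the curve zero. `Main` uses it with the flat condition
when `p` is good, and with the strict one when `p` divides the base level.
-/

set_option autoImplicit false
set_option linter.unusedSectionVars false

noncomputable section

open MvPolynomial IsLocalRing Fermat.CFT ExtCitation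

namespace Fermat.GR.RT

open Fermat.HM Fermat.GR.Patch

local notation "Γℚ" => (AlgebraicClosure ℚ ≃ₐ[ℚ] AlgebraicClosure ℚ)
local notation "M2" R => Matrix (Fin 2) (Fin 2) R

variable {p : ℕ} [hp : Fact p.Prime] {rb : Γℚ →* GL (Fin 2) (ZMod p)} {W : WeierstrassCurve ℤ}
  {N r q₀ : ℕ} {O : Type} [CommRing O] [IsDomain O] [IsDiscreteValuationRing O]
  [IsAdicComplete (maximalIdeal O) O] [Finite (ResidueField O)] [CharZero O]

namespace LiftData

variable [Algebra (ZMod p) (ResidueField O)] [NeZero N] {D : LiftData p rb W N r q₀} {ζ : O}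

/-- Primes of the variables which avoid a list do not divide its bad number. -/
theorem not_dvd_badL_of_avoid {L : List (GoodIx (liftBad rb W N q₀))}
    {z : MvPolynomial (GoodIx (liftBad rb W N q₀)) ℤ}
    (havoid : ∀ i ∈ L, goodPr _ i ∉ z.vars.image (goodPr (liftBad rb W N q₀))) :
    ∀ i ∈ z.vars, ¬ goodPr _ i ∣ D.badL L := fun i hi hd => by
  rcases i.1.2.dvd_mul.mp hd with h | h
  · exact i.2 h
  · obtain ⟨a, ha, hia⟩ := (Prime.dvd_prod_iff i.1.2.prime).mp h
    obtain ⟨j, hj, rfl⟩ := List.mem_map.mp ha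
    have e : goodPr (liftBad rb W N q₀) i = goodPr (liftBad rb W N q₀) j :=
      (Nat.prime_dvd_prime_iff_eq i.1.2 j.1.2).mp hia
    exact havoid j hj (e ▸ Finset.mem_image_of_mem (goodPr (liftBad rb W N q₀)) hi)

/-- A basis of a nonzero module is nonempty. -/
theorem pos_of_basis {A M : Type} [CommRing A] [AddCommGroup M] [Module A M] [Nontrivial M] {k : ℕ}
    (b : Module.Basis (Fin k) A M) : 0 < k := by
  obtain ⟨i⟩ := b.index_nonempty
  exact i.pos

section Shared

variable {n : ℕ} {L : List (GoodIx (liftBad rb W N q₀))} {C : D.RamConds O} {hL : TWList p rb n L}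
  {qs : List ℕ} {v : ℕ → (ZMod (D.levK L))ˣ} {ε : ℕ → O} [NeZero (D.levK L)] {hc : CoeffData p O ζ}
  (Cx : RaiseCtx p (goodPr (liftBad rb W N q₀)) (D.quotL hL) (sysIdeal (thetaL rb hc.mem ζ L))
    v ε qs)

/-- The scalar by which the parameter operator of a unit acts. -/
def parScalar (D : LiftData p rb W N r q₀) (hL : TWList p rb n L) (O : Type) [CommRing O]
    (w : (ZMod (D.levK L))ˣ) :
    MonoidAlgebra O (PUnit.{1} × DeltaQ p (fun _ : Fin L.length => n)) :=
  MonoidAlgebra.of O _ ((D.quotL hL).chiTop w) + MonoidAlgebra.of O _ ((D.quotL hL).chiTop w⁻¹) - 2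

/-- The parameter operator acts by its scalar on a module of union type. -/
theorem eAct_parOp {J : List ℕ} (hJ : IsRaised qs J) (hfam : RaiseCtx.Avoids (D.famK L) J)
    (w : (ZMod (D.levK L))ˣ) (x : (Cx.eMod hJ).X) :
    Cx.eAct hJ (D.famK L) hfam (D.parOp L O w) x = D.parScalar hL O w • x := by
  rw [parOp, parScalar, map_sub, map_add, map_ofNat, LinearMap.sub_apply, LinearMap.add_apply,
    eAct_dia Cx hJ (D.famK L) hfam (i := Sum.inr w) rfl,
    eAct_dia Cx hJ (D.famK L) hfam (i := Sum.inr w⁻¹) rfl, sub_smul, add_smul, two_smul]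
  simp [← one_add_one_eq_two]

/-- The parameter operator acts by its scalar on a module special at one prime. -/
theorem xAct_parOp {q : ℕ} {J : List ℕ} (hJ : IsRaised qs (q :: J))
    (hfam : RaiseCtx.Avoids (D.famK L) (q :: J)) (w : (ZMod (D.levK L))ˣ) (x : (Cx.xMod hJ).X) :
    Cx.xAct hJ (D.famK L) hfam (D.parOp L O w) x = D.parScalar hL O w • x := by
  obtain ⟨x, rfl⟩ := Cx.proj_surjective hJ x
  rw [← Cx.proj_eAct, eAct_parOp (hc := hc), map_smul]

variable {hO : (p : O) ∈ maximalIdeal O} (Wl : Lifting rb hO) (F : D.AllFacts C hL hO qs v ε)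

/-- All liftings of the family are unramified outside the conditions of the level. -/
theorem unrOutside_liftFam (hWl : Wl.UnrOutside (D.condT ∪ D.setL L)) (i) :
    (liftFam Wl F i).UnrOutside (D.condT ∪ D.setL L) := by
  rcases i with _ | a
  exacts [hWl, (F a).unr]

/-- All liftings of the family have the strict type at the residually ramified primes. -/
theorem strictRel_liftFam
    (hWl : ∀ q : Nat.Primes, (q : ℕ) ≠ p → ¬ IsResUnramified p rb q →
      StrictRel O q (C.e q) Wl.rep) (i) :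
    ∀ q : Nat.Primes, (q : ℕ) ≠ p → ¬ IsResUnramified p rb q →
      StrictRel O q (C.e q) (liftFam Wl F i).rep := by
  rcases i with _ | a
  exacts [hWl, (F a).ram]

/-- **The level setup of the family**: given modules with actions and sets of systems separating
them, the input `LevelSetup` of patching, with Frobenius and inertia at the framed primes. -/
def famLevelSetup (D₁ : SingleData O (frPrimes rb W q₀)) (Pq : frPrimes rb W q₀ → (M2 O)ˣ)
    (hfr : ∀ q φ, (placeAt (D.primeA q)).IsFrobeniusAt φ (D.primeA q) → ∀ i j,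
      ((Pq q : M2 O) * (normDataOf D.semi.surjective O).bar φ * (↑(Pq q)⁻¹ : M2 O) - D₁.phi0 q) i j
        ∈ maximalIdeal O)
    (htm : ∀ q, ∀ σ ∈ (placeAt (D.primeA q)).inertiaSubgroupIn ℚ, ∀ i j,
      ((Pq q : M2 O) * (normDataOf D.semi.surjective O).bar σ * (↑(Pq q)⁻¹ : M2 O) - 1) i j
        ∈ maximalIdeal O)
    {τ : frPrimes rb W q₀ → Γℚ} (hτ : ∀ q, τ q ∈ (placeAt (D.primeA q)).inertiaSubgroupIn ℚ)
    (hR : D.Raise qs ε) (hW : CurveFacts D Wl) {Δ : Type} [CommGroup Δ] {d m : ℕ}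
    {χ : Δ →* MvPowerSeries (Fin d) O ⧸ maximalIdeal (MvPowerSeries (Fin d) O) ^ m} {κ : Type}
    {mods : κ → GMod O (MonoidAlgebra O Δ)}
    (act : ∀ j, MvPolynomial (D.labK L) O →ₐ[O] Module.End (MonoidAlgebra O Δ) (mods j).X)
    (pts : κ → Set (D.PtIx hL hO qs v ε))
    (separated : ∀ j h, (∀ i ∈ pts j, ptK Wl F i h = 0) → act j h = 0) :
    LevelSetup D₁ (normDataOf D.semi.surjective O) (fun i => (liftFam Wl F i).B)
      (fun i => (liftFam Wl F i).rep) none m χ mods (MvPolynomial (D.labK L) O) where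
  fr := fun q => frobOf (D.primeA q)
  tm := τ
  Pq := Pq
  fr_red := fun q => hfr q _ (frobOf_spec _)
  tm_red := fun q => htm q _ (hτ q)
  pt := ptK Wl F
  act := act
  pts := pts
  separated := separated
  tl := D.tlK L O n
  dl := fun ℓ => (ℓ : MvPolynomial (D.labK L) O)
  bad := (D.badL L).primeFactors
  frob := fun _ hℓ hbad _ hA _ hφ i => frob_ptK Wl F hR hW hℓ hbad hA hφ i

/-- **Operators cutting the chain exist, and the modules of the chain are not zero**, so their
ranks at the base are positive. -/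
theorem exists_chainElts (D₁ : SingleData O (frPrimes rb W q₀))
    [Fintype (D.PtIx hL hO qs v ε)]
    (T : TraceRep (normDataOf D.semi.surjective O) (fun i => (liftFam Wl F i).B)
      (fun i => (liftFam Wl F i).rep))
    (Pq : frPrimes rb W q₀ → (M2 O)ˣ)
    (hfr : ∀ q φ, (placeAt (D.primeA q)).IsFrobeniusAt φ (D.primeA q) → ∀ i j,
      ((Pq q : M2 O) * (normDataOf D.semi.surjective O).bar φ * (↑(Pq q)⁻¹ : M2 O) - D₁.phi0 q) i j
        ∈ maximalIdeal O)
    (hR : D.Raise qs ε)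
    (hv : ∀ s ∈ qs, ZMod.unitsMap (dvd_levN N (goodPr (liftBad rb W N q₀)) L) (v s) = 1)
    (hW : CurveFacts D Wl) {u : O →+* ℂ} (hu : Function.Injective u)
    (hN : ∀ q, D₁.N q = (q : ℕ)) (hSt : ∀ q, D₁.isSt q = true ↔ (q : ℕ) ≠ q₀)
    (hε : ∀ q : frPrimes rb W q₀, (q : ℕ) ≠ q₀ → ε q = -D₁.u q)
    {Nc : ℕ} (qsA : Fin Nc → frPrimes rb W q₀) {e : ℕ → ℕ}
    (hqe : ∀ j : Fin Nc, (qsA j : ℕ) = e j) (hq0 : ∀ j, (qsA j : ℕ) ≠ q₀)
    (hinj : Set.InjOn e (Set.Iio Nc)) (hsub : stepList e Nc ⊆ qs) :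
    ∃ tt : Fin Nc → MvPolynomial (D.labK L) O,
      (∀ j i, ptK Wl F i (tt j) = ((liftFam Wl F i).rep (frobOf (D.primeA (qsA j)))).trace -
        algebraMap O (liftFam Wl F i).B (D₁.u (qsA j)) *
          ((D₁.N (qsA j) : (liftFam Wl F i).B) + 1)) ∧
      (∀ (j : Fin Nc) (hJ : IsRaised qs (e j :: stepList e j))
        (hfam : RaiseCtx.Avoids (D.famK L) (stepList e j)),
        Cx.eAct hJ.tail (D.famK L) hfam (tt j) = Cx.tEnd hJ) ∧
      Nontrivial (Cx.eMod (isRaised_stepList hinj hsub le_rfl)).X ∧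
      (∀ k (hk : k ≤ Nc), 0 < rkE hR hc.mem (isRaised_stepList hinj hsub hk)) ∧
      ∀ (j : Fin Nc) (hJ : IsRaised qs (e j :: stepList e j)),
        0 < rkX hR hc.mem (q := e j) (J := stepList e j) hJ := by
  -- the Hecke elements acting as the cutting elements
  choose tt htt using fun j : Fin Nc => T.exists_hecke (ptK Wl F) (D.tlK L O n)
    (fun ℓ => (ℓ : MvPolynomial (D.labK L) O)) (D.badL L).primeFactors
    (fun ℓ hℓ hbad A hA φ hφ i => frob_ptK Wl F hR hW hℓ hbad hA hφ i)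
    (stElt Wl F D₁ T Pq (qsA j))
  have htE : ∀ (j : Fin Nc) (hJ : IsRaised qs (e j :: stepList e j))
      (hfam : RaiseCtx.Avoids (D.famK L) (stepList e j)),
      Cx.eAct hJ.tail (D.famK L) hfam (tt j) = Cx.tEnd hJ := fun j hJ hfam =>
    eAct_stElt (hc := hc) Wl F D₁ T Pq Cx hN hε (qsA j) (hqe j) (hqe j ▸ hq0 j) hJ hfam hu (tt j)
      (htt j)
  -- nontriviality propagates along the chain
  have hX : ∀ (j : Fin Nc) (hJ : IsRaised qs (e j :: stepList e j)),
      Nontrivial (Cx.eMod hJ.tail).X → Nontrivial (Cx.xMod hJ).X := fun j hJ h =>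
    nontrivial_xMod Cx hJ (tEnd_not_surjective (hc := hc) Wl F T Cx hR hW hJ
      (avoids_famK hR hJ.tail.1) hu _ (stElt_mem Wl F D₁ T Pq hfr ((hSt _).mpr (hq0 j))) (tt j)
      (htt j) (htE j hJ _) h)
  have hne : ∀ k (hk : k ≤ Nc), Nontrivial (Cx.eMod (isRaised_stepList hinj hsub hk)).X := by
    intro k
    induction k with
    | zero => exact fun _ => nontrivial_eMod_nil (hc := hc) hR Cx hv _
    | succ k ih =>
      intro hk
      exact nontrivial_eMod_cons Cx _ (hX ⟨k, hk⟩ _ (ih (Nat.le_of_succ_le hk)))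
  refine ⟨tt, fun j i => (htt j i).symm.trans (pr_stElt Wl F D₁ T Pq (qsA j) i), htE,
    hne Nc le_rfl, fun k hk => ?_, fun j hJ => ?_⟩
  · have := hne k hk
    obtain ⟨b, -⟩ := exists_eBasis (hc := hc) hR Cx hv (isRaised_stepList hinj hsub hk)
    exact pos_of_basis b
  · have := hX j hJ (hne j j.2.le)
    obtain ⟨b, -⟩ := exists_xBasis (hc := hc) hR Cx hv hJ
    exact pos_of_basis b

end Shared

/-- **The parameters at a diamond variable**: an inertia element, its operator and its value. -/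
theorem exists_parData {n : ℕ} {L : List (GoodIx (liftBad rb W N q₀))} {C : D.RamConds O}
    {hL : TWList p rb (n + 1) L} {qs : List ℕ} {v : ℕ → (ZMod (D.levK L))ˣ} {ε : ℕ → O}
    [NeZero (D.levK L)] {hO : (p : O) ∈ maximalIdeal O} (Wl : Lifting rb hO)
    (F : D.AllFacts C hL hO qs v ε) (hW : CurveFacts D Wl) (xB : Wl.B →ₐ[O] O) {d : ℕ}
    (vs : Fin L.length → Fin d) (isY : Fin d → Prop) [DecidablePred isY]
    {χd : DeltaQ p (fun _ : Fin L.length => n + 1) →*
      MvPowerSeries (Fin d) O ⧸ maximalIdeal (MvPowerSeries (Fin d) O) ^ n}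
    (hχd : ∀ δ, χd δ = ∏ k, Ideal.Quotient.mk (maximalIdeal (MvPowerSeries (Fin d) O) ^ n)
      (1 + MvPowerSeries.X (vs k)) ^ (Multiplicative.toAdd (δ k)).val)
    (k : Fin L.length) (hY : isY (vs k)) :
    ∃ (σ : Γℚ) (w : (ZMod (D.levK L))ˣ),
      (∀ i, ptK Wl F i (D.parOp L O w) = ((liftFam Wl F i).rep σ).trace - 2) ∧
      MonoidAlgebra.lift O _ _ (χd.comp (MonoidHom.snd PUnit.{1} _)) (D.parScalar hL O w) =
        Ideal.Quotient.mk _ (symmHom (𝒪 := O) isY (MvPowerSeries.X (vs k))) ∧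
      xB (Wl.rep σ).trace = 2 := by
  -- an inertia element whose `(p ^ (n + 1) - 1) / 2`-th power gives the `k`-th generator
  obtain ⟨σ, hσ, hσk⟩ := exists_inertia_half (D := D) (hL := hL) k
  refine ⟨σ, _, fun i => ptK_parOp Wl F hW k hσ i, ?_, ?_⟩
  · have hδ : χd (D.chiL hL (cycK (D.levK L) σ ^ ((p ^ (n + 1) - 1) / 2))) =
        Ideal.Quotient.mk _ (1 + MvPowerSeries.X (vs k)) := by
      have : Fact (1 < p ^ (n + 1)) := ⟨Nat.one_lt_pow (Nat.succ_ne_zero n) hp.out.one_lt⟩
      rw [hσk, hχd, Finset.prod_eq_single k]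
      · rw [Pi.mulSingle_eq_same, toAdd_ofAdd, ZMod.val_one, pow_one]
      · intro j _ hj
        rw [Pi.mulSingle_eq_of_ne hj, toAdd_one, ZMod.val_zero, pow_zero]
      · exact fun h => absurd (Finset.mem_univ _) h
    rw [parScalar, D.chiTop_quotL, D.chiTop_quotL, map_sub, map_add, map_ofNat,
      MonoidAlgebra.lift_of, MonoidAlgebra.lift_of, MonoidHom.comp_apply, MonoidHom.comp_apply,
      MonoidHom.coe_snd, symmHom_X_of isY hY]
    exact mk_symm_eq _ n hδ (by rw [← map_mul, map_inv, mul_inv_cancel, map_one])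
  · rw [hW.inertia _ σ hσ, Matrix.trace_one, Fintype.card_fin, map_natCast, Nat.cast_two]

section Hyps

variable (hc : CoeffData p O ζ) {u : O →+* ℂ} (hu : Function.Injective u)
  {C : D.RamConds O} (hF : D.FactsAvail C hc.mem) (D₁ : SingleData O (frPrimes rb W q₀))
  (hN : ∀ q, D₁.N q = (q : ℕ)) (hSt : ∀ q, D₁.isSt q = true ↔ (q : ℕ) ≠ q₀)
  (Pq : frPrimes rb W q₀ → (M2 O)ˣ)
  (hfr : ∀ q φ, (placeAt (D.primeA q)).IsFrobeniusAt φ (D.primeA q) → ∀ i j,
    ((Pq q : M2 O) * (normDataOf D.semi.surjective O).bar φ * (↑(Pq q)⁻¹ : M2 O) - D₁.phi0 q) i j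
      ∈ maximalIdeal O)
  (htm : ∀ q, ∀ σ ∈ (placeAt (D.primeA q)).inertiaSubgroupIn ℚ, ∀ i j,
    ((Pq q : M2 O) * (normDataOf D.semi.surjective O).bar σ * (↑(Pq q)⁻¹ : M2 O) - 1) i j
      ∈ maximalIdeal O)
  (Wl : Lifting rb hc.mem) (xB : Wl.B →ₐ[O] O)
  (hxB : ∀ y ∈ maximalIdeal Wl.B, xB y ∈ maximalIdeal O) (hW : CurveFacts D Wl)
  (hWst : ∀ q : frPrimes rb W q₀, (q : ℕ) ≠ q₀ → Wl.StAt (D.primeA q) (D₁.u q))
  (hW0 : ∀ q : frPrimes rb W q₀, (q : ℕ) = q₀ → Wl.UnrAt (D.primeA q))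
  (hWunr : ∀ L, Wl.UnrOutside (D.condT ∪ D.setL L))
  (hWram : ∀ q : Nat.Primes, (q : ℕ) ≠ p → ¬ IsResUnramified p rb q →
    StrictRel O q (C.e q) Wl.rep)
  (S : Submodule (ZMod p) (LH1 (pPrime p) (adRep p (resRep rb O))))
  (Pp : Lifting rb hc.mem → Prop)
  (hS : ∀ {ι : Type} [Fintype ι] [Nonempty ι] (P : ι → Lifting rb hc.mem)
    (T : TraceRep (normDataOf D.semi.surjective O) (fun i => (P i).B) (fun i => (P i).rep)),
    (∀ i, Pp (P i)) → AtPCond S P T.pr T.rep Set.univ ∅)
  (hPW : Pp Wl)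
  (hPF : ∀ (n : ℕ) (L : List (GoodIx (liftBad rb W N q₀))) (hL : TWList p rb n L)
    (Q T : Finset Nat.Primes) (v : ℕ → (ZMod (D.levK L))ˣ) (ε : ℕ → O) x
    (P : D.PtFacts C hL hc.mem Q T v ε x), pPrime p ∉ T → Pp P.lift)
  {Nc : ℕ} (qsA : Fin Nc → frPrimes rb W q₀) {e : ℕ → ℕ} (hqe : ∀ j : Fin Nc, (qsA j : ℕ) = e j)
  (hq0 : ∀ j, (qsA j : ℕ) ≠ q₀) (hinj : Set.InjOn e (Set.Iio Nc)) {ε : ℕ → O}
  (hε : ∀ q : frPrimes rb W q₀, (q : ℕ) ≠ q₀ → ε q = -D₁.u q)
  (hR : D.Raise (stepList e Nc) ε)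
include hc u hu C hF D₁ hN hSt Pq hfr htm Wl xB hxB hW hWst hW0 hWunr hWram S Pp hS hPW hPF
  Nc qsA e hqe hq0 hinj ε hε hR

/-- **One level of the chain of lifting, and its modules are not zero.** -/
theorem exists_chainLevel
    (z : MvPolynomial (GoodIx (liftBad rb W N q₀)) ℤ)
    (hz : ∀ T ⊆ primeSet (stepList e Nc), ∀ [NeZero (N * ∏ t ∈ T, (t : ℕ))]
      (x : MvPolynomial (Nat.Primes ⊕ (ZMod (N * ∏ t ∈ T, (t : ℕ)))ˣ) ℤ →+* ℂ),
      IsPoint (N * ∏ t ∈ T, (t : ℕ)) ⊤ x →
        aeval (fun i : GoodIx (liftBad rb W N q₀) => x (X (Sum.inl i.1))) z = 0)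
    {ϖ : O} (hϖ : Irreducible ϖ) {R g d n : ℕ} {L : List (GoodIx (liftBad rb W N q₀))}
    (hL : TWList p rb (n + 1) L) (hlen : L.length = R) (hSel : D.SelBound (C.cond S) L R)
    (hvar : ∀ i ∈ z.vars, ¬ goodPr _ i ∣ D.badL L)
    (hg : g + 1 = R + Fintype.card (frPrimes rb W q₀))
    (emb : Fin R ⊕ FrameVar (frPrimes rb W q₀) ⟨q₀, D.mem_frame⟩ ≃ Fin d) (isY : Fin d → Prop)
    [DecidablePred isY] (hY : ∀ k, isY (emb (Sum.inl k))) :
    Nonempty (ChainLevel D₁ ϖ (⟨q₀, D.mem_frame⟩ : frPrimes rb W q₀) g (symmHom (𝒪 := O) isY) emb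
      ((aeval (apVal W (B := liftBad rb W N q₀)) z : ℤ) : O) qsA
      (Sum.elim
        (fun i : Fin (Nc + 1) => rkE hR hc.mem
          (isRaised_stepList hinj (List.Subset.refl _) (Nat.le_of_lt_succ i.2)))
        fun j : Fin Nc => rkX hR hc.mem (q := e j) (J := stepList e j)
          (isRaised_stepList hinj (List.Subset.refl _) (k := j + 1) j.2)) n) ∧
    ∀ j, 0 < (Sum.elim
        (fun i : Fin (Nc + 1) => rkE hR hc.mem
          (isRaised_stepList hinj (List.Subset.refl _) (Nat.le_of_lt_succ i.2)))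
        fun j : Fin Nc => rkX hR hc.mem (q := e j) (J := stepList e j)
          (isRaised_stepList hinj (List.Subset.refl _) (k := j + 1) j.2)) j := by
  classical
  have := D.neZero_levK L
  have : NeZero p := ⟨hp.out.ne_zero⟩
  have hrE : ∀ i : Fin (Nc + 1), IsRaised (stepList e Nc) (stepList e i) := fun i =>
    isRaised_stepList hinj (List.Subset.refl _) (Nat.le_of_lt_succ i.2)
  have hrX : ∀ j : Fin Nc, IsRaised (stepList e Nc) (e j :: stepList e j) := fun j =>
    isRaised_stepList hinj (List.Subset.refl _) (k := j + 1) j.2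
  -- the systems, their traces and the generators of inertia
  obtain ⟨v, Cx, hv, hsg⟩ := hR.exists_ctx hc hL
  let F : D.AllFacts C hL hc.mem (stepList e Nc) v ε := fun a => Classical.choice
    (hF (n + 1) L hL _ v ε hsg a.1.1 (Finset.mem_powerset.mp a.1.2) a.2.1 a.2.2)
  have := finite_ptIx (D := D) (hL := hL) (hc := hc) (qs := stepList e Nc) (v := v) (ε := ε)
  let : Fintype (D.PtIx hL hc.mem (stepList e Nc) v ε) := Fintype.ofFinite _
  obtain ⟨T⟩ := nonempty_famTraceRep Wl F
  obtain ⟨τ, hτ⟩ := exists_frameGen Wl F T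
  have hfam : ∀ {J : List ℕ}, IsRaised (stepList e Nc) J → RaiseCtx.Avoids (D.famK L) J :=
    fun h => avoids_famK hR h.1
  -- bases, and the elements cutting the chain
  choose bE hbE using fun i => exists_eBasis (hc := hc) hR Cx hv (hrE i)
  choose bX hbX using fun j => exists_xBasis (hc := hc) hR Cx hv (hrX j)
  obtain ⟨tt, htt, htE, -, hposE, hposX⟩ := exists_chainElts (hc := hc) Cx Wl F D₁ T Pq hfr hR hv
    hW hu hN hSt hε qsA hqe hq0 hinj (List.Subset.refl _)
  refine ⟨?_, fun j => ?_⟩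
  swap
  · rcases j with i | j
    exacts [hposE i (Nat.le_of_lt_succ i.2), hposX j (hrX j)]
  -- the parameters
  obtain ⟨χd, hχd⟩ := exists_diamondHom (𝒪 := O) (d := d)
    (Δ := DeltaQ p (fun _ : Fin L.length => n + 1)) (n := n)
    hc.mem (fun _ : Fin L.length => n + 1) (fun _ => Nat.le_succ n) (MulEquiv.refl _)
    fun k => emb (Sum.inl (Fin.cast hlen k))
  let mods : Fin (Nc + 1) ⊕ Fin Nc →
      GMod O (MonoidAlgebra O (PUnit.{1} × DeltaQ p (fun _ : Fin L.length => n + 1))) :=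
    fun j => match j with
      | .inl i => Cx.eMod (hrE i)
      | .inr j => Cx.xMod (hrX j)
  let setup :=
    famLevelSetup (χ := χd.comp (MonoidHom.snd PUnit.{1} _)) (mods := mods) Wl F D₁ Pq hfr htm
      (fun q => (hτ q).1) hR hW
      (fun j => match j with
        | .inl i => Cx.eAct (hrE i) (D.famK L) (hfam (hrE i))
        | .inr j => Cx.xAct (hrX j) (D.famK L) (hfam (hrX j)))
      (fun j => match j with
        | .inl i => ptsE (stepList e i)
        | .inr j => ptsX (e j) (stepList e j))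
      fun j h hh => match j with
        | .inl i => eAct_eq_zero_of_ptK (hc := hc) Wl F Cx (hrE i) _ hu h hh
        | .inr j => xAct_eq_zero_of_ptK (hc := hc) Wl F Cx (hrX j) _ hu h hh
  have hPall : ∀ i, Pp (liftFam Wl F i) := fun i => by
    rcases i with _ | a
    · exact hPW
    · refine hPF _ L hL _ _ v ε _ (F a) fun hp' => ?_
      obtain ⟨j, hj, hje⟩ := mem_stepList.mp
        (mem_primeSet.mp (Finset.mem_powerset.mp a.1.2 hp'))
      exact D.ne_of_mem (qsA ⟨j, hj⟩).2 ((hqe ⟨j, hj⟩).trans hje)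
  -- the killer, as an element of the trace ring
  obtain ⟨y, hy⟩ := exists_frobElt Wl F hR hW T z hvar
  refine nonempty_chainLevel (O' := O) (g := g) (emb := emb) (ψ := symmHom (𝒪 := O) isY) (qs := qsA)
    setup T hϖ xB hxB (fun j => match j with
      | .inl i => bE i
      | .inr j => bX j)
    ?tan ?unr ?step ?point tt ?htt ?proj ?desc ?par y (D.killK L O (n + 1) z) hy ?zc
    (projRing O PUnit.{1} _) (augPUnit O) ?hs ?base
  case tan =>
    intro K hK
    refine C.tangent_le (P := liftFam Wl F) hSel (unrOutside_liftFam Wl F (hWunr L))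
      (strictRel_liftFam Wl F hWram) (hS (liftFam Wl F) T hPall) _
      (fun q => frobOf (D.primeA q)) τ Pq (fun q => (hτ q).2) hg K fun l hl => ⟨(hK l hl).1,
        (hK l hl).2.1, (hK l hl).2.2, fun y hy => ?_, fun y hy => hy.elim⟩
    rw [show y = 0 from T.pr_injective y 0 fun i => by
      rw [map_zero]; exact mem_ptsIdeal.mp hy i (Set.mem_univ i), map_zero]
    simpa using (hK l hl).1.1 0 0
  case unr => exact fun i hi q => unr_ptsE_nil Wl F D₁ hN hi τ (fun q => (hτ q).1) q
  case step =>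
    exact fun j i hi q => chainRel_ptsX Wl F D₁ qsA hN hε hqe hq0 j hi τ (fun q => (hτ q).1) q
  case point => exact typeRel_curve Wl D₁ hN hSt xB hWst hW0 τ fun q => (hτ q).1
  case htt => exact htt
  case proj =>
    exact fun j => ⟨Cx.proj (hrX j), Cx.proj_surjective (hrX j),
      fun h x => Cx.proj_eAct (hrX j) (D.famK L) (hfam (hrX j)) h x⟩
  case desc =>
    exact fun j => exists_descK (hc := hc) Cx (hrX j) (hfam (hrX j)) (hfam (hrX j).tail) (tt j)
      (htE j (hrX j) (hfam (hrX j).tail))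
  case par =>
    intro k
    obtain ⟨σ, w, hw, hlift, hx2⟩ := exists_parData Wl F hW xB
      (fun l => emb (Sum.inl (Fin.cast hlen l))) isY (χd := χd) (fun δ => hχd δ)
      (Fin.cast hlen.symm k) (hY _)
    refine ⟨σ, D.parOp L O w, D.parScalar hL O w, hw, fun j x => ?_, hlift, hx2⟩
    rcases j with i | j
    exacts [eAct_parOp (hc := hc) Cx (hrE i) (hfam (hrE i)) w x,
      xAct_parOp (hc := hc) Cx (hrX j) (hfam (hrX j)) w x]
  case zc =>
    rw [hy, ptK_none_killK Wl F z hvar]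
    exact map_intCast xB _
  case hs =>
    exact fun a => constRed_lift_diamond hϖ χd (fun k => emb (Sum.inl (Fin.cast hlen k)))
      (fun δ => hχd δ) a
  case base =>
    refine hbE (Fin.last Nc) (hfam (hrE _)) _ fun hfam₀ => ?_
    exact eAct_killK_eq_zero (hR.ctxBase hc.mem) (hrE _) hfam₀ hu z hvar
      fun T' hT' => hz T' (hT'.trans (primeSet_mono (hrE _).1))

/-- **The curve is modular at one of the levels above the base**, with one condition at `p`. -/
theorem false_of_chain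
    (hqs : ∀ a, D₁.isSt a = true ↔ ∃ i, qsA i = a) [Finite S]
    (hcard : Nat.card S ≤ Nat.card (Coh.H0 (repAt (pPrime p) (adRep p (resRep rb O)))) *
      Nat.card (ResidueField O))
    (hAg : AgreeStatement)
    (hnot : ∀ T ⊆ primeSet (stepList e Nc), ∃ K : ℕ, Squarefree K ∧ N * ∏ t ∈ T, (t : ℕ) ∣ K ∧
      ¬ W.IsModularModelOfLevel K) : False := by
  classical
  -- an element killing the systems but not the curve, and auxiliary lists avoiding its variables
  obtain ⟨z, hz0, hz⟩ := D.exists_killer hAg (primeSet (stepList e Nc)) hnot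
  obtain ⟨R, hR'⟩ := C.exists_lists S (z.vars.image (goodPr (liftBad rb W N q₀)))
  obtain ⟨ϖ, hϖ⟩ := IsDiscreteValuationRing.exists_irreducible O
  let a₀ : frPrimes rb W q₀ := ⟨q₀, D.mem_frame⟩
  let emb := Fintype.equivFin (Fin R ⊕ FrameVar (frPrimes rb W q₀) a₀)
  let isY : Fin (Fintype.card (Fin R ⊕ FrameVar (frPrimes rb W q₀) a₀)) → Prop :=
    fun v => ∃ k, emb (Sum.inl k) = v
  have hA : 0 < Fintype.card (frPrimes rb W q₀) := Fintype.card_pos_iff.mpr ⟨a₀⟩
  -- a level of the chain for each exponent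
  have hlev : ∀ n, _ ∧ _ := fun n => by
    obtain ⟨L, hL, hlen, havoid, hsel⟩ := hR' (n + 1) (Nat.le_add_left 1 n)
    exact exists_chainLevel hc hu hF D₁ hN hSt Pq hfr htm Wl xB hxB hW hWst hW0 hWunr hWram S Pp hS
      hPW hPF qsA hqe hq0 hinj hε hR z (fun T hT _ x hx => hz T hT x hx) hϖ (n := n)
      (g := R + Fintype.card (frPrimes rb W q₀) - 1) hL hlen ((hsel S le_rfl inferInstance).1 hcard)
      (not_dvd_badL_of_avoid havoid) (by omega) emb isY fun k => ⟨k, rfl⟩
  -- patching forces the value of the killer at the curve to vanish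
  have h0 := eq_zero_of_chainLevels (ψ := symmHom (𝒪 := O) isY) (emb := emb)
    (isUnit_two_of_mem D.p_ne_two hc.mem) hϖ hqs (hlev 0).2 (by omega) (finite_symmHom isY)
    (injective_symmHom isY) (fun v => symmHom_X_of_not isY (by
      rintro ⟨k, hk⟩
      exact Sum.inl_ne_inr (emb.injective hk)))
    (fun P hP h k => X_mem_of_symmHom_mem isY hP (h k)) fun n => Classical.choice (hlev n).1
  exact hz0 (Int.cast_eq_zero.mp h0)

end Hyps

end LiftData

end Fermat.GR.RT

end
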