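import Mathlib
import Fermat.Agent.GR.RT.LevelChain
import Fermat.Agent.GR.Patch.TransferFrames

/-!
# One level of the transfer, from eigen systems and modules

Besides the chain a further module is given; the points of the chain and those of the further
module cut out two ideals of the trace ring.
-/

set_option autoImplicit false
set_option linter.unusedSectionVars false

noncomputable section

namespace Fermat.GR.RT

open IsLocalRing Fermat.GR.Patch Fermat.HM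

local notation "Γℚ" => (AlgebraicClosure ℚ ≃ₐ[ℚ] AlgebraicClosure ℚ)
local notation "M2" R => Matrix (Fin 2) (Fin 2) R

variable {𝒪 : Type} [CommRing 𝒪] [IsDomain 𝒪] [IsDiscreteValuationRing 𝒪]
  [IsAdicComplete (maximalIdeal 𝒪) 𝒪] [Finite (ResidueField 𝒪)] [CharZero 𝒪]

section Quot

variable {R : Type} [CommRing R] [Algebra 𝒪 R] {ι : Type} {B : ι → Type} [∀ i, CommRing (B i)]
  [∀ i, Algebra 𝒪 (B i)] {A : Type} [Fintype A] [DecidableEq A] (D : SingleData 𝒪 A) {E : Type}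
    [Ring E] [Algebra 𝒪 E]
  (α : R →ₐ[𝒪] E) (pr : ∀ i, R →ₐ[𝒪] B i) (s : Set ι) (hα : ∀ x, (∀ i ∈ s, pr i x = 0) → α x = 0)

include hα in
/-- Union relations at all points of a subset pass to the quotient acting. -/
theorem unionTypeRel_of_points (q : A) (P Sg : M2 R)
    (h : ∀ i ∈ s, D.UnionTypeRel q (algebraMap 𝒪 (B i) (D.u q)) (P.map (pr i)) (Sg.map (pr i))) :
    D.UnionTypeRel q (Ideal.Quotient.mk (RingHom.ker α) (algebraMap 𝒪 R (D.u q)))
      (P.map (Ideal.Quotient.mk (RingHom.ker α))) (Sg.map (Ideal.Quotient.mk (RingHom.ker α))) := by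
  have hle : ptsIdeal pr s ≤ RingHom.ker α := fun x hx =>
    (RingHom.mem_ker).mpr (hα x (mem_ptsIdeal.mp hx))
  let mk := Ideal.Quotient.mk (ptsIdeal pr s)
  let g : ∀ i : s, R ⧸ ptsIdeal pr s →+* B i := fun i =>
    Ideal.Quotient.lift _ (pr i : R →+* B i) fun x hx => mem_ptsIdeal.mp hx i i.2
  have h0 : D.UnionTypeRel q (mk (algebraMap 𝒪 R (D.u q))) (P.map mk) (Sg.map mk) := by
    refine SingleData.UnionTypeRel.of_jointly D g (fun b hb => ?_) fun i => ?_
    · obtain ⟨x, rfl⟩ := Ideal.Quotient.mk_surjective b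
      exact Ideal.Quotient.eq_zero_iff_mem.mpr (mem_ptsIdeal.mpr fun i hi => hb ⟨i, hi⟩)
    · have e := h i i.2
      rw [← (pr i).commutes (D.u q)] at e
      rw [Matrix.map_map, Matrix.map_map]
      exact e
  have := SingleData.UnionTypeRel.map D h0 (Ideal.Quotient.factor hle)
  rw [Matrix.map_map, Matrix.map_map] at this
  exact this

end Quot

variable {A : Type} [Fintype A] [DecidableEq A] {d g r : ℕ}
  {O' : Type} [CommRing O'] [IsDomain O'] [IsDiscreteValuationRing O']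
  [IsAdicComplete (maximalIdeal O') O'] [Finite (ResidueField O')] [CharZero O'] [Algebra 𝒪 O']
  [IsLocalHom (algebraMap 𝒪 O')]

local notation "S" => MvPowerSeries (Fin d) 𝒪

variable {D : SingleData 𝒪 A} {ϖ : 𝒪} {q₀ : A}
  {ψ : MvPowerSeries (Fin d) 𝒪 →ₐ[𝒪] MvPowerSeries (Fin d) 𝒪}
  {emb : Fin r ⊕ FrameVar A q₀ ≃ Fin d} {c : O'} {N : ℕ} {qs : Fin N → A}
  {mk : (Fin (N + 1) ⊕ Fin N) ⊕ Unit → ℕ} {n : ℕ}
  {nd : NormData 𝒪} {ι : Type} [Fintype ι] [Nonempty ι] {B : ι → Type} [∀ i, CommRing (B i)]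
  [∀ i, IsLocalRing (B i)] [∀ i, Algebra 𝒪 (B i)] [∀ i, Module.Finite 𝒪 (B i)]
  [∀ i, IsLocalHom (algebraMap 𝒪 (B i))] {ρ : ∀ i, Γℚ →* M2 (B i)} {i₀ : ι}
  {Δ : Type} [CommGroup Δ] [Finite Δ]
  {X : (Fin (N + 1) ⊕ Fin N) ⊕ Unit → GMod 𝒪 (MonoidAlgebra 𝒪 Δ)} {H : Type} [CommRing H]
  [Algebra 𝒪 H]

/-- A proper ideal of points lies in the maximal ideal. -/
private theorem ptsIdeal_le_maximalIdeal {R : Type} [CommRing R] [IsLocalRing R] [Algebra 𝒪 R]
    (pr : ∀ i, R →ₐ[𝒪] B i) {s : Set ι} {i : ι} (hi : i ∈ s) :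
    ptsIdeal pr s ≤ maximalIdeal R :=
  IsLocalRing.le_maximalIdeal fun e => by
    have h1 := mem_ptsIdeal.mp ((Ideal.eq_top_iff_one _).mp e) i hi
    rw [map_one] at h1
    exact one_ne_zero h1

/-- **A level of the transfer.** A level setup with a trace ring, the tangent bounds, the local
relations and the maps between the modules gives one level of the transfer input. -/
theorem nonempty_transferLevel {χ : Δ →* (S ⧸ maximalIdeal (MvPowerSeries (Fin d) 𝒪) ^ n)}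
    (L : LevelSetup D nd B ρ i₀ n χ X H) (T : TraceRep nd B ρ)
    (hϖ : Irreducible ϖ) (xB : B i₀ →ₐ[𝒪] O')
    (hxB : ∀ y ∈ maximalIdeal (B i₀), xB y ∈ maximalIdeal O')
    (b : ∀ j, Module.Basis (Fin (mk j)) (MonoidAlgebra 𝒪 Δ) (X j).X)
    (sF sS : Set ι) (hsF : sF.Nonempty) (hptsF : ∀ j, L.pts (Sum.inl j) ⊆ sF)
    (hptsS : L.pts (Sum.inr ()) ⊆ sS) (hi₀ : i₀ ∈ sS)
    (te : T.R) (hte : te ∈ maximalIdeal T.R) (teH : H) (hteH : ∀ i, L.pt i teH = T.pr i te)
    (tangentF : ∀ K : Submodule (ResidueField (MvPowerSeries (FrameVar A q₀) T.R))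
        (MvPowerSeries (FrameVar A q₀) T.R → ResidueField (MvPowerSeries (FrameVar A q₀) T.R)),
      (∀ l ∈ K, l ∈ tangentSpace 𝒪 (MvPowerSeries (FrameVar A q₀) T.R) ∧
        (∀ q i j, l (framed q₀ q (frameAt T L.Pq L.fr q) i j) = 0) ∧
        (∀ q i j, l (framed q₀ q (frameAt T L.Pq L.tm q) i j) = 0) ∧
        ∀ y ∈ ptsIdeal T.pr sF, l (MvPowerSeries.C y) = 0) →
      Finite K ∧
        Nat.card K ≤ Nat.card (ResidueField (MvPowerSeries (FrameVar A q₀) T.R)) ^ (g + 1))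
    (tangentS : ∀ K : Submodule (ResidueField (MvPowerSeries (FrameVar A q₀) T.R))
        (MvPowerSeries (FrameVar A q₀) T.R → ResidueField (MvPowerSeries (FrameVar A q₀) T.R)),
      (∀ l ∈ K, l ∈ tangentSpace 𝒪 (MvPowerSeries (FrameVar A q₀) T.R) ∧
        (∀ q i j, l (framed q₀ q (frameAt T L.Pq L.fr q) i j) = 0) ∧
        (∀ q i j, l (framed q₀ q (frameAt T L.Pq L.tm q) i j) = 0) ∧
        ∀ y ∈ ptsIdeal T.pr sS, l (MvPowerSeries.C y) = 0) →
      Finite K ∧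
        Nat.card K ≤ Nat.card (ResidueField (MvPowerSeries (FrameVar A q₀) T.R)) ^ (g + 1))
    (tangentT : ∀ K : Submodule (ResidueField (MvPowerSeries (FrameVar A q₀) T.R))
        (MvPowerSeries (FrameVar A q₀) T.R → ResidueField (MvPowerSeries (FrameVar A q₀) T.R)),
      (∀ l ∈ K, l ∈ tangentSpace 𝒪 (MvPowerSeries (FrameVar A q₀) T.R) ∧
        (∀ q i j, l (framed q₀ q (frameAt T L.Pq L.fr q) i j) = 0) ∧
        (∀ q i j, l (framed q₀ q (frameAt T L.Pq L.tm q) i j) = 0) ∧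
        (∀ y ∈ ptsIdeal T.pr sF, l (MvPowerSeries.C y) = 0) ∧ l (MvPowerSeries.C te) = 0) →
      Finite K ∧
        Nat.card K ≤ Nat.card (ResidueField (MvPowerSeries (FrameVar A q₀) T.R)) ^ g)
    (hunr : ∀ i ∈ L.pts (Sum.inl (Sum.inl 0)), ∀ q, (ρ i (L.fr q)).det = (D.N q : B i) ∧
      ρ i (L.tm q) = 1)
    (hstep : ∀ j : Fin N, ∀ i ∈ L.pts (Sum.inl (Sum.inr j)), ∀ q, D.ChainRel (qs j) (chainSt qs j) q
      (algebraMap 𝒪 (B i) (D.u q)) (ρ i (L.fr q)) (ρ i (L.tm q)))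
    (hpoint : ∀ q, D.TypeRel q (algebraMap 𝒪 O' (D.u q)) ((ρ i₀ (L.fr q)).map xB)
      ((ρ i₀ (L.tm q)).map xB))
    (hX : ∀ i ∈ L.pts (Sum.inr ()), ∀ q, D.UnionTypeRel q
      (algebraMap 𝒪 (B i) (D.u q)) (ρ i (L.fr q)) (ρ i (L.tm q)))
    (hdescX : ∃ F : (X (Sum.inr ())).X →ₗ[MonoidAlgebra 𝒪 Δ]
        (X (Sum.inl (Sum.inl (Fin.last N)))).X,
      (∀ y, ∃ x z, y = F x + L.act _ teH z) ∧
      ∀ h x, ∃ z, F (L.act _ h x) - L.act _ h (F x) = L.act _ teH z)
    (tt : Fin N → H) (htt : ∀ j i, L.pt i (tt j) =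
      (ρ i (L.fr (qs j))).trace - algebraMap 𝒪 (B i) (D.u (qs j)) * ((D.N (qs j) : B i) + 1))
    (hproj : ∀ j : Fin N,
      ∃ f : (X (Sum.inl (Sum.inl j.succ))).X →ₗ[MonoidAlgebra 𝒪 Δ] (X (Sum.inl (Sum.inr j))).X,
      Function.Surjective f ∧ ∀ h x, f (L.act _ h x) = L.act _ h (f x))
    (hdesc : ∀ j : Fin N,
      ∃ F : (X (Sum.inl (Sum.inr j))).X →ₗ[MonoidAlgebra 𝒪 Δ] (X (Sum.inl (Sum.inl j.castSucc))).X,
      (∀ y, ∃ x z, y = F x + L.act _ (tt j) z) ∧
      ∀ h x, ∃ z, F (L.act _ h x) - L.act _ h (F x) = L.act _ (tt j) z)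
    (hpar : ∀ k : Fin r, ∃ (σ : Γℚ) (h : H) (a : MonoidAlgebra 𝒪 Δ),
      (∀ i, L.pt i h = (ρ i σ).trace - 2) ∧ (∀ j x, L.act j h x = a • x) ∧
      MonoidAlgebra.lift 𝒪 _ Δ χ a =
        Ideal.Quotient.mk (maximalIdeal (MvPowerSeries (Fin d) 𝒪) ^ n)
          (ψ (MvPowerSeries.X (emb (Sum.inl k)))) ∧
      xB ((ρ i₀ σ).trace) = 2)
    (z : T.R) (hz : H) (hzpt : ∀ i, T.pr i z = L.pt i hz) (hzc : xB (T.pr i₀ z) = c)
    {A₀ : Type} [CommRing A₀] [Algebra 𝒪 A₀] (s : MonoidAlgebra 𝒪 Δ →ₐ[𝒪] A₀) (ε : A₀ →ₐ[𝒪] 𝒪)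
    (hs : ∀ a, constRed d hϖ n (MonoidAlgebra.lift 𝒪 _ Δ χ a) = Ideal.Quotient.mk _ (ε (s a)))
    (hbase : (LinearMap.toMatrix (b (Sum.inr ())) (b (Sum.inr ()))
      (L.act _ hz)).map s = 0) :
    Nonempty (TransferLevel D ϖ q₀ g ψ emb c qs (fun j => mk (Sum.inl j)) (mk (Sum.inr ())) n) := by
  obtain ⟨hecke, α, hhecke, hα, hαpts⟩ := exists_level_actions L T b
  have hαF : ∀ j, ∀ y ∈ ptsIdeal T.pr sF, α (Sum.inl j) y = 0 := fun j y hy =>
    hαpts _ y fun i hi => mem_ptsIdeal.mp hy i (hptsF j hi)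
  have hαS : ∀ y ∈ ptsIdeal T.pr sS, α (Sum.inr ()) y = 0 := fun y hy =>
    hαpts _ y fun i hi => mem_ptsIdeal.mp hy i (hptsS hi)
  refine ⟨{ R := T.R, hres := T.hres, Phi := frameAt T L.Pq L.fr, Sig := frameAt T L.Pq L.tm,
            Phi_red := frameAt_red T L.Pq L.fr D.phi0 L.fr_red,
            Sig_red := frameAt_red_one T L.Pq L.tm L.tm_red, IF := ptsIdeal T.pr sF,
            IS := ptsIdeal T.pr sS, IF_le := ptsIdeal_le_maximalIdeal T.pr hsF.choose_spec,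
            IS_le := ptsIdeal_le_maximalIdeal T.pr hi₀, te := te, te_mem := hte,
            tangentF := tangentF, tangentS := tangentS, tangentT := tangentT,
            α := fun j => α (Sum.inl j), α_IF := hαF, αX := α (Sum.inr ()), αX_IS := hαS,
            x := xB.comp (T.pr i₀), x_mem := ?_, x_IS := ?_, type_X := ?_, descX := ?_,
            type_zero := fun q => typeRel_unr_frameAt T L.Pq L.fr L.tm _ (hαpts _) q
              fun i hi => hunr i hi q,
            type_step := fun j q => chainRel_frameAt T L.Pq L.fr L.tm _ (hαpts _) _ _ q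
              fun i hi => hstep j i hi q,
            type_x := fun q => typeRel_frameAt_point L T xB q (hpoint q),
            proj := ?_, desc := ?_, par := ?_, z := z, z_base := ?_, z_point := hzc }⟩
  · -- the point of the curve is local
    intro y hy
    rw [← T.pr_local i₀] at hy
    exact hxB _ (Ideal.mem_comap.mp hy)
  · -- it lies on the strict component
    intro y hy
    change xB (T.pr i₀ y) = 0
    rw [mem_ptsIdeal.mp hy i₀ hi₀, map_zero]
  · -- the type on the further module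
    intro q
    refine unionTypeRel_of_points D _ T.pr _ (hαpts _) q _ _ fun i hi => ?_
    obtain ⟨U, V, hUV, hM⟩ := exists_conj_frameAt T L.Pq i q
    rw [hM, hM]
    exact SingleData.UnionTypeRel.conj D (hX i hi q) U V hUV
  · -- the projections of the chain
    intro j
    obtain ⟨f, hf, hc⟩ := hproj j
    exact exists_proj_lifted _ _ _ (L.act _) (L.act _) hecke (fun y => hα _ y _ (hhecke y))
      (fun y => hα _ y _ (hhecke y)) f hf hc
  · -- the descents of the chain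
    intro j
    obtain ⟨F, hF, hc⟩ := hdesc j
    obtain ⟨P, Q, ⟨Z, hZ⟩, hP⟩ := exists_desc_lifted _ _ _ (L.act _) (L.act _) hecke
      (fun y => hα _ y _ (hhecke y)) (fun y => hα _ y _ (hhecke y))
      (hα (Sum.inl (Sum.inl j.castSucc)) _ (tt j) fun i =>
        (pr_cutTerm_frameAt T L.Pq L.fr _ i).trans (htt j i).symm) F hF hc
    refine ⟨P, Q, ⟨0, Z, by rw [smul_zero, zero_add, hZ]⟩, fun y => ?_⟩
    obtain ⟨Z', hZ'⟩ := hP y
    refine ⟨0, Z', ?_⟩
    rw [smul_zero, zero_add]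
    exact hZ'
  · -- the descent from the further module
    obtain ⟨F, hF, hc⟩ := hdescX
    exact exists_desc_lifted _ _ _ (L.act _) (L.act _) hecke
      (fun y => hα _ y _ (hhecke y)) (fun y => hα _ y _ (hhecke y))
      (hα (Sum.inl (Sum.inl (Fin.last N))) te teH fun i => (hteH i).symm) F hF hc
  · -- the parameters
    intro k
    obtain ⟨y, hy, hx⟩ := exists_par_lifted L T xB b hα (hpar k)
    exact ⟨y, fun j => hy _, hy _, hx⟩
  · -- the killer vanishes at the base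
    intro i j y hy
    rw [hα _ z hz hzpt] at hy
    exact constantCoeff_mem_of_map hϖ _ s ε hs _ hbase i j y hy

end Fermat.GR.RT

end
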