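import Mathlib
import Fermat.Agent.GR.RT.Lift.Chain
import Fermat.Agent.GR.RT.Lift.Lists
import Fermat.Agent.GR.RT.Lift.Killer
import Fermat.Agent.GR.RT.Lift.CaseChain
import Fermat.Agent.GR.RT.Lift.TransferChain

/-!
# Raising the level at `p` too: transfer to the strict condition

`false_of_transfer` is `false_of_chain` for the last case of `Main`: bad reduction at `p`, but
`p ∤ N`. The systems of the chain at the bad primes are flat at `p`; on top of it the module special
at `p` carries the strict condition of the curve, and the operator cutting it is an element of the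
trace ring (`exists_ordElt`). Each exponent gives a `TransferLevel` (`exists_liftTransferLevel`,
by `TransferChain`), to which `eq_zero_of_transferLevels` (`GR/Patch/TransferFrames`) applies.
-/

set_option autoImplicit false

noncomputable section

open MvPolynomial IsLocalRing Fermat.CFT ExtCitation

namespace Fermat.GR.RT

open Fermat.HM Fermat.GR.Patch

local notation "Γℚ" => (AlgebraicClosure ℚ ≃ₐ[ℚ] AlgebraicClosure ℚ)
local notation "M2" R => Matrix (Fin 2) (Fin 2) R

variable {p : ℕ} [hp : Fact p.Prime] {rb : Γℚ →* GL (Fin 2) (ZMod p)} {W : WeierstrassCurve ℤ}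
  {N r q₀ : ℕ} {O : Type} [CommRing O] [IsDomain O] [IsDiscreteValuationRing O]
  [IsAdicComplete (maximalIdeal O) O] [Finite (ResidueField O)] [CharZero O]

namespace LiftData

variable [Algebra (ZMod p) (ResidueField O)] [NeZero N] {D : LiftData p rb W N r q₀} {ζ : O}

section Top

variable {n : ℕ} {L : List (GoodIx (liftBad rb W N q₀))} {C : D.RamConds O} {hL : TWList p rb n L}
  {qs : List ℕ} {v : ℕ → (ZMod (D.levK L))ˣ} {ε : ℕ → O} [NeZero (D.levK L)] {hc : CoeffData p O ζ}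
  {hO : (p : O) ∈ maximalIdeal O} {Wl : Lifting rb hO} (F : D.AllFacts C hL hO qs v ε)

include F Wl in
/-- A nonzero module of union type has systems. -/
theorem nonempty_ptsE
    (Cx : RaiseCtx p (goodPr (liftBad rb W N q₀)) (D.quotL hL) (sysIdeal (thetaL rb hc.mem ζ L))
      v ε qs) {J : List ℕ} (hJ : IsRaised qs J)
    (hfam : RaiseCtx.Avoids (D.famK L) J) {u : O →+* ℂ} (hu : Function.Injective u)
    [Nontrivial (Cx.eMod hJ).X] :
    (D.ptsE (hL := hL) (hO := hO) (qs := qs) (v := v) (ε := ε) J).Nonempty := by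
  by_contra hem
  obtain ⟨m, hm⟩ := exists_ne (0 : (Cx.eMod hJ).X)
  refine hm ?_
  have h1 := LinearMap.congr_fun
    (eAct_eq_zero_of_ptK (hc := hc) Wl F Cx hJ hfam hu 1 fun i hi => (hem ⟨i, hi⟩).elim) m
  rw [map_one] at h1
  exact h1

omit [IsAdicComplete (maximalIdeal O) O] [Finite (ResidueField O)] [CharZero O]
  [Algebra (ZMod p) (ResidueField O)] [NeZero (D.levK L)] in
/-- The levels of the systems without `p` among the raised primes are prime to `p`. -/
theorem not_dvd_levT_ptsE (hpN : ¬ p ∣ N) {J : List ℕ} (hpJ : p ∉ J)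
    {i : D.PtIx hL hO qs v ε}
    (hi : i ∈ D.ptsE (hL := hL) (hO := hO) (qs := qs) (v := v) (ε := ε) J) :
    ∃ a, i = some a ∧ a.1.1 ⊆ primeSet J ∧ ¬ p ∣ D.levT L a.1.1 := by
  obtain ⟨a, rfl, haJ⟩ := hi
  refine ⟨a, rfl, haJ, fun hd => ?_⟩
  rcases D.levT_cases hp.out hd with h | ⟨l, -, he⟩ | ⟨t, ht, he⟩
  · exact hpN h
  · exact l.2 (show ((l.1 : Nat.Primes) : ℕ) ∣ _ by
      rw [show ((l.1 : Nat.Primes) : ℕ) = p from he]; exact D.p_dvd_bad)
  · exact hpJ (he ▸ mem_primeSet.mp (haJ ht))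

omit [IsAdicComplete (maximalIdeal O) O] [CharZero O] [NeZero (D.levK L)] in
/-- The liftings at the systems of a list without `p` are flat at `p`. -/
theorem flat_ptsE (hpN : ¬ p ∣ N) {J : List ℕ} (hpJ : p ∉ J) {i : D.PtIx hL hO qs v ε}
    (hi : i ∈ D.ptsE (hL := hL) (hO := hO) (qs := qs) (v := v) (ε := ε) J) :
    (liftFam Wl F i).FlatAtP := by
  obtain ⟨a, rfl, -, hpT⟩ := not_dvd_levT_ptsE hpN hpJ hi
  exact (F a).flat hpT

/-- **An element with the roots at `p` as values acts as the operator cutting at `p`.** -/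
theorem exists_ordElt [Fintype (D.PtIx hL hO qs v ε)]
    (T : TraceRep (normDataOf D.semi.surjective O) (fun i => (liftFam Wl F i).B)
      (fun i => (liftFam Wl F i).rep))
    (Cx : RaiseCtx p (goodPr (liftBad rb W N q₀)) (D.quotL hL) (sysIdeal (thetaL rb hc.mem ζ L))
      v ε qs) (hR : D.Raise qs ε) (hW : CurveFacts D Wl) {u : O →+* ℂ} (hu : Function.Injective u)
    (o : OrdSigns rb O) (hεp : ε p = -o.u)
    (ST : Submodule (ZMod p) (LH1 (pPrime p) (adRep p (resRep rb O))))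
    (hST : ∀ {ι : Type} [Fintype ι] [Nonempty ι] (P : ι → Lifting rb hO)
      (T : TraceRep (normDataOf D.semi.surjective O) (fun i => (P i).B) (fun i => (P i).rep))
      (s : Set ι) (c : ∀ i, (P i).B), s.Nonempty →
        (∀ i ∈ s, (P i).FlatAtP ∧ (P i).OrdRootAt (c i)) →
        ∃ te ∈ maximalIdeal T.R,
          (∀ i ∈ s, T.pr i te = c i - algebraMap O (P i).B o.u * ((p : (P i).B) + 1)) ∧
          AtPCond ST P T.pr T.rep s {te})
    (hpN : ¬ p ∣ N) {J : List ℕ} (hrP : IsRaised qs (p :: J))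
    (hfam : RaiseCtx.Avoids (D.famK L) J)
    (hs : (D.ptsE (hL := hL) (hO := hO) (qs := qs) (v := v) (ε := ε) J).Nonempty) :
    ∃ te ∈ maximalIdeal T.R, ∃ teH : MvPolynomial (D.labK L) O,
      (∀ i, T.pr i te = ptK Wl F i teH) ∧
      Cx.eAct hrP.tail (D.famK L) hfam teH = Cx.tEnd hrP ∧
      AtPCond ST (liftFam Wl F) T.pr T.rep
        (D.ptsE (hL := hL) (hO := hO) (qs := qs) (v := v) (ε := ε) J) {te} := by
  have hQp : pPrime p ∈ primeSet qs := mem_primeSet.mpr (hrP.1 List.mem_cons_self)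
  have hpJ : p ∉ J := (List.nodup_cons.mp hrP.2).1
  -- the roots at `p` of the systems, and the element with the strict condition as its zeros
  let cp : ∀ i, (liftFam Wl F i).B := fun i => match i with
    | none => 0
    | some a => (F a).dia (D.liftU a.1.1 (v p)) * (F a).y (X (Sum.inl (pPrime p)))
  obtain ⟨te, hte, hteV, hteC⟩ := hST (liftFam Wl F) T _ cp hs fun i hi => by
    obtain ⟨a, rfl, -, hpT⟩ := not_dvd_levT_ptsE hpN hpJ hi
    exact ⟨(F a).flat hpT, (F a).ordRoot hpT o hQp _ (D.unitsMap_liftU _ _)⟩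
  -- it is a Hecke operator, which cuts at `p`
  obtain ⟨teH, hteH⟩ := T.exists_hecke (ptK Wl F) (D.tlK L O n)
    (fun ℓ => (ℓ : MvPolynomial (D.labK L) O)) (D.badL L).primeFactors
    (fun ℓ hℓ hbad A hA φ hφ i => frob_ptK Wl F hR hW hℓ hbad hA hφ i) te
  refine ⟨te, hte, teH, hteH, ?_, hteC⟩
  refine eAct_eq_tEnd (hc := hc) Cx hrP _ hu (D.p_not_dvd_levK hpN) hpJ teH fun T' hT' x hx => ?_
  let a : Σ T : {T // T ∈ (primeSet qs).powerset}, {x // x ∈ D.ptsT hL hO v ε T.1} :=
    ⟨⟨T', Finset.mem_powerset.mpr (hT'.trans (primeSet_mono hrP.tail.1))⟩, ⟨x, hx⟩⟩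
  have h1 := j_ptK Wl F a teH
  rw [← hteH, hteV _ ⟨a, rfl, hT'⟩] at h1
  rw [← h1]
  change (F a).j ((F a).dia _ * (F a).y _ -
    algebraMap O (F a).lift.B o.u * ((p : (F a).lift.B) + 1)) = _
  have hc1 : ∀ w, (F a).j ((F a).y w) = x w := fun w => RingHom.congr_fun (F a).comp w
  simp only [map_sub, map_mul, AlgHom.commutes, map_add, map_natCast, map_one,
    ← (F a).dia_apply, hc1, hεp, map_neg, neg_mul, Nat.cast_add, Nat.cast_one, ← sub_eq_add_neg]
  rfl

omit [IsAdicComplete (maximalIdeal O) O] [CharZero O] [NeZero (D.levK L)] in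
/-- The curve and the systems raised at `p` have the strict type of the curve at `p`. -/
theorem strictRel_ptsX (o : OrdSigns rb O) (hεp : ε p = -o.u) (hWord : Wl.OrdSignAt o.e o.u)
    {J : List ℕ} {i : D.PtIx hL hO qs v ε}
    (hi : i ∈ insert none (D.ptsX (hL := hL) (hO := hO) (qs := qs) (v := v) (ε := ε) p J)) :
    StrictRel O (pPrime p) o.e (liftFam Wl F i).rep := by
  rcases hi with rfl | ⟨a, rfl, -, t, ht, htp⟩
  · exact hWord.1
  · exact ((F a).ordSign o (Or.inl ⟨(show t = pPrime p from Subtype.ext htp) ▸ ht, hεp⟩)).1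

omit [NeZero (D.levK L)] in
/-- **The systems raised at `p` are of union type at the framed primes.** -/
theorem unionTypeRel_ptsX (D₁ : SingleData O (frPrimes rb W q₀))
    (hN : ∀ q, D₁.N q = (q : ℕ)) (hSt : ∀ q, D₁.isSt q = true ↔ (q : ℕ) ≠ q₀)
    (hε : ∀ q : frPrimes rb W q₀, (q : ℕ) ≠ q₀ → ε q = -D₁.u q)
    {Nc : ℕ} (qsA : Fin Nc → frPrimes rb W q₀) {e : ℕ → ℕ}
    (hqe : ∀ j : Fin Nc, (qsA j : ℕ) = e j) (hq0 : ∀ j, (qsA j : ℕ) ≠ q₀)
    (τ : frPrimes rb W q₀ → Γℚ) (hτ : ∀ q, τ q ∈ (placeAt (D.primeA q)).inertiaSubgroupIn ℚ)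
    {i : D.PtIx hL hO qs v ε}
    (hi : i ∈ D.ptsX (hL := hL) (hO := hO) (qs := qs) (v := v) (ε := ε) p (stepList e Nc))
    (q : frPrimes rb W q₀) :
    D₁.UnionTypeRel q (algebraMap O (liftFam Wl F i).B (D₁.u q))
      ((liftFam Wl F i).rep (frobOf (D.primeA q))) ((liftFam Wl F i).rep (τ q)) := by
  obtain ⟨a, rfl, haJ, -⟩ := hi
  refine ⟨det_at D₁ hN (F a).lift q (frobOf_spec _), fun hq => ?_, fun hq => ?_⟩
  · refine rep_eq_one_some F a (fun hmem => ?_) (hτ q)
    rcases List.mem_cons.mp (mem_primeSet.mp (haJ hmem)) with h | h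
    · exact D.ne_of_mem q.2 h
    · obtain ⟨i, hi, hie⟩ := mem_stepList.mp h
      have e' : (qsA ⟨i, hi⟩ : ℕ) = (q : ℕ) := (hqe ⟨i, hi⟩).trans hie
      rw [(hSt q).mpr (e' ▸ hq0 ⟨i, hi⟩)] at hq
      exact Bool.noConfusion hq
  · by_cases hmem : D.primeA q ∈ a.1.1
    · exact SingleData.StRel.map D₁ (stRel_some F D₁ hN hε ((hSt q).mp hq) a hmem (hτ q)) _
    · change D₁.UnionRel q _ _ ((F a).lift.rep (τ q))
      rw [rep_eq_one_some F a hmem (hτ q)]
      exact unionRel_one D₁ _ _ _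

omit [IsAdicComplete (maximalIdeal O) O] [Finite (ResidueField O)] [CharZero O]
  [Algebra (ZMod p) (ResidueField O)] [NeZero (D.levK L)] in
/-- The systems grow with the set of raised primes allowed. -/
theorem ptsE_subset {J J' : List ℕ} (h : J ⊆ J') :
    D.ptsE (hL := hL) (hO := hO) (qs := qs) (v := v) (ε := ε) J ⊆
      D.ptsE (hL := hL) (hO := hO) (qs := qs) (v := v) (ε := ε) J' := by
  rintro x ⟨a, rfl, ha⟩
  exact ⟨a, rfl, ha.trans (primeSet_mono h)⟩

omit [IsAdicComplete (maximalIdeal O) O] [Finite (ResidueField O)] [CharZero O]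
  [Algebra (ZMod p) (ResidueField O)] [NeZero (D.levK L)] in
/-- The systems raised at `q` over `J` are among those of any list containing `q` and `J`. -/
theorem ptsX_subset_ptsE {q : ℕ} {J J' : List ℕ} (h : q :: J ⊆ J') :
    D.ptsX (hL := hL) (hO := hO) (qs := qs) (v := v) (ε := ε) q J ⊆
      D.ptsE (hL := hL) (hO := hO) (qs := qs) (v := v) (ε := ε) J' := by
  rintro x ⟨a, rfl, ha, -⟩
  exact ⟨a, rfl, ha.trans (primeSet_mono h)⟩

end Top

section Hyps

variable (hc : CoeffData p O ζ) {u : O →+* ℂ} (hu : Function.Injective u)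
  {C : D.RamConds O} (hF : D.FactsAvail C hc.mem) (D₁ : SingleData O (frPrimes rb W q₀))
  (hN : ∀ q, D₁.N q = (q : ℕ)) (hSt : ∀ q, D₁.isSt q = true ↔ (q : ℕ) ≠ q₀)
  (Pq : frPrimes rb W q₀ → (M2 O)ˣ)
  (hfr : ∀ q φ, (placeAt (D.primeA q)).IsFrobeniusAt φ (D.primeA q) → ∀ i j,
    ((Pq q : M2 O) * (normDataOf D.semi.surjective O).bar φ * (↑(Pq q)⁻¹ : M2 O) - D₁.phi0 q) i j
      ∈ maximalIdeal O)
  (htm : ∀ q, ∀ σ ∈ (placeAt (D.primeA q)).inertiaSubgroupIn ℚ, ∀ i j,
    ((Pq q : M2 O) * (normDataOf D.semi.surjective O).bar σ * (↑(Pq q)⁻¹ : M2 O) - 1) i j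
      ∈ maximalIdeal O)
  (Wl : Lifting rb hc.mem) (xB : Wl.B →ₐ[O] O)
  (hxB : ∀ y ∈ maximalIdeal Wl.B, xB y ∈ maximalIdeal O) (hW : CurveFacts D Wl)
  (hWst : ∀ q : frPrimes rb W q₀, (q : ℕ) ≠ q₀ → Wl.StAt (D.primeA q) (D₁.u q))
  (hW0 : ∀ q : frPrimes rb W q₀, (q : ℕ) = q₀ → Wl.UnrAt (D.primeA q))
  (hWunr : ∀ L, Wl.UnrOutside (D.condT ∪ D.setL L))
  (hWram : ∀ q : Nat.Primes, (q : ℕ) ≠ p → ¬ IsResUnramified p rb q →
    StrictRel O q (C.e q) Wl.rep)
  (o : OrdSigns rb O)
  (SF SS ST : Submodule (ZMod p) (LH1 (pPrime p) (adRep p (resRep rb O))))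
  (hSF : ∀ {ι : Type} [Fintype ι] [Nonempty ι] (P : ι → Lifting rb hc.mem)
    (T : TraceRep (normDataOf D.semi.surjective O) (fun i => (P i).B) (fun i => (P i).rep))
    (s : Set ι), s.Nonempty → (∀ i ∈ s, (P i).FlatAtP) → AtPCond SF P T.pr T.rep s ∅)
  (hSS : ∀ {ι : Type} [Fintype ι] [Nonempty ι] (P : ι → Lifting rb hc.mem)
    (T : TraceRep (normDataOf D.semi.surjective O) (fun i => (P i).B) (fun i => (P i).rep))
    (s : Set ι), (∀ i ∈ s, StrictRel O (pPrime p) o.e (P i).rep) →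
      AtPCond SS P T.pr T.rep s ∅)
  (hST : ∀ {ι : Type} [Fintype ι] [Nonempty ι] (P : ι → Lifting rb hc.mem)
    (T : TraceRep (normDataOf D.semi.surjective O) (fun i => (P i).B) (fun i => (P i).rep))
    (s : Set ι) (c : ∀ i, (P i).B), s.Nonempty →
      (∀ i ∈ s, (P i).FlatAtP ∧ (P i).OrdRootAt (c i)) →
      ∃ te ∈ maximalIdeal T.R,
        (∀ i ∈ s, T.pr i te = c i - algebraMap O (P i).B o.u * ((p : (P i).B) + 1)) ∧
        AtPCond ST P T.pr T.rep s {te})
  (hWord : Wl.OrdSignAt o.e o.u) (hpN : ¬ p ∣ N)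
  {Nc : ℕ} (qsA : Fin Nc → frPrimes rb W q₀) {e : ℕ → ℕ} (hqe : ∀ j : Fin Nc, (qsA j : ℕ) = e j)
  (hq0 : ∀ j, (qsA j : ℕ) ≠ q₀) (hinj : Set.InjOn e (Set.Iio Nc)) {ε : ℕ → O}
  (hε : ∀ q : frPrimes rb W q₀, (q : ℕ) ≠ q₀ → ε q = -D₁.u q)
  (hεp : ε p = -o.u) (hR : D.Raise (p :: stepList e Nc) ε)
include hc u hu C hF D₁ hN hSt Pq hfr htm Wl xB hxB hW hWst hW0 hWunr hWram o SF SS ST
  hSF hSS hST hWord hpN Nc qsA e hqe hq0 hinj ε hε hεp hR

/-- **One level of the transfer of lifting, and its modules are not zero.** -/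
theorem exists_liftTransferLevel
    (hrP : IsRaised (p :: stepList e Nc) (p :: stepList e Nc))
    (z : MvPolynomial (GoodIx (liftBad rb W N q₀)) ℤ)
    (hz : ∀ T ⊆ primeSet (p :: stepList e Nc), ∀ [NeZero (N * ∏ t ∈ T, (t : ℕ))]
      (x : MvPolynomial (Nat.Primes ⊕ (ZMod (N * ∏ t ∈ T, (t : ℕ)))ˣ) ℤ →+* ℂ),
      IsPoint (N * ∏ t ∈ T, (t : ℕ)) ⊤ x →
        aeval (fun i : GoodIx (liftBad rb W N q₀) => x (X (Sum.inl i.1))) z = 0)
    {ϖ : O} (hϖ : Irreducible ϖ) {R g d n : ℕ} {L : List (GoodIx (liftBad rb W N q₀))}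
    (hL : TWList p rb (n + 1) L) (hlen : L.length = R) (hR1 : 1 ≤ R)
    (hSelF : D.SelBound (C.cond SF) L R) (hSelS : D.SelBound (C.cond SS) L R)
    (hSelT : D.SelBound (C.cond ST) L (R - 1))
    (hvar : ∀ i ∈ z.vars, ¬ goodPr _ i ∣ D.badL L)
    (hg : g + 2 = R + Fintype.card (frPrimes rb W q₀))
    (emb : Fin R ⊕ FrameVar (frPrimes rb W q₀) ⟨q₀, D.mem_frame⟩ ≃ Fin d) (isY : Fin d → Prop)
    [DecidablePred isY] (hY : ∀ k, isY (emb (Sum.inl k))) :
    Nonempty (TransferLevel D₁ ϖ (⟨q₀, D.mem_frame⟩ : frPrimes rb W q₀) g (symmHom (𝒪 := O) isY) emb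
      ((aeval (apVal W (B := liftBad rb W N q₀)) z : ℤ) : O) qsA
      (Sum.elim (fun i : Fin (Nc + 1) => rkE hR hc.mem (qs := p :: stepList e Nc)
          (isRaised_stepList hinj (List.subset_cons_self _ _) (Nat.le_of_lt_succ i.2)))
        fun j : Fin Nc => rkX hR hc.mem (q := e j) (J := stepList e j)
          (isRaised_stepList hinj (List.subset_cons_self _ _) (k := j + 1) j.2))
      (rkX hR hc.mem (q := p) (J := stepList e Nc) hrP) n) ∧
    (∀ j, 0 < (Sum.elim (fun i : Fin (Nc + 1) => rkE hR hc.mem (qs := p :: stepList e Nc)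
          (isRaised_stepList hinj (List.subset_cons_self _ _) (Nat.le_of_lt_succ i.2)))
        fun j : Fin Nc => rkX hR hc.mem (q := e j) (J := stepList e j)
          (isRaised_stepList hinj (List.subset_cons_self _ _) (k := j + 1) j.2)) j) ∧
      0 < (rkX hR hc.mem (q := p) (J := stepList e Nc) hrP) := by
  classical
  have := D.neZero_levK L
  have : NeZero p := ⟨hp.out.ne_zero⟩
  have hrE : ∀ i : Fin (Nc + 1), IsRaised (p :: stepList e Nc) (stepList e i) := fun i =>
    isRaised_stepList hinj (List.subset_cons_self _ _) (Nat.le_of_lt_succ i.2)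
  have hrX : ∀ j : Fin Nc, IsRaised (p :: stepList e Nc) (e j :: stepList e j) := fun j =>
    isRaised_stepList hinj (List.subset_cons_self _ _) (k := j + 1) j.2
  -- the systems, their traces and the generators of inertia
  obtain ⟨v, Cx, hv, hsg⟩ := hR.exists_ctx hc hL
  let F : D.AllFacts C hL hc.mem (p :: stepList e Nc) v ε := fun a => Classical.choice
    (hF (n + 1) L hL _ v ε hsg a.1.1 (Finset.mem_powerset.mp a.1.2) a.2.1 a.2.2)
  have := finite_ptIx (D := D) (hL := hL) (hc := hc) (qs := p :: stepList e Nc) (v := v) (ε := ε)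
  let : Fintype (D.PtIx hL hc.mem (p :: stepList e Nc) v ε) := Fintype.ofFinite _
  obtain ⟨T⟩ := nonempty_famTraceRep Wl F
  obtain ⟨τ, hτ⟩ := exists_frameGen Wl F T
  have hfam : ∀ {J : List ℕ}, IsRaised (p :: stepList e Nc) J → RaiseCtx.Avoids (D.famK L) J :=
    fun h => avoids_famK hR h.1
  -- bases, and the elements cutting the chain
  choose bE hbE using fun i => exists_eBasis (hc := hc) hR Cx hv (hrE i)
  choose bX hbX using fun j => exists_xBasis (hc := hc) hR Cx hv (hrX j)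
  obtain ⟨bP, hbP⟩ := exists_xBasis (hc := hc) hR Cx hv hrP
  obtain ⟨tt, htt, htE, hnT, hposE, hposX⟩ := exists_chainElts (hc := hc) Cx Wl F D₁ T Pq hfr hR
    hv hW hu hN hSt hε qsA hqe hq0 hinj (List.subset_cons_self _ _)
  have : Nontrivial (Cx.eMod hrP.tail).X := hnT
  have hsF := nonempty_ptsE (hc := hc) (Wl := Wl) F Cx hrP.tail (hfam hrP.tail) hu
  have hpJ : p ∉ stepList e Nc := (List.nodup_cons.mp hrP.2).1
  obtain ⟨te, hte, teH, hteH, htEp, hteC⟩ :=
    exists_ordElt (hc := hc) F T Cx hR hW hu o hεp ST hST hpN hrP (hfam hrP.tail) hsF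
  refine ⟨?_, fun j => ?_, ?_⟩
  rotate_left
  · rcases j with i | j
    exacts [hposE i (Nat.le_of_lt_succ i.2), hposX j (hrX j)]
  · have := nontrivial_xMod Cx hrP (tEnd_not_surjective (hc := hc) Wl F T Cx hR hW hrP _ hu te hte
      teH hteH htEp hnT)
    exact pos_of_basis bP
  -- the parameters
  obtain ⟨χd, hχd⟩ := exists_diamondHom (𝒪 := O) (d := d)
    (Δ := DeltaQ p (fun _ : Fin L.length => n + 1)) (n := n)
    hc.mem (fun _ : Fin L.length => n + 1) (fun _ => Nat.le_succ n) (MulEquiv.refl _)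
    fun k => emb (Sum.inl (Fin.cast hlen k))
  let mods : (Fin (Nc + 1) ⊕ Fin Nc) ⊕ Unit →
      GMod O (MonoidAlgebra O (PUnit.{1} × DeltaQ p (fun _ : Fin L.length => n + 1))) :=
    fun j => match j with
      | .inl (.inl i) => Cx.eMod (hrE i)
      | .inl (.inr j) => Cx.xMod (hrX j)
      | .inr _ => Cx.xMod hrP
  let setup :=
    famLevelSetup (χ := χd.comp (MonoidHom.snd PUnit.{1} _)) (mods := mods) Wl F D₁ Pq hfr htm
      (fun q => (hτ q).1) hR hW
      (fun j => match j with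
        | .inl (.inl i) => Cx.eAct (hrE i) (D.famK L) (hfam (hrE i))
        | .inl (.inr j) => Cx.xAct (hrX j) (D.famK L) (hfam (hrX j))
        | .inr _ => Cx.xAct hrP (D.famK L) (hfam hrP))
      (fun j => match j with
        | .inl (.inl i) => ptsE (stepList e i)
        | .inl (.inr j) => ptsX (e j) (stepList e j)
        | .inr _ => ptsX p (stepList e Nc))
      fun j h hh => match j with
        | .inl (.inl i) => eAct_eq_zero_of_ptK (hc := hc) Wl F Cx (hrE i) _ hu h hh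
        | .inl (.inr j) => xAct_eq_zero_of_ptK (hc := hc) Wl F Cx (hrX j) _ hu h hh
        | .inr _ => xAct_eq_zero_of_ptK (hc := hc) Wl F Cx hrP _ hu h hh
  -- the shared properties of the liftings, and the killer in the trace ring
  have hunrF := unrOutside_liftFam Wl F (hWunr L)
  have hramF := strictRel_liftFam Wl F hWram
  obtain ⟨y, hy⟩ := exists_frobElt Wl F hR hW T z hvar
  refine nonempty_transferLevel (O' := O) (g := g) (emb := emb) (ψ := symmHom (𝒪 := O) isY)
    (qs := qsA) (mk := Sum.elim (Sum.elim _ _) fun _ => _)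
    setup T hϖ xB hxB (fun j => match j with
      | .inl (.inl i) => bE i
      | .inl (.inr j) => bX j
      | .inr _ => bP)
    (ptsE (stepList e Nc)) (insert none (ptsX p (stepList e Nc))) hsF ?subF (Set.subset_insert _ _)
    (Set.mem_insert _ _) te hte teH (fun i => (hteH i).symm)
    ?tanF ?tanS ?tanT ?unr ?step ?point ?hX ?descX tt ?htt ?proj ?desc ?par y
    (D.killK L O (n + 1) z) hy ?zc (projRing O PUnit.{1} _) (augPUnit O) ?hs ?base
  case subF =>
    rintro (i | j)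
    exacts [ptsE_subset (stepList_subset (Nat.le_of_lt_succ i.2)),
      ptsX_subset_ptsE (stepList_subset (k := (j : ℕ) + 1) j.2)]
  case tanF =>
    intro K hK
    refine C.tangent_le (P := liftFam Wl F) hSelF hunrF hramF
      (hSF (liftFam Wl F) T _ hsF fun i hi => flat_ptsE F hpN hpJ hi) _
      (fun q => frobOf (D.primeA q)) τ Pq (fun q => (hτ q).2) (g := g + 1) (by omega) K
      fun l hl => ⟨(hK l hl).1, (hK l hl).2.1, (hK l hl).2.2.1, (hK l hl).2.2.2,
        fun y hy => hy.elim⟩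
  case tanS =>
    intro K hK
    exact C.tangent_le (P := liftFam Wl F) hSelS hunrF hramF (hSS (liftFam Wl F) T _
      fun i hi => strictRel_ptsX F o hεp hWord hi) _
      (fun q => frobOf (D.primeA q)) τ Pq (fun q => (hτ q).2) (g := g + 1) (by omega) K
      fun l hl => ⟨(hK l hl).1, (hK l hl).2.1, (hK l hl).2.2.1, (hK l hl).2.2.2,
        fun y hy => hy.elim⟩
  case tanT =>
    intro K hK
    refine C.tangent_le (P := liftFam Wl F) hSelT hunrF hramF hteC _
      (fun q => frobOf (D.primeA q)) τ Pq (fun q => (hτ q).2) (g := g) (by omega) K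
      fun l hl => ?_
    obtain ⟨h1, h2, h3, h4, h5⟩ := hK l hl
    exact ⟨h1, h2, h3, h4, fun y hy => Set.mem_singleton_iff.mp hy ▸ h5⟩
  case unr => exact fun i hi q => unr_ptsE_nil Wl F D₁ hN hi τ (fun q => (hτ q).1) q
  case step =>
    exact fun j i hi q => chainRel_ptsX Wl F D₁ qsA hN hε hqe hq0 j hi τ (fun q => (hτ q).1) q
  case hX =>
    exact fun i hi q =>
      unionTypeRel_ptsX F D₁ hN hSt hε qsA hqe hq0 τ (fun q => (hτ q).1) hi q
  case descX =>
    exact exists_descK (hc := hc) Cx hrP (hfam hrP) (hfam hrP.tail) teH htEp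
  case point => exact typeRel_curve Wl D₁ hN hSt xB hWst hW0 τ fun q => (hτ q).1
  case htt => exact htt
  case proj =>
    exact fun j => ⟨Cx.proj (hrX j), Cx.proj_surjective (hrX j),
      fun h x => Cx.proj_eAct (hrX j) (D.famK L) (hfam (hrX j)) h x⟩
  case desc =>
    exact fun j => exists_descK (hc := hc) Cx (hrX j) (hfam (hrX j)) (hfam (hrX j).tail) (tt j)
      (htE j (hrX j) (hfam (hrX j).tail))
  case par =>
    intro k
    obtain ⟨σ, w, hw, hlift, hx2⟩ := exists_parData Wl F hW xB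
      (fun l => emb (Sum.inl (Fin.cast hlen l))) isY (χd := χd) (fun δ => hχd δ)
      (Fin.cast hlen.symm k) (hY _)
    refine ⟨σ, D.parOp L O w, D.parScalar hL O w, hw, fun j x => ?_, hlift, hx2⟩
    rcases j with (i | j) | _
    exacts [eAct_parOp (hc := hc) Cx (hrE i) (hfam (hrE i)) w x,
      xAct_parOp (hc := hc) Cx (hrX j) (hfam (hrX j)) w x,
      xAct_parOp (hc := hc) Cx hrP (hfam hrP) w x]
  case zc =>
    rw [hy, ptK_none_killK Wl F z hvar]
    exact map_intCast xB _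
  case hs =>
    exact fun a => constRed_lift_diamond hϖ χd (fun k => emb (Sum.inl (Fin.cast hlen k)))
      (fun δ => hχd δ) a
  case base =>
    dsimp only [setup, famLevelSetup]
    refine hbP (hfam hrP) _ fun hfam₀ => ?_
    exact eAct_killK_eq_zero (hR.ctxBase hc.mem) hrP hfam₀ hu z hvar fun T' hT' => hz T' hT'

-- the check for unused section variables takes 14 s on this proof; all of them are used
set_option linter.unusedSectionVars false in
/-- **The curve is modular at one of the levels above the base, `p` included.** -/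
theorem false_of_transfer
    (hqs : ∀ a, D₁.isSt a = true ↔ ∃ i, qsA i = a) [Finite SF] [Finite SS] [Finite ST]
    (hcF : Nat.card SF ≤ Nat.card (Coh.H0 (repAt (pPrime p) (adRep p (resRep rb O)))) *
      Nat.card (ResidueField O))
    (hcS : Nat.card SS ≤ Nat.card (Coh.H0 (repAt (pPrime p) (adRep p (resRep rb O)))) *
      Nat.card (ResidueField O))
    (hcT : Nat.card ST ≤ Nat.card (Coh.H0 (repAt (pPrime p) (adRep p (resRep rb O)))))
    (hAg : AgreeStatement)
    (hnot : ∀ T ⊆ primeSet (p :: stepList e Nc), ∃ K : ℕ, Squarefree K ∧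
      N * ∏ t ∈ T, (t : ℕ) ∣ K ∧ ¬ W.IsModularModelOfLevel K) : False := by
  classical
  -- an element killing the systems but not the curve, and auxiliary lists avoiding its variables
  obtain ⟨z, hz0, hz⟩ := D.exists_killer hAg (primeSet (p :: stepList e Nc)) hnot
  obtain ⟨R, hR'⟩ := C.exists_lists (SF ⊓ SS ⊓ ST) (z.vars.image (goodPr (liftBad rb W N q₀)))
  have hR1 : 1 ≤ R := by
    obtain ⟨L, -, -, -, hsel⟩ := hR' 1 le_rfl
    exact ((hsel ST inf_le_right inferInstance).2 hcT).1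
  have hrP : IsRaised (p :: stepList e Nc) (p :: stepList e Nc) := ⟨List.Subset.refl _, hR.nodup⟩
  obtain ⟨ϖ, hϖ⟩ := IsDiscreteValuationRing.exists_irreducible O
  let a₀ : frPrimes rb W q₀ := ⟨q₀, D.mem_frame⟩
  let emb := Fintype.equivFin (Fin R ⊕ FrameVar (frPrimes rb W q₀) a₀)
  let isY : Fin (Fintype.card (Fin R ⊕ FrameVar (frPrimes rb W q₀) a₀)) → Prop :=
    fun v => ∃ k, emb (Sum.inl k) = v
  have hA : 0 < Fintype.card (frPrimes rb W q₀) := Fintype.card_pos_iff.mpr ⟨a₀⟩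
  -- a level of the transfer for each exponent
  have hlev : ∀ n, _ ∧ _ := fun n => by
    obtain ⟨L, hL, hlen, havoid, hsel⟩ := hR' (n + 1) (Nat.le_add_left 1 n)
    exact exists_liftTransferLevel hc hu hF D₁ hN hSt Pq hfr htm Wl xB hxB hW hWst hW0 hWunr hWram o
      SF SS ST hSF hSS hST hWord hpN qsA hqe hq0 hinj hε hεp hR hrP z
      (fun T hT _ x hx => hz T hT x hx) hϖ (n := n)
      (g := R + Fintype.card (frPrimes rb W q₀) - 2) hL hlen hR1
      ((hsel SF (inf_le_left.trans inf_le_left) inferInstance).1 hcF)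
      ((hsel SS (inf_le_left.trans inf_le_right) inferInstance).1 hcS)
      ((hsel ST inf_le_right inferInstance).2 hcT).2
      (not_dvd_badL_of_avoid havoid) (by omega) emb isY fun k => ⟨k, rfl⟩
  -- patching forces the value of the killer at the curve to vanish
  have h0 := eq_zero_of_transferLevels (ψ := symmHom (𝒪 := O) isY) (emb := emb)
    (isUnit_two_of_mem D.p_ne_two hc.mem) hϖ hqs (hlev 0).2.1 (hlev 0).2.2 (by omega)
    (finite_symmHom isY) (injective_symmHom isY) (fun v => symmHom_X_of_not isY (by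
      rintro ⟨k, hk⟩
      exact Sum.inl_ne_inr (emb.injective hk)))
    (fun P hP h k => X_mem_of_symmHom_mem isY hP (h k)) fun n => Classical.choice (hlev n).1
  exact hz0 (Int.cast_eq_zero.mp h0)

end Hyps

end LiftData

end Fermat.GR.RT

end
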