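import Mathlib
import Fermat.Agent.GR.RT.LevelChain
import Fermat.Agent.GR.RT.FlatStatement
import Fermat.Agent.GR.RT.OrdProofStrict
import Fermat.Agent.GR.RT.Lift.OrdTwist

/-!
# Local classes of derivations killing the ideal of some points

A derivation killing the values at a set of points sees only those points: exact strict relations
there give the first order relation, flatness there gives flat classes, and unramified quotients
there give the strict relation once the Frobenius root has derivative zero.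
-/

set_option autoImplicit false

noncomputable section

open IsLocalRing

namespace Fermat.GR.RT

local notation "ℚbar" => AlgebraicClosure ℚ
local notation "Γℚ" => (AlgebraicClosure ℚ ≃ₐ[ℚ] AlgebraicClosure ℚ)
local notation "M2" R => Matrix (Fin 2) (Fin 2) R

/-- Conjugate matrices satisfy the same product relation. -/
theorem conj_product_eq_zero {B : Type} [CommRing B] {X Y X' Y' : M2 B} (V : (M2 B)ˣ) (a d : B)
    (hX : X' * (V : M2 B) = (V : M2 B) * X) (hY : Y' * (V : M2 B) = (V : M2 B) * Y)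
    (h : (X - a • (1 : M2 B)) * (Y - d • (1 : M2 B)) = 0) :
    (X' - a • (1 : M2 B)) * (Y' - d • (1 : M2 B)) = 0 := by
  have hs : ∀ (Z Z' : M2 B) (c : B), Z' * (V : M2 B) = (V : M2 B) * Z →
      (Z' - c • (1 : M2 B)) * (V : M2 B) = (V : M2 B) * (Z - c • (1 : M2 B)) := fun Z Z' c e => by
    rw [sub_mul, mul_sub, e, Matrix.smul_mul, Matrix.mul_smul, one_mul, mul_one]
  rw [← V.mul_left_inj, zero_mul, mul_assoc, hs _ _ _ hY, ← mul_assoc, hs _ _ _ hX, mul_assoc, h,
    mul_zero]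

variable {𝒪 : Type} [CommRing 𝒪] [IsDomain 𝒪] [IsDiscreteValuationRing 𝒪]
  [IsAdicComplete (maximalIdeal 𝒪) 𝒪] [Finite (ResidueField 𝒪)] [CharZero 𝒪]
  {R : Type} [CommRing R] [Algebra 𝒪 R] {ι : Type} {B : ι → Type} [∀ i, CommRing (B i)]
  [∀ i, Algebra 𝒪 (B i)] {pr : ∀ i, R →ₐ[𝒪] B i} {s : Set ι} {rep : Γℚ →* M2 R}
  {ρ : ∀ i, Γℚ →* M2 (B i)} {k : Type} [Field k] {π : R →+* k} {dd : R → k}

/-- A derivation killing the elements vanishing at the points takes equal values at elements with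
equal values there. -/
theorem sub_eq_of_points (hd : IsDeriv π dd) (hs : ∀ y ∈ ptsIdeal pr s, dd y = 0) {x y : R}
    (h : ∀ i ∈ s, pr i x = pr i y) : dd x = dd y := by
  rw [← sub_eq_zero, ← hd.sub]
  exact hs _ (mem_ptsIdeal.mpr fun i hi => by rw [map_sub, h i hi, sub_self])

/-- **Exact relations at the points give the first order relation.** -/
theorem first_order_of_points (hd : IsDeriv π dd) (hs : ∀ y ∈ ptsIdeal pr s, dd y = 0) {σ τ : Γℚ}
    {A₁ D₁ : R} (hA : dd A₁ = 0) (hD : dd D₁ = 0)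
    (h : ∀ i ∈ s, ((pr i : R →+* B i).mapMatrix (rep σ) - pr i A₁ • (1 : M2 (B i))) *
      ((pr i : R →+* B i).mapMatrix (rep τ) - pr i D₁ • (1 : M2 (B i))) = 0) :
    tcoc π rep dd σ * resHom π rep σ * (resHom π rep τ - π D₁ • (1 : M2 k)) +
      (resHom π rep σ - π A₁ • (1 : M2 k)) * (tcoc π rep dd τ * resHom π rep τ) = 0 := by
  refine strict_first_order_of_deriv hd hA hD fun a b => hs _ (mem_ptsIdeal.mpr fun i hi => ?_)
  have hsm : ∀ c : R, (pr i : R →+* B i).mapMatrix (c • (1 : M2 R)) = pr i c • (1 : M2 (B i)) := by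
    intro c
    refine Matrix.ext fun x y => ?_
    rw [RingHom.mapMatrix_apply, Matrix.map_apply, Matrix.smul_apply, Matrix.smul_apply,
      smul_eq_mul, smul_eq_mul, map_mul, Matrix.one_apply, Matrix.one_apply]
    split_ifs <;> simp
  have e := congrFun (congrFun (h i hi) a) b
  rw [← hsm, ← hsm, ← map_sub, ← map_sub, ← map_mul, RingHom.mapMatrix_apply, Matrix.map_apply,
    Matrix.zero_apply] at e
  exact e

section Flat

variable {p : ℕ} [hp : Fact p.Prime]

/-- **Flat points give flat classes.** A derivation vanishing at points whose representations are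
unramified twists of flat ones gives a flat adjoint cocycle at `p`. -/
theorem flat_cocycle_of_points [IsLocalRing R] [Module.Finite 𝒪 R] [Finite ι]
    [∀ i, IsDomain (B i)] [∀ i, IsDiscreteValuationRing (B i)] [∀ i, Module.Finite 𝒪 (B i)]
    [∀ i, IsLocalHom (algebraMap 𝒪 (B i))] [Finite k] [Algebra (ZMod p) k]
    (hFC : FlatCocycleStatement p) (h2 : 2 < p) (hpO : (p : 𝒪) ∈ maximalIdeal 𝒪)
    (hne : s.Nonempty) (hcont : MatCont rep) (r : ∀ i, Γℚ →* M2 (B i)) (hr : ∀ i, MatCont (r i))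
    (hflat : ∀ i ∈ s, (repOf (r i) (hr i)).IsFlatAt p) (A : ValuationSubring ℚbar)
    (hA : A.LiesOverPrime p) (t : ∀ i, Γℚ →* B i)
    (ht : ∀ i ∈ s, ∀ σ, ∃ n : ℕ, t i σ ^ p ^ n = 1)
    (htI : ∀ i ∈ s, ∀ σ ∈ A.inertiaSubgroupIn ℚ, t i σ = 1)
    (hconj : ∀ i ∈ s, ∃ P : (M2 (B i))ˣ, ∀ σ,
      (rep σ).map (pr i) = (P : M2 (B i)) * (t i σ • r i σ) * (↑P⁻¹ : M2 (B i)))
    (hπm : ∀ a ∈ maximalIdeal R, π a = 0) (hd : IsDeriv π dd)
    (hdO : ∀ o, dd (algebraMap 𝒪 R o) = 0) (hdet : ∀ σ, dd (rep σ).det = 0)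
    (hs : ∀ y ∈ ptsIdeal pr s, dd y = 0) :
    haveI : CharP k p := charP_of_injective_algebraMap (algebraMap (ZMod p) k).injective p
    Fermat.FLAT.IsFlatCocycle A (resHom π rep) (tcoc π rep dd) := by
  classical
  have hI : ptsIdeal pr s ≠ ⊤ := fun e => by
    obtain ⟨i, hi⟩ := hne
    have h1 := mem_ptsIdeal.mp ((Ideal.eq_top_iff_one _).mp e) i hi
    rw [map_one] at h1
    exact one_ne_zero h1
  -- pass to the quotient by the elements vanishing at the points
  set I := ptsIdeal pr s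
  have : Nontrivial (R ⧸ I) := Ideal.Quotient.nontrivial_iff.mpr hI
  have : IsLocalRing (R ⧸ I) :=
    IsLocalRing.of_surjective' (Ideal.Quotient.mk I) Ideal.Quotient.mk_surjective
  have : IsLocalHom (Ideal.Quotient.mk I) := IsLocalHom.of_surjective _ Ideal.Quotient.mk_surjective
  have : Module.Finite 𝒪 (R ⧸ I) :=
    Module.Finite.of_surjective (Ideal.Quotient.mkₐ 𝒪 I).toLinearMap Ideal.Quotient.mk_surjective
  let pr' : ∀ i : s, (R ⧸ I) →ₐ[𝒪] B i := fun i => Ideal.Quotient.liftₐ I (pr i)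
    fun a ha => mem_ptsIdeal.mp ha i i.2
  let rep' : Γℚ →* M2 (R ⧸ I) := (Ideal.Quotient.mk I).mapMatrix.toMonoidHom.comp rep
  have hπI : ∀ a ∈ I, π a = 0 := fun a ha => hπm a (IsLocalRing.le_maximalIdeal hI ha)
  -- the derivation descends to it
  let π' : R ⧸ I →+* k := Ideal.Quotient.lift I π hπI
  let d' : R ⧸ I → k := fun x => Quotient.liftOn' x dd fun a b hab => by
    rw [Submodule.quotientRel_def] at hab
    rw [← sub_eq_zero, ← hd.sub]
    exact hs _ hab
  have hd' : IsDeriv π' d' := by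
    refine ⟨fun a b => ?_, fun a b => ?_⟩ <;>
      obtain ⟨a, rfl⟩ := Ideal.Quotient.mk_surjective a <;>
      obtain ⟨b, rfl⟩ := Ideal.Quotient.mk_surjective b
    · rw [← map_add]; exact hd.add a b
    · rw [← map_mul]; exact hd.mul a b
  have hcont' : MatCont rep' := fun n => by
    obtain ⟨L, hL, hLρ⟩ := hcont n
    refine ⟨L, hL, fun σ hσ i j => ?_⟩
    have e : (rep' σ - 1) i j = Ideal.Quotient.mk I ((rep σ - 1) i j) := by
      change Ideal.Quotient.mk I (rep σ i j) - (1 : M2 (R ⧸ I)) i j = _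
      rw [Matrix.sub_apply, map_sub, Matrix.one_apply, Matrix.one_apply]
      split_ifs <;> simp
    rw [e]
    have hle : (maximalIdeal R ^ n).map (Ideal.Quotient.mk I) ≤ maximalIdeal (R ⧸ I) ^ n := by
      rw [Ideal.map_pow]
      refine pow_le_pow_left' (Ideal.map_le_iff_le_comap.mpr fun a ha => ?_) n
      exact map_nonunit (Ideal.Quotient.mk I) a ha
    exact hle (Ideal.mem_map_of_mem _ (hLρ σ hσ i j))
  have : Finite s := Subtype.finite
  -- apply the flat cocycle statement there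
  have h := hFC h2 𝒪 hpO s (fun i => B i) (R ⧸ I) pr'
    (fun a ha => by
      obtain ⟨a, rfl⟩ := Ideal.Quotient.mk_surjective a
      exact Ideal.Quotient.eq_zero_iff_mem.mpr (mem_ptsIdeal.mpr fun i hi => ha ⟨i, hi⟩))
    rep' hcont' (fun i => r i) (fun i => hr i) (fun i => hflat i i.2) A hA (fun i => t i)
    (fun i => ht i i.2) (fun i => htI i i.2) (fun i => by
      obtain ⟨P, hP⟩ := hconj i i.2
      exact ⟨P, fun σ => (Matrix.map_map ..).trans (hP σ)⟩)
    k π' d' (fun a ha => by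
      obtain ⟨a, rfl⟩ := Ideal.Quotient.mk_surjective a
      exact hπm a fun hu => ha (hu.map _))
    hd' hdO (fun σ => by
      change d' ((Ideal.Quotient.mk I).mapMatrix (rep σ)).det = 0
      rw [← RingHom.map_det]
      exact hdet σ)
  exact h

end Flat

section Twist

variable [IsLocalRing R] [IsAdicComplete (maximalIdeal R) R] [∀ i, IsDomain (B i)] {p : ℕ}
  [hp : Fact p.Prime] [Algebra (ZMod p) k] {A : ValuationSubring ℚbar}
  {φ : A.decompositionSubgroup ℚ} {α β : R}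

omit [IsAdicComplete (maximalIdeal R) R] [∀ (i : ι), IsDomain (B i)] [Algebra (ZMod p) k] in
/-- The derivative of the quotient element vanishes with that of the Frobenius root. -/
theorem deriv_quotElt (hπm : ∀ a ∈ maximalIdeal R, π a = 0) (hd : IsDeriv π dd)
    (hs : ∀ y ∈ ptsIdeal pr s, dd y = 0) (hcont : MatCont rep) (hA : A.LiesOverPrime p)
    (hφ : A.IsFrobeniusAt φ.1 p) (hu : IsUnit (α - β)) (hsum : α + β = (rep φ.1).trace)
    (hdα : dd α = 0)
    (hpts : ∀ i ∈ s, ∃ (Q P : (M2 (B i))ˣ),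
      (∀ σ, (pr i : R →+* B i).mapMatrix (rep σ) * (Q : M2 (B i)) = (Q : M2 (B i)) * ρ i σ) ∧
        IsOrdBasis A (ρ i) P ∧
        pr i α = ((P : M2 (B i)) * ρ i φ.1 * (↑P⁻¹ : M2 (B i))) 1 1 ∧
        pr i β = ((P : M2 (B i)) * ρ i φ.1 * (↑P⁻¹ : M2 (B i))) 0 0)
    (σ : A.decompositionSubgroup ℚ) : dd (quotElt rep φ α β σ.1) = 0 := by
  obtain ⟨L, hL, hLρ⟩ := hcont 2
  have : FiniteDimensional ℚ L := hL
  have : Normal ℚ (IntermediateField.normalClosure ℚ L ℚbar) := normalClosure.normal ℚ L ℚbar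
  obtain ⟨n, τ, hτ, x, hx, e⟩ := exists_frob_pow_level ⟨hp.out, hA⟩ hφ σ.2
    (IntermediateField.normalClosure ℚ L ℚbar)
  have hτD := Fermat.FLAT.inertia_le_decomposition A hτ
  have hxD : x ∈ A.decompositionSubgroup ℚ := by
    have hx' : x = (φ.1 ^ n * τ)⁻¹ * σ.1 := by rw [e, inv_mul_cancel_left]
    rw [hx']
    exact mul_mem (inv_mem (mul_mem (pow_mem φ.2 n) hτD)) σ.2
  -- on the points the element is multiplicative
  have hval : dd (quotElt rep φ α β σ.1) = dd (α ^ n * quotElt rep φ α β x) := by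
    refine sub_eq_of_points hd hs fun i hi => ?_
    obtain ⟨Q, P, hQ, hP, hPα, hPβ⟩ := hpts i hi
    have key : ∀ γ : A.decompositionSubgroup ℚ, pr i (quotElt rep φ α β γ.1) =
        ((P : M2 (B i)) * ρ i γ.1 * (↑P⁻¹ : M2 (B i))) 1 1 := fun γ =>
      map_quotElt (pr := (pr i : R →+* B i)) hQ hP hu hPα hPβ γ
    rw [map_mul, map_pow, key σ, key ⟨x, hxD⟩, hPα, e]
    set T : Γℚ → M2 (B i) := fun γ => (P : M2 (B i)) * ρ i γ * (↑P⁻¹ : M2 (B i)) with hT
    have hmul : ∀ γ γ', γ ∈ A.decompositionSubgroup ℚ → T (γ * γ') 1 1 = T γ 1 1 * T γ' 1 1 := by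
      intro γ γ' hγ
      have e' : T (γ * γ') = T γ * T γ' := by
        simp only [hT, map_mul, mul_assoc, Units.inv_mul_cancel_left]
      rw [e']
      exact entry11_mul (hP.low γ hγ)
    change T (φ.1 ^ n * τ * x) 1 1 = T φ.1 1 1 ^ n * T x 1 1
    rw [hmul _ _ (mul_mem (pow_mem φ.2 n) hτD), hmul _ _ (pow_mem φ.2 n),
      show T τ 1 1 = 1 from hP.inertia τ hτ, mul_one]
    congr 1
    clear e
    induction n with
    | zero => rw [pow_zero, pow_zero]; simp [hT]
    | succ m ih => rw [pow_succ, pow_succ, hmul _ _ (pow_mem φ.2 m), ih]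
  -- near the identity it is one
  have hx1 : dd (quotElt rep φ α β x) = 0 := by
    have hm2 : ∀ a ∈ maximalIdeal R ^ 2, dd a = 0 := by
      intro a ha
      rw [pow_two] at ha
      refine Submodule.mul_induction_on ha (fun a ha b hb => ?_) fun a b ha hb => by
        rw [hd.add, ha, hb, add_zero]
      rw [hd.mul, hπm a ha, hπm b hb, zero_mul, zero_mul, add_zero]
    have hmem : quotElt rep φ α β x - 1 ∈ maximalIdeal R ^ 2 := by
      have h0 := hLρ x fun y hy =>
        (IntermediateField.mem_fixingSubgroup_iff _ _).mp hx y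
          (IntermediateField.le_normalClosure L hy)
      have e1 : quotElt rep φ α β x - 1 =
          Ring.inverse (α - β) * ((rep φ.1 - β • (1 : M2 R)) * (rep x - 1)).trace := by
        rw [quotElt, mul_sub (rep φ.1 - β • (1 : M2 R)), mul_one, Matrix.trace_sub, mul_sub,
          Matrix.trace_sub (rep φ.1), Matrix.trace_smul, Matrix.trace_one, Fintype.card_fin,
          ← hsum, smul_eq_mul]
        linear_combination Ring.inverse_mul_cancel _ hu
      rw [e1]
      refine Ideal.mul_mem_left _ _ ?_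
      rw [Matrix.trace_fin_two, Matrix.mul_apply, Matrix.mul_apply, Fin.sum_univ_two,
        Fin.sum_univ_two]
      exact add_mem (add_mem (Ideal.mul_mem_left _ _ (h0 0 0)) (Ideal.mul_mem_left _ _ (h0 1 0)))
        (add_mem (Ideal.mul_mem_left _ _ (h0 0 1)) (Ideal.mul_mem_left _ _ (h0 1 1)))
    have := hm2 _ hmem
    rwa [hd.sub, hd.one, sub_zero] at this
  have hpow : dd (α ^ n) = 0 := by
    clear hval e
    induction n with
    | zero => rw [pow_zero, hd.one]
    | succ m ih => rw [pow_succ, hd.mul, ih, hdα, mul_zero, mul_zero, add_zero]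
  rw [hval, hd.mul, hx1, hpow, mul_zero, mul_zero, add_zero]

omit [IsAdicComplete (maximalIdeal R) R] [∀ (i : ι), IsDomain (B i)] [Algebra (ZMod p) k] in
/-- **Unramified quotients with constant Frobenius root give the strict relation.** -/
theorem strict_of_quotElt (hπm : ∀ a ∈ maximalIdeal R, π a = 0) (hd : IsDeriv π dd)
    (hdet : ∀ σ, dd (rep σ).det = 0)
    (hs : ∀ y ∈ ptsIdeal pr s, dd y = 0) (hcont : MatCont rep) (hA : A.LiesOverPrime p)
    (o : OrdRes A (resHom π rep))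
    (hφ : A.IsFrobeniusAt φ.1 p) (hu : IsUnit (α - β)) (hsum : α + β = (rep φ.1).trace)
    (hα : π α = o.d φ) (hβ : π β = o.a φ) (hdα : dd α = 0)
    (hpts : ∀ i ∈ s, ∃ (Q P : (M2 (B i))ˣ),
      (∀ σ, (pr i : R →+* B i).mapMatrix (rep σ) * (Q : M2 (B i)) = (Q : M2 (B i)) * ρ i σ) ∧
        IsOrdBasis A (ρ i) P ∧
        pr i α = ((P : M2 (B i)) * ρ i φ.1 * (↑P⁻¹ : M2 (B i))) 1 1 ∧
        pr i β = ((P : M2 (B i)) * ρ i φ.1 * (↑P⁻¹ : M2 (B i))) 0 0)
    (σ τ : A.decompositionSubgroup ℚ) :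
    tcoc π rep dd σ.1 * resHom π rep σ.1 * (resHom π rep τ.1 - o.d τ • (1 : M2 k)) +
      (resHom π rep σ.1 - o.a σ • (1 : M2 k)) * (tcoc π rep dd τ.1 * resHom π rep τ.1) = 0 := by
  set δ : Γℚ → R := quotElt rep φ α β with hδ
  have hπδ : ∀ γ : A.decompositionSubgroup ℚ, π (δ γ.1) = o.d γ := fun γ =>
    map_quotElt_residual o hα hβ hu γ
  have hδu : IsUnit (δ σ.1) := by
    by_contra h
    exact o.d_ne σ ((hπδ σ).symm.trans (hπm _ h))
  obtain ⟨w, hw⟩ := hδu
  have hdδ : ∀ γ : A.decompositionSubgroup ℚ, dd (δ γ.1) = 0 :=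
    deriv_quotElt hπm hd hs hcont hA hφ hu hsum hdα hpts
  have hπw : π (↑w⁻¹ : R) * o.d σ = 1 := by
    rw [← hπδ σ, ← map_mul, ← hw, w.inv_mul, map_one]
  -- the sub element and its inverse are constant
  have hdw : dd (↑w⁻¹ : R) = 0 := by
    have h1 : dd ((↑w⁻¹ : R) * δ σ.1) = 0 := by rw [← hw, w.inv_mul, hd.one]
    rw [hd.mul, hdδ, mul_zero, zero_add, hπδ σ] at h1
    exact (mul_eq_zero.mp h1).resolve_left (o.d_ne σ)
  have hA₁ : dd ((rep σ.1).det * (↑w⁻¹ : R)) = 0 := by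
    rw [hd.mul, hdw, hdet, mul_zero, mul_zero, add_zero]
  -- at the points the relation is exact in an ordinary basis
  have key := first_order_of_points (rep := rep) (σ := σ.1) (τ := τ.1) hd hs hA₁ (hdδ τ)
    fun i hi => by
      obtain ⟨Q, P, hQ, hP, hPα, hPβ⟩ := hpts i hi
      have keyγ : ∀ γ : A.decompositionSubgroup ℚ, pr i (δ γ.1) =
          ((P : M2 (B i)) * ρ i γ.1 * (↑P⁻¹ : M2 (B i))) 1 1 := fun γ =>
        map_quotElt (pr := (pr i : R →+* B i)) hQ hP hu hPα hPβ γ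
      have hconj : ∀ γ, (pr i : R →+* B i).mapMatrix (rep γ) *
        ((Q * P⁻¹ : (M2 (B i))ˣ) : M2 (B i)) =
          ((Q * P⁻¹ : (M2 (B i))ˣ) : M2 (B i)) *
            ((P : M2 (B i)) * ρ i γ * (↑P⁻¹ : M2 (B i))) := fun γ => by
        rw [Units.val_mul, ← mul_assoc, hQ]
        simp only [mul_assoc, Units.inv_mul_cancel_left]
      have h11 := keyγ σ
      have h22 := keyγ τ
      have hl1 := hP.low σ.1 σ.2
      have hl2 := hP.low τ.1 τ.2
      have hdσ : pr i (rep σ.1).det =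
          ((P : M2 (B i)) * ρ i σ.1 * (↑P⁻¹ : M2 (B i))).det := by
        rw [Matrix.det_units_conj, ← (trace_det_of_conj Q (hQ σ.1)).2]
        exact RingHom.map_det (pr i : R →+* B i) _
      refine conj_product_eq_zero (Q * P⁻¹) _ _ (hconj σ.1) (hconj τ.1) ?_
      generalize (P : M2 (B i)) * ρ i σ.1 * (↑P⁻¹ : M2 (B i)) = X at h11 hl1 hdσ ⊢
      generalize (P : M2 (B i)) * ρ i τ.1 * (↑P⁻¹ : M2 (B i)) = Y at h22 hl2 ⊢
      rw [h22, map_mul, hdσ, Matrix.det_fin_two, hl1, mul_zero, sub_zero, ← h11, mul_assoc,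
        ← map_mul, ← hw, w.mul_inv, map_one, mul_one]
      exact sub_smul_mul_sub_smul_eq_zero hl1 hl2
  have e1 : π ((rep σ.1).det * (↑w⁻¹ : R)) = o.a σ := by
    rw [map_mul, show π (rep σ.1).det = (resHom π rep σ.1).det by
      rw [RingHom.map_det]; rfl, o.det_eq, mul_assoc, mul_comm (o.d σ), hπw, mul_one]
  rw [hπδ τ, e1] at key
  exact key

end Twist

end Fermat.GR.RT

end
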