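import Fermat.Agent.GR.RT.Lift.Lifting
import Fermat.Agent.GR.RT.Lift.FirstOrder
import Fermat.Agent.GR.RT.LowerTangent
import Fermat.Agent.GR.RT.OrdProofBound
import Fermat.Agent.GR.RT.FlatProofBound
import Fermat.Agent.GR.RT.OrdFlatStrict

/-!
# The conditions at `p` of modularity lifting

For liftings which are flat at `p`, which satisfy the strict relation, or which are flat and
ordinary with a prescribed Frobenius root, the derivations killing their ideal have classes in
small subspaces.
-/

set_option autoImplicit false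
set_option linter.unusedSectionVars false

noncomputable section

open IsLocalRing Fermat.CFT ExtCitation

namespace Fermat.GR.RT

local notation "Γℚ" => (AlgebraicClosure ℚ ≃ₐ[ℚ] AlgebraicClosure ℚ)
local notation "M2" R => Matrix (Fin 2) (Fin 2) R

variable {p : ℕ} [hp : Fact p.Prime] {rb : Γℚ →* GL (Fin 2) (ZMod p)} {O : Type} [CommRing O]
  [IsDomain O] [IsDiscreteValuationRing O] [IsAdicComplete (maximalIdeal O) O]
  [Finite (ResidueField O)] [CharZero O] [Algebra (ZMod p) (ResidueField O)]
  {hO : (p : O) ∈ maximalIdeal O}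

/-- The kernel of the residual representation is open. -/
theorem isOpen_resRep_eq_one (hrb : IsSemistableResidual p rb) :
    IsOpen {σ : Γℚ | resRep rb O σ = 1} := by
  have hker : {σ : Γℚ | resRep rb O σ = 1} = ((resRep rb O).toHomUnits.ker : Set Γℚ) := by
    ext σ
    simp [MonoidHom.mem_ker]
  rw [hker]
  exact Subgroup.isOpen_mono (H₁ := rb.ker) (fun σ hσ => MonoidHom.mem_ker.mpr
    (Units.ext (resRep_eq_one O (MonoidHom.mem_ker.mp hσ)))) hrb.isOpen_ker

namespace TraceRep

variable {hs : Function.Surjective rb} {ι : Type} [Fintype ι] {P : ι → Lifting rb hO}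
  (T : TraceRep (normDataOf hs O) (fun i => (P i).B) (fun i => (P i).rep))

/-- Two reductions agreeing on the coefficients agree. -/
theorem reduction_unique {π π' : T.R →+* ResidueField O} (hπ : ∀ a ∈ maximalIdeal T.R, π a = 0)
    (hπO : π.comp (algebraMap O T.R) = residue O) (hπ' : ∀ a ∈ maximalIdeal T.R, π' a = 0)
    (hπO' : π'.comp (algebraMap O T.R) = residue O) : π = π' := by
  refine RingHom.ext fun x => ?_
  obtain ⟨o, ho⟩ := T.hres (residue T.R x)
  have hm : algebraMap O T.R o - x ∈ maximalIdeal T.R := Ideal.Quotient.eq.mp ho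
  have h1 := hπ _ hm
  have h2 := hπ' _ hm
  rw [map_sub, sub_eq_zero] at h1 h2
  rw [← h1, ← h2]
  exact (RingHom.congr_fun hπO o).trans (RingHom.congr_fun hπO' o).symm

/-- The reduction of a trace ring onto the residue field of the coefficients. -/
theorem exists_reduction : ∃ π : T.R →+* ResidueField O,
    (∀ a ∈ maximalIdeal T.R, π a = 0) ∧ π.comp (algebraMap O T.R) = residue O ∧
      resHom π T.rep = resRep rb O := by
  have hbij : Function.Bijective (ResidueField.map (algebraMap O T.R)) :=
    ⟨RingHom.injective _, fun y => by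
      obtain ⟨o, ho⟩ := T.hres y
      exact ⟨residue O o, ho⟩⟩
  let e := RingEquiv.ofBijective _ hbij
  let π : T.R →+* ResidueField O :=
    (e.symm : ResidueField T.R →+* ResidueField O).comp (residue T.R)
  have hπm : ∀ a ∈ maximalIdeal T.R, π a = 0 := fun a ha => by
    change e.symm (residue T.R a) = 0
    rw [(residue_eq_zero_iff a).mpr ha, map_zero]
  have hπO : π.comp (algebraMap O T.R) = residue O := RingHom.ext fun o =>
    e.symm_apply_apply (residue O o)
  refine ⟨π, hπm, hπO, MonoidHom.ext fun σ => Matrix.ext fun a b => ?_⟩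
  rw [← resRep_eq_bar hs σ, resHom_apply, Matrix.map_apply, Matrix.map_apply]
  have h := hπm _ (T.normal.red σ a b)
  rw [map_sub, sub_eq_zero] at h
  exact h.trans (RingHom.congr_fun hπO _)

/-- The classes of flat points are flat. -/
theorem flatCocycle_of_flat (h2 : 2 < p) {s : Set ι} (hne : s.Nonempty)
    (hflat : ∀ i ∈ s, (P i).FlatAtP) {π : T.R →+* ResidueField O} {d : T.R → ResidueField O}
    (hπm : ∀ a ∈ maximalIdeal T.R, π a = 0) (hres : resHom π T.rep = resRep rb O)
    (hd : IsDeriv π d) (hdO : ∀ o, d (algebraMap O T.R o) = 0)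
    (hdet : ∀ σ, d (T.rep σ).det = 0) (hs' : ∀ y ∈ ptsIdeal T.pr s, d y = 0) :
    haveI : CharP (ResidueField O) p :=
      charP_of_injective_algebraMap (algebraMap (ZMod p) (ResidueField O)).injective p
    Fermat.FLAT.IsFlatCocycle (placeAt (pPrime p)) (resRep rb O) (tcoc π T.rep d) := by
  classical
  have hex : ∀ i, ∃ (r : Γℚ →* M2 (P i).B) (hr : MatCont r) (t : Γℚ →* (P i).B), i ∈ s →
      (repOf r hr).IsFlatAt p ∧ (∀ σ, ∃ n : ℕ, t σ ^ p ^ n = 1) ∧
        (∀ σ ∈ (placeAt (pPrime p)).inertiaSubgroupIn ℚ, t σ = 1) ∧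
          ∀ σ, (P i).rep σ = t σ • r σ := fun i => by
    by_cases hi : i ∈ s
    · obtain ⟨r, hr, t, h⟩ := hflat i hi
      exact ⟨r, hr, t, fun _ => h⟩
    · exact ⟨(P i).rep, (P i).cont, 1, fun h => absurd h hi⟩
  choose r hr t h using hex
  rw [← hres]
  refine flat_cocycle_of_points (flatCocycleStatement (p := p)) h2 hO hne T.cont r hr
    (fun i hi => (h i hi).1) (placeAt (pPrime p)) (placeAt_spec _) t (fun i hi => (h i hi).2.1)
    (fun i hi => (h i hi).2.2.1) (fun i hi => ?_) hπm hd hdO hdet hs'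
  obtain ⟨Q, hQ⟩ := T.pr_rep i
  refine ⟨Q, fun σ => ?_⟩
  rw [← (h i hi).2.2.2, ← hQ σ, mul_assoc, Q.mul_inv, mul_one]
  rfl

end TraceRep

namespace LiftData

variable {W : WeierstrassCurve ℤ} {N r q₀ : ℕ} (D : LiftData p rb W N r q₀)

variable (hO) in
/-- **The flat condition at `p`.** Some `S` in local `H¹` at `p` of order at most `#H⁰ · #k`
contains the classes of all first order deformations through points flat at `p`. -/
theorem exists_flatCond :
    ∃ S : Submodule (ZMod p) (LH1 (pPrime p) (adRep p (resRep rb O))), Finite S ∧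
      Nat.card S ≤ Nat.card (Coh.H0 (repAt (pPrime p) (adRep p (resRep rb O)))) *
        Nat.card (ResidueField O) ∧
      ∀ {ι : Type} [Fintype ι] [Nonempty ι] (P : ι → Lifting rb hO)
        (T : TraceRep (normDataOf D.semi.surjective O) (fun i => (P i).B) (fun i => (P i).rep))
        (s : Set ι), s.Nonempty → (∀ i ∈ s, (P i).FlatAtP) → AtPCond S P T.pr T.rep s ∅ := by
  obtain ⟨S, hfin, hcard, hS⟩ := flatBoundStatement (p := p) D.two_lt (ResidueField O)
    (resRep rb O) (isOpen_resRep_eq_one D.semi) (placeAt (pPrime p)) (placeAt_spec _)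
    fun σ _ => det_resRep O D.semi σ
  refine ⟨S, hfin, hcard, fun P T s hne hflat π d hπm hπO hres hd hdO hdet hs _ z hz => ?_⟩
  exact hS _ z hz (T.flatCocycle_of_flat D.two_lt hne hflat hπm hres hd hdO hdet hs)

variable (hO) in
/-- **The strict condition at `p`.** Some `S` in local `H¹` at `p` of order at most `#H⁰ · #k`
contains the classes of all first order deformations through points with the strict relation at
`p`. -/
theorem exists_strictPCond (o : OrdSigns rb O) :
    ∃ S : Submodule (ZMod p) (LH1 (pPrime p) (adRep p (resRep rb O))), Finite S ∧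
      Nat.card S ≤ Nat.card (Coh.H0 (repAt (pPrime p) (adRep p (resRep rb O)))) *
        Nat.card (ResidueField O) ∧
      ∀ {ι : Type} [Fintype ι] [Nonempty ι] (P : ι → Lifting rb hO)
        (T : TraceRep (normDataOf D.semi.surjective O) (fun i => (P i).B) (fun i => (P i).rep))
        (s : Set ι), (∀ i ∈ s, StrictRel O (pPrime p) o.e (P i).rep) →
          AtPCond S P T.pr T.rep s ∅ := by
  obtain ⟨S, hfin, hcard, hS⟩ := strictAtPBound (p := p) D.two_lt (ResidueField O) (resRep rb O)
    (isOpen_resRep_eq_one D.semi) (placeAt (pPrime p)) (placeAt_spec _) o.res.U o.res.a o.res.d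
    o.res.b o.res.tri o.res.sq o.res.inertia fun δ => det_resRep O D.semi δ.1
  refine ⟨S, hfin, hcard, fun P T s hstrict π d hπm hπO hres hd hdO hdet hs _ z hz => ?_⟩
  -- the exact relations at the points give the first order relation
  refine hS z fun σ τ => ?_
  have hπe : ∀ δ, π (algebraMap O T.R (o.e δ)) = o.res.d δ := fun δ =>
    (RingHom.congr_fun hπO _).trans (o.lift δ)
  have key := first_order_of_points (rep := T.rep) (σ := σ.1) (τ := τ.1)
    (A₁ := (T.rep σ.1).det * algebraMap O T.R (o.e σ)) (D₁ := algebraMap O T.R (o.e τ)) hd hs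
    (by rw [hd.mul, hdet, hdO, mul_zero, mul_zero, add_zero]) (hdO _) fun i hi => by
      obtain ⟨Q, hQ⟩ := T.pr_rep i
      have h := StrictRel.conj (O := O) (P := Q)
        (rep' := (T.pr i : T.R →+* (P i).B).mapMatrix.toMonoidHom.comp T.rep) hQ (hstrict i hi) σ τ
      have e1 : T.pr i (T.rep σ.1).det =
          ((T.pr i : T.R →+* (P i).B).mapMatrix (T.rep σ.1)).det :=
        RingHom.map_det (T.pr i : T.R →+* (P i).B) _
      rw [map_mul, e1, AlgHom.commutes, AlgHom.commutes]
      exact h
  have ha : π ((T.rep σ.1).det * algebraMap O T.R (o.e σ)) = o.res.a σ := by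
    rw [map_mul, show π (T.rep σ.1).det = (resHom π T.rep σ.1).det by
      rw [RingHom.map_det]; rfl, hres, o.res.det_eq, hπe, mul_assoc, o.res.sq, mul_one]
  rw [hπe, ha, hres] at key
  rw [hz, hz]
  exact key

variable (hO) in
/-- **The flat and strict condition at `p`**, with the Frobenius root prescribed by `te`. -/
theorem exists_flatStrictCond (o : OrdSigns rb O) :
    ∃ S : Submodule (ZMod p) (LH1 (pPrime p) (adRep p (resRep rb O))), Finite S ∧
      Nat.card S ≤ Nat.card (Coh.H0 (repAt (pPrime p) (adRep p (resRep rb O)))) ∧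
      ∀ {ι : Type} [Fintype ι] [Nonempty ι] (P : ι → Lifting rb hO)
        (T : TraceRep (normDataOf D.semi.surjective O) (fun i => (P i).B) (fun i => (P i).rep))
        (s : Set ι) (c : ∀ i, (P i).B), s.Nonempty →
          (∀ i ∈ s, (P i).FlatAtP ∧ (P i).OrdRootAt (c i)) →
          ∃ te ∈ maximalIdeal T.R,
            (∀ i ∈ s, T.pr i te = c i - algebraMap O (P i).B o.u * ((p : (P i).B) + 1)) ∧
            AtPCond S P T.pr T.rep s {te} := by
  obtain ⟨S, hfin, hcard, hS⟩ := flatStrictBound (p := p) D.two_lt (ResidueField O) (resRep rb O)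
    (isOpen_resRep_eq_one D.semi) (placeAt (pPrime p)) (placeAt_spec _) o.res.U o.res.a o.res.d
    o.res.b o.res.tri o.res.sq o.res.inertia fun δ => det_resRep O D.semi δ.1
  refine ⟨S, hfin, hcard, fun {ι} _ _ P T s c hne hord => ?_⟩
  classical
  have : CharP (ResidueField O) p :=
    charP_of_injective_algebraMap (algebraMap (ZMod p) (ResidueField O)).injective p
  have h2 : (2 : ResidueField O) ≠ 0 := by
    have h : ((2 : ℕ) : ResidueField O) ≠ 0 := fun h => by
      have := Nat.le_of_dvd two_pos ((CharP.cast_eq_zero_iff (ResidueField O) p 2).mp h)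
      have := D.two_lt
      omega
    exact_mod_cast h
  have hpA : (placeAt (pPrime p)).LiesOverPrime p := placeAt_spec _
  -- a Frobenius with distinct residual roots, and the roots of its lift
  obtain ⟨φ, hφ, had⟩ := o.res.exists_frobenius_ne h2 hpA
    fun δ => det_resRep O D.semi δ.1
  obtain ⟨π₀, hπ₀m, hπ₀O, hres₀⟩ := T.exists_reduction
  let o' : OrdRes (placeAt (pPrime p)) (resHom π₀ T.rep) :=
    { U := o.res.U, a := o.res.a, d := o.res.d, b := o.res.b
      tri := fun δ => by rw [hres₀]; exact o.res.tri δ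
      sq := o.res.sq, inertia := o.res.inertia }
  obtain ⟨α, β, hsum, hprod, hα, hβ, hu⟩ := exists_roots (π := π₀) hπ₀m (T.rep φ.1) had
    (by rw [← resHom_apply]; exact o'.trace_eq φ)
    (by rw [← resHom_apply]; exact o'.det_eq φ)
    (algebraMap O T.R (o.e φ)) ((RingHom.congr_fun hπ₀O _).trans (o.lift φ))
  have hαu : IsUnit α := by
    by_contra h
    exact o'.d_ne φ (hα.symm.trans (hπ₀m _ h))
  obtain ⟨w, hw⟩ := hαu
  set te : T.R := α + (p : T.R) * (↑w⁻¹ : T.R) - algebraMap O T.R (o.u * ((p : O) + 1)) with hte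
  have hp0 : (p : ResidueField O) = 0 := CharP.cast_eq_zero _ p
  -- at the points they are the diagonal entries
  have hpts : ∀ i ∈ s, ∃ (Q R' : (M2 (P i).B)ˣ),
      (∀ σ, (T.pr i : T.R →+* (P i).B).mapMatrix (T.rep σ) * (Q : M2 (P i).B) =
        (Q : M2 (P i).B) * (P i).rep σ) ∧
      IsOrdBasis (placeAt (pPrime p)) (P i).rep R' ∧
      T.pr i α = ((R' : M2 (P i).B) * (P i).rep φ.1 * (↑R'⁻¹ : M2 (P i).B)) 1 1 ∧
      T.pr i β = ((R' : M2 (P i).B) * (P i).rep φ.1 * (↑R'⁻¹ : M2 (P i).B)) 0 0 ∧
      T.pr i α ^ 2 - c i * T.pr i α + (p : (P i).B) = 0 := fun i hi => by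
    obtain ⟨Q, hQ⟩ := T.pr_rep i
    obtain ⟨R', hR', hroot⟩ := (hord i hi).2
    obtain ⟨e1, e2⟩ := quot_eq_root (pr := (T.pr i : T.R →+* (P i).B)) hπ₀m h2 hpA o'
      (fun δ => by rw [hres₀]; exact det_resRep O D.semi δ.1) hQ hR' had hβ hsum hprod
    exact ⟨Q, R', hQ, hR', e1, e2, by rw [show T.pr i α = _ from e1]; exact hroot φ.1 hφ⟩
  refine ⟨te, ?_, fun i hi => ?_, fun π d hπm hπO hres hd hdO hdet hs hextra z hz => ?_⟩
  · -- `te` lies in the maximal ideal
    by_contra h
    have h' : IsUnit te := by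
      by_contra h'
      exact h h'
    refine (h'.map π₀).ne_zero ?_
    rw [hte, map_sub, map_add, map_mul, map_natCast, hp0, zero_mul, add_zero, hα,
      ← RingHom.comp_apply, hπ₀O, map_mul, map_add, map_natCast, hp0, zero_add, map_one, mul_one,
      ← o.frob φ hφ, o.lift, sub_self]
  · -- its values at the points
    obtain ⟨Q, R', -, -, -, -, hroot⟩ := hpts i hi
    have hinv : T.pr i α * T.pr i (↑w⁻¹ : T.R) = 1 := by
      rw [← map_mul, ← hw, w.mul_inv, map_one]
    rw [hte, map_sub, map_add, map_mul, map_natCast, AlgHom.commutes, map_mul, map_add,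
      map_natCast, map_one]
    linear_combination (T.pr i (↑w⁻¹ : T.R)) * hroot + (c i - T.pr i α) * hinv
  · -- classes killing `te` are flat and strict
    obtain rfl := T.reduction_unique hπm hπO hπ₀m hπ₀O
    have hflatc := T.flatCocycle_of_flat D.two_lt hne (fun i hi => (hord i hi).1) hπm hres hd hdO
      hdet hs
    have hdp : d (p : T.R) = 0 := by rw [← map_natCast (algebraMap O T.R)]; exact hdO _
    have hdα : d α = 0 := by
      have h := hextra te (Set.mem_singleton _)
      rw [hte, hd.sub, hd.add, hd.mul, hdp, hdO, map_natCast, hp0] at h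
      simpa using h
    refine hS _ z hz hflatc fun σ τ => ?_
    have key := strict_of_quotElt (φ := φ) (α := α) (β := β) (pr := T.pr) (ρ := fun i => (P i).rep)
      hπm hd hdet hs T.cont hpA o' hφ hu hsum hα hβ hdα
      (fun i hi => by
        obtain ⟨Q, R', h1, h3, h4, h5, -⟩ := hpts i hi
        exact ⟨Q, R', h1, h3, h4, h5⟩) σ τ
    change tcoc π T.rep d σ.1 * resHom π T.rep σ.1 *
        (resHom π T.rep τ.1 - o.res.d τ • (1 : M2 (ResidueField O))) +
      (resHom π T.rep σ.1 - o.res.a σ • (1 : M2 (ResidueField O))) *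
        (tcoc π T.rep d τ.1 * resHom π T.rep τ.1) = 0 at key
    rw [hres] at key
    rw [hz, hz]
    exact key

end LiftData

end Fermat.GR.RT

end
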