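import Fermat.Agent.GR.RT.Lift.CurvePointFlat
import Fermat.Agent.GR.RT.Lift.CurvePointLower
import Fermat.Agent.GR.CurveRep.Proved

/-!
# The curve gives a point over every coefficient ring

The `p`-adic representation of the curve, with coefficients pushed forward along `ℤ_p → O`.
-/

set_option autoImplicit false

noncomputable section

open IsLocalRing

namespace Fermat.GR.RT

local notation "Γℚ" => (AlgebraicClosure ℚ ≃ₐ[ℚ] AlgebraicClosure ℚ)
local notation "M2" R => Matrix (Fin 2) (Fin 2) R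

variable {p : ℕ} [hp : Fact p.Prime]

/-- The embedding of `ℤ_p` into itself is the identity. -/
theorem padicToAdic_self (x : ℤ_[p]) :
    Fermat.GR.padicToAdic ℤ_[p] padicInt_mem x = x := by
  refine sub_eq_zero.mp (IsHausdorff.haus (I := maximalIdeal ℤ_[p]) inferInstance _ fun n => ?_)
  rw [SModEq.zero, smul_eq_mul, Ideal.mul_top]
  have : NeZero (p ^ n) := ⟨pow_ne_zero _ hp.out.ne_zero⟩
  have hx : (p : ℤ_[p]) ^ n ∣ x - (((x.toZModPow n).val : ℕ) : ℤ_[p]) := by
    rw [← Ideal.mem_span_singleton, ← PadicInt.ker_toZModPow, RingHom.mem_ker, map_sub,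
      map_natCast, ZMod.natCast_zmod_val, sub_self]
  have h := Fermat.GR.padicToAdic_mem ℤ_[p] padicInt_mem hx
  rw [map_sub, map_natCast] at h
  have h2 : x - (((x.toZModPow n).val : ℕ) : ℤ_[p]) ∈ maximalIdeal ℤ_[p] ^ n := by
    obtain ⟨y, hy⟩ := hx
    rw [hy]
    exact Ideal.mul_mem_right _ _ (Ideal.pow_mem_pow padicInt_mem n)
  have := sub_mem h h2
  rwa [sub_sub_sub_cancel_right] at this

variable {O : Type} [CommRing O] [IsDomain O] [IsDiscreteValuationRing O]
  [IsAdicComplete (maximalIdeal O) O] (hO : (p : O) ∈ maximalIdeal O)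

/-- The coefficient map reduces to the map of residue fields. -/
theorem residue_padicToAdic (x : ℤ_[p]) :
    residue O (Fermat.GR.padicToAdic O hO x) = resCast hO (PadicInt.toZMod x) := by
  have : NeZero p := ⟨hp.out.ne_zero⟩
  have hx : (p : ℤ_[p]) ^ 1 ∣ x - (((PadicInt.toZMod x).val : ℕ) : ℤ_[p]) := by
    rw [pow_one, ← Ideal.mem_span_singleton, ← PadicInt.maximalIdeal_eq_span_p,
      ← PadicInt.ker_toZMod, RingHom.mem_ker, map_sub, map_natCast, ZMod.natCast_zmod_val,
      sub_self]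
  have h := Fermat.GR.padicToAdic_mem O hO hx
  rw [pow_one, map_sub, map_natCast, ← residue_eq_zero_iff, map_sub, map_natCast, sub_eq_zero] at h
  conv_rhs => rw [← ZMod.natCast_zmod_val (PadicInt.toZMod x), map_natCast]
  exact h

/-- Pushing to the coefficient ring keeps continuity. -/
theorem matCont_map_padic {r : Γℚ →* M2 ℤ_[p]} (hr : MatCont r) :
    MatCont ((Fermat.GR.padicToAdic O hO).mapMatrix.toMonoidHom.comp r) := by
  intro n
  obtain ⟨L, hL, h⟩ := hr n
  refine ⟨L, hL, fun σ hσ i j => ?_⟩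
  have h1 := h σ hσ i j
  rw [PadicInt.maximalIdeal_eq_span_p, Ideal.span_singleton_pow, Ideal.mem_span_singleton] at h1
  have h2 := Fermat.GR.padicToAdic_mem O hO h1
  convert h2 using 1
  change ((Fermat.GR.padicToAdic O hO).mapMatrix (r σ) - 1) i j = _
  rw [← map_one (Fermat.GR.padicToAdic O hO).mapMatrix, ← map_sub, RingHom.mapMatrix_apply,
    Matrix.map_apply]

/-- **The curve gives a point over every coefficient ring.** -/
theorem curvePointStatement (p : ℕ) [hp : Fact p.Prime] : CurvePointStatement p := by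
  intro hp2 W rb hW hss hrb ht O _ _ _ _ _ _ hO
  have hp2' : p ≠ 2 := by omega
  obtain ⟨r, hr⟩ := Fermat.GR.CurveRep.curveRepInput p hp2 W hW hss
  set f := Fermat.GR.padicToAdic O hO with hf
  set ρ : Γℚ →* M2 O := f.mapMatrix.toMonoidHom.comp r with hρ
  have hval : ∀ σ, ρ σ = (r σ).map f := fun _ => rfl
  have htr : ∀ σ, (ρ σ).trace = f (r σ).trace := fun σ =>
    (AddMonoidHom.map_trace f.toAddMonoidHom _).symm
  refine ⟨ρ, ⟨matCont_map_padic hO hr.cont, fun σ => ?_, fun σ => ?_, ?_, ?_, fun hgood => ?_, ?_⟩⟩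
  · -- the determinant
    change (f.mapMatrix (r σ)).det = _
    rw [← RingHom.map_det, hr.det σ]
    change f (Fermat.GR.padicToAdic ℤ_[p] padicInt_mem (padicCyc σ)) = f (padicCyc σ)
    rw [padicToAdic_self]
  · -- the residual trace
    rw [htr, residue_padicToAdic, hr.trace σ, trace_eq_tRep hW hss hp2' hrb ht σ]
  · -- the good primes
    intro ℓ hℓ hℓp hgood A hA
    obtain ⟨h1, h2⟩ := hr.good ℓ hℓ hℓp hgood A hA
    refine ⟨fun σ hσ => ?_, fun φ hφ => ?_⟩
    · change f.mapMatrix (r σ) = 1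
      rw [h1 σ hσ, map_one]
    · rw [htr, h2 φ hφ, map_intCast]
  · -- the bad primes
    intro ℓ hℓ hℓp hbad
    obtain ⟨u, hu, h⟩ := hr.bad ℓ hℓ hℓp hbad
    refine ⟨f u, sq_eq_one_iff.mp (by rw [← map_pow, hu, map_one]), fun A hA => ⟨fun σ hσ => ?_,
      fun φ hφ => ?_⟩⟩
    · change (f.mapMatrix (r σ) - 1) * (f.mapMatrix (r σ) - 1) = 0
      rw [← map_one f.mapMatrix, ← map_sub, ← map_mul, (h A hA).1 σ hσ, map_zero]
    · rw [htr, (h A hA).2 φ hφ, map_mul, map_add, map_natCast, map_one]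
  · -- flat at `p`
    refine isFlatAt_map f hr.cont _ hval inferInstance (fun I hI => ?_) (hr.flat hgood)
    have hI0 : I ≠ ⊥ := fun e => by
      subst e
      have : Finite O := Finite.of_equiv _ (RingEquiv.quotientBot O).toEquiv
      exact not_finite O
    obtain ⟨ϖ, hϖ⟩ := IsDiscreteValuationRing.exists_irreducible O
    obtain ⟨k, rfl⟩ := IsDiscreteValuationRing.ideal_eq_span_pow_irreducible hI0 hϖ
    have : NeZero (p ^ k) := ⟨pow_ne_zero _ hp.out.ne_zero⟩
    refine ⟨Ideal.span {(p : ℤ_[p]) ^ k}, Finite.of_equiv (ZMod (p ^ k))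
      ((Ideal.quotEquivOfEq (PadicInt.ker_toZModPow (p := p) k).symm).trans
        (RingHom.quotientKerEquivOfSurjective
          (ZMod.ringHom_surjective (PadicInt.toZModPow (p := p) k)))).toEquiv.symm, fun a ha => ?_⟩
    rw [← Ideal.span_singleton_pow, ← hϖ.maximalIdeal_eq]
    exact Fermat.GR.padicToAdic_mem O hO (Ideal.mem_span_singleton.mp ha)
  · -- ordinary at `p`
    intro hbad A hA
    obtain ⟨P, h1, h2, h3⟩ := hr.ord hbad A hA
    have hc : ∀ σ, ((Units.map f.mapMatrix.toMonoidHom P : (M2 O)ˣ) : M2 O) * ρ σ *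
        (↑(Units.map f.mapMatrix.toMonoidHom P)⁻¹ : M2 O) =
        ((P : M2 ℤ_[p]) * r σ * (↑P⁻¹ : M2 ℤ_[p])).map f := fun σ => by
      rw [← RingHom.mapMatrix_apply, map_mul, map_mul, ← map_inv]
      rfl
    refine ⟨Units.map f.mapMatrix.toMonoidHom P, fun σ hσ => ?_, fun σ hσ => ?_, fun φ hφ => ?_⟩
    · rw [hc σ, Matrix.map_apply, h1 σ hσ, map_zero]
    · rw [hc σ, Matrix.map_apply, h2 σ hσ, map_one]
    · rw [hc φ, Matrix.map_apply, ← map_pow, h3 φ hφ, map_one]

end Fermat.GR.RT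

end
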