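import Mathlib
import Fermat.Agent.GR.RT.LowerBase

/-!
# The curve as a point over the coefficient ring

Statements only. The statement is `CurvePointStatement`, about representations with
`IsCurvePoint`.
-/

set_option autoImplicit false

noncomputable section

open IsLocalRing

namespace Fermat.GR.RT

local notation "ℚbar" => AlgebraicClosure ℚ
local notation "Γℚ" => (AlgebraicClosure ℚ ≃ₐ[ℚ] AlgebraicClosure ℚ)
local notation "M2" R => Matrix (Fin 2) (Fin 2) R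

variable {p : ℕ} [hp : Fact p.Prime] {O : Type} [CommRing O] [IsDomain O]
  [IsDiscreteValuationRing O] [IsAdicComplete (maximalIdeal O) O] [Finite (ResidueField O)]
  [CharZero O]

/-- The representation of a semistable curve with coefficients in `O`. -/
structure IsCurvePoint (W : WeierstrassCurve ℤ) (rb : Γℚ →* GL (Fin 2) (ZMod p))
    (hO : (p : O) ∈ maximalIdeal O) (ρ : Γℚ →* M2 O) : Prop where
  /-- `ρ` is continuous. -/
  cont : MatCont ρ
  /-- The determinant is cyclotomic. -/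
  det : ∀ σ, (ρ σ).det = cycO hO σ
  /-- The trace reduces to that of `rb`. -/
  trace : ∀ σ, residue O (ρ σ).trace = resCast hO (rb σ : M2 (ZMod p)).trace
  /-- At good `ℓ ≠ p`: unramified, with Frobenius of trace `a_ℓ`. -/
  good : ∀ ℓ : ℕ, ℓ.Prime → ℓ ≠ p → ¬ (ℓ : ℤ) ∣ W.Δ → ∀ A : ValuationSubring ℚbar,
    A.LiesOverPrime ℓ → (∀ σ ∈ A.inertiaSubgroupIn ℚ, ρ σ = 1) ∧
      ∀ φ : Γℚ, A.IsFrobeniusAt φ ℓ → (ρ φ).trace = ((W.apOfModel ℓ : ℤ) : O)
  /-- At bad `ℓ ≠ p`: unipotent inertia and Frobenius of trace `±(ℓ + 1)`. -/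
  bad : ∀ ℓ : ℕ, ℓ.Prime → ℓ ≠ p → (ℓ : ℤ) ∣ W.Δ → ∃ u : O, (u = 1 ∨ u = -1) ∧
    ∀ A : ValuationSubring ℚbar, A.LiesOverPrime ℓ →
      (∀ σ ∈ A.inertiaSubgroupIn ℚ, (ρ σ - 1) * (ρ σ - 1) = 0) ∧
      ∀ φ : Γℚ, A.IsFrobeniusAt φ ℓ → (ρ φ).trace = u * ((ℓ : O) + 1)
  /-- Good reduction at `p` gives flatness. -/
  flat : ¬ (p : ℤ) ∣ W.Δ → (repOf ρ cont).IsFlatAt p
  /-- Bad reduction at `p` gives an ordinary triangular form with quotient sign at Frobenius. -/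
  ord : (p : ℤ) ∣ W.Δ → ∀ A : ValuationSubring ℚbar, A.LiesOverPrime p → ∃ P : (M2 O)ˣ,
    (∀ σ ∈ A.decompositionSubgroup ℚ, ((P : M2 O) * ρ σ * (↑P⁻¹ : M2 O)) 1 0 = 0) ∧
    (∀ σ ∈ A.inertiaSubgroupIn ℚ, ((P : M2 O) * ρ σ * (↑P⁻¹ : M2 O)) 1 1 = 1) ∧
    ∀ φ : Γℚ, A.IsFrobeniusAt φ p → ((P : M2 O) * ρ φ * (↑P⁻¹ : M2 O)) 1 1 ^ 2 = 1

variable (p)

/-- **The curve gives a point over every coefficient ring.** Proved by `curvePointStatement`. -/
def CurvePointStatement : Prop :=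
  2 < p → ∀ (W : WeierstrassCurve ℤ) (rb : Γℚ →* GL (Fin 2) (ZMod p)), W.Δ ≠ 0 →
    W.IsSemistableModel → IsSemistableResidual p rb → IsTorsionOf p W rb →
    ∀ (O : Type) [CommRing O] [IsDomain O] [IsDiscreteValuationRing O]
      [IsAdicComplete (maximalIdeal O) O] [Finite (ResidueField O)] [CharZero O]
      (hO : (p : O) ∈ maximalIdeal O), ∃ ρ : Γℚ →* M2 O, IsCurvePoint W rb hO ρ

/-- **`p` leaves the level of a curve with good reduction at `p`**, for any semistable residual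
representation with the traces of its torsion at good primes (`IsTorsionOf`).
Proved by `lowerAtPStatement`. -/
def LowerAtPStatement : Prop :=
  4 < p → ∀ (W : WeierstrassCurve ℤ) (rb : Γℚ →* GL (Fin 2) (ZMod p)), W.Δ ≠ 0 →
    W.IsSemistableModel → IsSemistableResidual p rb → IsTorsionOf p W rb → ¬ (p : ℤ) ∣ W.Δ →
      ∀ M : ℕ, Squarefree M → p ∣ M → ModularOf p rb M →
        ∃ M' : ℕ, M' ∣ M / p ∧ ModularOf p rb M'

end Fermat.GR.RT

end
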