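import Mathlib
import Fermat.Agent.GR.RT.LowerStrict
import Fermat.Agent.GR.RT.OrdProofStrict
import Fermat.Agent.GR.RT.Lift.Lifting
import Fermat.Agent.GR.RT.Lift.CurvePointStatement

/-!
# The curve as a lifting

Its local properties: unramified outside the conditions, strict at the ramified primes, flat or
ordinary at `p`.
-/

set_option autoImplicit false

noncomputable section

open IsLocalRing Fermat.CFT ExtCitation

namespace Fermat.GR.RT

local notation "ℚbar" => AlgebraicClosure ℚ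
local notation "Γℚ" => (AlgebraicClosure ℚ ≃ₐ[ℚ] AlgebraicClosure ℚ)
local notation "M2" R => Matrix (Fin 2) (Fin 2) R

variable {p : ℕ} [hp : Fact p.Prime] {rb : Γℚ →* GL (Fin 2) (ZMod p)}

/-- An unramified quotient on which Frobenius squares to one is a sign character. -/
theorem sq_quotient_eq_one {B : Type} [CommRing B] [IsLocalRing B]
    [IsHausdorff (maximalIdeal B) B] {ρ : Γℚ →* M2 B} (hρ : MatCont ρ) {A : ValuationSubring ℚbar}
    (hA : A.LiesOverPrime p) {P : (M2 B)ˣ} (hP : IsOrdBasis A ρ P)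
    (hF : ∀ φ : Γℚ, A.IsFrobeniusAt φ p →
      ((P : M2 B) * ρ φ * (↑P⁻¹ : M2 B)) 1 1 ^ 2 = 1) :
    ∀ σ ∈ A.decompositionSubgroup ℚ, ((P : M2 B) * ρ σ * (↑P⁻¹ : M2 B)) 1 1 *
      ((P : M2 B) * ρ σ * (↑P⁻¹ : M2 B)) 1 1 = 1 :=
  fun _ hσ => lowerRight_sq p hρ ⟨hp.out, hA⟩ hP.low hP.inertia hF hσ

namespace IsCurvePoint

variable {W : WeierstrassCurve ℤ} {N r q₀ : ℕ} {O : Type} [CommRing O] [IsDomain O]
  [IsDiscreteValuationRing O] [IsAdicComplete (maximalIdeal O) O] [Finite (ResidueField O)]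
  [CharZero O] {hO : (p : O) ∈ maximalIdeal O} {ρ : Γℚ →* M2 O}

/-- The curve as a lifting. -/
def lifting (hρ : IsCurvePoint W rb hO ρ) : Lifting rb hO where
  B := O
  isLocal := ⟨fun _ h => h⟩
  mem := hO
  rep := ρ
  cont := hρ.cont
  det := hρ.det
  trace σ := (hρ.trace σ).trans (congrArg (fun f : ZMod p →+* ResidueField O => f _)
    (RingHom.ext_zmod _ _))

omit [Finite (ResidueField O)] [CharZero O] in
/-- Good primes do not ramify. -/
theorem unrAt (hρ : IsCurvePoint W rb hO ρ) {v : Nat.Primes} (hvp : (v : ℕ) ≠ p)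
    (hv : ¬ ((v : ℕ) : ℤ) ∣ W.Δ) : hρ.lifting.UnrAt v :=
  (hρ.good v v.2 hvp hv _ (placeAt_spec v)).1

omit [Finite (ResidueField O)] [CharZero O] in
/-- The lifting of the curve is unramified at the auxiliary framed prime. -/
theorem unrAt_frame (hρ : IsCurvePoint W rb hO ρ) (D : LiftData p rb W N r q₀) :
    hρ.lifting.UnrAt ⟨q₀, D.frame_prime⟩ :=
  hρ.unrAt D.frame_ne D.frame_good

omit [Finite (ResidueField O)] [CharZero O] in
/-- The lifting of the curve is unramified outside the primes with a condition. -/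
theorem unrOutside (hρ : IsCurvePoint W rb hO ρ) (D : LiftData p rb W N r q₀)
    (S : Finset Nat.Primes) : hρ.lifting.UnrOutside (D.condT ∪ S) := by
  intro v hv A hA
  rw [Finset.mem_union, not_or, D.mem_condT] at hv
  simp only [not_or, not_not] at hv
  obtain ⟨⟨hvp, hfr, hunr⟩, -⟩ := hv
  refine (hρ.good v v.2 hvp (fun h => hfr ?_) A hA).1
  exact Finset.mem_insert_of_mem ((mem_badUnr D.disc_ne).mpr ⟨v.2, h, hvp, hunr⟩)

/-- The primes of the operators are good. -/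
theorem not_dvd_goodIx (D : LiftData p rb W N r q₀) (i : GoodIx (liftBad rb W N q₀)) :
    goodPr (liftBad rb W N q₀) i ≠ p ∧ ¬ (goodPr (liftBad rb W N q₀) i : ℤ) ∣ W.Δ := by
  have hne : goodPr (liftBad rb W N q₀) i ≠ p := fun e => i.2 (by
    change goodPr (liftBad rb W N q₀) i ∣ _
    rw [e]; exact D.p_dvd_bad)
  exact ⟨hne, fun h => i.2 (D.dvd_bad_of_mem_frPrimes (Finset.mem_insert_of_mem
    ((mem_badUnr D.disc_ne).mpr ⟨i.1.2, h, hne, D.resUnr_goodIx i⟩)))⟩

omit [Finite (ResidueField O)] [CharZero O] in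
/-- The lifting of the curve is unramified at the good primes. -/
theorem unrAt_goodIx (hρ : IsCurvePoint W rb hO ρ) (D : LiftData p rb W N r q₀)
    (i : GoodIx (liftBad rb W N q₀)) : hρ.lifting.UnrAt i.1 :=
  hρ.unrAt (not_dvd_goodIx D i).1 (not_dvd_goodIx D i).2

omit [Finite (ResidueField O)] [CharZero O] in
/-- The trace and determinant of Frobenius on the lifting of the curve at a good prime. -/
theorem trace_goodIx (hρ : IsCurvePoint W rb hO ρ) (D : LiftData p rb W N r q₀)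
    (i : GoodIx (liftBad rb W N q₀)) {A : ValuationSubring ℚbar}
    (hA : A.LiesOverPrime (goodPr (liftBad rb W N q₀) i)) {φ : Γℚ}
    (hφ : A.IsFrobeniusAt φ (goodPr (liftBad rb W N q₀) i)) :
    (ρ φ).trace = ((W.apOfModel (goodPr (liftBad rb W N q₀) i) : ℤ) : O) ∧
      (ρ φ).det = (goodPr (liftBad rb W N q₀) i : O) :=
  ⟨(hρ.good _ i.1.2 (not_dvd_goodIx D i).1 (not_dvd_goodIx D i).2 A hA).2 φ hφ, by
    rw [hρ.det, cycO_frobenius hO i.1.2 (not_dvd_goodIx D i).1 hA hφ]⟩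

omit [Finite (ResidueField O)] [CharZero O] in
/-- Flat at `p` when good there. -/
theorem flatAtP (hρ : IsCurvePoint W rb hO ρ) (h : ¬ (p : ℤ) ∣ W.Δ) : hρ.lifting.FlatAtP :=
  ⟨ρ, hρ.cont, 1, hρ.flat h, fun _ => ⟨0, one_pow _⟩, fun _ _ => rfl, fun _ => (one_smul _ _).symm⟩

variable [Algebra (ZMod p) (ResidueField O)]

omit [Finite (ResidueField O)] [CharZero O] in
/-- **The strict relation at the ramified primes.** -/
theorem ram (hρ : IsCurvePoint W rb hO ρ) {D : LiftData p rb W N r q₀} (C : D.RamConds O)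
    (v : Nat.Primes) (hvp : (v : ℕ) ≠ p) (hram : ¬ IsResUnramified p rb v) :
    StrictRel O v (C.e v) hρ.lifting.rep := by
  obtain ⟨hσ₀, hne, he, hrel, -⟩ := C.strict v hvp hram
  have hbad : ((v : ℕ) : ℤ) ∣ W.Δ := by
    by_contra h
    exact hram (D.tors v v.2 h hvp).1
  obtain ⟨u, -, hu⟩ := hρ.bad v v.2 hvp hbad
  exact strictRel_of_unipotent D.semi.surjective D.p_ne_two hO hρ.lifting.mem hρ.lifting.cont
    hρ.lifting.det hρ.lifting.trace hvp
    (hu _ (placeAt_spec v)).1 he hσ₀ hne hrel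

omit [CharZero O] in
/-- **Multiplicative at `p`: the residual data and the strict relation.** -/
theorem exists_ordSigns (hρ : IsCurvePoint W rb hO ρ) (D : LiftData p rb W N r q₀)
    (hord : (p : ℤ) ∣ W.Δ) : ∃ S : OrdSigns rb O, hρ.lifting.OrdSignAt S.e S.u := by
  classical
  set A := placeAt (pPrime p) with hAdef
  have hA : A.LiesOverPrime p := placeAt_spec (pPrime p)
  -- an ordinary basis, whose quotient character is a sign
  obtain ⟨P, hlow, hI, hF⟩ := hρ.ord hord A hA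
  have hP : IsOrdBasis A ρ P := ⟨hlow, hI⟩
  have hsq := sq_quotient_eq_one hρ.cont hA hP hF
  set t : Γℚ → M2 O := fun σ => (P : M2 O) * ρ σ * (↑P⁻¹ : M2 O) with ht
  have htmul : ∀ σ τ, t (σ * τ) = t σ * t τ := fun σ τ => by
    simp only [ht, map_mul, mul_assoc, Units.inv_mul_cancel_left]
  have ht1 : t 1 = 1 := by simp only [ht, map_one, mul_one, Units.mul_inv]
  have h11 : ∀ σ ∈ A.decompositionSubgroup ℚ, ∀ τ, t (σ * τ) 1 1 = t σ 1 1 * t τ 1 1 :=
    fun σ hσ τ => by rw [htmul]; exact entry11_mul (hlow σ hσ)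
  have h00 : ∀ σ, ∀ τ ∈ A.decompositionSubgroup ℚ, t (σ * τ) 0 0 = t σ 0 0 * t τ 0 0 :=
    fun σ τ hτ => by
      rw [htmul, Matrix.mul_apply, Fin.sum_univ_two, show t τ 1 0 = 0 from hlow τ hτ, mul_zero,
        add_zero]
  have hIle := Fermat.FLAT.inertia_le_decomposition A
  obtain ⟨φ₀, hφ₀⟩ := exists_isFrobeniusAt hp.out hA
  have hfrob : ∀ δ : Γℚ, A.IsFrobeniusAt δ p → t δ 1 1 = t φ₀ 1 1 := fun δ hδ => by
    have hm := mul_inv_mem_inertiaSubgroupIn hp.out hA hδ hφ₀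
    rw [show δ = δ * φ₀⁻¹ * φ₀ by group, h11 _ (hIle hm), show t (δ * φ₀⁻¹) 1 1 = 1 from hI _ hm,
      one_mul]
  -- the residual matrices, triangular in that basis
  obtain ⟨Q, hQ⟩ := exists_conj_residual D.semi.surjective (algebraMap (ZMod p) (ResidueField O))
    ρ (fun σ => (hρ.trace σ).trans (congrArg (fun f : ZMod p →+* ResidueField O => f _)
      (RingHom.ext_zmod _ _)))
  set U : (M2 (ResidueField O))ˣ := Units.map (residue O).mapMatrix.toMonoidHom (Q * P⁻¹) with hU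
  have htri : ∀ δ : decAt (pPrime p), (↑U⁻¹ : M2 (ResidueField O)) * resRep rb O δ.1 *
      (U : M2 (ResidueField O)) = !![residue O (t δ.1 0 0), residue O (t δ.1 0 1);
        0, residue O (t δ.1 1 1)] := by
    intro δ
    rw [resRep_apply, ← hQ δ.1, hU, Units.coe_map_inv, Units.coe_map]
    change (residue O).mapMatrix _ * _ * (residue O).mapMatrix _ = _
    rw [← map_mul, ← map_mul]
    have e : (↑(Q * P⁻¹)⁻¹ : M2 O) * conjHom Q ρ δ.1 * (↑(Q * P⁻¹) : M2 O) = t δ.1 := by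
      change (↑(Q * P⁻¹)⁻¹ : M2 O) * ((Q : M2 O) * ρ δ.1 * (↑Q⁻¹ : M2 O)) * _ = _
      simp only [mul_inv_rev, inv_inv, Units.val_mul, ht, mul_assoc, Units.inv_mul_cancel_left]
    rw [e]
    ext i j
    fin_cases i <;> fin_cases j <;> simp [show t δ.1 1 0 = 0 from hlow δ.1 δ.2]
  let a : decAt (pPrime p) →* ResidueField O :=
    { toFun := fun δ => residue O (t δ.1 0 0)
      map_one' := by simp [ht1]
      map_mul' := fun σ τ => by
        change residue O (t (σ.1 * τ.1) 0 0) = _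
        rw [h00 σ.1 τ.1 τ.2, map_mul] }
  let d : decAt (pPrime p) →* ResidueField O :=
    { toFun := fun δ => residue O (t δ.1 1 1)
      map_one' := by simp [ht1]
      map_mul' := fun σ τ => by
        change residue O (t (σ.1 * τ.1) 1 1) = _
        rw [h11 σ.1 σ.2 τ.1, map_mul] }
  let o : OrdRes A (resRep rb O) :=
    { U := U, a := a, d := d, b := fun δ => residue O (t δ.1 0 1), tri := htri
      sq := fun δ => by
        change residue O (t δ.1 1 1) * residue O (t δ.1 1 1) = 1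
        rw [← map_mul, show t δ.1 1 1 * t δ.1 1 1 = 1 from hsq δ.1 δ.2, map_one]
      inertia := fun δ hδ => by
        change residue O (t δ.1 1 1) = 1
        rw [show t δ.1 1 1 = 1 from hI δ.1 hδ, map_one] }
  -- the sign data; the strict relation holds exactly in that basis
  refine ⟨{ res := o, e := fun δ => t δ.1 1 1, u := t φ₀ 1 1
            u_sign := mul_self_eq_one_iff.mp (hsq φ₀ hφ₀.mem_decompositionSubgroup)
            sign := fun δ => mul_self_eq_one_iff.mp (hsq δ.1 δ.2)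
            lift := fun δ => rfl
            frob := fun δ hδ => hfrob δ.1 hδ }, ?_, P, hP, fun φ hφ => hfrob φ hφ⟩
  intro σ₁ τ₁
  change (ρ σ₁.1 - ((ρ σ₁.1).det * t σ₁.1 1 1) • (1 : M2 O)) *
    (ρ τ₁.1 - t τ₁.1 1 1 • (1 : M2 O)) = 0
  have hdet : (ρ σ₁.1).det = (t σ₁.1).det := (Matrix.det_units_conj P _).symm
  have key : (P : M2 O) * ((ρ σ₁.1 - ((ρ σ₁.1).det * t σ₁.1 1 1) • (1 : M2 O)) *
      (ρ τ₁.1 - t τ₁.1 1 1 • (1 : M2 O))) * (↑P⁻¹ : M2 O) = 0 := by
    rw [show (P : M2 O) * ((ρ σ₁.1 - ((ρ σ₁.1).det * t σ₁.1 1 1) • (1 : M2 O)) *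
        (ρ τ₁.1 - t τ₁.1 1 1 • (1 : M2 O))) * (↑P⁻¹ : M2 O) =
        (t σ₁.1 - ((ρ σ₁.1).det * t σ₁.1 1 1) • (1 : M2 O)) *
          (t τ₁.1 - t τ₁.1 1 1 • (1 : M2 O)) by
      simp only [ht, mul_sub, sub_mul, mul_assoc, Units.inv_mul_cancel_left, smul_mul_assoc,
        mul_smul_comm, one_mul, mul_one, Units.mul_inv],
      hdet, Matrix.det_fin_two, show t σ₁.1 1 0 = 0 from hlow σ₁.1 σ₁.2, mul_zero, sub_zero,
      mul_assoc, show t σ₁.1 1 1 * t σ₁.1 1 1 = 1 from hsq σ₁.1 σ₁.2, mul_one]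
    have hl₁ : t σ₁.1 1 0 = 0 := hlow σ₁.1 σ₁.2
    have hl₂ : t τ₁.1 1 0 = 0 := hlow τ₁.1 τ₁.2
    generalize t σ₁.1 = X at hl₁ ⊢
    generalize t τ₁.1 = Y at hl₂ ⊢
    rw [Matrix.eta_fin_two X, Matrix.eta_fin_two Y, hl₁, hl₂]
    ext i j
    fin_cases i <;> fin_cases j <;> simp [Matrix.mul_apply, Fin.sum_univ_two]
  simpa [mul_assoc] using congrArg (fun X : M2 O => (↑P⁻¹ : M2 O) * X * (P : M2 O)) key

end IsCurvePoint

end Fermat.GR.RT

end
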