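import Mathlib
import Fermat.Agent.GR.RT.Lift.CurveLifting
import Fermat.Agent.GR.Patch.SingleTypes

/-!
# The frames at the auxiliary and bad unramified primes

The residual Frobenius at each framed prime in a basis where it has its standard form, with the
Steinberg relations of the curve at the bad ones.
-/

set_option autoImplicit false

noncomputable section

open IsLocalRing Fermat.CFT

namespace Fermat.GR.RT

open Fermat.GR.Patch

local notation "ℚbar" => AlgebraicClosure ℚ
local notation "Γℚ" => (AlgebraicClosure ℚ ≃ₐ[ℚ] AlgebraicClosure ℚ)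
local notation "M2" R => Matrix (Fin 2) (Fin 2) R

/-- A matrix with split characteristic polynomial is triangular in some basis. -/
theorem exists_split_triangular {k : Type} [Field k] (g : M2 k) {l m : k} (ht : g.trace = l + m)
    (hd : g.det = l * m) : ∃ (b : k) (P : (M2 k)ˣ), (b = 0 ∨ b = 1) ∧
      (P : M2 k) * g * (↑P⁻¹ : M2 k) = !![l, b; 0, m] := by
  classical
  rw [Matrix.trace_fin_two] at ht
  rw [Matrix.det_fin_two] at hd
  -- it suffices to find an invertible `M` with `M g = (l b; 0 m) M`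
  have mk : ∀ (M : M2 k) (b : k), M.det ≠ 0 → M * g = !![l, b; 0, m] * M →
      ∃ P : (M2 k)ˣ, (P : M2 k) * g * (↑P⁻¹ : M2 k) = !![l, b; 0, m] := by
    intro M b hM h
    have hu : IsUnit M := (Matrix.isUnit_iff_isUnit_det _).mpr hM.isUnit
    refine ⟨hu.unit, ?_⟩
    rw [show (hu.unit : M2 k) = M from rfl, h, mul_assoc, IsUnit.mul_val_inv, mul_one]
  by_cases h01 : g 0 1 = 0
  · by_cases h10 : g 1 0 = 0
    -- a diagonal matrix needs at most a swap
    · have h0 : (g 0 0 - l) * (g 0 0 - m) = 0 := by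
        linear_combination (g 0 0) * ht - hd - (g 1 0) * h01
      rcases mul_eq_zero.mp h0 with h | h
      · obtain ⟨P, hP⟩ := mk 1 0 (by simp) (by
          ext i j
          fin_cases i <;> fin_cases j <;> simp [h01, h10]
          · linear_combination h
          · linear_combination ht - h)
        exact ⟨0, P, Or.inl rfl, hP⟩
      · obtain ⟨P, hP⟩ := mk !![0, 1; 1, 0] 0 (by simp [Matrix.det_fin_two]) (by
          ext i j
          fin_cases i <;> fin_cases j <;> simp [Matrix.mul_apply, Fin.sum_univ_two, h01, h10]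
          · linear_combination ht - h
          · linear_combination h)
        exact ⟨0, P, Or.inl rfl, hP⟩
    -- otherwise a nonzero off diagonal entry gives the basis
    · obtain ⟨P, hP⟩ := mk !![0, 1; g 1 0, m - g 0 0] 1 (by simp [Matrix.det_fin_two, h10]) (by
        ext i j
        fin_cases i <;> fin_cases j <;> simp [Matrix.mul_apply, Fin.sum_univ_two]
        · linear_combination ht
        · ring
        · linear_combination m * ht - hd)
      exact ⟨1, P, Or.inr rfl, hP⟩
  -- the same with the upper entry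
  · obtain ⟨P, hP⟩ := mk !![1, 0; m - g 1 1, g 0 1] 1 (by simp [Matrix.det_fin_two, h01]) (by
      ext i j
      fin_cases i <;> fin_cases j <;> simp [Matrix.mul_apply, Fin.sum_univ_two]
      · linear_combination ht
      · linear_combination m * ht - hd
      · ring)
    exact ⟨1, P, Or.inr rfl, hP⟩

/-- A matrix of nonzero determinant has a nonzero corner in some basis. -/
theorem exists_corner_ne_zero {k : Type} [Field k] (g : M2 k) (hd : g.det ≠ 0) :
    ∃ P : (M2 k)ˣ, ((P : M2 k) * g * (↑P⁻¹ : M2 k)) 0 0 ≠ 0 := by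
  by_cases h : g 0 0 = 0
  · have h10 : g 1 0 ≠ 0 := fun h' => hd (by rw [Matrix.det_fin_two, h, h']; ring)
    refine ⟨⟨!![1, 1; 0, 1], !![1, -1; 0, 1], ?_, ?_⟩, ?_⟩
    · ext i j; fin_cases i <;> fin_cases j <;> simp [Matrix.mul_apply, Fin.sum_univ_two]
    · ext i j; fin_cases i <;> fin_cases j <;> simp [Matrix.mul_apply, Fin.sum_univ_two]
    · simpa [Matrix.vecMul, dotProduct, Matrix.mul_apply, Fin.sum_univ_two, h] using h10
  · exact ⟨1, by simpa using h⟩

variable {p : ℕ} [hp : Fact p.Prime] {rb : Γℚ →* GL (Fin 2) (ZMod p)} {W : WeierstrassCurve ℤ}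
  {N r q₀ : ℕ} {O : Type} [CommRing O] [IsDomain O] [IsDiscreteValuationRing O]
  [IsAdicComplete (maximalIdeal O) O] [Finite (ResidueField O)] [CharZero O]
  {hO : (p : O) ∈ maximalIdeal O} {ρ : Γℚ →* M2 O}

omit [Finite (ResidueField O)] in
/-- The Steinberg relations of the curve at a bad prime. -/
theorem IsCurvePoint.stAt (hρ : IsCurvePoint W rb hO ρ) {v : Nat.Primes} (hvp : (v : ℕ) ≠ p)
    {u : O} (hu : ∀ A : ValuationSubring ℚbar, A.LiesOverPrime v →
      (∀ σ ∈ A.inertiaSubgroupIn ℚ, (ρ σ - 1) * (ρ σ - 1) = 0) ∧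
      ∀ φ : Γℚ, A.IsFrobeniusAt φ v → (ρ φ).trace = u * (((v : ℕ) : O) + 1)) :
    hρ.lifting.StAt v u := by
  intro φ hφ σ hσ
  change (ρ φ).trace = u * (((v : ℕ) : O) + 1) ∧ (ρ σ).trace = 2 ∧ (ρ σ).det = 1 ∧
    (ρ φ - (u * ((v : ℕ) : O)) • (1 : M2 O)) * (ρ σ - 1) = 0 ∧
    (ρ σ - 1) * (ρ φ - u • (1 : M2 O)) = 0
  have hB := placeAt_spec v
  obtain ⟨hun, htr⟩ := hu _ hB
  have hd : (ρ σ).det = 1 := by rw [hρ.det, cycO_inertia hO v.2 hvp hB hσ]
  have hX : (ρ σ - 1).trace = 0 := by
    have h0 : (ρ σ - 1).det = 0 := by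
      have h := congrArg Matrix.det (hun σ hσ)
      rw [Matrix.det_mul, Matrix.det_zero] at h
      exact mul_self_eq_zero.mp h
    simp [Matrix.det_fin_two, Matrix.trace_fin_two] at h0 hd ⊢
    linear_combination hd - h0
  have hc : ρ φ * (ρ σ - 1) = ((v : ℕ) : O) • ((ρ σ - 1) * ρ φ) := by
    have h := frob_mul_unipotent hρ.cont hO v.2 hvp hB hun hφ hσ
    have e : ρ σ = 1 + (ρ σ - 1) := by abel
    rw [e, one_add_sq_zero_pow (hun σ hσ), mul_add, mul_one, add_mul, one_mul, smul_mul_assoc,
      add_right_inj] at h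
    rw [h, Nat.cast_smul_eq_nsmul]
  refine ⟨htr φ hφ, ?_, hd, steinberg_relations v.2.ne_one hX (htr φ hφ) hc⟩
  rw [show ρ σ = (ρ σ - 1) + 1 by abel, Matrix.trace_add, hX, Matrix.trace_one, zero_add]
  simp

/-- The frames: the residual data at the framed primes and the relations of the curve there. -/
structure Frames (D : LiftData p rb W N r q₀) (hρ : IsCurvePoint W rb hO ρ) : Type where
  /-- Residual Frobenius and type at each framed prime. -/
  data : SingleData O (frPrimes rb W q₀)
  /-- The number attached to a framed prime is the prime. -/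
  N_eq : ∀ q, data.N q = (q : ℕ)
  /-- The Steinberg primes are all framed primes but `q₀`. -/
  isSt_iff : ∀ q, data.isSt q = true ↔ (q : ℕ) ≠ q₀
  /-- The frame at each framed prime. -/
  Pq : frPrimes rb W q₀ → (M2 O)ˣ
  /-- In its frame every residual Frobenius is `phi0`. -/
  fr_red : ∀ q, ∀ φ : Γℚ, (placeAt (D.primeA q)).IsFrobeniusAt φ (q : ℕ) → ∀ i j,
    ((Pq q : M2 O) * (normDataOf D.semi.surjective O).bar φ * (↑(Pq q)⁻¹ : M2 O) -
      data.phi0 q) i j ∈ maximalIdeal O
  /-- In its frame residual inertia is trivial. -/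
  tm_red : ∀ q, ∀ σ ∈ (placeAt (D.primeA q)).inertiaSubgroupIn ℚ, ∀ i j,
    ((Pq q : M2 O) * (normDataOf D.semi.surjective O).bar σ * (↑(Pq q)⁻¹ : M2 O) - 1) i j ∈
      maximalIdeal O
  /-- The curve is Steinberg of sign `u` at the framed primes other than `q₀`. -/
  st : ∀ q : frPrimes rb W q₀, (q : ℕ) ≠ q₀ → hρ.lifting.StAt (D.primeA q) (data.u q)

omit [IsAdicComplete (maximalIdeal O) O] [Finite (ResidueField O)] [CharZero O] in
/-- The residual matrices in a lifted basis. -/
theorem residue_conj_bar (hs : Function.Surjective rb) (hO : (p : O) ∈ maximalIdeal O)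
    {P : (M2 (ZMod p))ˣ} {Q : (M2 O)ˣ}
    (hQ : (residue O).mapMatrix (Q : M2 O) = (P : M2 (ZMod p)).map (resCast hO)) (σ : Γℚ) :
    (residue O).mapMatrix ((Q : M2 O) * (normDataOf hs O).bar σ * (↑Q⁻¹ : M2 O)) =
      ((P : M2 (ZMod p)) * (rb σ : M2 (ZMod p)) * (↑P⁻¹ : M2 (ZMod p))).map (resCast hO) := by
  have hinv : (residue O).mapMatrix (↑Q⁻¹ : M2 O) = ((↑P⁻¹ : M2 (ZMod p))).map (resCast hO) :=
    left_inv_eq_right_inv (a := (residue O).mapMatrix (Q : M2 O))
      (by rw [← map_mul, Q.inv_mul, map_one])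
      (by rw [hQ, ← Matrix.map_mul, P.mul_inv, Matrix.map_one _ (map_zero _) (map_one _)])
  have hbar : (residue O).mapMatrix ((normDataOf hs O).bar σ) =
      (rb σ : M2 (ZMod p)).map (resCast hO) := by
    rw [normDataOf_bar, RingHom.mapMatrix_apply]
    exact barOf_map rb (residue O) (resCast hO) σ
  rw [map_mul, map_mul, hQ, hinv, hbar, ← Matrix.map_mul, ← Matrix.map_mul]

omit [Finite (ResidueField O)] in
/-- The frame at one framed prime. -/
theorem exists_curveFrame (D : LiftData p rb W N r q₀) (hρ : IsCurvePoint W rb hO ρ)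
    (q : frPrimes rb W q₀) : ∃ (u b : O) (h : M2 O) (Q : (M2 O)ˣ), (u = 1 ∨ u = -1) ∧
      (b = 0 ∨ b = 1) ∧ h.det = ((q : ℕ) : O) ∧ IsUnit (h 0 0) ∧
      ((q : ℕ) ≠ q₀ → hρ.lifting.StAt (D.primeA q) u) ∧
      ∀ i j, ((Q : M2 O) * (normDataOf D.semi.surjective O).bar (frobOf (D.primeA q)) *
        (↑Q⁻¹ : M2 O) - (if (q : ℕ) ≠ q₀ then !![u * ((q : ℕ) : O), b; 0, u] else h)) i j ∈
          maximalIdeal O := by
  classical
  have hq : (q : ℕ).Prime := D.prime_of_mem q.2
  have hqp : (q : ℕ) ≠ p := D.ne_of_mem q.2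
  have hφ := frobOf_spec (D.primeA q)
  set φ := frobOf (D.primeA q)
  have hA := placeAt_spec (D.primeA q)
  have hdet : (rb φ : M2 (ZMod p)).det = ((q : ℕ) : ZMod p) := by
    rw [D.semi.det_eq]
    exact cycChar_frobenius hq hqp hA hφ
  have hq0 : ((q : ℕ) : ZMod p) ≠ 0 := fun h => hqp
    ((Nat.prime_dvd_prime_iff_eq hp.out hq).mp ((ZMod.natCast_eq_zero_iff _ p).mp h)).symm
  by_cases hne : (q : ℕ) ≠ q₀
  · -- a bad prime: triangular with the sign of the curve
    obtain ⟨-, hbad, -, -⟩ :=
      (mem_badUnr D.disc_ne).mp ((Finset.mem_insert.mp q.2).resolve_left hne)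
    obtain ⟨u, hu1, hu⟩ := hρ.bad q hq hqp hbad
    obtain ⟨ub, hub, hsq⟩ : ∃ ub : ZMod p, resCast hO ub = residue O u ∧ ub * ub = 1 := by
      rcases hu1 with rfl | rfl
      · exact ⟨1, by rw [map_one, map_one], one_mul 1⟩
      · exact ⟨-1, by rw [map_neg, map_neg, map_one, map_one], by rw [neg_mul_neg, one_mul]⟩
    have htr : (rb φ : M2 (ZMod p)).trace = ub * (q : ℕ) + ub := by
      apply (resCast hO).injective
      rw [← hρ.trace, (hu _ hA).2 φ hφ, map_mul, map_add, map_add, map_mul, map_natCast,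
        map_natCast, map_one, hub]
      ring
    obtain ⟨bb, P, hbb, hP⟩ := exists_split_triangular (rb φ : M2 (ZMod p)) htr (by
      rw [hdet]; linear_combination -((q : ℕ) : ZMod p) * hsq)
    obtain ⟨Q, hQ⟩ := exists_unit_lift (Units.map (resCast hO).mapMatrix.toMonoidHom P)
    obtain ⟨b, hb, hbres⟩ : ∃ b : O, (b = 0 ∨ b = 1) ∧ residue O b = resCast hO bb := by
      rcases hbb with rfl | rfl
      · exact ⟨0, Or.inl rfl, by rw [map_zero, map_zero]⟩
      · exact ⟨1, Or.inr rfl, by rw [map_one, map_one]⟩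
    refine ⟨u, b, !![1, 0; 0, ((q : ℕ) : O)], Q, hu1, hb, by simp [Matrix.det_fin_two],
      by simp, fun _ => hρ.stAt hqp hu, fun i j => ?_⟩
    rw [if_pos hne, ← residue_eq_zero_iff, Matrix.sub_apply, map_sub, sub_eq_zero]
    refine (congrFun (congrFun (residue_conj_bar D.semi.surjective hO (P := P) hQ φ) i) j).trans ?_
    rw [hP]
    fin_cases i <;> fin_cases j <;> simp [hub, hbres]
  · -- the auxiliary prime: a lift with a unit corner and determinant `q`
    obtain ⟨P, hP⟩ := exists_corner_ne_zero (rb φ : M2 (ZMod p)) (by rw [hdet]; exact hq0)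
    obtain ⟨Q, hQ⟩ := exists_unit_lift (Units.map (resCast hO).mapMatrix.toMonoidHom P)
    set H : M2 O := (Q : M2 O) * (normDataOf D.semi.surjective O).bar φ * (↑Q⁻¹ : M2 O) with hH
    have hres : (residue O).mapMatrix H =
        ((P : M2 (ZMod p)) * (rb φ : M2 (ZMod p)) * (↑P⁻¹ : M2 (ZMod p))).map (resCast hO) :=
      residue_conj_bar D.semi.surjective hO (P := P) hQ φ
    have hH0 : IsUnit (H 0 0) := by
      by_contra hn
      refine hP ((resCast hO).injective ?_)
      rw [map_zero, ← (residue_eq_zero_iff (H 0 0)).mpr hn]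
      exact (congrFun (congrFun hres 0) 0).symm
    obtain ⟨a, ha⟩ := hH0.exists_left_inv
    have hHd : residue O H.det = ((q : ℕ) : ResidueField O) := by
      rw [RingHom.map_det, hres, ← RingHom.mapMatrix_apply, ← RingHom.map_det,
        Matrix.det_units_conj, hdet, map_natCast]
    refine ⟨1, 0, !![H 0 0, H 0 1; H 1 0, a * (((q : ℕ) : O) + H 0 1 * H 1 0)], Q, Or.inl rfl,
      Or.inl rfl, ?_, by simpa using hH0, fun h => absurd h hne, fun i j => ?_⟩
    · simp [Matrix.det_fin_two]
      linear_combination (((q : ℕ) : O) + H 0 1 * H 1 0) * ha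
    have h11 : residue O (H 1 1 - a * (((q : ℕ) : O) + H 0 1 * H 1 0)) = 0 := by
      rw [show H 1 1 - a * (((q : ℕ) : O) + H 0 1 * H 1 0) = a * (H.det - ((q : ℕ) : O)) by
        rw [Matrix.det_fin_two]; linear_combination -(H 1 1) * ha, map_mul, map_sub, hHd,
        map_natCast, sub_self, mul_zero]
    rw [if_neg hne, ← hH, ← residue_eq_zero_iff, Matrix.sub_apply]
    fin_cases i <;> fin_cases j
    · exact (congrArg (residue O) (sub_self (H 0 0))).trans (map_zero _)
    · exact (congrArg (residue O) (sub_self (H 0 1))).trans (map_zero _)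
    · exact (congrArg (residue O) (sub_self (H 1 0))).trans (map_zero _)
    · exact h11

omit [Finite (ResidueField O)] in
/-- **The frames exist.** For a curve point the residual data and frames at the framed primes can be
chosen. -/
theorem nonempty_frames (D : LiftData p rb W N r q₀) (hρ : IsCurvePoint W rb hO ρ) :
    Nonempty (Frames D hρ) := by
  classical
  choose u b h Q hu hb hdet h00 hst hred using exists_curveFrame D hρ
  -- the data chosen prime by prime
  refine ⟨{
    data :=
      { isSt := fun q => decide ((q : ℕ) ≠ q₀)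
        N := fun q => (q : ℕ)
        u := u, b := b, h := h
        N_unit := fun q => isUnit_natCast_of_prime_ne hO (D.prime_of_mem q.2) (D.ne_of_mem q.2)
        N_ne_one := fun q => (D.prime_of_mem q.2).ne_one
        u_sq := fun q => by rcases hu q with e | e <;> rw [e] <;> ring
        h_det := hdet, h_unit := h00
        st_cases := fun q _ => by
          rcases hb q with e | e
          · by_cases hm : ((q : ℕ) : O) - 1 ∈ maximalIdeal O
            · exact Or.inl ⟨e, hm⟩
            · exact Or.inr (Or.inr (IsLocalRing.notMem_maximalIdeal.mp hm))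
          · exact Or.inr (Or.inl (e ▸ isUnit_one)) }
    N_eq := fun q => rfl
    isSt_iff := fun q => decide_eq_true_iff
    Pq := Q
    fr_red := fun q φ hφ i j => ?_
    tm_red := fun q σ hσ i j => ?_
    st := hst }⟩
  -- any Frobenius reduces as the chosen one, `rb` being unramified
  · have hunr := D.unr_of_mem q.2 _ (placeAt_spec (D.primeA q)) _ (mul_inv_mem_inertiaSubgroupIn
      (D.prime_of_mem q.2) (placeAt_spec (D.primeA q)) hφ (frobOf_spec (D.primeA q)))
    rw [map_mul, map_inv, mul_inv_eq_one] at hunr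
    have hbar : (normDataOf D.semi.surjective O).bar φ =
        (normDataOf D.semi.surjective O).bar (frobOf (D.primeA q)) :=
      Matrix.ext fun a c => by
        rw [normDataOf_bar, normDataOf_bar, barOf_apply, barOf_apply, hunr]
    rw [hbar]
    simp only [SingleData.phi0, decide_eq_true_eq]
    exact hred q i j
  -- and inertia is residually trivial
  · have h1 : (normDataOf D.semi.surjective O).bar σ = 1 := Matrix.ext fun a c => by
      have : Fact (1 < p) := ⟨hp.out.one_lt⟩
      rw [normDataOf_bar, barOf_apply,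
        D.unr_of_mem q.2 _ (placeAt_spec (D.primeA q)) σ hσ, Units.val_one, Matrix.one_apply,
        Matrix.one_apply]
      split_ifs <;> simp [ZMod.val_one]
    rw [h1, mul_one, Units.mul_inv, sub_self]
    exact zero_mem _

end Fermat.GR.RT

end
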