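import Mathlib
import Fermat.Agent.GR.RT.Lift.CaseTransfer
import Fermat.Agent.GR.RT.Lift.Frames
import Fermat.Agent.GR.RT.Lift.CurvePoint
import Fermat.Agent.GR.RT.Lift.Base
import Fermat.Agent.GR.RT.Lift.BaseAux
import Fermat.Agent.GR.RT.Lift.CondsP
import Fermat.Agent.GR.RT.Lift.Agree
import Fermat.Agent.GR.RT.Lowering
import Fermat.Agent.GR.RT.CurveTargets

/-!
# Modularity lifting for semistable curves at squarefree levels

`LiftData.modSf`: one base level gives modularity, by three cases at `p`: good reduction (flat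
chain), `p` in the base level (strict chain), both from `CaseChain`, and the transfer from flat to
strict (`CaseTransfer`). The level of the conclusion consists of the bad primes and the base.
`liftingSf_of_facts` chooses the base level, the coefficients and the point of the curve; its
hypotheses are discharged in `Assembly`.
-/

set_option autoImplicit false

noncomputable section

open IsLocalRing ExtCitation

namespace Fermat.GR.RT

local notation "Γℚ" => (AlgebraicClosure ℚ ≃ₐ[ℚ] AlgebraicClosure ℚ)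
local notation "M2" R => Matrix (Fin 2) (Fin 2) R

variable {p : ℕ} [hp : Fact p.Prime] {rb : Γℚ →* GL (Fin 2) (ZMod p)} {W : WeierstrassCurve ℤ}
  {N r q₀ : ℕ}

namespace LiftData

/-- A squarefree level above `N ∏ T` at which the curve is not modular. -/
theorem exists_level_not_modular (D : LiftData p rb W N r q₀) (hno : ¬ ModSf W)
    (h3 : p = 3 → 3 ∣ N → (3 : ℤ) ∣ W.Δ) {T : Finset Nat.Primes}
    (hT : ∀ t ∈ T, ((t : ℕ) : ℤ) ∣ W.Δ) (hTN : ∀ t ∈ T, ¬ (t : ℕ) ∣ N) :
    ∃ K : ℕ, Squarefree K ∧ N * ∏ t ∈ T, (t : ℕ) ∣ K ∧ ¬ W.IsModularModelOfLevel K := by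
  classical
  -- the product of the primes of `N ∏ T` and of the discriminant
  set S := (N * ∏ t ∈ T, (t : ℕ)).primeFactors ∪ W.Δ.natAbs.primeFactors with hSdef
  have hS : ∀ q ∈ S, q.Prime := fun q hq => (Finset.mem_union.mp hq).elim
    Nat.prime_of_mem_primeFactors Nat.prime_of_mem_primeFactors
  have hmem : ∀ q : ℕ, q.Prime → q ∣ ∏ s ∈ S, s → q ∈ S := fun q hq hd => by
    obtain ⟨s, hs, hqs⟩ := (Prime.dvd_finsetProd_iff hq.prime _).mp hd
    rwa [(Nat.prime_dvd_prime_iff_eq hq (hS s hs)).mp hqs]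
  have hsqP : ∀ s : Finset ℕ, (∀ q ∈ s, q.Prime) → Squarefree (∏ q ∈ s, q) := by
    intro s
    induction s using Finset.induction_on with
    | empty => intro _; rw [Finset.prod_empty]; exact squarefree_one
    | insert a s ha ih =>
      intro hs
      rw [Finset.prod_insert ha]
      exact (Nat.squarefree_mul (Nat.Coprime.prod_right fun q hq =>
        (Nat.coprime_primes (hs a (Finset.mem_insert_self a s))
          (hs q (Finset.mem_insert_of_mem hq))).mpr fun e => ha (e ▸ hq))).mpr
        ⟨(hs a (Finset.mem_insert_self a s)).squarefree,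
          ih fun q hq => hs q (Finset.mem_insert_of_mem hq)⟩
  have hsqT : Squarefree (N * ∏ t ∈ T, (t : ℕ)) := by
    refine (Nat.squarefree_mul (Nat.Coprime.prod_right fun t ht =>
      ((t.2.coprime_iff_not_dvd).mpr (hTN t ht)).symm)).mpr ⟨D.squarefree, ?_⟩
    have := hsqP (T.map ⟨fun t : Nat.Primes => (t : ℕ), fun a b h => Subtype.ext h⟩) fun q hq => by
      obtain ⟨t, -, rfl⟩ := Finset.mem_map.mp hq
      exact t.2
    rwa [Finset.prod_map] at this
  refine ⟨∏ q ∈ S, q, hsqP S hS, ?_, fun hm => hno ⟨∏ q ∈ S, q, hsqP S hS, fun q hq hd => ?_,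
    fun h3d => ?_, hm⟩⟩
  · rw [← Nat.prod_primeFactors_of_squarefree hsqT]
    exact Finset.prod_dvd_prod_of_subset _ _ _ Finset.subset_union_left
  · exact Finset.dvd_prod_of_mem (fun s => s) (Finset.mem_union_right _ (Nat.mem_primeFactors.mpr
      ⟨hq, Int.natCast_dvd.mp hd, Int.natAbs_ne_zero.mpr D.disc_ne⟩))
  · rcases Finset.mem_union.mp (hmem 3 Nat.prime_three h3d) with h | h
    · rcases Nat.prime_three.dvd_mul.mp (Nat.dvd_of_mem_primeFactors h) with hN | hT'
      · by_cases hp3 : p = 3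
        · exact h3 hp3 hN
        · rcases D.only 3 Nat.prime_three hN with e | e | e
          · exact absurd e.symm hp3
          · have := D.aux.mod_twelve
            omega
          · by_contra hgood
            exact e (D.tors 3 Nat.prime_three hgood (Ne.symm hp3)).1
      · obtain ⟨t, ht, h3t⟩ := (Prime.dvd_finsetProd_iff Nat.prime_three.prime _).mp hT'
        have e := (Nat.prime_dvd_prime_iff_eq Nat.prime_three t.2).mp h3t
        have := hT t ht
        rw [← e] at this
        exact_mod_cast this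
    · exact_mod_cast Int.natCast_dvd.mpr (Nat.dvd_of_mem_primeFactors h)

variable {O : Type} [CommRing O] [IsDomain O] [IsDiscreteValuationRing O]
  [IsAdicComplete (maximalIdeal O) O] [Finite (ResidueField O)] [CharZero O]
  [Algebra (ZMod p) (ResidueField O)] {ζ : O}

/-- The primes to raise the level at (the framed primes other than `q₀`), enumerated. -/
private theorem exists_badEnum (D : LiftData p rb W N r q₀) :
    ∃ (Nc : ℕ) (qsA : Fin Nc → frPrimes rb W q₀) (e : ℕ → ℕ), (∀ j, (qsA j : ℕ) = e j) ∧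
      (∀ j, (qsA j : ℕ) ≠ q₀) ∧ Set.InjOn e (Set.Iio Nc) ∧
      (∀ s ∈ stepList e Nc, s ∈ badUnr rb W) ∧
      ∀ a : frPrimes rb W q₀, (a : ℕ) ≠ q₀ ↔ ∃ i, qsA i = a := by
  classical
  -- enumerate the bad primes by a list
  set ls := (badUnr rb W).toList with hls
  set Nc := ls.length
  let e : ℕ → ℕ := fun k => ls.getD k 0
  have hmemls : ∀ j : Fin Nc, ls.get j ∈ badUnr rb W := fun j =>
    Finset.mem_toList.mp (ls.get_mem j)
  let qsA : Fin Nc → frPrimes rb W q₀ := fun j => ⟨ls.get j, Finset.mem_insert_of_mem (hmemls j)⟩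
  have hqe : ∀ j : Fin Nc, (qsA j : ℕ) = e j := fun j => by
    change ls.get j = ls.getD j 0
    rw [List.getD_eq_getElem _ _ j.2]
    rfl
  have hq0 : ∀ j, (qsA j : ℕ) ≠ q₀ := fun j h => D.frame_not_mem (by
    have := hmemls j
    rwa [show ls.get j = q₀ from h] at this)
  -- without repetition
  have hinj : Set.InjOn e (Set.Iio Nc) := by
    intro a ha b hb hab
    have h1 := hqe ⟨a, ha⟩
    have h2 := hqe ⟨b, hb⟩
    exact congrArg Fin.val ((List.nodup_iff_injective_get.mp (Finset.nodup_toList _))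
      (show ls.get ⟨a, ha⟩ = ls.get ⟨b, hb⟩ from h1.trans (hab.trans h2.symm)))
  have hmemq : ∀ s ∈ stepList e Nc, s ∈ badUnr rb W := fun s hs => by
    obtain ⟨i, hi, rfl⟩ := mem_stepList.mp hs
    rw [← hqe ⟨i, hi⟩]
    exact hmemls ⟨i, hi⟩
  refine ⟨Nc, qsA, e, hqe, hq0, hinj, hmemq, fun a => ?_⟩
  constructor
  · intro ha
    obtain ⟨j, hj⟩ := List.get_of_mem
      (Finset.mem_toList.mpr ((Finset.mem_insert.mp a.2).resolve_left ha))
    exact ⟨j, Subtype.ext hj⟩
  · rintro ⟨i, rfl⟩
    exact hq0 i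

/-- **One base level gives modularity.** A curve point with lifting data and the needed facts is
modular at a squarefree level (`ModSf`). -/
theorem modSf [NeZero N] (D : LiftData p rb W N r q₀) (hc : CoeffData p O ζ) {u : O →+* ℂ}
    (hu : Function.Injective u) {C : D.RamConds O} (hF : D.FactsAvail C hc.mem) {ρ : Γℚ →* M2 O}
    (hρ : IsCurvePoint W rb hc.mem ρ)
    (hgood : ¬ (p : ℤ) ∣ W.Δ → ¬ p ∣ N)
    (hstuck : p ∣ N → D.PStuck) : ModSf W := by
  classical
  by_contra hno
  -- the framed data, and the primes to raise at with their signs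
  obtain ⟨Fr⟩ := nonempty_frames D hρ
  have h3 : p = 3 → 3 ∣ N → (3 : ℤ) ∣ W.Δ := fun e h => by
    subst e
    by_contra hd
    exact hgood (by exact_mod_cast hd) h
  obtain ⟨Nc, qsA, e, hqe, hq0, hinj, hmemq, hrange⟩ := D.exists_badEnum
  have hqs : ∀ a, Fr.data.isSt a = true ↔ ∃ i, qsA i = a := fun a =>
    (Fr.isSt_iff a).trans (hrange a)
  let εf : O → ℕ → O := fun up s => if s = p then -up else
    if h : s ∈ frPrimes rb W q₀ then -Fr.data.u ⟨s, h⟩ else 1
  have hε : ∀ up, ∀ q : frPrimes rb W q₀, (q : ℕ) ≠ q₀ → εf up q = -Fr.data.u q := fun up q _ => by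
    change (if (q : ℕ) = p then _ else _) = _
    rw [if_neg (D.ne_of_mem q.2), dif_pos q.2]
  have hsign : ∀ up : O, up = 1 ∨ up = -1 → ∀ s, εf up s = 1 ∨ εf up s = -1 := fun up hup s => by
    change (if s = p then _ else _) = 1 ∨ (if s = p then _ else _) = -1
    split_ifs with h1 h2
    · rcases hup with rfl | rfl
      · exact Or.inr rfl
      · exact Or.inl (neg_neg 1)
    · rcases sq_eq_one_iff.mp (Fr.data.u_sq ⟨s, h2⟩) with e | e
      · exact Or.inr (by rw [e])
      · exact Or.inl (by rw [e, neg_neg])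
    · exact Or.inl rfl
  -- the data of raising, and the levels above at which the curve is not modular
  have hRaise : ∀ up : O, up = 1 ∨ up = -1 → D.Raise (stepList e Nc) (εf up) := fun up hup =>
    ⟨nodup_stepList hinj le_rfl, fun s hs => Or.inr ⟨Finset.mem_insert_of_mem (hmemq s hs),
      fun h => D.frame_not_mem (h ▸ hmemq s hs)⟩,
      fun s hs => D.not_dvd_of_mem (Finset.mem_insert_of_mem (hmemq s hs)),
      fun s _ => hsign up hup s⟩
  have hnotq : ∀ T ⊆ primeSet (stepList e Nc), ∃ K : ℕ, Squarefree K ∧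
      N * ∏ t ∈ T, (t : ℕ) ∣ K ∧ ¬ W.IsModularModelOfLevel K := fun T hT =>
    D.exists_level_not_modular hno h3
      (fun t ht => ((mem_badUnr D.disc_ne).mp (hmemq _ (mem_primeSet.mp (hT ht)))).2.1)
      fun t ht => D.not_dvd_of_mem (Finset.mem_insert_of_mem (hmemq _ (mem_primeSet.mp (hT ht))))
  -- the facts about the curve
  have hW : CurveFacts D hρ.lifting :=
    ⟨fun i A hA φ hφ => (hρ.trace_goodIx D i hA hφ).1, fun i => hρ.unrAt_goodIx D i⟩
  let xB : hρ.lifting.B →ₐ[O] O := AlgHom.id O O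
  have hxB : ∀ y ∈ maximalIdeal hρ.lifting.B, xB y ∈ maximalIdeal O := fun _ hy => hy
  have hW0 : ∀ q : frPrimes rb W q₀, (q : ℕ) = q₀ → hρ.lifting.UnrAt (D.primeA q) := fun q hq => by
    rw [show D.primeA q = ⟨q₀, D.frame_prime⟩ from Subtype.ext hq]
    exact hρ.unrAt_frame D
  -- three cases at `p`: the flat condition at a prime of good reduction
  by_cases hΔ : (p : ℤ) ∣ W.Δ
  swap
  · obtain ⟨S, hSfin, hScard, hS⟩ := exists_flatCond (D := D) hc.mem
    have := hSfin
    refine false_of_chain hc hu hF Fr.data Fr.N_eq Fr.isSt_iff Fr.Pq (fun q φ hφ =>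
      Fr.fr_red q φ hφ)
      Fr.tm_red hρ.lifting xB hxB hW Fr.st hW0 (fun L => hρ.unrOutside D _)
      (fun q h1 h2 => hρ.ram C q h1 h2) S Lifting.FlatAtP
      (fun P T h => hS P T _ Set.univ_nonempty fun i _ => h i) (hρ.flatAtP hΔ)
      (fun n L hL Q T v ε x P hpT => P.flat fun hd => ?_) qsA hqe hq0 hinj (hε 1)
      (hRaise 1 (Or.inl rfl)) hqs hScard agreeStatement hnotq
    rcases D.levT_cases hp.out hd with h | ⟨l, hl, he⟩ | ⟨t, ht, he⟩
    · exact hgood hΔ h
    · exact l.2 (show ((l.1 : Nat.Primes) : ℕ) ∣ _ by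
        rw [show ((l.1 : Nat.Primes) : ℕ) = p from he]; exact D.p_dvd_bad)
    · exact hpT ((show t = pPrime p from Subtype.ext he) ▸ ht)
  obtain ⟨o, ho⟩ := hρ.exists_ordSigns D hΔ
  obtain ⟨SS, hSSfin, hSScard, hSS⟩ := exists_strictPCond (D := D) hc.mem o
  have := hSSfin
  -- the strict condition, when `p` divides the level and cannot be removed
  by_cases hpN : p ∣ N
  · exact false_of_chain hc hu hF Fr.data Fr.N_eq Fr.isSt_iff Fr.Pq
      (fun q φ hφ => Fr.fr_red q φ hφ) Fr.tm_red hρ.lifting xB hxB hW Fr.st hW0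
      (fun L => hρ.unrOutside D _) (fun q h1 h2 => hρ.ram C q h1 h2) SS
      (fun P => StrictRel O (pPrime p) o.e P.rep)
      (fun P T h => hSS P T _ fun i _ => h i) ho.1
      (fun n L hL Q T v ε x P _ => (P.ordSign o (Or.inr (hstuck hpN))).1) qsA hqe hq0 hinj (hε o.u)
      (hRaise o.u o.u_sign) hqs hSScard agreeStatement hnotq
  -- the transfer from the flat to the strict condition
  obtain ⟨SF, hSFfin, hSFcard, hSF⟩ := exists_flatCond (D := D) hc.mem
  obtain ⟨ST, hSTfin, hSTcard, hST⟩ := exists_flatStrictCond (D := D) hc.mem o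
  have := hSFfin
  have := hSTfin
  have hpq : p ∉ stepList e Nc := fun h => D.ne_of_mem (Finset.mem_insert_of_mem (hmemq p h)) rfl
  have hR : D.Raise (p :: stepList e Nc) (εf o.u) :=
    ⟨List.nodup_cons.mpr ⟨hpq, nodup_stepList hinj le_rfl⟩, fun s hs => by
      rcases List.mem_cons.mp hs with rfl | hs
      · exact Or.inl rfl
      · exact (hRaise o.u o.u_sign).mem s hs, fun s hs => by
      rcases List.mem_cons.mp hs with rfl | hs
      · exact hpN
      · exact (hRaise o.u o.u_sign).not_dvd s hs, fun s _ => hsign o.u o.u_sign s⟩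
  exact false_of_transfer hc hu hF Fr.data Fr.N_eq Fr.isSt_iff Fr.Pq
    (fun q φ hφ => Fr.fr_red q φ hφ) Fr.tm_red hρ.lifting xB hxB hW Fr.st hW0
    (fun L => hρ.unrOutside D _) (fun q h1 h2 => hρ.ram C q h1 h2) o SF SS ST
    (fun P T s h1 h2 => hSF P T s h1 h2) (fun P T s h => hSS P T s h)
    (fun P T s c h1 h2 => hST P T s c h1 h2) ho hpN qsA hqe hq0 hinj (hε o.u) (if_pos rfl) hR hqs
    hSFcard hSScard hSTcard agreeStatement fun T hT => by
      refine D.exists_level_not_modular hno h3 (fun t ht => ?_) (fun t ht => ?_) <;>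
      rcases List.mem_cons.mp (mem_primeSet.mp (hT ht)) with h | h
      · rw [h]; exact hΔ
      · exact ((mem_badUnr D.disc_ne).mp (hmemq _ h)).2.1
      · rw [h]; exact hpN
      · exact D.not_dvd_of_mem (Finset.mem_insert_of_mem (hmemq _ h))

end LiftData

/-- The facts about the eigen systems met in lifting, for every lifting data.
Proved by `liftFactsStatement`. -/
def LiftFactsStatement (p : ℕ) [Fact p.Prime] : Prop :=
  ∀ (rb : Γℚ →* GL (Fin 2) (ZMod p)) (W : WeierstrassCurve ℤ) (N r q₀ : ℕ) [NeZero N]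
    (D : LiftData p rb W N r q₀) (O : Type) [CommRing O] [IsDomain O] [IsDiscreteValuationRing O]
    [IsAdicComplete (maximalIdeal O) O] [Finite (ResidueField O)] [CharZero O]
    [Algebra (ZMod p) (ResidueField O)] (C : D.RamConds O) (hO : (p : O) ∈ maximalIdeal O),
    D.FactsAvail C hO

/-- **Modularity lifting** for squarefree levels. -/
theorem liftingSf_of_facts (hA : AttachInput p) (hBase : BaseStatement p)
    (hLow : LowerAtPStatement p) (hFacts : LiftFactsStatement p) :
    LiftingSfStatement p := by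
  classical
  intro h2 W rb hΔ hss hrb ht M hM h3 hmod
  -- an auxiliary prime
  obtain ⟨r, hrB, hr⟩ := auxPrimeStatement p h2 rb hrb (W.Δ.natAbs.primeFactors)
  have hrΔ : ¬ (r : ℤ) ∣ W.Δ := fun h => hrB (Nat.mem_primeFactors.mpr
    ⟨hr.prime, Int.natCast_dvd.mp h, Int.natAbs_ne_zero.mpr hΔ⟩)
  -- a residual level, prime to `p` if possible
  obtain ⟨M', hM', hmod', hfree⟩ : ∃ M' : ℕ, Squarefree M' ∧ ModularOf p rb M' ∧
      (p ∣ M' → (p : ℤ) ∣ W.Δ ∧ ∀ K : ℕ, Squarefree K → ¬ p ∣ K → ¬ ModularOf p rb K) := by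
    by_cases hex : ∃ K : ℕ, Squarefree K ∧ ¬ p ∣ K ∧ ModularOf p rb K
    · obtain ⟨K, hK, hpK, hK'⟩ := hex
      exact ⟨K, hK, hK', fun h => absurd h hpK⟩
    · push Not at hex
      refine ⟨M, hM, hmod, fun hpM => ⟨?_, hex⟩⟩
      by_contra hgood
      by_cases hp3 : p = 3
      · subst hp3
        exact hgood (by exact_mod_cast h3 rfl hpM)
      · have h4 : 4 < p := by
          rcases Nat.lt_or_ge 4 p with h | h
          · exact h
          · interval_cases p <;> first | omega | exact absurd hp.out (by norm_num)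
        obtain ⟨M', hM'd, hM'm⟩ := hLow h4 W rb hΔ hss hrb ht hgood M hM hpM hmod
        obtain ⟨c, rfl⟩ := hpM
        rw [Nat.mul_div_cancel_left c hp.out.pos] at hM'd
        have hsq := (Nat.squarefree_mul_iff.mp hM)
        exact hex M' (hsq.2.2.squarefree_of_dvd hM'd)
          (fun h => (hp.out.coprime_iff_not_dvd.mp hsq.1) (h.trans hM'd)) hM'm
  -- the base level, and the framed prime
  obtain ⟨N, hN, hrN, hNM, hmodN, honly⟩ := hBase h2 rb hrb M' r hM' hr hmod'
  have hpM : p ∣ N → p ∣ M' := fun h => (hp.out.dvd_mul.mp (h.trans hNM)).resolve_right fun e =>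
    hr.ne ((Nat.prime_dvd_prime_iff_eq hp.out hr.prime).mp e).symm
  obtain ⟨q₀, hq₀, hq₀p⟩ := Nat.exists_infinite_primes (max (max N p) W.Δ.natAbs + 1)
  have D : LiftData p rb W N r q₀ := {
    semi := hrb, two_lt := h2, disc_ne := hΔ, ssm := hss, tors := ht, squarefree := hN, aux := hr
    aux_dvd := hrN, aux_good := hrΔ, only := honly
    ram := fun q hq hqp hram => dvd_of_ramified hrb h2 hA hmodN hq hqp hram
    modular := hmodN, frame_prime := hq₀p, frame_ne := by omega
    frame_not_dvd := fun h => by have := Nat.le_of_dvd (Nat.pos_of_ne_zero hN.ne_zero) h; omega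
    frame_good := fun h => by
      have := Nat.le_of_dvd (Int.natAbs_pos.mpr hΔ) (Int.natCast_dvd.mp h); omega }
  have : NeZero N := ⟨hN.ne_zero⟩
  -- the coefficient ring, the conditions, and the point of the curve
  obtain ⟨O, i1, i2, i3, i4, i5, i6, hpO, ζ, hζ⟩ := exists_coeffRing p
  obtain ⟨u, hu⟩ := exists_embedding_complex O
  let : Algebra (ZMod p) (ResidueField O) := (resCast hpO).toAlgebra
  obtain ⟨C⟩ := D.nonempty_ramConds (O := O) hpO
  obtain ⟨ρ, hρ⟩ := curvePointStatement p h2 W rb hΔ hss hrb ht O hpO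
  exact D.modSf (ζ := ζ) ⟨hpO, hζ⟩ hu (hFacts rb W N r q₀ D O C hpO) hρ
    (fun hgood hpN => hgood (hfree (hpM hpN)).1)
    fun hpN => ⟨hpN, (hfree (hpM hpN)).2⟩

end Fermat.GR.RT

end
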