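import Mathlib
import Fermat.Agent.GR.RT.Lift.PointSet
import Fermat.Agent.GR.RT.PointInertia
import Fermat.Agent.GR.RT.LowerStrict

/-!
# The representation of a congruent system of a raised level

Every congruent system of a raised level gives a lifting, with the expected Frobenius values away
from the bad primes, unramified outside the conditions and the auxiliary primes.
-/

set_option autoImplicit false
set_option linter.unusedSectionVars false

noncomputable section

open MvPolynomial IsLocalRing Fermat.CFT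

namespace Fermat.GR.RT

open Fermat.MC.Lvl

local notation "ℚbar" => AlgebraicClosure ℚ
local notation "Γℚ" => (AlgebraicClosure ℚ ≃ₐ[ℚ] AlgebraicClosure ℚ)
local notation "M2" R => Matrix (Fin 2) (Fin 2) R

variable {p : ℕ} [hp : Fact p.Prime] {rb : Γℚ →* GL (Fin 2) (ZMod p)} {W : WeierstrassCurve ℤ}
  {N r q₀ : ℕ}

namespace LiftData

variable {O : Type} [CommRing O] [IsDomain O] [IsDiscreteValuationRing O]
  [IsAdicComplete (maximalIdeal O) O] [Finite (ResidueField O)] [CharZero O]
  {n : ℕ} {L : List (GoodIx (liftBad rb W N q₀))}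

/-- A congruent system of a raised level with its representations. -/
structure PtRep [NeZero N] (D : LiftData p rb W N r q₀) (hL : TWList p rb n L)
    (hO : (p : O) ∈ maximalIdeal O) (Q T : Finset Nat.Primes) [NeZero (D.levT L T)]
    (v : ℕ → (ZMod (D.levK L))ˣ) (ε : ℕ → O)
    (x : MvPolynomial (Nat.Primes ⊕ (ZMod (D.levT L T))ˣ) ℤ →+*
      AlgebraicClosure (FractionRing O)) : Type 1 where
  /-- The ring of values, a finite extension of `O`. -/
  B : Type
  [commRing : CommRing B]
  [isDomain : IsDomain B]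
  [dvr : IsDiscreteValuationRing B]
  [complete : IsAdicComplete (maximalIdeal B) B]
  [finiteRes : Finite (ResidueField B)]
  [charZero : CharZero B]
  [algebra : Algebra O B]
  [finite : Module.Finite O B]
  [isLocal : IsLocalHom (algebraMap O B)]
  /-- The integral form of the system. -/
  y : MvPolynomial (Nat.Primes ⊕ (ZMod (D.levT L T))ˣ) ℤ →+* B
  /-- The embedding of the ring of values. -/
  j : B →ₐ[O] AlgebraicClosure (FractionRing O)
  /-- `y` is an integral form of `x`. -/
  comp : (j : B →+* _).comp y = x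
  /-- `y` is congruent to `rb`. -/
  res : IsResPoint p rb (D.badL L) ((ResidueField.map (algebraMap O B)).comp (resCast hO)) n
    (D.grpT hL T) y
  /-- At a raised prime `U_t` times the root of its diamond is `-ε t`. -/
  sign : ∀ t ∈ T, ∀ w : (ZMod (D.levT L T))ˣ, ZMod.unitsMap (D.dvd_levT T) w = v t →
    algebraMap O B (ε t) + diaVal res.point w * y (X (Sum.inl t)) = 0
  /-- The signs and roots at the primes to be raised. -/
  hS : D.Signs hL Q v ε
  /-- The raised primes are among those to be raised. -/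
  sub : T ⊆ Q
  /-- The attached representation. -/
  r : Γℚ →* M2 B
  /-- Its twist with cyclotomic determinant. -/
  ρ : Γℚ →* M2 B
  /-- `r` is attached to `y`. -/
  attached : IsAttached p y r
  /-- `ρ` is continuous. -/
  cont : MatCont ρ
  /-- `ρ` is the twist of `r` by the twisting character. -/
  rho_eq : ∀ σ, ρ σ = twistChar res.point (p ^ n) σ • r σ
  /-- The determinant of `ρ` is cyclotomic. -/
  det : ∀ σ, (ρ σ).det = cycO res.mem σ
  /-- The trace of `r` reduces to that of `rb`. -/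
  trace_r : ∀ σ, residue B (r σ).trace =
    ((ResidueField.map (algebraMap O B)).comp (resCast hO))
      (rb σ : Matrix (Fin 2) (Fin 2) (ZMod p)).trace
  /-- The trace of `ρ` reduces to that of `rb`. -/
  trace : ∀ σ, residue B (ρ σ).trace =
    ((ResidueField.map (algebraMap O B)).comp (resCast hO))
      (rb σ : Matrix (Fin 2) (Fin 2) (ZMod p)).trace
  /-- Away from the level and `p`: `ρ` is unramified, Frobenius has trace `trLabel` and
  determinant `ℓ`. -/
  frob : ∀ ℓ : ℕ, ℓ.Prime → ¬ ℓ ∣ D.levT L T * p → ∀ P : ValuationSubring ℚbar,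
    P.LiesOverPrime ℓ →
      (∀ σ ∈ P.inertiaSubgroupIn ℚ, ρ σ = 1) ∧
      ∀ φ : Γℚ, P.IsFrobeniusAt φ ℓ →
        (ρ φ).trace = y (trLabel (D.levT L T) (p ^ n) ℓ) ∧ (ρ φ).det = (ℓ : B)

attribute [instance] PtRep.commRing PtRep.isDomain PtRep.dvr PtRep.complete PtRep.finiteRes
  PtRep.charZero PtRep.algebra PtRep.finite PtRep.isLocal

variable (D : LiftData p rb W N r q₀) (hL : TWList p rb n L) (hO : (p : O) ∈ maximalIdeal O)
  {Q T : Finset Nat.Primes} {v : ℕ → (ZMod (D.levK L))ˣ} {ε : ℕ → O}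

/-- **Every congruent system has representations.** -/
theorem nonempty_ptRep [NeZero N] [NeZero (D.levT L T)] (hA : AttachInput p)
    (hS : D.Signs hL Q v ε) (hT : T ⊆ Q)
    {x : MvPolynomial (Nat.Primes ⊕ (ZMod (D.levT L T))ˣ) ℤ →+* AlgebraicClosure (FractionRing O)}
    (hx : x ∈ D.ptsT hL hO v ε T) : Nonempty (D.PtRep hL hO Q T v ε x) := by
  have : NegMem (D.grpT hL T) := ⟨D.neg_mem_grpT hL T⟩
  obtain ⟨⟨O', _⟩, y, hy, j, hj, hjy⟩ :=
    exists_dvr_point (D.levT L T) (D.grpT hL T) O hx.1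
  have h := isResPoint_of_congruent hO (resCast hO) (D.pow_mem_grpT hL T) hx.2.1 hy j hjy
  obtain ⟨r, ρ, h1, h2, h3, h4, h5, h6, h7⟩ :=
    h.exists_rep_of_det D.semi.isOpen_ker D.semi.det_eq D.p_ne_two hA
    (D.neg_mem_grpT hL T) D.badL_ne_zero D.resUnrL
  refine ⟨{ B := O', y := y, j := j, comp := hjy, res := h, sign := fun t ht w hw => ?_,
            hS := hS, sub := hT, r := r, ρ := ρ, attached := h1, cont := h2, rho_eq := h3,
            det := h4, trace_r := h5, trace := h6, frob := h7 }⟩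
  refine hj ?_
  rw [map_zero, map_add, map_mul, AlgHom.commutes, diaVal_apply]
  have e := hx.2.2 t ht w hw
  rw [← hjy] at e
  exact e

namespace PtRep

variable {D} {hL} {hO} [NeZero N] [NeZero (D.levT L T)]
  {x : MvPolynomial (Nat.Primes ⊕ (ZMod (D.levT L T))ˣ) ℤ →+* AlgebraicClosure (FractionRing O)}
  (P : D.PtRep hL hO Q T v ε x)

/-- The twisted representation of the point as a `Lifting`. -/
def lifting : Lifting rb hO where
  B := P.B
  mem := P.res.mem
  rep := P.ρ
  cont := P.cont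
  det := P.det
  trace := P.trace

/-- The signs square to one. -/
theorem sign_sq {t : Nat.Primes} (ht : t ∈ Q) :
    algebraMap O P.B (ε t) * algebraMap O P.B (ε t) = 1 := by
  rcases P.hS.sign t ht with h | h <;> rw [h] <;> simp

include P in
/-- The level of the system is squarefree. -/
theorem squarefree_lev : Squarefree (D.levT L T) :=
  D.squarefree_levT hL.nodup fun t ht => P.hS.not_dvd t (P.sub ht)

include P in
/-- The cofactor of a prime of the level is prime to it. -/
theorem not_dvd_quot {q K' : ℕ} (hq : q.Prime) (hK : K' * q = D.levT L T) : ¬ q ∣ K' :=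
  not_dvd_of_mul_eq P.squarefree_lev hq hK

include P in
/-- The raised primes are excluded from the operators. -/
theorem mem_dvd_bad_of_mem {t : Nat.Primes} (ht : t ∈ Q) : (t : ℕ) ∣ liftBad rb W N q₀ := by
  rcases P.hS.mem t ht with rfl | h
  · exact D.p_dvd_bad
  · exact D.dvd_bad_of_mem_frPrimes h.1

include P in
/-- The primes of the level are bad. -/
theorem dvd_badL_of_dvd {q : ℕ} (hq : q.Prime) (h : q ∣ D.levT L T) : q ∣ D.badL L := by
  rcases D.levT_cases hq h with h | ⟨i, hi, rfl⟩ | ⟨t, ht, rfl⟩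
  · exact D.dvd_badL (D.dvd_bad h)
  · exact (List.dvd_prod (List.mem_map.mpr ⟨i, hi, rfl⟩)).mul_left _
  · exact D.dvd_badL (P.mem_dvd_bad_of_mem (P.sub ht))

/-- The values at the good primes. -/
theorem frob_good (ℓ : Nat.Primes) (hℓ : ¬ (ℓ : ℕ) ∣ D.badL L) (A : ValuationSubring ℚbar)
    (hA : A.LiesOverPrime (ℓ : ℕ)) (φ : Γℚ) (hφ : A.IsFrobeniusAt φ ℓ) :
    (∀ u : (ZMod (D.levT L T))ˣ, (u : ZMod (D.levT L T)) = ((ℓ : ℕ) : ZMod (D.levT L T)) →
      (P.ρ φ).trace = P.y (X (Sum.inl ℓ)) * diaVal P.res.point (u ^ ((p ^ n + 1) / 2))) ∧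
      (P.ρ φ).det = ((ℓ : ℕ) : P.B) := by
  have hlev : ¬ (ℓ : ℕ) ∣ D.levT L T := fun h => hℓ (P.dvd_badL_of_dvd ℓ.2 h)
  obtain ⟨ht, hd⟩ := (P.frob ℓ ℓ.2 (fun h => by
    rcases ℓ.2.dvd_mul.mp h with h | h
    · exact hlev h
    · exact hℓ (h.trans (D.dvd_badL D.p_dvd_bad))) A hA).2 φ hφ
  refine ⟨fun u hu => ?_, hd⟩
  have hcop : Nat.Coprime ℓ (D.levT L T) := ℓ.2.coprime_iff_not_dvd.mpr hlev
  obtain rfl : u = ZMod.unitOfCoprime ℓ hcop :=
    Units.ext (hu.trans (ZMod.coe_unitOfCoprime _ _).symm)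
  rw [ht, trLabel, dif_pos ⟨ℓ.2, hcop⟩, map_mul, diaVal_apply]
  rfl

/-- A unit congruent to one away from `q` acts trivially. -/
theorem dia_one {q K' : ℕ} (hqB : q ∣ liftBad rb W N q₀)
    (hK : K' * q = D.levT L T) {u : (ZMod (D.levT L T))ˣ}
    (hu : ((u : ZMod (D.levT L T)).val : ZMod K') = 1) : diaVal P.res.point u = 1 := by
  rw [diaVal_apply, P.res.point.dia_eq_one (D.mem_grpT_of_one hL hqB hK hu)]

include P in
/-- Inertia at a prime of the level fixes the roots of unity of the cofactor. -/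
theorem cycK_val_inertia {q K' : ℕ} (hq : q.Prime) (hK : K' * q = D.levT L T)
    {A : ValuationSubring ℚbar} (hA : A.LiesOverPrime q) {σ : Γℚ}
    (hσ : σ ∈ A.inertiaSubgroupIn ℚ) :
    ((cycK (D.levT L T) σ : ZMod (D.levT L T)).val : ZMod K') = 1 := by
  have hd : K' ∣ D.levT L T := ⟨q, hK.symm⟩
  have : NeZero K' := ⟨fun h => NeZero.ne (D.levT L T) (by rw [← hK, h, zero_mul])⟩
  rw [ZMod.natCast_val, ← ZMod.unitsMap_val hd, unitsMap_cycK hd,
    cycK_inertia hq (hq.coprime_iff_not_dvd.mpr (P.not_dvd_quot hq hK)) hA hσ, Units.val_one]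

include P in
/-- Frobenius at a prime of the level raises roots of unity of the cofactor to the power of that
prime. -/
theorem cycK_val_frobenius {q K' : ℕ} (hq : q.Prime) (hK : K' * q = D.levT L T)
    {A : ValuationSubring ℚbar} (hA : A.LiesOverPrime q) {φ : Γℚ}
    (hφ : A.IsFrobeniusAt φ q) :
    ((cycK (D.levT L T) φ : ZMod (D.levT L T)).val : ZMod K') = (q : ZMod K') := by
  have hd : K' ∣ D.levT L T := ⟨q, hK.symm⟩
  have : NeZero K' := ⟨fun h => NeZero.ne (D.levT L T) (by rw [← hK, h, zero_mul])⟩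
  rw [ZMod.natCast_val, ← ZMod.unitsMap_val hd, unitsMap_cycK hd,
    cycK_frobenius hq (hq.coprime_iff_not_dvd.mpr (P.not_dvd_quot hq hK)) hA hφ,
    ZMod.coe_unitOfCoprime]

/-- The twist is trivial on inertia at a bad prime of the level. -/
theorem twist_inertia {q K' : ℕ} (hq : q.Prime) (hqB : q ∣ liftBad rb W N q₀)
    (hK : K' * q = D.levT L T) {A : ValuationSubring ℚbar} (hA : A.LiesOverPrime q) {σ : Γℚ}
    (hσ : σ ∈ A.inertiaSubgroupIn ℚ) : twistChar P.res.point (p ^ n) σ = 1 := by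
  rw [twistChar_apply, P.dia_one hqB hK (P.cycK_val_inertia hq hK hA hσ), one_pow]

/-- The twist changes nothing on inertia at a bad prime of the level. -/
theorem rho_inertia {q K' : ℕ} (hq : q.Prime) (hqB : q ∣ liftBad rb W N q₀)
    (hK : K' * q = D.levT L T) {A : ValuationSubring ℚbar} (hA : A.LiesOverPrime q) {σ : Γℚ}
    (hσ : σ ∈ A.inertiaSubgroupIn ℚ) : P.ρ σ = P.r σ := by
  rw [P.rho_eq, P.twist_inertia hq hqB hK hA hσ, one_smul]

/-- The twist is trivial on inertia at a prime outside the level. -/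
theorem twist_inertia_good {q : ℕ} (hq : q.Prime) (hqK : ¬ q ∣ D.levT L T)
    {A : ValuationSubring ℚbar} (hA : A.LiesOverPrime q) {σ : Γℚ}
    (hσ : σ ∈ A.inertiaSubgroupIn ℚ) : twistChar P.res.point (p ^ n) σ = 1 := by
  rw [twistChar_apply, cycK_inertia hq (hq.coprime_iff_not_dvd.mpr hqK) hA hσ, map_one, one_pow]

/-- The diamond value at a lift of `v t` squares to the diamond value at `t`. -/
theorem dia_root {t : Nat.Primes} (ht : t ∈ Q) {w u : (ZMod (D.levT L T))ˣ}
    (hw : ZMod.unitsMap (D.dvd_levT T) w = v t)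
    (hu : ((u : ZMod (D.levT L T)).val : ZMod (D.levK L)) = ((t : ℕ) : ZMod (D.levK L))) :
    diaVal P.res.point w * diaVal P.res.point w = diaVal P.res.point u := by
  have := D.neZero_levK L
  have hval : ((ZMod.unitsMap (D.dvd_levT T) u : (ZMod (D.levK L))ˣ) : ZMod (D.levK L)) =
      ((t : ℕ) : ZMod (D.levK L)) := by rw [ZMod.unitsMap_val, ← ZMod.natCast_val, hu]
  have hmem := P.hS.root t ht (ZMod.unitsMap (D.dvd_levT T) u)⁻¹ (by
    rw [← hval, Units.inv_mul])
  have hmem' : w * w * u⁻¹ ∈ D.grpT hL T := by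
    rw [Subgroup.mem_comap, map_mul, map_mul, map_inv, hw]
    exact hmem
  have h1 : diaVal P.res.point (w * w * u⁻¹) = 1 := by
    rw [diaVal_apply, P.res.point.dia_eq_one hmem']
  calc diaVal P.res.point w * diaVal P.res.point w
      = diaVal P.res.point (w * w * u⁻¹) * diaVal P.res.point u := by
        rw [← map_mul, ← map_mul, inv_mul_cancel_right]
    _ = diaVal P.res.point u := by rw [h1, one_mul]

/-- The twist of a Frobenius times a root of the diamond is one. -/
theorem twist_mul_root {t : Nat.Primes} (ht : t ∈ Q) {w : (ZMod (D.levT L T))ˣ} {φ : Γℚ}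
    (hw : ZMod.unitsMap (D.dvd_levT T) w = v t)
    (hφ : ((cycK (D.levT L T) φ : ZMod (D.levT L T)).val : ZMod (D.levK L)) =
        ((t : ℕ) : ZMod (D.levK L))) :
    twistChar P.res.point (p ^ n) φ * diaVal P.res.point w = 1 := by
  have hodd : Odd (p ^ n) := Odd.pow (hp.out.odd_of_ne_two D.p_ne_two)
  refine eq_of_sq_eq_sq_of_odd_pow hodd ?_ ?_ (one_pow _)
  · rw [mul_mul_mul_comm, P.dia_root ht hw hφ, ← sq,
      twistChar_sq_mul P.res.point hodd P.res.pow_mem, one_mul]
  · rw [mul_pow, P.res.twistChar_pow, P.res.dia_pow, one_mul]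

/-- The cofactor of a raised prime times the prime is the level. -/
theorem quot_mul_eq {t : Nat.Primes} (ht : t ∈ T) :
    (D.levK L * ∏ s ∈ T.erase t, (s : ℕ)) * (t : ℕ) = D.levT L T := by
  rw [mul_assoc, Finset.prod_erase_mul T _ ht]

/-- A congruence modulo a multiple of the auxiliary level holds modulo that level. -/
theorem val_cast_levK {t : Nat.Primes} {m : ℕ} {u : (ZMod (D.levT L T))ˣ}
    (hu : ((u : ZMod (D.levT L T)).val : ZMod (D.levK L * m)) = ((t : ℕ) : ZMod (D.levK L * m))) :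
    ((u : ZMod (D.levT L T)).val : ZMod (D.levK L)) = ((t : ℕ) : ZMod (D.levK L)) := by
  have h := congrArg (ZMod.castHom (dvd_mul_right (D.levK L) m) (ZMod (D.levK L))) hu
  rwa [map_natCast, map_natCast] at h

include P in
/-- The representation is unramified at the auxiliary prime dividing `N`. -/
theorem rho_inertia_aux_prime (hA : AttachInput p) (hN : NewInput p) {q : ℕ} (hq : q.Prime)
    (hqN : q ∣ N)
    (hqp : q ≠ p) (hunr : IsResUnramified p rb q) {B : ValuationSubring ℚbar}
    (hB : B.LiesOverPrime q) {σ : Γℚ} (hσ : σ ∈ B.inertiaSubgroupIn ℚ) : P.ρ σ = 1 := by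
  obtain rfl : q = r := ((D.only q hq hqN).resolve_left hqp).resolve_right (· hunr)
  obtain ⟨K', hK⟩ : q ∣ D.levT L T := (D.dvd_levK hqN).trans (D.dvd_levT T)
  rw [mul_comm] at hK
  have hK' := hK.symm
  have hqB : q ∣ liftBad rb W N q₀ := D.dvd_bad hqN
  have hneg := D.neg_mem_grpT hL T
  by_cases hold : IsOldAt (D.levT L T) (D.grpT hL T) P.y q
  · rw [P.rho_inertia hq hqB hK' hB hσ]
    exact P.res.unramified_of_old D.semi.surjective D.p_ne_two hA hneg hq hqp
      (D.dvd_badL hqB) (fun _ h => P.not_dvd_quot hq h) hold P.attached P.trace_r hB hσ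
  exfalso
  obtain ⟨-, hnew⟩ := hN _ _ hneg q hq hqp K' hK' (P.not_dvd_quot hq hK')
    (fun u hu => D.mem_grpT_of_one hL hqB hK' hu) P.B P.res.mem P.y P.res.point P.r
    P.attached B hB
  obtain ⟨φ, hφ⟩ := Fermat.CFT.exists_isFrobeniusAt hq hB
  have h := congrArg (residue P.B)
    (hnew hold φ hφ (cycK (D.levT L T) φ) (P.cycK_val_frobenius hq hK' hB hφ))
  rw [map_pow, P.trace_r, map_mul, P.res.residue_dia, one_mul, map_pow, map_add, map_natCast,
    map_one] at h
  refine D.aux.trace B hB φ hφ (((ResidueField.map (algebraMap O P.B)).comp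
    (resCast hO)).injective ?_)
  rw [map_pow, map_pow, map_add, map_natCast, map_one, h, add_comm]

include P in
/-- Unramified outside the conditions and the auxiliary primes. -/
theorem unr_outside (hA : AttachInput p) (hN : NewInput p) :
    P.lifting.UnrOutside (D.condT ∪ D.setL L) := by
  intro q hq A hAq σ hσ
  rw [Finset.mem_union, D.mem_condT, not_or, not_or, not_or, not_not] at hq
  obtain ⟨⟨hqp, hqF, hunr⟩, hqL⟩ := hq
  by_cases hlev : (q : ℕ) ∣ D.levT L T
  · rcases D.levT_cases q.2 hlev with h | ⟨i, hi, he⟩ | ⟨t, ht, he⟩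
    · exact P.rho_inertia_aux_prime hA hN q.2 h hqp hunr hAq hσ
    · exact absurd (List.mem_toFinset.mpr (List.mem_map.mpr ⟨i, hi, Subtype.ext he⟩)) hqL
    · rcases P.hS.mem t (P.sub ht) with rfl | h
      · exact absurd he.symm hqp
      · exact absurd (he ▸ h.1) hqF
  refine (P.frob q q.2 (fun h => ?_) A hAq).1 σ hσ
  exact (q.2.dvd_mul.mp h).elim hlev fun h => hqp ((Nat.prime_dvd_prime_iff_eq q.2 hp.out).mp h)

include P in
/-- Unramified at the framed primes which are not raised. -/
theorem unr_setA {q : Nat.Primes} (hq : q ∈ D.setA) (hqT : q ∉ T) : P.lifting.UnrAt q := by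
  have hF := D.mem_setA.mp hq
  refine fun σ hσ => (P.frob q q.2 (fun h => ?_) _ (placeAt_spec q)).1 σ hσ
  rcases q.2.dvd_mul.mp h with h | h
  · rcases q.2.dvd_mul.mp h with h | h
    · exact D.not_dvd_levK_frame hF h
    · obtain ⟨t, ht, hqt⟩ := (Prime.dvd_finsetProd_iff q.2.prime _).mp h
      exact hqT (Subtype.ext ((Nat.prime_dvd_prime_iff_eq q.2 t.2).mp hqt) ▸ ht)
  · exact D.ne_of_mem hF ((Nat.prime_dvd_prime_iff_eq q.2 hp.out).mp h)

end PtRep

end LiftData

end Fermat.GR.RT

end
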