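import Mathlib
import Fermat.Agent.GR.RT.Lift.PointBase

/-!
# A congruent system of a raised level away from `p`

The relations at the ramified primes, at the raised primes and at the auxiliary primes.
-/

set_option autoImplicit false

noncomputable section

open MvPolynomial IsLocalRing Fermat.CFT ExtCitation

namespace Fermat.GR.RT

open Fermat.HM

local notation "ℚbar" => AlgebraicClosure ℚ
local notation "Γℚ" => (AlgebraicClosure ℚ ≃ₐ[ℚ] AlgebraicClosure ℚ)
local notation "M2" R => Matrix (Fin 2) (Fin 2) R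

variable {p : ℕ} [hp : Fact p.Prime] {rb : Γℚ →* GL (Fin 2) (ZMod p)} {W : WeierstrassCurve ℤ}
  {N r q₀ : ℕ}

namespace LiftData

variable {O : Type} [CommRing O] [IsDomain O] [IsDiscreteValuationRing O]
  [IsAdicComplete (maximalIdeal O) O] [Finite (ResidueField O)] [CharZero O]
  {n : ℕ} {L : List (GoodIx (liftBad rb W N q₀))}
  {D : LiftData p rb W N r q₀} {hL : TWList p rb n L} {hO : (p : O) ∈ maximalIdeal O}
  {Q T : Finset Nat.Primes} {v : ℕ → (ZMod (D.levK L))ˣ} {ε : ℕ → O}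
  [NeZero N] [NeZero (D.levT L T)]
  {x : MvPolynomial (Nat.Primes ⊕ (ZMod (D.levT L T))ˣ) ℤ →+* AlgebraicClosure (FractionRing O)}

namespace PtRep

variable (P : D.PtRep hL hO Q T v ε x)

include P in
/-- Inertia at a prime of the level with trivial character is unipotent. -/
theorem unipotent_inertia (hN : NewInput p) {q K' : ℕ} (hq : q.Prime) (hqp : q ≠ p)
    (hqB : q ∣ liftBad rb W N q₀) (hK : K' * q = D.levT L T) {A : ValuationSubring ℚbar}
    (hA : A.LiesOverPrime q) {σ : Γℚ} (hσ : σ ∈ A.inertiaSubgroupIn ℚ) :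
    (P.ρ σ - 1) * (P.ρ σ - 1) = 0 := by
  obtain ⟨hun, -⟩ := hN _ _ (D.neg_mem_grpT hL T) q hq hqp K' hK (P.not_dvd_quot hq hK)
    (fun u hu => D.mem_grpT_of_one hL hqB hK hu) P.B P.res.mem P.y P.res.point P.r
    P.attached A hA
  rw [P.rho_inertia hq hqB hK hA hσ]
  exact hun σ hσ

include P in
/-- **The strict relation at a ramified prime.** -/
theorem ram_strict [Algebra (ZMod p) (ResidueField O)] (C : D.RamConds O) (hN : NewInput p)
    (q : Nat.Primes) (hqp : (q : ℕ) ≠ p) (hram : ¬ IsResUnramified p rb q) :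
    StrictRel O q (C.e q) P.ρ := by
  obtain ⟨hσ₀, hne, he, hrel, -⟩ := C.strict q hqp hram
  have hqN : (q : ℕ) ∣ N := D.ram q q.2 hqp hram
  obtain ⟨K', hK⟩ : (q : ℕ) ∣ D.levT L T := (D.dvd_levK hqN).trans (D.dvd_levT T)
  exact strictRel_of_unipotent D.semi.surjective D.p_ne_two hO P.res.mem P.cont P.det P.trace hqp
    (fun σ hσ => P.unipotent_inertia hN q.2 hqp (D.dvd_bad hqN)
      (by rw [hK, mul_comm]) (placeAt_spec q) hσ) he hσ₀ hne hrel

include P in
/-- **The traces of inertia at an auxiliary prime.** -/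
theorem trace_inertia_aux_prime (hN : NewInput p) (hC : CharInput p)
    {i : GoodIx (liftBad rb W N q₀)}
    (hi : i ∈ L) {σ : Γℚ} (hσ : σ ∈ (placeAt i.1).inertiaSubgroupIn ℚ) :
    (P.ρ σ).trace = diaVal P.res.point (cycK (D.levT L T) σ ^ ((p ^ n - 1) / 2)) +
      diaVal P.res.point (cycK (D.levT L T) σ⁻¹ ^ ((p ^ n - 1) / 2)) := by
  have hqp : ((i.1 : Nat.Primes) : ℕ) ≠ p := fun e => i.2 (by
    show ((i.1 : Nat.Primes) : ℕ) ∣ _
    rw [e]; exact D.p_dvd_bad)
  obtain ⟨K', hK⟩ : ((i.1 : Nat.Primes) : ℕ) ∣ D.levT L T :=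
    (dvd_levN_of_mem hi).trans (D.dvd_levT T)
  rw [mul_comm] at hK
  have h := (P.res.trace_inertia hN hC (D.neg_mem_grpT hL T) i.1.2 hqp hK.symm
    (P.not_dvd_quot i.1.2 hK.symm) P.attached P.rho_eq P.det (placeAt_spec i.1) hσ).2
  rw [h, twistChar_apply, twistChar_apply, map_pow, map_pow]

include P in
/-- **The trace at a prime to be raised outside the level.** -/
theorem trace_root {t : Nat.Primes} (ht : t ∈ Q) (htT : t ∉ T) (htp : t ≠ pPrime p)
    {w : (ZMod (D.levT L T))ˣ} (hw : ZMod.unitsMap (D.dvd_levT T) w = v t) {φ : Γℚ}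
    (hφ : (placeAt t).IsFrobeniusAt φ t) :
    (P.ρ φ).trace = diaVal P.res.point w * P.y (X (Sum.inl t)) := by
  have hlev : ¬ (t : ℕ) ∣ D.levT L T := fun h => by
    rcases t.2.dvd_mul.mp h with h | h
    · exact P.hS.not_dvd t ht h
    · obtain ⟨s, hs, hts⟩ := (Prime.dvd_finsetProd_iff t.2.prime _).mp h
      exact htT (Subtype.ext ((Nat.prime_dvd_prime_iff_eq t.2 s.2).mp hts) ▸ hs)
  have htp' : (t : ℕ) ≠ p := fun e => htp (Subtype.ext e)
  obtain ⟨htr, -⟩ := (P.frob t t.2 (fun h => (t.2.dvd_mul.mp h).elim hlev fun h =>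
    htp' ((Nat.prime_dvd_prime_iff_eq t.2 hp.out).mp h)) _ (placeAt_spec t)).2 φ hφ
  have hcop : Nat.Coprime t (D.levT L T) := t.2.coprime_iff_not_dvd.mpr hlev
  rw [htr, trLabel, dif_pos ⟨t.2, hcop⟩, map_mul, mul_comm]
  refine congrArg₂ (· * ·) ?_ rfl
  set u := ZMod.unitOfCoprime (t : ℕ) hcop with hu
  have hval : ((u : ZMod (D.levT L T)).val : ZMod (D.levK L)) = ((t : ℕ) : ZMod (D.levK L)) := by
    rw [hu, ZMod.coe_unitOfCoprime, ZMod.natCast_val, ZMod.cast_natCast (D.dvd_levT T)]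
  have hodd : Odd (p ^ n) := Odd.pow (hp.out.odd_of_ne_two D.p_ne_two)
  rw [← diaVal_apply P.res.point]
  refine eq_of_sq_eq_sq_of_odd_pow hodd ?_ (P.res.dia_pow _) (P.res.dia_pow _)
  rw [P.dia_root ht hw hval, ← map_mul, ← pow_add]
  obtain ⟨k, hk⟩ := hodd
  rw [show (p ^ n + 1) / 2 + (p ^ n + 1) / 2 = p ^ n + 1 by omega, pow_succ, map_mul,
    diaVal_apply, P.res.point.dia_eq_one (P.res.pow_mem u), one_mul]

include P in
/-- **The Steinberg relations at a raised prime.** -/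
theorem steinberg_setA (hN : NewInput p) (hNS : NewSignInput p) {q : Nat.Primes}
    (hqA : q ∈ D.setA) (hqT : q ∈ T) : P.lifting.StAt q (-ε q) := by
  intro φ hφ σ hσ
  have hqQ := P.sub hqT
  have hqp : (q : ℕ) ≠ p := D.ne_of_mem (D.mem_setA.mp hqA)
  have hqB : (q : ℕ) ∣ liftBad rb W N q₀ := D.dvd_bad_of_mem_frPrimes (D.mem_setA.mp hqA)
  set K' := D.levK L * ∏ s ∈ T.erase q, (s : ℕ) with hK'
  have hK : K' * (q : ℕ) = D.levT L T := quot_mul_eq hqT
  have hA := placeAt_spec q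
  obtain ⟨w, hw⟩ := ZMod.unitsMap_surjective (D.dvd_levT T) (v q)
  set u := cycK (D.levT L T) φ with hu
  have hu' := P.cycK_val_frobenius q.2 hK hA hφ
  set e : P.B := algebraMap O P.B (ε q) with he
  have hee : e * e = 1 := P.sign_sq hqQ
  set U : P.B := P.y (X (Sum.inl q)) with hU
  -- the sign condition determines the eigenvalue, hence the trace of Frobenius
  have hwU : diaVal P.res.point w * U = -e := by
    linear_combination P.sign q hqT w hw
  have hw2 : diaVal P.res.point w * diaVal P.res.point w = diaVal P.res.point u :=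
    P.dia_root hqQ hw (val_cast_levK hu')
  have htv : tVal P.y q = U := by rw [tVal, dif_pos q.2]; rfl
  have hsq : tVal P.y q ^ 2 * P.y (X (Sum.inr u)) = 1 := by
    rw [htv, ← diaVal_apply P.res.point, ← hw2]
    linear_combination (diaVal P.res.point w * U - e) * hwU + hee
  have hr := hNS _ _ (D.neg_mem_grpT hL T) q q.2 hqp K' hK (P.not_dvd_quot q.2 hK)
    (fun z hz => D.mem_grpT_of_one hL hqB hK hz) P.B P.res.mem P.y P.res.point P.r P.attached
    u hu' hsq (placeAt q) hA φ hφ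
  have htw := P.twist_mul_root hqQ hw (val_cast_levK hu')
  have htr : (P.ρ φ).trace = -e * (((q : ℕ) : P.B) + 1) := by
    rw [P.rho_eq, Matrix.trace_smul, smul_eq_mul, hr, htv, ← diaVal_apply P.res.point, ← hw2]
    linear_combination twistChar P.res.point (p ^ n) φ * diaVal P.res.point w *
      (((q : ℕ) : P.B) + 1) * hwU - e * (((q : ℕ) : P.B) + 1) * htw
  -- inertia is unipotent, and Frobenius scales it by `q`
  have hun : ∀ τ ∈ (placeAt q).inertiaSubgroupIn ℚ, (P.ρ τ - 1) * (P.ρ τ - 1) = 0 :=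
    fun τ hτ => P.unipotent_inertia hN q.2 hqp hqB hK hA hτ
  obtain ⟨ht1, hd1⟩ := trace_det_of_sq_sub_one_eq_zero (hun σ hσ)
  have hcomm : P.ρ φ * (P.ρ σ - 1) = ((q : ℕ) : P.B) • ((P.ρ σ - 1) * P.ρ φ) := by
    have h := frob_mul_unipotent P.cont P.res.mem q.2 hqp hA hun hφ hσ
    have hpow : P.ρ σ ^ (q : ℕ) = 1 + (q : ℕ) • (P.ρ σ - 1) := by
      have h' := one_add_sq_zero_pow (hun σ hσ) (q : ℕ)
      rwa [add_sub_cancel] at h'
    rw [hpow, add_mul, one_mul, smul_mul_assoc, ← Nat.cast_smul_eq_nsmul P.B] at h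
    rw [mul_sub, mul_one, h, add_sub_cancel_left]
  change (P.ρ φ).trace = algebraMap O P.B (-ε q) * (((q : ℕ) : P.B) + 1) ∧
    (P.ρ σ).trace = 2 ∧ (P.ρ σ).det = 1 ∧ _
  rw [map_neg]
  have hX : (P.ρ σ - 1).trace = 0 := by simp [Matrix.trace_sub, ht1, Matrix.trace_one]
  obtain ⟨r1, r2⟩ := steinberg_relations q.2.ne_one hX htr hcomm
  refine ⟨htr, ht1, hd1, ?_, ?_⟩
  · change (P.ρ φ - (algebraMap O P.B (-ε q) * ((q : ℕ) : P.B)) • (1 : M2 P.B)) * (P.ρ σ - 1) = 0
    rw [map_neg]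
    exact r1
  · change (P.ρ σ - 1) * (P.ρ φ - algebraMap O P.B (-ε q) • (1 : M2 P.B)) = 0
    rw [map_neg]
    exact r2

end PtRep

end LiftData

end Fermat.GR.RT

end
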