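import Mathlib
import Fermat.Agent.GR.RT.Lift.PointBase
import Fermat.Agent.GR.RT.ResModular
import Fermat.Agent.GR.RT.LowerTangentBound

/-!
# A congruent system of a raised level at `p`

Flatness and the ordinary root outside the level; the sign and the strict relation at `p` in it.
-/

set_option autoImplicit false

noncomputable section

open MvPolynomial IsLocalRing Fermat.CFT ExtCitation

namespace Fermat.GR.RT

local notation "ℚbar" => AlgebraicClosure ℚ
local notation "Γℚ" => (AlgebraicClosure ℚ ≃ₐ[ℚ] AlgebraicClosure ℚ)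
local notation "M2" R => Matrix (Fin 2) (Fin 2) R

variable {p : ℕ} [hp : Fact p.Prime] {rb : Γℚ →* GL (Fin 2) (ZMod p)}

section Residual

variable {O : Type} [CommRing O] [IsLocalRing O]
  {B : Type} [CommRing B] [IsLocalRing B] [Algebra O B] [IsLocalHom (algebraMap O B)]

/-- The triangular form of the residual representation, carried to a lifting. -/
theorem exists_tri_residual [Algebra (ZMod p) (ResidueField O)] (hs : Function.Surjective rb)
    (hO : (p : O) ∈ maximalIdeal O) {A : ValuationSubring ℚbar} (o : OrdRes A (resRep rb O))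
    (ρ : Γℚ →* M2 B)
    (htr : ∀ σ, residue B (ρ σ).trace = ((ResidueField.map (algebraMap O B)).comp (resCast hO))
      (rb σ : Matrix (Fin 2) (Fin 2) (ZMod p)).trace) :
    ∃ U : (M2 (ResidueField B))ˣ, ∀ δ : A.decompositionSubgroup ℚ,
      ((↑U⁻¹ : M2 (ResidueField B)) * (ρ δ.1).map (residue B) * (U : M2 (ResidueField B))) 1 0 = 0 ∧
      ((↑U⁻¹ : M2 (ResidueField B)) * (ρ δ.1).map (residue B) * (U : M2 (ResidueField B))) 1 1
        = ResidueField.map (algebraMap O B) (o.d δ) := by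
  obtain ⟨Q, hQ⟩ := exists_conj_residual hs _ ρ htr
  set f := (residue B).mapMatrix (m := Fin 2) with hf
  set g := (ResidueField.map (algebraMap O B)).mapMatrix (m := Fin 2) with hg
  refine ⟨(Units.map f.toMonoidHom Q)⁻¹ * Units.map g.toMonoidHom o.U, fun δ => ?_⟩
  have hres : f (conjHom Q ρ δ.1) = g (resRep rb O δ.1) := by
    rw [hf, hg, hQ, resRep_apply, RingHom.mapMatrix_apply, Matrix.map_map]
    refine congrArg _ ?_
    rw [← RingHom.coe_comp]
    exact congrArg (fun h : ZMod p →+* _ => (h : ZMod p → _)) (RingHom.ext_zmod _ _)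
  have e : (↑((Units.map f.toMonoidHom Q)⁻¹ * Units.map g.toMonoidHom o.U)⁻¹ :
        M2 (ResidueField B)) * (ρ δ.1).map (residue B) *
      (↑((Units.map f.toMonoidHom Q)⁻¹ * Units.map g.toMonoidHom o.U) : M2 (ResidueField B)) =
      g !![o.a δ, o.b δ; 0, o.d δ] := by
    rw [← o.tri δ, map_mul, map_mul, ← hres, _root_.mul_inv_rev, inv_inv, Units.val_mul,
      Units.val_mul, conjHom]
    change g (↑o.U⁻¹ : M2 _) * f (Q : M2 B) * f (ρ δ.1) * (f (↑Q⁻¹ : M2 B) * g (o.U : M2 _)) =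
      g (↑o.U⁻¹ : M2 _) * f ((Q : M2 B) * ρ δ.1 * (↑Q⁻¹ : M2 B)) * g (o.U : M2 _)
    rw [map_mul f, map_mul f]
    simp only [mul_assoc]
  rw [e, hg, RingHom.mapMatrix_apply]
  exact ⟨by simp, by simp⟩

/-- The reduction of a lifting spans all matrices. -/
theorem span_residual_eq_top (hs : Function.Surjective rb) (hO : (p : O) ∈ maximalIdeal O)
    (ρ : Γℚ →* M2 B)
    (htr : ∀ σ, residue B (ρ σ).trace = ((ResidueField.map (algebraMap O B)).comp (resCast hO))
      (rb σ : Matrix (Fin 2) (Fin 2) (ZMod p)).trace) :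
    Submodule.span (ResidueField B) (Set.range fun σ => (ρ σ).map (residue B)) = ⊤ := by
  obtain ⟨Q, hQ⟩ := exists_conj_residual hs _ ρ htr
  let Qb : (M2 (ResidueField B))ˣ := Units.map (residue B).mapMatrix.toMonoidHom Q
  refine span_conj_eq_top Qb⁻¹ (fun σ => ?_) (span_range_map_eq_top hs
    ((ResidueField.map (algebraMap O B)).comp (resCast hO)))
  rw [← hQ σ, inv_inv]
  change _ = (residue B).mapMatrix (↑Q⁻¹ : M2 B) *
    (residue B).mapMatrix ((Q : M2 B) * ρ σ * (↑Q⁻¹ : M2 B)) * (residue B).mapMatrix (Q : M2 B)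
  rw [← map_mul, ← map_mul, ← mul_assoc, ← mul_assoc, Q.inv_mul, one_mul, mul_assoc, Q.inv_mul,
    mul_one]
  rfl

/-- Some inertia element has cyclotomic value other than one. -/
theorem exists_inertia_cycO_ne_one [IsAdicComplete (maximalIdeal B) B] (hp2 : p ≠ 2)
    (hB : (p : B) ∈ maximalIdeal B) {A : ValuationSubring ℚbar} (hA : A.LiesOverPrime p) :
    ∃ τ ∈ A.inertiaSubgroupIn ℚ, cycO hB τ ≠ 1 := by
  obtain ⟨τ, hτ, hc⟩ := CFT.exists_mem_inertia_cycChar hA (-1 : (ZMod p)ˣ)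
  refine ⟨τ, hτ, fun h => ?_⟩
  have h1 := cycO_sub_cycChar_mem hB τ
  rw [h, hc, ← residue_eq_zero_iff, map_sub, map_one, map_natCast, sub_eq_zero] at h1
  have : CharP (ResidueField B) p := (CharP.charP_iff_prime_eq_zero hp.out).mpr (by
    rw [← map_natCast (residue B), residue_eq_zero_iff]
    exact hB)
  have : NeZero p := ⟨hp.out.ne_zero⟩
  rw [ZMod.natCast_val, Units.val_neg, Units.val_one,
    ← ZMod.castHom_apply (h := dvd_refl p) (-1 : ZMod p), map_neg, map_one] at h1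
  refine ((isUnit_two_of_mem hp2 hB).map (residue B)).ne_zero ?_
  rw [map_ofNat]
  linear_combination h1

end Residual

variable {W : WeierstrassCurve ℤ} {N r q₀ : ℕ}

namespace LiftData

variable {O : Type} [CommRing O] [IsDomain O] [IsDiscreteValuationRing O]
  [IsAdicComplete (maximalIdeal O) O] [Finite (ResidueField O)] [CharZero O]
  {n : ℕ} {L : List (GoodIx (liftBad rb W N q₀))}
  {D : LiftData p rb W N r q₀} {hL : TWList p rb n L} {hO : (p : O) ∈ maximalIdeal O}
  {Q T : Finset Nat.Primes} {v : ℕ → (ZMod (D.levK L))ˣ} {ε : ℕ → O}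
  [NeZero N] [NeZero (D.levT L T)]
  {x : MvPolynomial (Nat.Primes ⊕ (ZMod (D.levT L T))ˣ) ℤ →+* AlgebraicClosure (FractionRing O)}

namespace PtRep

variable (P : D.PtRep hL hO Q T v ε x)

include P in
/-- **Flat at `p` outside the level.** If `p` does not divide the level, the lifting of a point is
flat at `p`. -/
theorem flat_p (hF : FlatInput p) (hpK : ¬ p ∣ D.levT L T) : P.lifting.FlatAtP := by
  refine ⟨P.r, P.attached.cont, twistChar P.res.point (p ^ n),
    hF _ _ (D.neg_mem_grpT hL T) hpK D.p_ne_two P.B P.res.mem P.y P.res.point P.r P.attached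
      (span_residual_eq_top D.semi.surjective hO P.r P.trace_r),
    fun σ => ⟨n, P.res.twistChar_pow σ⟩,
    fun σ hσ => P.twist_inertia_good hp.out hpK (placeAt_spec (pPrime p)) hσ, P.rho_eq⟩

omit [IsAdicComplete (maximalIdeal O) O] [Finite (ResidueField O)] [CharZero O] in
/-- The entries of the twisted representation in a basis. -/
theorem conj_entry (U : (M2 P.B)ˣ) (σ : Γℚ) (i j : Fin 2) :
    ((U : M2 P.B) * P.ρ σ * (↑U⁻¹ : M2 P.B)) i j =
      twistChar P.res.point (p ^ n) σ * ((U : M2 P.B) * P.r σ * (↑U⁻¹ : M2 P.B)) i j := by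
  rw [P.rho_eq, Matrix.mul_smul, Matrix.smul_mul, Matrix.smul_apply, smul_eq_mul]

include P in
/-- **The ordinary root at `p` outside the level.** -/
theorem ord_root [Algebra (ZMod p) (ResidueField O)] (hOF : OrdFlatInput p)
    (hpK : ¬ p ∣ D.levT L T) (S : OrdSigns rb O) (hpQ : pPrime p ∈ Q)
    {w : (ZMod (D.levT L T))ˣ} (hw : ZMod.unitsMap (D.dvd_levT T) w = v p) :
    P.lifting.OrdRootAt (diaVal P.res.point w * P.y (X (Sum.inl (pPrime p)))) := by
  have hA : (placeAt (pPrime p)).LiesOverPrime p := placeAt_spec (pPrime p)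
  -- the root before twisting
  obtain ⟨U, hU⟩ := exists_tri_residual D.semi.surjective hO S.res P.r P.trace_r
  obtain ⟨Q', h10, h11, hroot⟩ := hOF _ _ (D.neg_mem_grpT hL T) hpK D.p_ne_two P.B P.res.mem P.y
    P.res.point P.r P.attached (span_residual_eq_top D.semi.surjective hO P.r P.trace_r) _ hA U
    (fun σ hσ => (hU ⟨σ, hσ⟩).1) (fun σ hσ => by
      rw [(hU ⟨σ, Fermat.FLAT.inertia_le_decomposition _ hσ⟩).2, S.res.inertia _ hσ, map_one])
  refine ⟨Q', ⟨fun σ hσ => ?_, fun σ hσ => ?_⟩, fun φ hφ => ?_⟩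
  · change ((Q' : M2 P.B) * P.ρ σ * (↑Q'⁻¹ : M2 P.B)) 1 0 = 0
    rw [P.conj_entry, h10 σ hσ, mul_zero]
  · change ((Q' : M2 P.B) * P.ρ σ * (↑Q'⁻¹ : M2 P.B)) 1 1 = 1
    rw [P.conj_entry, h11 σ hσ, P.twist_inertia_good hp.out hpK hA hσ, mul_one]
  refine (show ∀ a : P.B, a = ((Q' : M2 P.B) * P.ρ φ * (↑Q'⁻¹ : M2 P.B)) 1 1 →
    a ^ 2 - diaVal P.res.point w * P.y (X (Sum.inl (pPrime p))) * a + (p : P.B) = 0 from
      fun a ha => ?_) _ rfl
  rw [ha, P.conj_entry]
  clear ha a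
  -- twisting turns it into the root with the diamond value of `w`
  have hcop : Nat.Coprime p (D.levT L T) := hp.out.coprime_iff_not_dvd.mpr hpK
  have hu : cycK (D.levT L T) φ = ZMod.unitOfCoprime p hcop :=
    cycK_frobenius hp.out hcop hA hφ
  have hev : eVal P.y p = diaVal P.res.point (cycK (D.levT L T) φ) := by
    rw [eVal, dif_pos hcop, hu]; rfl
  have htv : tVal P.y p = P.y (X (Sum.inl (pPrime p))) := by rw [tVal, dif_pos hp.out]; rfl
  have hval : ((cycK (D.levT L T) φ : ZMod (D.levT L T)).val : ZMod (D.levK L)) =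
      ((pPrime p : ℕ) : ZMod (D.levK L)) := by
    rw [hu, ZMod.coe_unitOfCoprime, ZMod.natCast_val, ZMod.cast_natCast (D.dvd_levT T)]
    rfl
  have htw := P.twist_mul_root (t := pPrime p) hpQ hw hval
  have hsq := twistChar_sq_mul P.res.point (Odd.pow (hp.out.odd_of_ne_two D.p_ne_two))
    P.res.pow_mem φ
  have h := hroot φ hφ
  rw [hev, htv] at h
  generalize ((Q' : M2 P.B) * P.r φ * (↑Q'⁻¹ : M2 P.B)) 1 1 = a at h ⊢
  linear_combination twistChar P.res.point (p ^ n) φ ^ 2 * h +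
    (P.y (X (Sum.inl (pPrime p))) * a - (p : P.B)) * hsq -
    P.y (X (Sum.inl (pPrime p))) * a * htw

include P in
/-- An old system at `p` contradicts `PStuck`. -/
theorem not_old_p (hA : AttachInput p) (hst : D.PStuck) :
    ¬ IsOldAt (D.levT L T) (D.grpT hL T) P.y p := by
  intro hold
  obtain ⟨K'', hK0, hd, hK, y', h', -, -⟩ :=
    P.res.exists_old (D.dvd_badL D.p_dvd_bad) hold
  have := hK0
  have hr : r ∣ K'' := by
    have h : r ∣ K'' * p := hK ▸ ((D.dvd_levK D.aux_dvd).trans (D.dvd_levT T))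
    exact (D.aux.prime.dvd_mul.mp h).resolve_right fun e =>
      D.aux.ne ((Nat.prime_dvd_prime_iff_eq D.aux.prime hp.out).mp e)
  exact hst.2 K'' (P.squarefree_lev.squarefree_of_dvd hd) (P.not_dvd_quot hp.out hK)
    (modularOf_of_resPoint D.semi D.two_lt hA D.badL_ne_zero D.resUnrL (D.neat hr) h')

include P in
/-- An ordinary basis with Frobenius entry of square one, when `p` is in the level. -/
theorem exists_ord_basis (hA' : AttachInput p) (hOrd : OrdInput p) (hOS : OrdSignInput p)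
    (h : pPrime p ∈ T ∨ D.PStuck) :
    ∃ U : (M2 P.B)ˣ, IsOrdBasis (placeAt (pPrime p)) P.ρ U ∧
      ∀ φ : Γℚ, (placeAt (pPrime p)).IsFrobeniusAt φ p →
        ((U : M2 P.B) * P.ρ φ * (↑U⁻¹ : M2 P.B)) 1 1 ^ 2 = 1 := by
  have hA : (placeAt (pPrime p)).LiesOverPrime p := placeAt_spec (pPrime p)
  -- the cofactor of `p`, and a basis before twisting: raised at `p`, or new there
  obtain ⟨K', hK⟩ : p ∣ D.levT L T := by
    rcases h with h | h
    · exact ⟨_, ((quot_mul_eq (D := D) (L := L) h).symm.trans (mul_comm _ _))⟩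
    · exact (D.dvd_levK h.1).trans (D.dvd_levT T)
  rw [mul_comm] at hK
  have hK' := hK.symm
  have hqK' := P.not_dvd_quot hp.out hK'
  have htriv : ∀ u : (ZMod (D.levT L T))ˣ, ((u : ZMod (D.levT L T)).val : ZMod K') = 1 →
      u ∈ D.grpT hL T := fun u hu => D.mem_grpT_of_one hL D.p_dvd_bad hK' hu
  obtain ⟨U, h10, h11, hfr⟩ : ∃ U : (M2 P.B)ˣ,
      (∀ σ ∈ (placeAt (pPrime p)).decompositionSubgroup ℚ,
        ((U : M2 P.B) * P.r σ * (↑U⁻¹ : M2 P.B)) 1 0 = 0) ∧
      (∀ σ ∈ (placeAt (pPrime p)).inertiaSubgroupIn ℚ,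
        ((U : M2 P.B) * P.r σ * (↑U⁻¹ : M2 P.B)) 1 1 = 1) ∧
      ∀ φ : Γℚ, (placeAt (pPrime p)).IsFrobeniusAt φ p → ∀ u : (ZMod (D.levT L T))ˣ,
        ((u : ZMod (D.levT L T)).val : ZMod K') = (p : ZMod K') →
          ((U : M2 P.B) * P.r φ * (↑U⁻¹ : M2 P.B)) 1 1 ^ 2 = P.y (X (Sum.inr u)) := by
    rcases h with hpT | hst
    · obtain ⟨φ, hφ⟩ := exists_isFrobeniusAt hp.out hA
      have hu' := P.cycK_val_frobenius hp.out hK' hA hφ
      obtain ⟨w, hw⟩ := ZMod.unitsMap_surjective (D.dvd_levT T) (v p)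
      have hK'' : K' = D.levK L * ∏ s ∈ T.erase (pPrime p), (s : ℕ) := by
        refine Nat.eq_of_mul_eq_mul_right hp.out.pos ?_
        rw [hK']
        exact (quot_mul_eq (D := D) (L := L) hpT).symm
      have hw2 := P.dia_root (t := pPrime p) (P.sub hpT) hw
        (val_cast_levK (t := pPrime p) (by rw [← hK'']; exact hu'))
      refine hOS _ _ (D.neg_mem_grpT hL T) D.p_ne_two K' hK' hqK' htriv P.B P.res.mem P.y
        P.res.point (cycK (D.levT L T) φ) hu' ?_ P.r P.attached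
        (span_residual_eq_top D.semi.surjective hO P.r P.trace_r) _ hA
      have hwU := P.sign (pPrime p) hpT w hw
      have hee := P.sign_sq (P.sub hpT)
      have htv : tVal P.y p = P.y (X (Sum.inl (pPrime p))) := by rw [tVal, dif_pos hp.out]; rfl
      rw [htv, ← diaVal_apply P.res.point, ← hw2]
      linear_combination (diaVal P.res.point w * P.y (X (Sum.inl (pPrime p))) -
        algebraMap O P.B (ε (pPrime p))) * hwU + hee
    · exact hOrd _ _ (D.neg_mem_grpT hL T) D.p_ne_two K' hK' hqK' htriv P.B P.res.mem P.y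
        P.res.point (P.not_old_p hA' hst) P.r P.attached
        (span_residual_eq_top D.semi.surjective hO P.r P.trace_r) _ hA
  refine ⟨U, ⟨fun σ hσ => ?_, fun σ hσ => ?_⟩, fun φ hφ => ?_⟩
  · rw [P.conj_entry, h10 σ hσ, mul_zero]
  · rw [P.conj_entry, h11 σ hσ, P.twist_inertia hp.out D.p_dvd_bad hK' hA hσ, mul_one]
  · rw [P.conj_entry, mul_pow, hfr φ hφ _ (P.cycK_val_frobenius hp.out hK' hA hφ),
      ← diaVal_apply P.res.point,
      twistChar_sq_mul P.res.point (Odd.pow (hp.out.odd_of_ne_two D.p_ne_two)) P.res.pow_mem]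

include P in
/-- **The sign and the strict relation at `p`.** -/
theorem ord_sign [Algebra (ZMod p) (ResidueField O)] (hA' : AttachInput p) (hOrd : OrdInput p)
    (hOS : OrdSignInput p) (hOSt : OrdStrictStatement p) (S : OrdSigns rb O)
    (h : pPrime p ∈ T ∨ D.PStuck) : P.lifting.OrdSignAt S.e S.u := by
  obtain ⟨U, hU, hsq⟩ := P.exists_ord_basis hA' hOrd hOS h
  have hA : (placeAt (pPrime p)).LiesOverPrime p := placeAt_spec (pPrime p)
  obtain ⟨V, hV⟩ := exists_tri_residual D.semi.surjective hO S.res P.ρ P.trace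
  have hst : StrictRel O (pPrime p) S.e P.ρ :=
    hOSt D.two_lt P.B P.res.mem P.ρ P.cont P.det _ hA U hU.low hU.inertia hsq V
      (fun δ => ResidueField.map (algebraMap O P.B) (S.res.d δ))
      (fun δ => algebraMap O P.B (S.e δ))
      (fun δ => by rcases S.sign δ with h | h <;> rw [h] <;> simp)
      (fun δ => by
        show residue P.B (algebraMap O P.B (S.e δ)) = _
        rw [← S.lift δ, ResidueField.map_residue])
      hV (fun δ hδ => by
        show ResidueField.map (algebraMap O P.B) (S.res.d δ) = 1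
        rw [S.res.inertia δ hδ, map_one])
  refine ⟨hst, U, hU, fun φ hφ => ?_⟩
  -- compare the two roots at `φ` and at `φ τ`, with `τ` moving roots of unity
  obtain ⟨τ, hτ, hτ1⟩ := exists_inertia_cycO_ne_one D.p_ne_two P.res.mem hA
  have hquad : ∀ γ : decAt (pPrime p),
      (((U : M2 P.B) * P.ρ γ.1 * (↑U⁻¹ : M2 P.B)) 1 1 -
          (P.ρ γ.1).det * algebraMap O P.B (S.e γ)) *
        (((U : M2 P.B) * P.ρ γ.1 * (↑U⁻¹ : M2 P.B)) 1 1 - algebraMap O P.B (S.e γ)) = 0 := by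
    intro γ
    set X' := (U : M2 P.B) * P.ρ γ.1 * (↑U⁻¹ : M2 P.B) with hX
    have e : ∀ c : P.B, X' - c • (1 : M2 P.B) =
        (U : M2 P.B) * (P.ρ γ.1 - c • 1) * (↑U⁻¹ : M2 P.B) := fun c => by
      rw [hX, mul_sub, sub_mul, Matrix.mul_smul, Matrix.smul_mul, mul_one, U.mul_inv]
    have h2 : (X' - ((P.ρ γ.1).det * algebraMap O P.B (S.e γ)) • (1 : M2 P.B)) *
        (X' - algebraMap O P.B (S.e γ) • (1 : M2 P.B)) = 0 := by
      rw [e, e]
      simp only [mul_assoc, Units.inv_mul_cancel_left]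
      rw [← mul_assoc (P.ρ γ.1 - _), hst γ γ, zero_mul, mul_zero]
    have h3 := congrFun (congrFun h2 1) 1
    have h10 : X' 1 0 = 0 := hU.low γ.1 γ.2
    simpa [-algebraMap_smul, Matrix.mul_apply, Fin.sum_univ_two, h10] using h3
  have hmem := hφ.mem_decompositionSubgroup
  let δ₁ : decAt (pPrime p) := ⟨φ, hmem⟩
  let δ₂ : decAt (pPrime p) := δ₁ * ⟨τ, inertia_le_decAt hτ⟩
  have he1 : S.e δ₁ = S.u := S.frob δ₁ hφ
  have he2 : S.e δ₂ = S.u := S.frob δ₂ (isFrobeniusAt_mul_inertia hφ hτ)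
  have hent : ((U : M2 P.B) * P.ρ δ₂.1 * (↑U⁻¹ : M2 P.B)) 1 1 =
      ((U : M2 P.B) * P.ρ φ * (↑U⁻¹ : M2 P.B)) 1 1 := by
    change ((U : M2 P.B) * P.ρ (φ * τ) * (↑U⁻¹ : M2 P.B)) 1 1 = _
    rw [show (U : M2 P.B) * P.ρ (φ * τ) * (↑U⁻¹ : M2 P.B) =
      ((U : M2 P.B) * P.ρ φ * (↑U⁻¹ : M2 P.B)) * ((U : M2 P.B) * P.ρ τ * (↑U⁻¹ : M2 P.B)) by
        simp only [map_mul, mul_assoc, Units.inv_mul_cancel_left],
      Matrix.mul_apply, Fin.sum_univ_two, hU.low φ hmem, zero_mul, zero_add, hU.inertia τ hτ,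
      mul_one]
  have q1 := hquad δ₁
  have q2 := hquad δ₂
  rw [he1] at q1
  rw [he2, hent, show (P.ρ δ₂.1).det = (P.ρ φ).det * (P.ρ τ).det by
    rw [← Matrix.det_mul, ← map_mul]; rfl, P.det τ] at q2
  change ((U : M2 P.B) * P.ρ φ * (↑U⁻¹ : M2 P.B)) 1 1 = algebraMap O P.B S.u
  have hsq1 := hsq φ hφ
  generalize ((U : M2 P.B) * P.ρ φ * (↑U⁻¹ : M2 P.B)) 1 1 = a at q1 q2 hsq1 ⊢
  change (a - (P.ρ φ).det * algebraMap O P.B S.u) * (a - algebraMap O P.B S.u) = 0 at q1
  by_contra hne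
  have hne' := sub_ne_zero.mpr hne
  have r1 := sub_eq_zero.mp ((mul_eq_zero.mp q1).resolve_right hne')
  have r2 := sub_eq_zero.mp ((mul_eq_zero.mp q2).resolve_right hne')
  have h0 : a * (cycO P.res.mem τ - 1) = 0 := by
    linear_combination (cycO P.res.mem τ) * r1 - r2
  rcases mul_eq_zero.mp h0 with h0 | h0
  · rw [h0] at hsq1
    norm_num at hsq1
  · exact hτ1 (sub_eq_zero.mp h0)

end PtRep

end LiftData

end Fermat.GR.RT

end
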