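import Mathlib
import Fermat.Agent.GR.RT.Lift.PointLocal
import Fermat.Agent.GR.RT.Lift.PointP

/-!
# The facts about the congruent systems of the raised levels

`nonempty_ptFacts` collects the facts about every congruent system of a raised level.
-/

set_option autoImplicit false

noncomputable section

open IsLocalRing

namespace Fermat.GR.RT

local notation "Γℚ" => (AlgebraicClosure ℚ ≃ₐ[ℚ] AlgebraicClosure ℚ)

variable {p : ℕ} [hp : Fact p.Prime] {rb : Γℚ →* GL (Fin 2) (ZMod p)} {W : WeierstrassCurve ℤ}
  {N r q₀ : ℕ}

namespace LiftData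

variable {O : Type} [CommRing O] [IsDomain O] [IsDiscreteValuationRing O]
  [IsAdicComplete (maximalIdeal O) O] [Finite (ResidueField O)] [CharZero O]
  [Algebra (ZMod p) (ResidueField O)]
  {n : ℕ} {L : List (GoodIx (liftBad rb W N q₀))}

/-- **The facts about every congruent system of a raised level.** -/
theorem nonempty_ptFacts [NeZero N] (D : LiftData p rb W N r q₀) (C : D.RamConds O)
    (hL : TWList p rb n L) (hO : (p : O) ∈ maximalIdeal O) (hA : AttachInput p) (hN : NewInput p)
    (hNS : NewSignInput p) (hC : CharInput p) (hF : FlatInput p) (hOF : OrdFlatInput p)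
    (hO' : OrdInput p) (hOS : OrdSignInput p) (hOSt : OrdStrictStatement p)
    {Q T : Finset Nat.Primes} {v : ℕ → (ZMod (D.levK L))ˣ} {ε : ℕ → O}
    (hS : D.Signs hL Q v ε) (hT : T ⊆ Q)
    {x : MvPolynomial (Nat.Primes ⊕ (ZMod (D.levT L T))ˣ) ℤ →+* AlgebraicClosure (FractionRing O)}
    (hx : x ∈ D.ptsT hL hO v ε T) : Nonempty (D.PtFacts C hL hO Q T v ε x) := by
  have := D.neZero_levT L T
  obtain ⟨P⟩ := D.nonempty_ptRep hL hO hA hS hT hx
  refine ⟨{ lift := P.lifting
            y := P.y
            j := P.j
            comp := P.comp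
            dia := diaVal P.res.point
            dia_apply := fun w => (diaVal_apply P.res.point w).symm
            dia_mem := fun w hw => P.res.point.dia_eq_one hw
            frob := fun ℓ hℓ A hA φ hφ => P.frob_good ℓ hℓ A hA φ hφ
            unr := P.unr_outside hA hN
            ram := fun q hqp hram => P.ram_strict C hN q hqp hram
            unrA := fun q hq hqT => P.unr_setA hq hqT
            stA := fun q hq hqT => P.steinberg_setA hN hNS hq hqT
            inertiaL := fun i hi σ hσ => P.trace_inertia_aux_prime hN hC hi hσ
            trace_raise := fun t ht htT htp w hw φ hφ => P.trace_root ht htT htp hw hφ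
            flat := fun h => P.flat_p hF h
            ordRoot := fun h S hQ w hw => P.ord_root hOF h S hQ hw
            ordSign := fun S h => P.ord_sign hA hO' hOS hOSt S (h.imp_left And.left) }⟩

end LiftData

end Fermat.GR.RT

end
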