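import Mathlib
import Fermat.Agent.GR.RT.Lift.Main
import Fermat.Agent.GR.RT.Lift.PointFacts
import Fermat.Agent.GR.RT.Lift.CurvePointLower
import Fermat.Agent.GR.RT.OrdFlatProof
import Fermat.Agent.GR.RT.OrdProofStrict
import Fermat.Agent.GR.AttachProof.Main
import Fermat.Agent.GR.RT.CharInputProof
import Fermat.Agent.BAD.AtP.NoEigen
import Fermat.Agent.RED.Flat.GammaH

/-!
# Modularity lifting from the inputs on bad reduction

`liftingSf_of_inputs` proves `LiftingSfStatement p`, modularity lifting for semistable curves at
squarefree levels, from the four inputs on bad reduction (trace and sign of Frobenius at `q ∥ K`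
for `q ≠ p` and for `q = p`). It gives `liftingSf_of_facts` (`Main`) its three hypotheses: the
base level (`Base`), the facts about the eigen systems above it (`PointFacts`) and, for `p ≥ 5`,
lowering at `p` by the Mazur principle at `p`. `Top` applies it at `p = 3` and `p = 5`.
-/

set_option autoImplicit false

noncomputable section

namespace Fermat.GR.RT

variable (p : ℕ) [Fact p.Prime]

/-- The hypothesis `LiftFactsStatement` of `liftingSf_of_facts`, from the four inputs on bad
reduction. -/
theorem liftFactsStatement (hN : NewInput p) (hNS : NewSignInput p) (hO : OrdInput p)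
    (hOS : OrdSignInput p) : LiftFactsStatement p := by
  intro rb W N r q₀ _ D O _ _ _ _ _ _ _ C hO' n L hL Q v ε hS T hT x hx
  exact D.nonempty_ptFacts C hL hO' (attachInput p) hN hNS (charInput p)
    (Fermat.RED.Flat.flatInput p) (ordFlatInput p) hO hOS (ordStrictStatement p) hS hT hx

/-- **Modularity lifting at squarefree levels, from the four inputs on bad reduction.** -/
theorem liftingSf_of_inputs (hN : NewInput p) (hNS : NewSignInput p) (hO : OrdInput p)
    (hOS : OrdSignInput p) : LiftingSfStatement p :=
  liftingSf_of_facts (attachInput p)
    (baseStatement_of_inputs (attachInput p) hN (charInput p) (Fermat.RED.Flat.flatInput p) hO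
      (mulPrimeStatement p))
    (fun h4 => lowerAtPStatement (Fermat.BAD.AtP.mazurAtPTorsion_of_lowering p
      (loweringStatement_of_inputs h4 (attachInput p) hN (charInput p)
        (Fermat.RED.Flat.flatInput p))) h4)
    (liftFactsStatement p hN hNS hO hOS)

end Fermat.GR.RT

end
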