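import Fermat.Agent.FLAT.Curve.Flat
import Fermat.Agent.FLAT.Gens
import Fermat.Agent.GR.Deform.MatrixRep

/-!
# Flatness under a change of coefficients

`isFlatAt_map`: a flat representation stays flat with coefficients pushed forward.
-/

set_option autoImplicit false

noncomputable section

open IsLocalRing

namespace Fermat.GR.RT

open Fermat.EC.Val Fermat.FLAT

local notation "Γℚ" => (AlgebraicClosure ℚ ≃ₐ[ℚ] AlgebraicClosure ℚ)
local notation "M2" R => Matrix (Fin 2) (Fin 2) R

variable {p : ℕ} [hp : Fact p.Prime] {A B : Type} [CommRing A] [IsLocalRing A] [CommRing B]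
  [IsLocalRing B]

/-- **A representation with coefficients pushed forward stays flat.** -/
theorem isFlatAt_map (f : A →+* B) {r : Γℚ →* M2 A} {r' : Γℚ →* M2 B} (hr : MatCont r)
    (hr' : MatCont r') (h : ∀ σ, r' σ = (r σ).map f) (hres : Finite (ResidueField B))
    (hdown : ∀ I : Ideal B, Finite (B ⧸ I) → ∃ J : Ideal A, Finite (A ⧸ J) ∧ ∀ a ∈ J, f a ∈ I)
    (hflat : (repOf r hr).IsFlatAt p) : (repOf r' hr').IsFlatAt p := by
  classical
  refine isFlatAt_of_models _ hres fun I hI => ?_
  obtain ⟨J, hJ, hJI⟩ := hdown I hI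
  have : Finite ((repOf r hr).V ⧸ (J • (⊤ : Submodule A (repOf r hr).V))) := by
    have : Module.Finite (A ⧸ J) ((repOf r hr).V ⧸ (J • (⊤ : Submodule A (repOf r hr).V))) :=
      Module.Finite.of_restrictScalars_finite A (A ⧸ J) _
    exact Module.finite_of_finite (A ⧸ J)
  obtain ⟨P, hP⟩ := Fermat.CFT.exists_place hp.out
  have hpl : IsPlace P p := ⟨hp.out, hP⟩
  -- a model of the source level
  obtain ⟨G⟩ := nonempty_model_of_isFlatAt (repOf r hr) hflat J hpl
    (H := (⊤ : Subgroup Γℚ)) le_top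
  have : Finite (B ⧸ I) := hI
  have := Fintype.ofFinite (B ⧸ I)
  set N : Submodule A (Fin 2 → A) := J • ⊤ with hN
  have : Finite ((Fin 2 → A) ⧸ N) :=
    ‹Finite ((repOf r hr).V ⧸ (J • (⊤ : Submodule A (repOf r hr).V)))›
  have : Finite ((B ⧸ I) → (Fin 2 → A) ⧸ N) := Pi.finite
  set N' : Submodule B (Fin 2 → B) := I • ⊤ with hN'
  have hmem : ∀ x : Fin 2 → B, (∀ i, x i ∈ I) → x ∈ N' := fun x hx => by
    rw [pi_eq_sum_univ x]
    exact Submodule.sum_mem _ fun i _ => Submodule.smul_mem_smul (hx i) Submodule.mem_top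
  have hJN : ∀ v ∈ N, (⇑f ∘ v) ∈ N' := fun v hv => by
    refine Submodule.smul_induction_on (p := fun v => (⇑f ∘ v) ∈ N') hv (fun a ha w _ => ?_)
      (fun v w h1 h2 => ?_)
    · rw [show (⇑f ∘ (a • w)) = f a • (⇑f ∘ w) from funext fun i => map_mul f a (w i)]
      exact Submodule.smul_mem_smul (hJI a ha) Submodule.mem_top
    · rw [show (⇑f ∘ (v + w)) = (⇑f ∘ v) + (⇑f ∘ w) from funext fun i => map_add f (v i) (w i)]
      exact add_mem h1 h2
  let φ : ((Fin 2 → A) ⧸ N) →+ (Fin 2 → B) ⧸ N' :=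
    QuotientAddGroup.lift N.toAddSubgroup
      (AddMonoidHom.mk' (fun v => Submodule.Quotient.mk (p := N') (⇑f ∘ v)) fun v w => by
        rw [← Submodule.Quotient.mk_add]
        exact congrArg _ (funext fun i => map_add f (v i) (w i)))
      fun v hv => (Submodule.Quotient.mk_eq_zero N').mpr (hJN v hv)
  have hφ : ∀ v : Fin 2 → A, φ (Submodule.Quotient.mk v) = Submodule.Quotient.mk (⇑f ∘ v) :=
    fun _ => rfl
  -- the target level is a quotient of finitely many copies of the source one
  choose sec hsec using Ideal.Quotient.mk_surjective (I := I)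
  let π : ((B ⧸ I) → (Fin 2 → A) ⧸ N) →+ (Fin 2 → B) ⧸ N' :=
    AddMonoidHom.mk' (fun w => ∑ t, sec t • φ (w t)) fun w w' => by
      simp only [Pi.add_apply, map_add, smul_add, Finset.sum_add_distrib]
  have hπ : Function.Surjective π := fun y => by
    obtain ⟨v, rfl⟩ := Submodule.Quotient.mk_surjective N' y
    refine ⟨fun t => ∑ i, if Ideal.Quotient.mk I (v i) = t then
      Submodule.Quotient.mk (Pi.single i (1 : A)) else 0, ?_⟩
    change ∑ t, sec t • φ _ = _
    simp only [map_sum, apply_ite φ, map_zero, Finset.smul_sum, smul_ite, smul_zero]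
    rw [Finset.sum_comm]
    simp only [Finset.sum_ite_eq, Finset.mem_univ, if_true, hφ]
    simp only [← Submodule.Quotient.mk_smul]
    simp only [← Submodule.mkQ_apply]
    rw [← map_sum, Submodule.mkQ_apply, Submodule.mkQ_apply, Submodule.Quotient.eq]
    refine hmem _ fun i => ?_
    rw [Pi.sub_apply, Finset.sum_apply, Finset.sum_eq_single i]
    · simp only [Pi.smul_apply, Function.comp_apply, Pi.single_eq_same, map_one, smul_eq_mul,
        mul_one]
      exact (Submodule.Quotient.eq I).mp (hsec _)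
    · intro j _ hj
      simp only [Pi.smul_apply, Function.comp_apply, Pi.single_eq_of_ne hj.symm, map_zero,
        smul_zero]
    · exact fun hi => absurd (Finset.mem_univ i) hi
  let g : Γℚ → AddMonoid.End ((B ⧸ I) → (Fin 2 → A) ⧸ N) := fun σ =>
    AddMonoidHom.mk' (fun w t => levelHom (repOf r hr) J σ (w t)) fun w w' =>
      funext fun t => map_add (levelHom (repOf r hr) J σ) (w t) (w' t)
  -- so it has a model, a quotient of their product
  obtain ⟨F⟩ := Model.nonempty_of_family (T := B ⧸ I) hpl le_top (fun _ => G)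
    (fun t => Pi.evalAddMonoidHom (fun _ => (Fin 2 → A) ⧸ N) t) (fun x y hxy => funext hxy)
    (g := g) fun _ _ _ _ => rfl
  refine ⟨P, hpl, ⟨F.quot hpl π hπ fun σ _ w => ?_⟩⟩
  change ∑ t, sec t • φ (levelHom (repOf r hr) J σ (w t)) =
    (repOf r' hr').levelAction I σ (∑ t, sec t • φ (w t))
  rw [map_sum]
  refine Finset.sum_congr rfl fun t _ => ?_
  obtain ⟨v, hv⟩ := Submodule.Quotient.mk_surjective N (w t)
  rw [← hv]
  refine Eq.trans ?_ (((repOf r' hr').levelAction I σ).map_smul (sec t) _).symm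
  congr 1
  change Submodule.Quotient.mk (⇑f ∘ ((r σ).mulVec v)) =
    Submodule.Quotient.mk ((r' σ).mulVec (⇑f ∘ v))
  congr 1
  rw [h σ]
  exact funext fun i => RingHom.map_mulVec f (r σ) v i

end Fermat.GR.RT

end
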